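import Fermat.Agent.Row48.Cover.Norm
import Fermat.Agent.Congruence.Laurent

/-!
# Galois, diamond and Hecke on the series of the cover

`normSer C p x` is the series with `ℚ̄` coefficients of the norm of the function of `x`; it commutes
with Galois, and modulo `p` it is given by the Eichler–Shimura formula.
-/

set_option autoImplicit false

noncomputable section

open CongruenceSubgroup UpperHalfPlane ModularCurve Fermat.Agent.Reduction
open scoped MatrixGroups

namespace Fermat.Agent.Row48.Cover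

open J0Torsion (jEmb)
open Congruence (twist)

local notation "Qbar" => AlgebraicClosure ℚ

section GalChar

variable (M : ℕ) [NeZero M]

theorem exists_galChar (σ : Qbar →+* Qbar) :
    ∃ d : (ZMod M)ˣ, ∀ μ : Qbar, μ ^ M = 1 → σ μ = μ ^ (d : ZMod M).val := by
  obtain ⟨ζ, hζ⟩ := HasEnoughRootsOfUnity.exists_primitiveRoot Qbar M
  have hσ : IsPrimitiveRoot (σ ζ) M := hζ.map_of_injective σ.injective
  obtain ⟨i, hi, hcop, he⟩ := (hζ.isPrimitiveRoot_iff).mp hσ
  refine ⟨ZMod.unitOfCoprime i hcop, fun μ hμ => ?_⟩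
  obtain ⟨k, -, rfl⟩ := hζ.eq_pow_of_pow_eq_one hμ
  rw [ZMod.coe_unitOfCoprime, ZMod.val_natCast, map_pow, ← he, ← pow_mul, ← pow_mul]
  conv_lhs => rw [pow_eq_pow_mod _ hζ.pow_eq_one]
  conv_rhs => rw [pow_eq_pow_mod _ hζ.pow_eq_one]
  congr 1
  rw [mul_comm i k, Nat.mul_mod_mod]

/-- The action of a field automorphism on `M`-th roots of unity. -/
def galChar (σ : Qbar →+* Qbar) : (ZMod M)ˣ := (exists_galChar M σ).choose

theorem galChar_spec (σ : Qbar →+* Qbar) {μ : Qbar} (hμ : μ ^ M = 1) :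
    σ μ = μ ^ (galChar M σ : ZMod M).val :=
  (exists_galChar M σ).choose_spec μ hμ

end GalChar

variable {M₀ : ℕ} [NeZero M₀]

omit [NeZero M₀] in
theorem coeffMap_divisorExpansions (σ : Qbar →+* Qbar) {x : LaurentSeries Qbar}
    (hx : x ∈ divisorExpansionsC Qbar (lev M₀)) : coeffMap σ x = x := by
  obtain ⟨m, hm, -, rfl⟩ := hx
  rw [coeffMap_qExpand, coeffMap_jqModC]

namespace CoverFns

variable (C : CoverFns M₀)

theorem coeffMap_mem_algH (σ : Qbar →+* Qbar) {x : LaurentSeries Qbar} (hx : x ∈ C.algH) :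
    coeffMap σ x ∈ C.algH := by
  induction hx using Algebra.adjoin_induction with
  | mem y hy =>
    rcases hy with hy | ⟨⟨u, v⟩, rfl⟩
    · rw [coeffMap_divisorExpansions σ hy]
      exact Algebra.subset_adjoin (Or.inl hy)
    · rw [C.galois σ _ fun μ hμ => galChar_spec M₀ σ hμ]
      exact Algebra.subset_adjoin (Or.inr ⟨(_, _), rfl⟩)
  | algebraMap c =>
    rw [algebraMap_laurentSeries_eq_single, coeffMap_single, ← algebraMap_laurentSeries_eq_single]
    exact Subalgebra.algebraMap_mem _ _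
  | add y z _ _ hy hz => rw [map_add]; exact add_mem hy hz
  | mul y z _ _ hy hz => rw [map_mul]; exact mul_mem hy hz

/-- An automorphism of the coefficients on `algH C`. -/
def galAlg (σ : Qbar →+* Qbar) : ↥C.algH →+* ↥C.algH :=
  ((coeffMap σ).comp C.algH.val.toRingHom).codRestrict C.algH.toSubring
    fun x => C.coeffMap_mem_algH σ x.2

theorem coe_galAlg (σ : Qbar →+* Qbar) (x : ↥C.algH) :
    ((C.galAlg σ x : ↥C.algH) : LaurentSeries Qbar) = coeffMap σ x := rfl

theorem deckAlg_jq (d : (ZMod M₀)ˣ) {x : ↥C.algH}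
    (hx : (x : LaurentSeries Qbar) ∈ divisorExpansionsC Qbar (lev M₀)) : C.deckAlg d x = x := by
  refine C.fn_injective ?_
  obtain ⟨a, ha, hinv⟩ := divisorExpansions_invariant hx
  rw [fn_deckAlg, serH_injective ((C.serH_fn _).trans ha.symm), hinv]

theorem deckAlg_ser (d u v : (ZMod M₀)ˣ) {x : ↥C.algH}
    (hx : (x : LaurentSeries Qbar) = C.ser u v) :
    ((C.deckAlg d x : ↥C.algH) : LaurentSeries Qbar) = C.ser (d * u) (d * v) := by
  refine X0Analytic.coeffMap_injective jEmb.injective ?_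
  rw [← C.serH_fn, fn_deckAlg, ← C.serH_fnGen, ← deckFn_fnGen]
  congr 2
  exact serH_injective (by rw [C.serH_fn, hx, C.serH_fnGen])

theorem deckAlg_const (d : (ZMod M₀)ˣ) (c : Qbar) :
    C.deckAlg d (algebraMap Qbar _ c) = algebraMap Qbar _ c := by
  refine C.fn_injective ?_
  have h : C.fn (algebraMap Qbar _ c) = algebraMap ℂ _ (jEmb c) := serH_injective (by
    rw [C.serH_fn]
    show coeffMap jEmb (algebraMap Qbar (LaurentSeries Qbar) c) = _
    rw [algebraMap_laurentSeries_eq_single, coeffMap_single]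
    exact (X0Analytic.qSer_algebraMap (h := 1) (jEmb c)).symm)
  rw [fn_deckAlg, h, AlgHom.commutes]

theorem galAlg_deckAlg (σ : Qbar →+* Qbar) (d : (ZMod M₀)ˣ) (x : ↥C.algH) :
    C.galAlg σ (C.deckAlg d x) = C.deckAlg d (C.galAlg σ x) := by
  obtain ⟨x, hx⟩ := x
  induction hx using Algebra.adjoin_induction with
  | mem y hy =>
    rcases hy with hy | ⟨⟨u, v⟩, rfl⟩
    · have e : C.galAlg σ ⟨y, Algebra.subset_adjoin (Or.inl hy)⟩ =
          ⟨y, Algebra.subset_adjoin (Or.inl hy)⟩ :=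
        Subtype.ext (coeffMap_divisorExpansions σ hy)
      rw [C.deckAlg_jq d (show ((⟨y, _⟩ : ↥C.algH) : LaurentSeries Qbar) ∈ _ from hy), e,
        C.deckAlg_jq d (show ((⟨y, _⟩ : ↥C.algH) : LaurentSeries Qbar) ∈ _ from hy)]
    · have hg := C.galois σ _ fun μ hμ => galChar_spec M₀ σ hμ
      refine Subtype.ext ?_
      rw [coe_galAlg, C.deckAlg_ser d u v rfl, hg,
        C.deckAlg_ser d (galChar M₀ σ * u) (galChar M₀ σ * v) (by rw [coe_galAlg]; exact hg u v),
        mul_left_comm, mul_left_comm d (galChar M₀ σ) v]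
  | algebraMap c =>
    have e : C.galAlg σ (algebraMap Qbar _ c) = algebraMap Qbar _ (σ c) := Subtype.ext (by
      rw [coe_galAlg]
      show coeffMap σ (algebraMap Qbar (LaurentSeries Qbar) c) =
        algebraMap Qbar (LaurentSeries Qbar) (σ c)
      rw [algebraMap_laurentSeries_eq_single, coeffMap_single,
        ← algebraMap_laurentSeries_eq_single])
    show C.galAlg σ (C.deckAlg d (algebraMap Qbar _ c)) =
      C.deckAlg d (C.galAlg σ (algebraMap Qbar _ c))
    rw [C.deckAlg_const, e, C.deckAlg_const]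
  | add y z hy hz ihy ihz =>
    rw [show (⟨y + z, _⟩ : ↥C.algH) = ⟨y, hy⟩ + ⟨z, hz⟩ from rfl]
    simp only [map_add, ihy, ihz]
  | mul y z hy hz ihy ihz =>
    rw [show (⟨y * z, _⟩ : ↥C.algH) = ⟨y, hy⟩ * ⟨z, hz⟩ from rfl]
    simp only [map_mul, ihy, ihz]

section Norm

variable {p : ℕ} [Fact p.Prime] (hp : ¬ p ∣ M₀)

/-- `p` as a unit modulo `M₀`. -/
def unitP : (ZMod M₀)ˣ :=
  ZMod.unitOfCoprime p ((Nat.Prime.coprime_iff_not_dvd Fact.out).mpr hp)

theorem exists_rootP : ∃ ζ : Qbarˣ, (ζ : Qbar) ^ p = 1 ∧ jEmb (ζ : Qbar) = rootP p 1 := by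
  obtain ⟨ζ, hζ⟩ := HasEnoughRootsOfUnity.exists_primitiveRoot Qbar p
  have h1 : rootP p 1 ^ p = 1 := by
    rw [rootP, ← Complex.exp_nat_mul, Nat.cast_one, mul_one, mul_div_cancel₀ _
      (Nat.cast_ne_zero.mpr (NeZero.ne p)), Complex.exp_two_pi_mul_I]
  obtain ⟨i, -, hi⟩ := (hζ.map_of_injective jEmb.injective).eq_pow_of_pow_eq_one h1
  refine ⟨Units.mk0 (ζ ^ i) (pow_ne_zero _ (hζ.ne_zero (NeZero.ne p))), ?_, ?_⟩
  · rw [Units.val_mk0, ← pow_mul, mul_comm, pow_mul, hζ.pow_eq_one, one_pow]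
  · rw [Units.val_mk0, map_pow, hi]

/-- The root of unity matching `exp (2πi/p)`. -/
def zetaP (p : ℕ) [Fact p.Prime] : Qbarˣ := (exists_rootP (p := p)).choose

theorem zetaP_pow : ((zetaP p : Qbarˣ) : Qbar) ^ p = 1 :=
  (exists_rootP (p := p)).choose_spec.1

theorem jEmb_zetaP : jEmb ((zetaP p : Qbarˣ) : Qbar) = rootP p 1 :=
  (exists_rootP (p := p)).choose_spec.2

/-- The right hand side of the norm formula. -/
def normRhs (x : ↥C.algH) : LaurentSeries Qbar :=
  (∏ j : ZMod p, twist (zetaP p ^ j.val) (x : LaurentSeries Qbar)) *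
    qExpand Qbar (p * p) ((C.deckAlg (unitP hp) x : ↥C.algH) : LaurentSeries Qbar)

theorem coeffMap_normRhs (x : ↥C.algH) :
    coeffMap jEmb (C.normRhs hp x) = qExpand ℂ p (serH M₀ (normH M₀ p (C.fn x))) := by
  rw [qExpand_serH_normH hp, normRhs, map_mul, map_prod, C.serH_fn,
    show ZMod.unitOfCoprime p ((Nat.Prime.coprime_iff_not_dvd Fact.out).mpr hp) = unitP hp from rfl,
    ← C.fn_deckAlg, C.serH_fn, coeffMap_qExpand]
  refine congrArg (· * _) (Finset.prod_congr rfl fun j _ => ?_)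
  ext n
  rw [coeffMap_coeff, Congruence.twist_coeff, X0Analytic.rot_coeff, coeffMap_coeff, map_mul,
    Units.val_zpow_eq_zpow_val, map_zpow₀, Units.val_pow_eq_pow_val, map_pow, jEmb_zetaP]
  congr 2
  rw [rootP, rootP, ← Complex.exp_nat_mul]
  congr 1
  push_cast
  ring

theorem exists_normSer (x : ↥C.algH) :
    ∃ z : LaurentSeries Qbar, coeffMap jEmb z = serH M₀ (normH M₀ p (C.fn x)) ∧
      qExpand Qbar p z = C.normRhs hp x :=
  Congruence.exists_qExpand_eq jEmb.injective p (C.coeffMap_normRhs hp x).symm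

/-- The series of the norm. -/
def normSer (x : ↥C.algH) : LaurentSeries Qbar := (C.exists_normSer hp x).choose

theorem coeffMap_normSer (x : ↥C.algH) :
    coeffMap jEmb (C.normSer hp x) = serH M₀ (normH M₀ p (C.fn x)) :=
  (C.exists_normSer hp x).choose_spec.1

theorem qExpand_normSer (x : ↥C.algH) :
    qExpand Qbar p (C.normSer hp x) = C.normRhs hp x :=
  (C.exists_normSer hp x).choose_spec.2

theorem coeffMap_normSer_galois (σ : Qbar →+* Qbar) (x : ↥C.algH) :
    coeffMap σ (C.normSer hp x) = C.normSer hp (C.galAlg σ x) := by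
  refine qExpand_injective (R := Qbar) p ?_
  rw [← coeffMap_qExpand, qExpand_normSer, qExpand_normSer, normRhs, normRhs, map_mul, map_prod,
    coeffMap_qExpand, ← C.galAlg_deckAlg, ← C.coe_galAlg]
  refine congrArg (· * _) ?_
  obtain ⟨k, hk⟩ := exists_galChar p σ
  refine Fintype.prod_equiv (Equiv.mulLeft₀ (k : ZMod p) k.ne_zero) _ _ fun j => ?_
  rw [Congruence.coeffMap_twist, ← C.coe_galAlg]
  refine congrArg (fun c => twist c _) (Units.ext ?_)
  rw [Units.coe_map, MonoidHom.coe_coe, Units.val_pow_eq_pow_val, map_pow, hk _ zetaP_pow,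
    Units.val_pow_eq_pow_val, ← pow_mul, Equiv.mulLeft₀_apply, ZMod.val_mul]
  exact pow_eq_pow_mod _ zetaP_pow

theorem zetaP_mem {A : ValuationSubring Qbar} (n : ℕ) :
    ((zetaP p : Qbarˣ) : Qbar) ^ n ∈ A := by
  refine pow_mem ?_ n
  rw [← A.valuation_le_one_iff]
  refine le_of_not_gt fun h => ?_
  have h1 := one_lt_pow₀ h (NeZero.ne p)
  rw [← map_pow, zetaP_pow, map_one] at h1
  exact lt_irrefl _ h1

/-- **The Eichler–Shimura formula for series.** -/
theorem exists_normSer_red {A : ValuationSubring Qbar} [CharP (IsLocalRing.ResidueField A) p]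
    (x : ↥C.algH) {y yD : LaurentSeries A} (hy : ιS A y = (x : LaurentSeries Qbar))
    (hyD : ιS A yD = ((C.deckAlg (unitP hp) x : ↥C.algH) : LaurentSeries Qbar)) :
    ∃ w : LaurentSeries A, ιS A w = C.normSer hp x ∧
      qExpand _ p (redS A w) = redS A y ^ p * qExpand _ (p * p) (redS A yD) := by
  let z : A := ⟨((zetaP p : Qbarˣ) : Qbar), by simpa using zetaP_mem (p := p) (A := A) 1⟩
  have hz : z ^ p = 1 := Subtype.ext zetaP_pow
  let zu : (↥A)ˣ := Units.ofPowEqOne (M := ↥A) z p hz (NeZero.ne p)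
  have hzu : Units.map (A.subtype : ↥A →* Qbar) zu = zetaP p := Units.ext rfl
  let W : LaurentSeries A := (∏ j : ZMod p, twist (zu ^ j.val) y) * qExpand A (p * p) yD
  have hW : qExpand Qbar p (C.normSer hp x) = ιS A W := by
    rw [qExpand_normSer, normRhs, ← hy, ← hyD, map_mul, map_prod, coeffMap_qExpand]
    refine congrArg (· * _) (Finset.prod_congr rfl fun j _ => ?_)
    rw [Congruence.coeffMap_twist, map_pow, hzu]
  obtain ⟨w, hw, hw'⟩ := Congruence.exists_qExpand_eq A.subtype_injective p hW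
  refine ⟨w, hw, ?_⟩
  have hred : IsLocalRing.residue A z = 1 :=
    sub_eq_zero.mp (pow_eq_zero_iff (NeZero.ne p) |>.mp (by
      rw [sub_pow_char (p := p), ← map_pow, hz, map_one, one_pow, sub_self]))
  rw [← coeffMap_qExpand, hw', map_mul, map_prod, coeffMap_qExpand]
  refine congrArg (· * _) ?_
  have h1 : ∀ j : ZMod p, coeffMap (IsLocalRing.residue A) (twist (zu ^ j.val) y) = redS A y := by
    intro j
    rw [Congruence.coeffMap_twist]
    have : Units.map (IsLocalRing.residue A : A →* IsLocalRing.ResidueField A) (zu ^ j.val) = 1 :=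
      Units.ext (by
        rw [map_pow, Units.val_pow_eq_pow_val, Units.coe_map, Units.val_one]
        show IsLocalRing.residue A z ^ _ = 1
        rw [hred, one_pow])
    rw [this, Congruence.twist_one]
  rw [Finset.prod_congr rfl fun j _ => h1 j, Finset.prod_const, Finset.card_univ, ZMod.card]

end Norm

end CoverFns

end Fermat.Agent.Row48.Cover

end
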