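import Fermat.Agent.Row48.Cover.Wp
import Fermat.Agent.XHLite.Analytic.Series

/-!
# The `q`-series of `℘` at a point of order dividing `M`

At `((a τ + b) / M, τ)`, in the variable `exp (2πiτ / M)`, the coefficients lie in
`ℤ[ζ, 1/(1 - ζ)]`.
-/

set_option autoImplicit false

noncomputable section

open Filter Topology Complex UpperHalfPlane
open scoped Real Manifold MatrixGroups

namespace Fermat.Agent.Row48.Cover

open X0Analytic Mazur.Moduli

local notation "Δ" => ModularForm.discriminant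

variable {M : ℕ} [NeZero M]

/-- The argument `(a τ + b) / M`. -/
def argM (v : ZMod M × ZMod M) (τ : ℂ) : ℂ := ((v.1.val : ℂ) * τ + (v.2.val : ℂ)) / M

theorem natCast_level_ne : (M : ℂ) ≠ 0 := Nat.cast_ne_zero.mpr (NeZero.ne M)

/-! ### The series at `M τ` -/

section Coeff

variable {K : Type*} [Field K]

/-- The coefficient of `q ^ N` in `℘ / (2πi)² - 1/12` at `((a τ + b) / M, τ)`, evaluated at
`M τ`, with `ζ` in place of `e^{2πi/M}`. -/
def wpCoeffM (ζ : K) (v : ZMod M × ZMod M) (N : ℕ) : K :=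
  if N = 0 then (if v.1 = 0 then geomDeriv (ζ ^ v.2.val) else 0)
  else ∑ x ∈ N.divisorsAntidiagonal, (x.2 : K) *
    ((if (x.1 : ZMod M) = v.1 then (ζ ^ v.2.val) ^ x.2 else 0) +
      (if (x.1 : ZMod M) = -v.1 then ((ζ ^ v.2.val) ^ x.2)⁻¹ else 0) -
      (if (x.1 : ZMod M) = 0 then 2 else 0))

omit [NeZero M] in
theorem map_wpCoeffM {L : Type*} [Field L] (f : K →+* L) (ζ : K) (v : ZMod M × ZMod M) (N : ℕ) :
    f (wpCoeffM ζ v N) = wpCoeffM (f ζ) v N := by
  simp only [wpCoeffM, apply_ite f, map_sum, map_mul, map_natCast, map_sub, map_add, map_inv₀,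
    map_pow, map_zero, map_ofNat, map_geomDeriv]

end Coeff

/-- `e^{2πi/M}`. -/
def zetaM (M : ℕ) : ℂ := ee (1 / (M : ℂ))

omit [NeZero M] in
theorem norm_zetaM : ‖zetaM M‖ = 1 := by
  rw [zetaM, norm_ee]
  simp

omit [NeZero M] in
theorem zetaM_pow_val (x : ZMod M) : zetaM M ^ x.val = ee ((x.val : ℂ) / M) := by
  rw [zetaM, ← ee_nat_mul, mul_one_div]

theorem scaleGL_coe (τ : ℍ) : ((scaleGL M • τ : ℍ) : ℂ) = (M : ℂ) * τ :=
    X0Analytic.coe_scaleGL_smul M τ

/-- Sums over a residue class of exponents as a double series. -/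
theorem hasSum_classPiece {q z : ℂ} (hq : ‖q‖ < 1) (hz : ‖z‖ = 1) (c : ZMod M) {r : ℕ}
    (hr : 1 ≤ r) (hrM : r ≤ M) (hrc : (r : ZMod M) = c) :
    ∃ s : ℂ, HasSum (fun p : ℕ+ × ℕ+ => ((p.2 : ℕ) : ℂ) *
        (if ((p.1 : ℕ) : ZMod M) = c then z ^ (p.2 : ℕ) else 0) * q ^ ((p.1 : ℕ) * (p.2 : ℕ))) s ∧
      HasSum (fun n : ℕ => geomDeriv (z * q ^ (r + n * M))) s := by
  set F : ℕ+ × ℕ+ → ℂ := fun p => ((p.2 : ℕ) : ℂ) *
    (if ((p.1 : ℕ) : ZMod M) = c then z ^ (p.2 : ℕ) else 0) * q ^ ((p.1 : ℕ) * (p.2 : ℕ)) with hF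
  have hs : Summable F := by
    have hb := summable_prod_mul_pow (𝕜 := ℝ) 1 (r := ‖q‖) (by simpa using hq)
    refine Summable.of_norm_bounded hb fun p => ?_
    simp only [hF, norm_mul, norm_pow, Complex.norm_natCast, pow_one]
    refine mul_le_mul_of_nonneg_right (mul_le_of_le_one_right (Nat.cast_nonneg _) ?_)
      (pow_nonneg (norm_nonneg _) _)
    split_ifs <;> simp [hz]
  refine ⟨∑' p, F p, hs.hasSum, ?_⟩
  have hrow : ∀ e : ℕ+, HasSum (fun m : ℕ+ => F (e, m))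
      (if ((e : ℕ) : ZMod M) = c then geomDeriv (z * q ^ (e : ℕ)) else 0) := by
    intro e
    by_cases he : ((e : ℕ) : ZMod M) = c
    · simp only [hF, if_pos he]
      have h := hasSum_geomDeriv (u := z * q ^ (e : ℕ)) (by
        rw [norm_mul, hz, one_mul, norm_pow]
        exact pow_lt_one₀ (norm_nonneg _) hq e.ne_zero)
      refine (Function.Injective.hasSum_iff PNat.coe_injective fun m hm => ?_).mpr h |>.congr_fun
        fun m => ?_
      · have : m = 0 := by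
          by_contra hne
          exact hm ⟨⟨m, Nat.pos_of_ne_zero hne⟩, rfl⟩
        simp [this]
      · simp only [Function.comp_apply, mul_pow, ← pow_mul]
        ring
    · simp only [hF, if_neg he, mul_zero, zero_mul]
      exact hasSum_zero
  have h1 := hs.hasSum.prod_fiberwise hrow
  let i : ℕ → ℕ+ := fun n => ⟨r + n * M, Nat.add_pos_left hr _⟩
  have hi : Function.Injective i := fun a b h => by
    have := congrArg PNat.val h
    simpa [i, NeZero.ne M] using this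
  have hic : ∀ n, (((i n : ℕ+) : ℕ) : ZMod M) = c := fun n => by simp [i, hrc]
  refine ((hi.hasSum_iff fun e he => if_neg fun hec => he ?_).mpr h1).congr_fun fun n => ?_
  · have hmod : (e : ℕ) % M = r % M := (ZMod.natCast_eq_natCast_iff' _ _ _).mp (hec.trans hrc.symm)
    have hre : r ≤ (e : ℕ) := by
      rcases Nat.lt_or_ge (e : ℕ) r with hlt | hge
      · exfalso
        rw [Nat.mod_eq_of_lt (hlt.trans_le hrM)] at hmod
        rcases hrM.lt_or_eq with h | h
        · rw [Nat.mod_eq_of_lt h] at hmod; omega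
        · rw [h, Nat.mod_self] at hmod; exact e.ne_zero hmod
      · exact hge
    obtain ⟨n, hn⟩ : M ∣ (e : ℕ) - r := (Nat.modEq_iff_dvd' hre).mp hmod.symm
    exact ⟨n, PNat.coe_injective (show r + n * M = (e : ℕ) by rw [mul_comm, ← hn]; omega)⟩
  · simp only [Function.comp_apply, if_pos (hic n)]
    rfl

theorem argM_notMem {v : ZMod M × ZMod M} (hv : v ≠ 0) (τ : ℍ) :
    argM v τ ∉ (tauPair τ).lattice := by
  intro h
  obtain ⟨m, n, h⟩ := mem_tauPair.mp h
  have hp := natCast_level_ne (M := M)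
  rw [argM, eq_div_iff hp] at h
  have h1 : ((v.1.val : ℤ) - m * M : ℤ) * (τ : ℂ) = ((n * M - v.2.val : ℤ) : ℂ) := by
    push_cast
    linear_combination -h
  have hm : ((v.1.val : ℤ) - m * M : ℤ) = 0 := by
    by_contra hne
    exact natCast_mul_ne_intCast τ hne _ h1
  rw [hm, Int.cast_zero, zero_mul] at h1
  have hn : (n * M - v.2.val : ℤ) = 0 := by exact_mod_cast h1.symm
  refine hv (Prod.ext ?_ ?_)
  · have := congrArg (fun x : ℤ => (x : ZMod M)) hm
    simpa [ZMod.natCast_zmod_val] using this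
  · have := congrArg (fun x : ℤ => (x : ZMod M)) hn
    simpa [ZMod.natCast_zmod_val] using this

theorem hasSum_wpM {v : ZMod M × ZMod M} (hv : v ≠ 0) (τ : ℍ) :
    HasSum (fun N : ℕ => wpCoeffM (zetaM M) v N • qp 1 τ ^ N)
      (wpN (argM v (scaleGL M • τ : ℍ)) (scaleGL M • τ) - 1 / 12) := by
  set T : ℍ := scaleGL M • τ with hT
  set q := qp 1 τ with hqdef
  set a := v.1.val with ha
  set z := zetaM M ^ v.2.val with hzdef
  have hq : q = ee (τ : ℂ) := by
    rw [hqdef, qp, ee, Function.Periodic.qParam]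
    simp
  have hqn : ‖q‖ < 1 := norm_qp_lt_one 1 τ
  have hq0 : q ≠ 0 := qp_ne_zero 1 τ
  have hzn : ‖z‖ = 1 := by rw [hzdef, norm_pow, norm_zetaM, one_pow]
  have hz0 : z ≠ 0 := fun h => by simp [h] at hzn
  have haM : a < M := ZMod.val_lt _
  have heu : ee (argM v (T : ℂ)) = z * q ^ a := by
    rw [hzdef, zetaM_pow_val, hq, ← ee_nat_mul, ← ee_add, argM, hT, scaleGL_coe]
    congr 1
    have := natCast_level_ne (M := M)
    field_simp
    ring
  have hen : ∀ n : ℕ, ee (((n + 1 : ℕ) : ℂ) * (T : ℂ)) = q ^ ((n + 1) * M) := fun n => by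
    rw [hT, scaleGL_coe, hq, ← ee_nat_mul]
    congr 1
    push_cast
    ring
  have hrow : ∀ n : ℕ, pairRow (argM v (T : ℂ)) T n = geomDeriv (z * q ^ (a + (n + 1) * M)) +
      geomDeriv (z⁻¹ * q ^ ((M - a) + n * M)) - 2 * geomDeriv (1 * q ^ (M + n * M)) := by
    intro n
    have e1 : geomDeriv (ee (argM v (T : ℂ) - ((n + 1 : ℕ) : ℂ) * (T : ℂ))) =
        geomDeriv (z⁻¹ * q ^ ((M - a) + n * M)) := by
      rw [sub_eq_add_neg, ee_add, ee_neg, hen, heu, ← geomDeriv_inv (mul_ne_zero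
        (inv_ne_zero hz0) (pow_ne_zero _ hq0)), mul_inv, inv_inv]
      congr 1
      rw [show (n + 1) * M = a + ((M - a) + n * M) by rw [add_mul, one_mul]; omega, pow_add]
      field_simp
    rw [pairRow, e1, ee_add, hen, heu, mul_assoc, ← pow_add, one_mul,
      show M + n * M = (n + 1) * M by ring]
  obtain ⟨s₂, hF₂, hR₂⟩ := hasSum_classPiece (z := z⁻¹) hqn (by rw [norm_inv, hzn, inv_one]) (-v.1)
    (r := M - a) (by omega) (by omega) (by rw [Nat.cast_sub haM.le, ha]; simp)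
  obtain ⟨s₃, hF₃, hR₃⟩ := hasSum_classPiece (z := 1) hqn norm_one (0 : ZMod M)
    (r := M) (NeZero.one_le) le_rfl (by simp)
  have hB : ∃ s₁ : ℂ, HasSum (fun p : ℕ+ × ℕ+ => ((p.2 : ℕ) : ℂ) *
        (if ((p.1 : ℕ) : ZMod M) = v.1 then z ^ (p.2 : ℕ) else 0) *
          q ^ ((p.1 : ℕ) * (p.2 : ℕ))) s₁ ∧
      HasSum (fun n : ℕ => geomDeriv (z * q ^ (a + (n + 1) * M)))
        (s₁ - (geomDeriv (z * q ^ a) - if a = 0 then geomDeriv z else 0)) := by
    rcases Nat.eq_zero_or_pos a with h0 | h0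
    · obtain ⟨s₁, hF₁, hR₁⟩ := hasSum_classPiece hqn hzn v.1 (r := M) (NeZero.one_le) le_rfl
        (by rw [ZMod.natCast_self, ← ZMod.natCast_zmod_val v.1, ← ha, h0, Nat.cast_zero])
      refine ⟨s₁, hF₁, ?_⟩
      rw [if_pos h0, h0, pow_zero, mul_one, sub_self, sub_zero]
      exact hR₁.congr_fun fun n => by rw [show 0 + (n + 1) * M = M + n * M by ring]
    · obtain ⟨s₁, hF₁, hR₁⟩ := hasSum_classPiece hqn hzn v.1 (r := a) h0 haM.le
        (by rw [ha, ZMod.natCast_zmod_val])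
      refine ⟨s₁, hF₁, ?_⟩
      rw [if_neg h0.ne', sub_zero]
      have h := (hasSum_nat_add_iff' 1).mpr hR₁
      simp only [Finset.sum_range_one, zero_mul, add_zero] at h
      exact h
  obtain ⟨s₁, hF₁, hR₁⟩ := hB
  have hrows : HasSum (pairRow (argM v (T : ℂ)) T)
      (s₁ - (geomDeriv (z * q ^ a) - if a = 0 then geomDeriv z else 0) + s₂ - 2 * s₃) :=
    ((hR₁.add hR₂).sub (hR₃.mul_left 2)).congr_fun hrow
  have hval : wpN (argM v (T : ℂ)) T - 1 / 12 - wpCoeffM (zetaM M) v 0 = s₁ + s₂ - 2 * s₃ := by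
    rw [(hasSum_pairRow (argM_notMem hv T)).unique hrows |> fun h => eq_add_of_sub_eq h, heu,
      wpCoeffM, if_pos rfl, ← hzdef]
    have hiff : v.1 = 0 ↔ a = 0 := (ZMod.val_eq_zero v.1).symm
    simp only [hiff]
    ring
  have hG : HasSum (fun p : ℕ+ × ℕ+ => ((p.2 : ℕ) : ℂ) *
      ((if ((p.1 : ℕ) : ZMod M) = v.1 then z ^ (p.2 : ℕ) else 0) +
        (if ((p.1 : ℕ) : ZMod M) = -v.1 then (z ^ (p.2 : ℕ))⁻¹ else 0) -
        (if ((p.1 : ℕ) : ZMod M) = 0 then 2 else 0)) * q ^ ((p.1 : ℕ) * (p.2 : ℕ)))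
      (s₁ + s₂ - 2 * s₃) := by
    refine ((hF₁.add hF₂).sub (hF₃.mul_left 2)).congr_fun fun p => ?_
    simp only [inv_pow, one_pow]
    split_ifs <;> ring
  have hsig := ((sigmaAntidiagonalEquivProd.hasSum_iff).mpr hG).sigma fun n => hasSum_fintype _
  have hn : ∀ n : ℕ+, (∑ x ∈ ((n : ℕ).divisorsAntidiagonal), (x.2 : ℂ) *
      ((if (x.1 : ZMod M) = v.1 then z ^ x.2 else 0) +
        (if (x.1 : ZMod M) = -v.1 then (z ^ x.2)⁻¹ else 0) -
        (if (x.1 : ZMod M) = 0 then 2 else 0)) * q ^ (x.1 * x.2)) =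
      wpCoeffM (zetaM M) v n • q ^ (n : ℕ) := fun n => by
    rw [wpCoeffM, if_neg n.ne_zero, smul_eq_mul, Finset.sum_mul]
    refine Finset.sum_congr rfl fun x hx => ?_
    rw [(Nat.mem_divisorsAntidiagonal.mp hx).1, ← hzdef]
  have hsig' : HasSum (fun n : ℕ+ => wpCoeffM (zetaM M) v n • q ^ (n : ℕ)) (s₁ + s₂ - 2 * s₃) := by
    refine hsig.congr_fun fun n => ((hn n).symm.trans ?_)
    rw [← Finset.sum_coe_sort]
    refine Finset.sum_congr rfl fun x _ => ?_
    simp only [Function.comp_apply, sigmaAntidiagonalEquivProd, divisorsAntidiagonalFactors,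
      Equiv.coe_fn_mk, PNat.mk_coe]
    rfl
  have hnat := (Equiv.pnatEquivNat.symm.hasSum_iff).mpr hsig'
  rw [← hasSum_nat_add_iff' 1]
  simp only [Finset.sum_range_one, pow_zero, smul_eq_mul, mul_one]
  rw [hval]
  refine hnat.congr_fun fun n => ?_
  simp [q]

end Fermat.Agent.Row48.Cover

end
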