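import Fermat.Agent.Mazur.Moduli.QSeries

/-!
# The functions `℘((a τ + b) / M) E₄ E₆ / Δ` at any level `M`

The prime level case is `Fermat.Agent.Mazur.Moduli.uVec`; here the index is a pair of integers and
`M` is arbitrary.
-/

set_option autoImplicit false

noncomputable section

open Filter Topology Complex UpperHalfPlane
open scoped Real Manifold MatrixGroups ModularForm

namespace Fermat.Agent.Row48.Cover

open Mazur.Moduli X0Analytic

local notation "Δ" => ModularForm.discriminant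

variable (M : ℕ)

/-- The point `(a τ + b) / M`. -/
def ptArg (a b : ℤ) (τ : ℂ) : ℂ := ((a : ℂ) * τ + b) / M

/-- `℘ E₄ E₆ / Δ` at `(a τ + b) / M`. -/
def wpFn (a b : ℤ) (τ : ℍ) : ℂ :=
  wpN (ptArg M a b τ) τ * (ModularForm.E₄ τ * ModularForm.E₆ τ / Δ τ)

variable {M} [NeZero M]

theorem wpN_ptArg_congr {a b a' b' : ℤ} (ha : (a : ZMod M) = a') (hb : (b : ZMod M) = b')
    (τ : ℍ) : wpN (ptArg M a b τ) τ = wpN (ptArg M a' b' τ) τ := by
  obtain ⟨m, hm⟩ := (ZMod.intCast_eq_intCast_iff_dvd_sub a' a M).mp ha.symm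
  obtain ⟨n, hn⟩ := (ZMod.intCast_eq_intCast_iff_dvd_sub b' b M).mp hb.symm
  rw [← wpN_add_lattice (ptArg M a' b' τ) τ m n]
  congr 1
  have hM : (M : ℂ) ≠ 0 := Nat.cast_ne_zero.mpr (NeZero.ne M)
  rw [ptArg, ptArg, show a = a' + M * m by linarith, show b = b' + M * n by linarith]
  push_cast
  field_simp
  ring

theorem wpFn_congr {a b a' b' : ℤ} (ha : (a : ZMod M) = a') (hb : (b : ZMod M) = b') :
    wpFn M a b = wpFn M a' b' :=
  funext fun τ => by rw [wpFn, wpFn, wpN_ptArg_congr ha hb]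

omit [NeZero M] in
theorem wpFn_neg (a b : ℤ) : wpFn M (-a) (-b) = wpFn M a b := funext fun τ => by
  have h : ptArg M (-a) (-b) (τ : ℂ) = -ptArg M a b τ := by
    rw [ptArg, ptArg]
    push_cast
    ring
  rw [wpFn, wpFn, h, wpN, wpN, PeriodPair.weierstrassP_neg]

theorem wpFn_smul (a b : ℤ) (γ : SL(2, ℤ)) (τ : ℍ) :
    wpFn M a b (γ • τ) = wpFn M (a * γ 0 0 + b * γ 1 0) (a * γ 0 1 + b * γ 1 1) τ := by
  set c := UpperHalfPlane.denom (γ : GL (Fin 2) ℝ) (τ : ℂ) with hc
  have hc0 : c ≠ 0 := UpperHalfPlane.denom_ne_zero _ τ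
  have hM : (M : ℂ) ≠ 0 := Nat.cast_ne_zero.mpr (NeZero.ne M)
  have hsmul : ((γ • τ : ℍ) : ℂ) = ((γ 0 0 : ℂ) * τ + (γ 0 1 : ℂ)) / c := by
    rw [hc, UpperHalfPlane.coe_specialLinearGroup_apply, ModularGroup.denom_apply]
    simp
  have hc' : c = (γ 1 0 : ℂ) * τ + (γ 1 1 : ℂ) := by
    rw [hc, ModularGroup.denom_apply]
  have harg : ptArg M a b ((γ • τ : ℍ) : ℂ) =
      ptArg M (a * γ 0 0 + b * γ 1 0) (a * γ 0 1 + b * γ 1 1) τ / c := by
    rw [ptArg, ptArg, hsmul]
    push_cast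
    field_simp
    rw [hc']
    ring
  rw [wpFn, wpFn, harg, wpN_smul, levelOne_smul, levelOne_smul, discriminant_smul, ← hc]
  have hΔ := ModularForm.discriminant_ne_zero τ
  norm_num
  field_simp

theorem ptArg_notMem {a b : ℤ} (h : ¬ ((a : ZMod M) = 0 ∧ (b : ZMod M) = 0)) (τ : ℍ) :
    ptArg M a b τ ∉ (tauPair τ).lattice := by
  intro hmem
  obtain ⟨m, n, he⟩ := mem_tauPair.mp hmem
  have hM : (M : ℂ) ≠ 0 := Nat.cast_ne_zero.mpr (NeZero.ne M)
  rw [ptArg, eq_div_iff hM] at he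
  have h1 : ((a - m * M : ℤ) : ℂ) * τ = ((n * M - b : ℤ) : ℂ) := by
    push_cast
    linear_combination -he
  have hm : a - m * M = 0 := by
    by_contra hne
    exact natCast_mul_ne_intCast τ hne _ h1
  rw [hm, Int.cast_zero, zero_mul] at h1
  have hn : n * M - b = 0 := by exact_mod_cast h1.symm
  refine h ⟨?_, ?_⟩
  · rw [show a = m * M by linarith]; push_cast; rw [ZMod.natCast_self, mul_zero]
  · rw [show b = n * M by linarith]; push_cast; rw [ZMod.natCast_self, mul_zero]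

theorem abs_im_ptArg {a : ℤ} (ha : 0 ≤ a) (haM : a < M) (b : ℤ) {τ : ℂ} (hτ : 0 < τ.im) :
    |(ptArg M a b τ).im| ≤ τ.im - τ.im / M := by
  have hM : (0 : ℝ) < M := Nat.cast_pos.mpr (NeZero.pos M)
  have him : (ptArg M a b τ).im = (a : ℝ) * τ.im / M := by
    rw [ptArg]; simp
  have hle : (a : ℝ) + 1 ≤ M := by exact_mod_cast haM
  have h0 : (0 : ℝ) ≤ a := by exact_mod_cast ha
  rw [him, abs_of_nonneg (by positivity), show τ.im - τ.im / M = ((M : ℝ) - 1) * τ.im / M by
    field_simp]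
  gcongr
  linarith

theorem wpN_mdiff_ptArg {a : ℤ} (ha : 0 ≤ a) (haM : a < M) {b : ℤ}
    (hv : ∀ τ : ℍ, ptArg M a b τ ∉ (tauPair τ).lattice) :
    MDiff (fun τ : ℍ => wpN (ptArg M a b τ) τ) := by
  rw [UpperHalfPlane.mdifferentiable_iff]
  intro w hw
  have hM : (0 : ℝ) < M := Nat.cast_pos.mpr (NeZero.pos M)
  set U : Set ℂ := {z | w.im / 2 < z.im} with hU
  have hUo : IsOpen U := isOpen_lt continuous_const Complex.continuous_im
  have hw2 : 0 < w.im := hw
  have hwU : w ∈ U := by show w.im / 2 < w.im; linarith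
  have hpos : ∀ z ∈ U, 0 < z.im := fun z hz => by
    have : w.im / 2 < z.im := hz
    linarith
  set δ : ℝ := w.im / 2 / M with hδ'
  have hδ : 0 < δ := by positivity
  have hz : ∀ z ∈ U, δ ≤ z.im ∧ |(ptArg M a b z).im| ≤ z.im - δ := by
    intro z hz
    have hlt : w.im / 2 < z.im := hz
    have h0 := hpos z hz
    have h1 : δ ≤ z.im / M := by rw [hδ']; gcongr
    refine ⟨h1.trans (div_le_self h0.le (by exact_mod_cast NeZero.one_le)), ?_⟩
    linarith [abs_im_ptArg ha haM b h0]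
  have hne : ∀ (m : ℤ), ∀ z ∈ U, ee (ptArg M a b z + (m : ℂ) * z) ≠ 1 := by
    intro m z hz h
    obtain ⟨n, hn⟩ := ee_eq_one_iff.mp h
    exact sub_mul_ne_intCast (hv ⟨z, hpos z hz⟩) m n hn
  have hne' : ∀ (m : ℕ), ∀ z ∈ U, ee ((m + 1 : ℕ) * z) ≠ 1 := by
    intro m z hz h
    obtain ⟨n, hn⟩ := ee_eq_one_iff.mp h
    exact natCast_mul_ne_intCast ⟨z, hpos z hz⟩ (m := ((m + 1 : ℕ) : ℤ)) (by omega) n
      (by rw [Int.cast_natCast]; exact hn)
  have hgd : ∀ f : ℂ → ℂ, Differentiable ℂ f → (∀ z ∈ U, ee (f z) ≠ 1) →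
      DifferentiableOn ℂ (fun z => geomDeriv (ee (f z))) U := by
    intro f hf hf1 z hz
    have he : DifferentiableAt ℂ (fun z => ee (f z)) z := by
      simp only [ee]
      exact ((hf z).const_mul _).cexp
    exact ((he.div (((differentiableAt_const (1 : ℂ)).sub he).pow 2)
      (pow_ne_zero 2 (sub_ne_zero.mpr (Ne.symm (hf1 z hz)))))).differentiableWithinAt
  have hza : Differentiable ℂ (ptArg M a b) := by
    show Differentiable ℂ fun τ => ((a : ℂ) * τ + (b : ℂ)) / M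
    fun_prop
  have hdiff : DifferentiableOn ℂ
      (fun z => 1 / 12 + geomDeriv (ee (ptArg M a b z)) + ∑' m, pairRow (ptArg M a b z) z m) U := by
    refine ((differentiableOn_const _).add (hgd _ hza fun z hz => ?_)).add ?_
    · simpa using hne 0 z hz
    refine differentiableOn_tsum_of_summable_norm
      (u := fun m => 4 * (Real.exp (-(2 * π * δ)) / (1 - Real.exp (-(2 * π * δ))) ^ 2) *
        Real.exp (-(2 * π * δ)) ^ m) ?_ ?_ hUo
      (fun m z hzU => norm_pairRow_le hδ (hz z hzU).1 (hz z hzU).2 m)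
    · refine (summable_geometric_of_lt_one (Real.exp_pos _).le ?_).mul_left _
      rw [Real.exp_lt_one_iff]; have := Real.pi_pos; nlinarith
    · intro m
      refine ((hgd (fun z => ptArg M a b z + (m + 1 : ℕ) * z)
        (hza.add (differentiable_id.const_mul _)) fun z hz => ?_).add
        (hgd (fun z => ptArg M a b z - (m + 1 : ℕ) * z)
          (hza.sub (differentiable_id.const_mul _)) fun z hz => ?_)).sub
        ((hgd (fun z => (m + 1 : ℕ) * z) (differentiable_id.const_mul _)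
          fun z hz => hne' m z hz).const_mul 2)
      · simpa using hne ((m + 1 : ℕ) : ℤ) z hz
      · have := hne (-((m + 1 : ℕ) : ℤ)) z hz
        rwa [Int.cast_neg, neg_mul, ← sub_eq_add_neg, Int.cast_natCast] at this
  refine ((hdiff.differentiableAt (hUo.mem_nhds hwU)).congr_of_eventuallyEq
    ?_).differentiableWithinAt
  filter_upwards [hUo.mem_nhds hwU] with z hz
  simp only [Function.comp_apply, ofComplex_apply_of_im_pos (hpos z hz)]
  exact wpN_eq (hv ⟨z, hpos z hz⟩)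

theorem wpN_ptArg_bounded {a : ℤ} (ha : 0 ≤ a) (haM : a < M) {b : ℤ}
    (hv : ∀ τ : ℍ, ptArg M a b τ ∉ (tauPair τ).lattice) :
    IsBoundedAtImInfty (fun τ : ℍ => wpN (ptArg M a b τ) τ) := by
  have hM : (0 : ℝ) < M := Nat.cast_pos.mpr (NeZero.pos M)
  have hr : Tendsto (fun τ : ℍ => Real.exp (-(2 * π * (τ.im / M)))) atImInfty (𝓝 0) := by
    refine Real.tendsto_exp_atBot.comp (tendsto_neg_atTop_atBot.comp ?_)
    refine Filter.Tendsto.const_mul_atTop (by positivity) ?_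
    exact (tendsto_comap : Tendsto UpperHalfPlane.im atImInfty atTop).atTop_div_const hM
  have hsum : Tendsto (fun τ : ℍ => ∑' m, pairRow (ptArg M a b τ) τ m) atImInfty (𝓝 0) := by
    refine squeeze_zero_norm (a := fun τ : ℍ =>
        4 * (Real.exp (-(2 * π * (τ.im / M))) / (1 - Real.exp (-(2 * π * (τ.im / M)))) ^ 2) *
          (1 - Real.exp (-(2 * π * (τ.im / M))))⁻¹) (fun τ => ?_) ?_
    · exact norm_tsum_pairRow_le (div_pos τ.im_pos hM)
        (div_le_self τ.im_pos.le (by exact_mod_cast NeZero.one_le)) (abs_im_ptArg ha haM b τ.im_pos)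
    · have h2 := (((hr.div ((hr.const_sub 1).pow 2) (by norm_num)).const_mul 4).mul
        ((hr.const_sub 1).inv₀ (by norm_num)))
      simpa using h2
  obtain ⟨L, hgeo⟩ :
      ∃ L, Tendsto (fun τ : ℍ => geomDeriv (ee (ptArg M a b τ))) atImInfty (𝓝 L) := by
    rcases eq_or_lt_of_le ha with rfl | hpos
    · refine ⟨geomDeriv (ee ((b : ℂ) / M)), tendsto_const_nhds.congr fun τ => ?_⟩
      simp [ptArg]
    · refine ⟨0 / (1 - 0) ^ 2, ?_⟩
      have he : Tendsto (fun τ : ℍ => ee (ptArg M a b τ)) atImInfty (𝓝 0) := by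
        refine squeeze_zero_norm (fun τ => ?_) hr
        rw [norm_ee]
        refine Real.exp_le_exp.mpr ?_
        have h1 : (1 : ℝ) ≤ a := by exact_mod_cast hpos
        have him : (ptArg M a b τ).im = (a : ℝ) * (τ.im / M) := by
          rw [ptArg]; simp [mul_div_assoc]
        rw [him]
        have := mul_le_mul_of_nonneg_right h1 (div_nonneg τ.im_pos.le hM.le)
        rw [one_mul] at this
        nlinarith [Real.pi_pos]
      exact he.div ((he.const_sub 1).pow 2) (by norm_num)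
  have h := ((hgeo.const_add (1 / 12 : ℂ)).add hsum).congr fun τ => (wpN_eq (hv τ)).symm
  exact h.isBigO_one ℝ

theorem wpN_ptArg_good (a b : ℤ) :
    MDiff (fun τ : ℍ => wpN (ptArg M a b τ) τ) ∧
      IsBoundedAtImInfty (fun τ : ℍ => wpN (ptArg M a b τ) τ) := by
  by_cases h : (a : ZMod M) = 0 ∧ (b : ZMod M) = 0
  · have h0 : (fun τ : ℍ => wpN (ptArg M a b τ) τ) = fun _ => (0 : ℂ) := by
      funext τ
      rw [wpN_ptArg_congr (a' := 0) (b' := 0) (by simpa using h.1) (by simpa using h.2) τ,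
        show ptArg M 0 0 (τ : ℂ) = 0 by simp [ptArg], wpN, PeriodPair.weierstrassP_zero, zero_div]
    rw [h0]
    exact ⟨mdifferentiable_const, Filter.const_boundedAtFilter _ _⟩
  · have hM : (M : ℤ) ≠ 0 := by exact_mod_cast NeZero.ne M
    have he : ((a % M : ℤ) : ZMod M) = (a : ZMod M) := ZMod.intCast_mod a M
    have h1 : 0 ≤ a % (M : ℤ) := Int.emod_nonneg _ hM
    have h2 : a % (M : ℤ) < M := Int.emod_lt_of_pos _ (by exact_mod_cast NeZero.pos M)
    have hv : ∀ τ : ℍ, ptArg M (a % M) b τ ∉ (tauPair τ).lattice :=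
      ptArg_notMem (by rwa [he])
    rw [show (fun τ : ℍ => wpN (ptArg M a b τ) τ) = fun τ : ℍ => wpN (ptArg M (a % M) b τ) τ from
      funext fun τ => (wpN_ptArg_congr he rfl τ).symm]
    exact ⟨wpN_mdiff_ptArg h1 h2 hv, wpN_ptArg_bounded h1 h2 hv⟩

theorem wpFn_mdiff (a b : ℤ) : MDiff (wpFn M a b) := by
  have h := UpperHalfPlane.mdifferentiable_iff.mp (wpN_ptArg_good (M := M) a b).1
  exact UpperHalfPlane.mdifferentiable_iff.mpr
    (h.mul (((UpperHalfPlane.mdifferentiable_iff.mp ModularForm.E₄.holo').mul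
      (UpperHalfPlane.mdifferentiable_iff.mp ModularForm.E₆.holo')).div
      (UpperHalfPlane.mdifferentiable_iff.mp CuspForm.discriminant.holo')
      fun _ _ => ModularForm.discriminant_ne_zero _))

theorem wpFn_isPer {N : ℕ} (hN : M ∣ N) (a b : ℤ) : IsPer N (wpFn M a b) := fun τ => by
  have h : ((N : ℝ) +ᵥ τ : ℍ) = (ModularGroup.T ^ (N : ℤ)) • τ := by
    rw [UpperHalfPlane.modular_T_zpow_smul]; simp
  have h0 : (N : ZMod M) = 0 := (ZMod.natCast_eq_zero_iff _ _).mpr hN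
  rw [h, wpFn_smul]
  refine congrFun (wpFn_congr ?_ ?_) τ
  · rw [ModularGroup.coe_T_zpow]
    simp
  · rw [ModularGroup.coe_T_zpow]
    simp [h0]

theorem wpFn_mem {N : ℕ} [NeZero N] (hN : M ∣ N) (a b : ℤ) : wpFn M a b ∈ perMero N := by
  refine ⟨wpFn_mdiff a b, wpFn_isPer hN a b, N, ?_⟩
  have h : wpFn M a b * qp N ^ N =
      fun τ : ℍ => wpN (ptArg M a b τ) τ *
        (ModularForm.E₄ τ * ModularForm.E₆ τ * (qp 1 τ / Δ τ)) := funext fun τ => by
    have e : qp N τ ^ N = qp 1 τ := by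
      simp only [qp, Function.Periodic.qParam, ← Complex.exp_nat_mul]
      congr 1
      have : (N : ℂ) ≠ 0 := Nat.cast_ne_zero.mpr (NeZero.ne N)
      push_cast
      field_simp
    simp only [Pi.mul_apply, Pi.pow_apply, e, wpFn]
    ring
  rw [h]
  exact Filter.BoundedAtFilter.mul (wpN_ptArg_good a b).2 E4_E6_div_isBounded

end Fermat.Agent.Row48.Cover

end
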