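import Fermat.Agent.Row48.Cover.Curve
import Fermat.Agent.Row48.Cover.Wp
import Fermat.Agent.Mazur.Moduli.Integral

/-!
# Existence of the functions generating the cover

`F u v = (℘(u/M₀) - ℘(v/M₀)) E₄ E₆ / Δ`; its series has integral cyclotomic coefficients away from
`M₀`, and the reductions of the coefficients of `q⁻¹` and `q⁰` separate `(ℤ/M₀)ˣ/±1`.
-/

set_option autoImplicit false

noncomputable section

open CongruenceSubgroup UpperHalfPlane ModularCurve Fermat.Agent.Reduction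
open scoped MatrixGroups Real Manifold

namespace Fermat.Agent.Row48.Cover

open X0Analytic (perMero qSer qp)
open J0Torsion (jEmb)
open Mazur.Moduli

local notation "Qbar" => AlgebraicClosure ℚ
local notation "Δ" => ModularForm.discriminant

/-! ### Roots of unity -/

section Root

variable {M : ℕ} [NeZero M] {K : Type*} [Field K] {z : K}

omit [NeZero M] in
theorem pow_val_mul (hz : z ^ M = 1) (d u : ZMod M) :
    z ^ (d * u).val = (z ^ d.val) ^ u.val := by
  rw [← pow_mul, ZMod.val_mul]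
  exact (pow_eq_pow_mod _ hz).symm

omit [NeZero M] in
theorem isPrimitiveRoot_pow_val (hz : IsPrimitiveRoot z M) (u : (ZMod M)ˣ) :
    IsPrimitiveRoot (z ^ (u : ZMod M).val) M :=
  hz.pow_of_coprime _ (ZMod.val_coe_unit_coprime u)

omit [NeZero M] in
/-- A primitive root of order at least two is not one. -/
theorem pow_val_ne_one (hM : 1 < M) (hz : IsPrimitiveRoot z M) (u : (ZMod M)ˣ) :
    z ^ (u : ZMod M).val ≠ 1 :=
  (isPrimitiveRoot_pow_val hz u).ne_one hM

theorem pow_val_neg_one (hz : IsPrimitiveRoot z M) :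
    z ^ ((-1 : (ZMod M)ˣ) : ZMod M).val = z⁻¹ := by
  refine eq_inv_of_mul_eq_one_left ?_
  nth_rw 2 [← pow_one z]
  rw [← pow_add, hz.pow_eq_one_iff_dvd, ← ZMod.natCast_eq_zero_iff]
  push_cast
  rw [ZMod.natCast_zmod_val]
  simp

/-- Units with the same `x + x⁻¹` agree up to sign. -/
theorem eq_or_eq_neg_of_sum_eq (hz : IsPrimitiveRoot z M) {u v : (ZMod M)ˣ}
    (h : z ^ (u : ZMod M).val + (z ^ (u : ZMod M).val)⁻¹ =
      z ^ (v : ZMod M).val + (z ^ (v : ZMod M).val)⁻¹) : u = v ∨ u = -v := by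
  set x := z ^ (u : ZMod M).val
  set y := z ^ (v : ZMod M).val
  have hx : x ≠ 0 := pow_ne_zero _ (hz.ne_zero (NeZero.ne M))
  have hy : y ≠ 0 := pow_ne_zero _ (hz.ne_zero (NeZero.ne M))
  have hinj : ∀ a b : ZMod M, z ^ a.val = z ^ b.val → a = b := fun a b hab =>
    ZMod.val_injective M (hz.pow_inj (ZMod.val_lt a) (ZMod.val_lt b) hab)
  have h2 : (x - y) * (x * y - 1) = 0 := by
    have e : (x + x⁻¹ - (y + y⁻¹)) * (x * y) = (x - y) * (x * y - 1) := by
      field_simp
      ring
    rw [← e, h, sub_self, zero_mul]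
  rcases mul_eq_zero.mp h2 with h3 | h3
  · exact Or.inl (Units.ext (hinj _ _ (sub_eq_zero.mp h3)))
  · refine Or.inr (Units.ext (hinj _ _ ?_))
    have h4 : x = y⁻¹ := eq_inv_of_mul_eq_one_left (sub_eq_zero.mp h3)
    have h5 : z ^ ((-v : (ZMod M)ˣ) : ZMod M).val = y⁻¹ := by
      rw [show ((-v : (ZMod M)ˣ) : ZMod M) = (v : ZMod M) * ((-1 : (ZMod M)ˣ) : ZMod M) by simp,
        pow_val_mul hz.pow_eq_one]
      exact (pow_val_neg_one (isPrimitiveRoot_pow_val hz v))
    exact h4.trans h5.symm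

/-- In characteristic two a root of unity has odd order. -/
theorem not_two_dvd_of_two_eq_zero (h2 : (2 : K) = 0) (hz : IsPrimitiveRoot z M) : ¬ 2 ∣ M := by
  rintro ⟨m, rfl⟩
  have hm : 0 < m := by
    have := NeZero.ne (2 * m)
    omega
  have h : (z ^ m - 1) * (z ^ m - 1) = 0 := by
    have e : (z ^ m - 1) * (z ^ m - 1) = z ^ (2 * m) - 1 + 2 * (1 - z ^ m) := by ring
    rw [e, hz.pow_eq_one, h2, sub_self, zero_mul, add_zero]
  have h1 := (hz.pow_eq_one_iff_dvd m).mp (sub_eq_zero.mp (mul_self_eq_zero.mp h))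
  have := Nat.le_of_dvd hm h1
  omega

/-- **Separation of the deck group** by the coefficients of `q⁰` and `q¹` of `℘`. -/
theorem eq_one_or_neg_one_of_tailCoeff (hM : LevelOK M) (hz : IsPrimitiveRoot z M) {d : (ZMod M)ˣ}
    (h : ∀ (u : (ZMod M)ˣ) (n : ℕ), n ≤ 1 →
      tailCoeff (z ^ (u : ZMod M).val) n - tailCoeff (z ^ ((1 : (ZMod M)ˣ) : ZMod M).val) n =
        tailCoeff (z ^ ((d * u : (ZMod M)ˣ) : ZMod M).val) n -
          tailCoeff (z ^ ((d * 1 : (ZMod M)ˣ) : ZMod M).val) n) : d = 1 ∨ d = -1 := by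
  have h5 := hM.five_le
  have hM1 : 1 < M := by omega
  let A : (ZMod M)ˣ → K := fun u =>
    z ^ (u : ZMod M).val + (z ^ (u : ZMod M).val)⁻¹ - 2
  have hsq : ∀ u : (ZMod M)ˣ, A u =
      (1 - z ^ (u : ZMod M).val) ^ 2 / z ^ (u : ZMod M).val := fun u => by
    have hx : z ^ (u : ZMod M).val ≠ 0 := pow_ne_zero _ (hz.ne_zero (NeZero.ne M))
    simp only [A]
    field_simp
    ring
  have hne : ∀ u, A u ≠ 0 := fun u => by
    rw [hsq]
    exact div_ne_zero (pow_ne_zero 2 (sub_ne_zero.mpr (pow_val_ne_one hM1 hz u).symm))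
      (pow_ne_zero _ (hz.ne_zero (NeZero.ne M)))
  have hgeo : ∀ u : (ZMod M)ˣ, tailCoeff (z ^ (u : ZMod M).val) 0 = (A u)⁻¹ := fun u => by
    rw [tailCoeff, if_pos rfl, geomDeriv, hsq, inv_div]
  have hone : ∀ u : (ZMod M)ˣ, tailCoeff (z ^ (u : ZMod M).val) 1 = A u := fun u => by
    rw [tailCoeff, if_neg one_ne_zero]
    simp [A]
  have hinj : ∀ u v, A u = A v → u = v ∨ u = -v := fun u v huv =>
    eq_or_eq_neg_of_sum_eq hz (sub_left_inj.mp huv)
  set C : K := A d - A 1
  have hC : ∀ u, A (d * u) = A u + C := fun u => by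
    have h1 := h u 1 le_rfl
    rw [mul_one, hone, hone, hone, hone] at h1
    simp only [C]
    linear_combination -h1
  rcases eq_or_ne C 0 with hC0 | hC0
  · exact hinj d 1 (sub_eq_zero.mp hC0)
  have hprod : ∀ u, (A u - A 1) * (A u + A 1 + C) = 0 := fun u => by
    have h0 := h u 0 zero_le_one
    rw [mul_one, hgeo, hgeo, hgeo, hgeo, hC u, show A d = A 1 + C by simp [C],
      inv_sub_inv (hne _) (hne _), inv_sub_inv (by rw [← hC u]; exact hne _)
        (by rw [show A 1 + C = A d by simp [C]]; exact hne _)] at h0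
    rw [div_eq_div_iff (mul_ne_zero (hne _) (hne _)) (mul_ne_zero (by rw [← hC u]; exact hne _)
      (by rw [show A 1 + C = A d by simp [C]]; exact hne _))] at h0
    refine (mul_eq_zero.mp (?_ : C * ((A u - A 1) * (A u + A 1 + C)) = 0)).resolve_left hC0
    linear_combination -h0
  have h2 : (2 : K) = 0 := by
    have h1 := hprod d
    rw [show A d = A 1 + C by simp [C]] at h1
    have h1' : C * (2 * (A 1 + C)) = 0 := by linear_combination h1
    refine ((mul_eq_zero.mp ((mul_eq_zero.mp h1').resolve_left hC0))).resolve_right ?_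
    rw [show A 1 + C = A d by simp [C]]
    exact hne d
  have hsplit : ∀ u : (ZMod M)ˣ, (u = 1 ∨ u = -1) ∨ (u = d ∨ u = -d) := fun u => by
    rcases mul_eq_zero.mp (hprod u) with h' | h'
    · exact Or.inl (hinj u 1 (sub_eq_zero.mp h'))
    · refine Or.inr (hinj u d ?_)
      simp only [C] at h'
      linear_combination h' - (A d) * h2
  have hd2 : d * d = 1 ∨ d * d = -1 := by
    rcases hsplit (d * d) with h' | h' | h'
    · exact h'
    · exact absurd (mul_eq_left.mp h') fun hd1 => hC0 (by simp only [C, hd1, sub_self])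
    · have hd1 : d = -1 := mul_left_cancel (show d * d = d * -1 by rw [h', mul_neg, mul_one])
      refine absurd ?_ hC0
      simp only [C, hd1, A]
      rw [pow_val_neg_one hz, Units.val_one, ZMod.val_one'' hM1.ne', pow_one, inv_inv]
      ring
  -- in characteristic two `2` is a unit, forcing `M = 5`
  exfalso
  have hodd := not_two_dvd_of_two_eq_zero h2 hz
  have hcop : Nat.Coprime 2 M := Nat.prime_two.coprime_iff_not_dvd.mpr hodd
  let t : (ZMod M)ˣ := ZMod.unitOfCoprime 2 hcop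
  have ht : ((t : (ZMod M)ˣ) : ZMod M) = 2 := by simp [t]
  have hsmall : ∀ c : ℕ, (c : ZMod M) = 0 → 0 < c → M ≤ c := fun c hc hc0 =>
    Nat.le_of_dvd hc0 ((ZMod.natCast_eq_zero_iff c M).mp hc)
  have htd : t = d ∨ t = -d := by
    rcases hsplit t with (h' | h') | h'
    · have := congrArg Units.val h'
      rw [ht, Units.val_one] at this
      exact absurd (hsmall 1 (by push_cast; linear_combination this) one_pos) (by omega)
    · have := congrArg Units.val h'
      rw [ht, Units.val_neg, Units.val_one] at this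
      exact absurd (hsmall 3 (by push_cast; linear_combination this) (by norm_num)) (by omega)
    · exact h'
  have ht2 : t * t = 1 ∨ t * t = -1 := by
    rcases htd with h' | h' <;> rw [h']
    · exact hd2
    · simpa [neg_mul_neg] using hd2
  rcases ht2 with h' | h'
  · have := congrArg Units.val h'
    rw [Units.val_mul, ht, Units.val_one] at this
    exact absurd (hsmall 3 (by push_cast; linear_combination this) (by norm_num)) (by omega)
  · have := congrArg Units.val h'
    rw [Units.val_mul, ht, Units.val_neg, Units.val_one] at this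
    obtain ⟨q, hq, hqM, hq4⟩ := hM.three_mod_four
    have h5' : M ∣ 5 := (ZMod.natCast_eq_zero_iff 5 M).mp (by push_cast; linear_combination this)
    have := (Nat.prime_dvd_prime_iff_eq hq (by norm_num)).mp (hqM.trans h5')
    omega

end Root

/-! ### The series -/

section Series

variable {R S : Type*} [CommRing R] [CommRing S]

/-- `q⁻¹ · P · (E₄ E₆ / η²⁴)`. -/
def polarSer (P : PowerSeries R) : LaurentSeries R :=
  HahnSeries.single (-1 : ℤ) 1 *
    HahnSeries.ofPowerSeries ℤ R (P * unitPS.map (Int.castRingHom R))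

theorem coeffMap_polarSer (f : R →+* S) (P : PowerSeries R) :
    coeffMap f (polarSer P) = polarSer (P.map f) := by
  rw [polarSer, polarSer, map_mul, coeffMap_single, map_one, coeffMap_ofPowerSeries, map_mul,
    ← RingHom.comp_apply (PowerSeries.map f), ← PowerSeries.map_comp,
    RingHom.ext_int (f.comp (Int.castRingHom R)) (Int.castRingHom S)]

theorem polarSer_injective {K : Type*} [Field K] :
    Function.Injective (polarSer : PowerSeries K → LaurentSeries K) := by
  intro P Q h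
  have h1 : (HahnSeries.single (-1 : ℤ) (1 : K)) ≠ 0 := HahnSeries.single_ne_zero one_ne_zero
  have hu : unitPS.map (Int.castRingHom K) ≠ 0 := fun h0 => by
    have := congrArg PowerSeries.constantCoeff h0
    rw [← PowerSeries.coeff_zero_eq_constantCoeff, PowerSeries.coeff_map,
      PowerSeries.coeff_zero_eq_constantCoeff, constantCoeff_unitPS] at this
    simp at this
  exact mul_right_cancel₀ hu (HahnSeries.ofPowerSeries_injective (mul_left_cancel₀ h1 h))

end Series

variable {M : ℕ} [NeZero M]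

/-- The difference of the series of `℘` at `u/M` and `v/M`. -/
def diffPS {K : Type*} [Field K] (z : K) (u v : (ZMod M)ˣ) : PowerSeries K :=
  tailPS (z ^ (u : ZMod M).val) - tailPS (z ^ (v : ZMod M).val)

omit [NeZero M] in
theorem map_diffPS {K L : Type*} [Field K] [Field L] (f : K →+* L) (z : K) (u v : (ZMod M)ˣ) :
    (diffPS z u v).map f = diffPS (f z) u v := by
  rw [diffPS, diffPS, map_sub, map_tailPS, map_tailPS, map_pow, map_pow]

/-- Equal series at `u, v` and `d u, d v` force `d = ±1`. -/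
theorem eq_one_or_neg_one_of_diffPS {K : Type*} [Field K] {z : K} (hM : LevelOK M)
    (hz : IsPrimitiveRoot z M) {d : (ZMod M)ˣ}
    (h : ∀ u v : (ZMod M)ˣ, diffPS z u v = diffPS z (d * u) (d * v)) : d = 1 ∨ d = -1 :=
  eq_one_or_neg_one_of_tailCoeff hM hz fun u n _ => by
    simpa [diffPS, tailPS] using congrArg (PowerSeries.coeff n) (h u 1)

/-! ### The functions -/

/-- `(℘(u/M) - ℘(v/M)) E₄ E₆ / Δ`. -/
def coverFn (u v : (ZMod M)ˣ) (τ : ℍ) : ℂ :=
  wpFn M 0 ((u : ZMod M).val : ℤ) τ - wpFn M 0 ((v : ZMod M).val : ℤ) τ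

omit [NeZero M] in
theorem ee_val_eq (u : (ZMod M)ˣ) :
    ee (((((u : ZMod M).val : ℝ) / M : ℝ)) : ℂ) = ee (1 / (M : ℂ)) ^ (u : ZMod M).val := by
  rw [← ee_nat_mul]
  push_cast
  ring_nf

omit [NeZero M] in
theorem ptArg_zero_eq (u : (ZMod M)ˣ) (τ : ℂ) :
    ptArg M 0 ((u : ZMod M).val : ℤ) τ = ((((u : ZMod M).val : ℝ) / M : ℝ) : ℂ) := by
  simp [ptArg, -ZMod.natCast_val]

theorem val_div_ne_int (hM : 1 < M) (u : (ZMod M)ˣ) (n : ℤ) :
    ((((u : ZMod M).val : ℝ) / M : ℝ) : ℂ) ≠ n := by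
  intro h
  have h1 : ((u : ZMod M).val : ℝ) / M = n := by exact_mod_cast h
  rw [div_eq_iff (Nat.cast_ne_zero.mpr (NeZero.ne M))] at h1
  have h2 : ((u : ZMod M).val : ℤ) = n * M := by exact_mod_cast h1
  have h3 := congrArg (fun x : ℤ => (x : ZMod M)) h2
  simp at h3
  have : Fact (1 < M) := ⟨hM⟩
  exact u.ne_zero h3

theorem hasSum_wpN_sub (hM : 1 < M) (u v : (ZMod M)ˣ) (τ : ℍ) :
    HasSum (fun n : ℕ => PowerSeries.coeff n (diffPS (ee (1 / (M : ℂ))) u v) • qp 1 τ ^ n)
      (wpN (ptArg M 0 ((u : ZMod M).val : ℤ) τ) τ -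
        wpN (ptArg M 0 ((v : ZMod M).val : ℤ) τ) τ) := by
  have h1 := hasSum_tail τ (val_div_ne_int hM u)
  have h2 := hasSum_tail τ (val_div_ne_int hM v)
  rw [ee_val_eq, ← ptArg_zero_eq u (τ : ℂ)] at h1
  rw [ee_val_eq, ← ptArg_zero_eq v (τ : ℂ)] at h2
  have h3 := h1.sub h2
  rw [sub_sub_sub_cancel_right] at h3
  refine h3.congr_fun fun n => ?_
  rw [diffPS, map_sub, tailPS, PowerSeries.coeff_mk, tailPS, PowerSeries.coeff_mk, sub_smul]

theorem wpFn_zero_isPer (b : ℤ) : X0Analytic.IsPer 1 (wpFn M 0 b) := fun τ => by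
  rw [Nat.cast_one, ← UpperHalfPlane.modular_T_smul, wpFn_smul]
  refine congrFun (wpFn_congr ?_ ?_) τ <;> simp [ModularGroup.coe_T]

theorem coverFn_mem (u v : (ZMod M)ˣ) : coverFn u v ∈ perMero 1 :=
  sub_mem (X0Analytic.mem_perMero_one (wpFn_mem dvd_rfl 0 _) (wpFn_zero_isPer _))
    (X0Analytic.mem_perMero_one (wpFn_mem dvd_rfl 0 _) (wpFn_zero_isPer _))

theorem qSer_coverFn (hM : 1 < M) (u v : (ZMod M)ˣ) :
    qSer 1 ⟨coverFn u v, coverFn_mem u v⟩ = polarSer (diffPS (ee (1 / (M : ℂ))) u v) := by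
  let W : ℍ → ℂ := fun τ =>
    wpN (ptArg M 0 ((u : ZMod M).val : ℤ) τ) τ - wpN (ptArg M 0 ((v : ZMod M).val : ℤ) τ) τ
  have hWd : MDiff W := (wpN_ptArg_good (M := M) 0 _).1.sub (wpN_ptArg_good (M := M) 0 _).1
  have hWper : X0Analytic.IsPer 1 W := fun τ => by
    refine (hasSum_wpN_sub hM u v _).unique ?_
    simp only [X0Analytic.qp_vadd]
    exact hasSum_wpN_sub hM u v τ
  have hWb := isBoundedAtImInfty_of_hasSum_qExpansion (X0Analytic.hpos 1) (hasSum_wpN_sub hM u v)
  have hW : W ∈ perMero 1 := ⟨hWd, hWper, 0, by rw [pow_zero, mul_one]; exact hWb⟩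
  have hqW : qSer 1 ⟨W, hW⟩ =
      HahnSeries.ofPowerSeries ℤ ℂ (diffPS (ee (1 / (M : ℂ))) u v) := by
    rw [X0Analytic.qSer_eq _ (m := 0) (by rw [pow_zero, mul_one]; exact hWb), X0Analytic.qSerAux]
    simp only [Nat.cast_zero, neg_zero, HahnSeries.single_zero_one, one_mul]
    congr 1
    ext n
    rw [pow_zero, mul_one,
      X0Analytic.qExpansion_coeff_eq_of_hasSum hWd hWper (hasSum_wpN_sub hM u v)]
  have hmul : (⟨coverFn u v, coverFn_mem u v⟩ : ↥(perMero 1)) *
      ⟨Δ, X0Analytic.discriminant_mem⟩ =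
        ⟨W, hW⟩ * ⟨_, X0Analytic.E4_mem⟩ * ⟨_, E6_mem⟩ := by
    refine Subtype.ext (funext fun τ => ?_)
    show coverFn u v τ * Δ τ = W τ * ModularForm.E₄ τ * ModularForm.E₆ τ
    have hΔ := ModularForm.discriminant_ne_zero τ
    simp only [coverFn, wpFn, W]
    field_simp
  have hne : qSer 1 ⟨Δ, X0Analytic.discriminant_mem⟩ ≠ 0 :=
    (map_ne_zero_iff _ X0Analytic.qSer_injective).mpr fun h =>
      ModularForm.discriminant_ne_zero UpperHalfPlane.I (congrFun (congrArg Subtype.val h) _)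
  refine mul_right_cancel₀ hne ?_
  rw [← map_mul, hmul, map_mul, map_mul, hqW, X0Analytic.qSer_E4, qSer_E6,
    X0Analytic.qSer_discriminant, polarSer]
  simp only [unitPS, map_mul (PowerSeries.map _)]
  refine neg_injective ((laurent_aux _ _ _ _ _ ?_).trans (neg_mul _ _))
  rw [← map_mul, mul_comm, ModularCurve.dedekindEtaUnit_mul_inv, map_one]

theorem coverFn_smul (u v d : (ZMod M)ˣ) (γ : SL(2, ℤ)) (hγ : γ ∈ Gamma0 (lev M))
    (hd : ((γ 1 1 : ℤ) : ZMod M) = (d : ZMod M)) (τ : ℍ) :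
    coverFn u v (γ • τ) = coverFn (d * u) (d * v) τ := by
  have hc : ((γ 1 0 : ℤ) : ZMod M) = 0 := by
    rw [ZMod.intCast_zmod_eq_zero_iff_dvd]
    refine dvd_trans ?_ ((ZMod.intCast_zmod_eq_zero_iff_dvd _ _).mp (Gamma0_mem.mp hγ))
    exact Int.natCast_dvd_natCast.mpr (dvd_mul_right M M)
  rw [coverFn, coverFn, wpFn_smul, wpFn_smul]
  congr 1 <;>
  · refine congrFun (wpFn_congr ?_ ?_) τ
    · simp [hc]
    · simp [hd, mul_comm]

theorem coverFn_comp_mem (u v : (ZMod M)ˣ) (g : SL(2, ℤ)) :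
    (fun τ : ℍ => coverFn u v (g • τ)) ∈ perMero (lev M) := by
  rw [show (fun τ : ℍ => coverFn u v (g • τ)) =
      wpFn M (0 * g 0 0 + ((u : ZMod M).val : ℤ) * g 1 0)
        (0 * g 0 1 + ((u : ZMod M).val : ℤ) * g 1 1) -
      wpFn M (0 * g 0 0 + ((v : ZMod M).val : ℤ) * g 1 0)
        (0 * g 0 1 + ((v : ZMod M).val : ℤ) * g 1 1) from
    funext fun τ => by rw [coverFn, wpFn_smul, wpFn_smul, Pi.sub_apply]]
  exact sub_mem (wpFn_mem (dvd_mul_right M M) _ _) (wpFn_mem (dvd_mul_right M M) _ _)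

theorem coverFn_neg (u v : (ZMod M)ˣ) : coverFn (-u) (-v) = coverFn u v := by
  funext τ
  have key : ∀ w : (ZMod M)ˣ,
      wpFn M 0 (((-w : (ZMod M)ˣ) : ZMod M).val : ℤ) = wpFn M 0 ((w : ZMod M).val : ℤ) :=
        fun w => by
    rw [← wpFn_neg 0 ((w : ZMod M).val : ℤ), neg_zero]
    exact wpFn_congr rfl (by simp)
  rw [coverFn, coverFn, key, key]

theorem exists_zetaBar : ∃ ζ : Qbar, jEmb ζ = ee (1 / (M : ℂ)) ∧ IsPrimitiveRoot ζ M := by
  have hC : IsPrimitiveRoot (ee (1 / (M : ℂ))) M := by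
    have h := Complex.isPrimitiveRoot_exp M (NeZero.ne M)
    rwa [ee, show 2 * (π : ℂ) * Complex.I * (1 / (M : ℂ)) = 2 * π * Complex.I / M by ring]
  obtain ⟨ζ₀, hζ₀⟩ := HasEnoughRootsOfUnity.exists_primitiveRoot Qbar M
  obtain ⟨i, -, hi⟩ := (hζ₀.map_of_injective jEmb.injective).eq_pow_of_pow_eq_one hC.pow_eq_one
  refine ⟨ζ₀ ^ i, by rw [map_pow, hi], ?_⟩
  rw [← hi, ← map_pow] at hC
  exact hC.of_map_of_injective jEmb.injective

/-! ### Integrality and reduction -/

section Reduce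

open IsLocalRing MultRed

variable {A : ValuationSubring Qbar} {p : ℕ} (hp : p.Prime) (hA : A.LiesOverPrime p)
  (hpM : ¬ p ∣ M) {z : Qbar} (hz : IsPrimitiveRoot z M)

include hz in
theorem valuation_root_pow (k : ℕ) : A.valuation (z ^ k) = 1 := by
  have h : A.valuation z ^ M = 1 := by rw [← map_pow, hz.pow_eq_one, map_one]
  rw [map_pow, (pow_eq_one_iff_of_nonneg zero_le (NeZero.ne M)).mp h, one_pow]

include hp hA hpM hz in
theorem valuation_one_sub_root (hM : 1 < M) : A.valuation (1 - z) = 1 := by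
  classical
  obtain ⟨n, hn⟩ := Nat.exists_eq_succ_of_ne_zero (NeZero.ne M)
  have hn1 : 1 ≤ n := by omega
  have hz' : IsPrimitiveRoot z (n + 1) := by rwa [← Nat.succ_eq_add_one, ← hn]
  have hprod := congrArg A.valuation hz'.prod_one_sub_pow_eq_order
  rw [map_prod, show ((n : Qbar) + 1) = ((M : ℕ) : Qbar) by rw [hn]; push_cast; ring,
    vnat_eq_one hp hA hpM] at hprod
  have hle : ∀ k, A.valuation (1 - z ^ (k + 1)) ≤ 1 := fun k =>
    A.valuation.map_sub_le (by rw [map_one]) (by rw [valuation_root_pow hz])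
  refine le_antisymm (by simpa using hle 0) ?_
  rw [← Finset.prod_erase_mul (Finset.range n) _ (a := 0) (Finset.mem_range.mpr hn1)] at hprod
  simp only [zero_add, pow_one] at hprod
  exact hprod.symm.le.trans (mul_le_of_le_one_left' (Finset.prod_le_one' fun k _ => hle k))

include hp hA hpM hz in
theorem tailCoeff_mem (hM : 1 < M) (n : ℕ) : tailCoeff z n ∈ A := by
  rw [← A.valuation_le_one_iff]
  unfold tailCoeff
  split_ifs
  · rw [geomDeriv, map_div₀, map_pow, valuation_one_sub_root hp hA hpM hz hM, one_pow, div_one,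
      ← pow_one z, valuation_root_pow hz]
  · refine A.valuation.map_sum_le fun d _ => ?_
    refine vmul_le_left (vnatCast_le _ d) (A.valuation.map_sub_le (A.valuation.map_add_le
      (valuation_root_pow hz d).le ?_) (vofNat_le _ 2))
    rw [map_inv₀, valuation_root_pow hz d, inv_one]

include hp hA hpM hz in
/-- The reduction of an integral root of unity is primitive, and the coefficients reduce to those
at the reduction. -/
theorem exists_reduced_root (hM : 1 < M) :
    ∃ zA : A, (zA : Qbar) = z ∧ IsPrimitiveRoot (residue A zA) M ∧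
      ∀ k : ℕ, k.Coprime M → ∀ n : ℕ, ∀ h : tailCoeff (z ^ k) n ∈ A,
        residue A ⟨tailCoeff (z ^ k) n, h⟩ = tailCoeff (residue A zA ^ k) n := by
  have hzA : z ∈ A := by
    rw [← A.valuation_le_one_iff, ← pow_one z, valuation_root_pow hz]
  refine ⟨⟨z, hzA⟩, rfl, ?_, ?_⟩
  · have : NeZero ((M : ℕ) : ResidueField A) := ⟨fun h => by
      have h1 : ((M : ℕ) : A) ∈ maximalIdeal A :=
        (residue_eq_zero_iff _).mp (by rw [map_natCast]; exact h)
      have h1 := (A.valuation_lt_one_iff _).mp h1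
      have h2 := vnat_eq_one hp hA hpM
      push_cast at h1
      exact h1.ne h2⟩
    have h1 : (Polynomial.cyclotomic M A).IsRoot ⟨z, hzA⟩ :=
      IsPrimitiveRoot.isRoot_cyclotomic (NeZero.pos M) (IsPrimitiveRoot.of_map_of_injective
        (f := A.subtype) (by simpa using hz) Subtype.val_injective)
    have h2 := h1.map (f := residue A)
    rw [Polynomial.map_cyclotomic] at h2
    exact Polynomial.isRoot_cyclotomic_iff.mp h2
  · intro k hk n h
    obtain ⟨x, hx⟩ : ∃ x : A, x = ⟨z, hzA⟩ ^ k := ⟨_, rfl⟩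
    have hxv : (x : Qbar) = z ^ k := by rw [hx]; rfl
    have hres : residue A x = residue A ⟨z, hzA⟩ ^ k := by rw [hx]; exact map_pow _ _ _
    have hxu : IsUnit x := (A.valuation_eq_one_iff x).mpr (by rw [hxv, valuation_root_pow hz])
    by_cases hn : n = 0
    · subst hn
      have h1x : IsUnit (1 - x) := (A.valuation_eq_one_iff _).mpr (by
        push_cast
        rw [hxv]
        exact valuation_one_sub_root hp hA hpM (hz.pow_of_coprime k hk) hM)
      have e : (⟨tailCoeff (z ^ k) 0, h⟩ : A) * (1 - x) ^ 2 = x := by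
        refine Subtype.ext ?_
        push_cast
        rw [tailCoeff, if_pos rfl, geomDeriv, hxv, div_mul_cancel₀]
        refine pow_ne_zero 2 (sub_ne_zero.mpr ?_)
        exact ((hz.pow_of_coprime k hk).ne_one hM).symm
      have e' := congrArg (residue A) e
      rw [map_mul, map_pow, map_sub, map_one] at e'
      have hr0 : ∀ y : ResidueField A, tailCoeff y 0 = geomDeriv y := fun y => if_pos rfl
      rw [hr0, geomDeriv, eq_div_iff (pow_ne_zero 2 ?_)]
      · rwa [hres] at e'
      · have := (h1x.map (residue A)).ne_zero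
        rwa [map_sub, map_one, hres] at this
    · have e : (⟨tailCoeff (z ^ k) n, h⟩ : A) =
          ∑ d ∈ n.divisors, (d : A) * (x ^ d + ↑((hxu.unit ^ d)⁻¹) - 2) := by
        refine Subtype.ext ?_
        show tailCoeff (z ^ k) n = A.subtype _
        rw [tailCoeff, if_neg hn, map_sum]
        refine Finset.sum_congr rfl fun d _ => ?_
        rw [map_mul, map_sub, map_add, map_natCast, map_ofNat, map_pow, map_units_inv,
          Units.val_pow_eq_pow_val, hxu.unit_spec, map_pow]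
        simp [hxv]
      rw [e, map_sum, tailCoeff, if_neg hn]
      refine Finset.sum_congr rfl fun d _ => ?_
      rw [map_mul, map_sub, map_add, map_natCast, map_ofNat, map_units_inv,
        Units.val_pow_eq_pow_val, hxu.unit_spec, map_pow, hres]

end Reduce

/-- **The functions of the cover exist.** -/
theorem exists_coverFns (M₀ : ℕ) [NeZero M₀] (h : LevelOK M₀) :
    ∃ C : CoverFns M₀, C.F = coverFn := by
  classical
  have h5 := h.five_le
  have hM : 1 < M₀ := by omega
  obtain ⟨ζ, hζj, hζ⟩ := exists_zetaBar (M := M₀)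
  have hser : ∀ u v : (ZMod M₀)ˣ, qSer 1 ⟨coverFn u v, coverFn_mem u v⟩ =
      coeffMap jEmb (polarSer (diffPS ζ u v)) := fun u v => by
    rw [coeffMap_polarSer, map_diffPS, hζj, qSer_coverFn hM]
  have hmemA : ∀ (A : ValuationSubring Qbar) (p : ℕ), p.Prime → ¬ p ∣ M₀ → A.LiesOverPrime p →
      ∀ u : (ZMod M₀)ˣ, ∀ n, tailCoeff (ζ ^ (u : ZMod M₀).val) n ∈ A :=
    fun A p hp hpM hA u => tailCoeff_mem hp hA hpM (isPrimitiveRoot_pow_val hζ u) hM
  refine ⟨⟨coverFn, fun u v => polarSer (diffPS ζ u v), coverFn_neg, coverFn_smul,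
    coverFn_comp_mem, coverFn_mem, hser, fun σ d hσ u v => ?_, fun A p hp hpM hA u v => ?_,
    fun A p hp hpM hA d hd => ?_, fun d hd => ?_⟩, rfl⟩
  · rw [coeffMap_polarSer, map_diffPS, hσ ζ hζ.pow_eq_one, diffPS, diffPS, Units.val_mul,
      Units.val_mul, pow_val_mul hζ.pow_eq_one, pow_val_mul hζ.pow_eq_one]
  · let P : PowerSeries A := PowerSeries.mk fun n =>
      ⟨tailCoeff (ζ ^ (u : ZMod M₀).val) n, hmemA A p hp hpM hA u n⟩ -
        ⟨tailCoeff (ζ ^ (v : ZMod M₀).val) n, hmemA A p hp hpM hA v n⟩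
    refine ⟨polarSer P, (coeffMap_polarSer _ P).trans (congrArg polarSer ?_)⟩
    ext n
    simp [P, diffPS, tailPS]
  · obtain ⟨zA, -, hzk, hred⟩ := exists_reduced_root hp hA hpM hζ hM
    refine eq_one_or_neg_one_of_diffPS h hzk fun u v => polarSer_injective ?_
    let P : (ZMod M₀)ˣ → (ZMod M₀)ˣ → PowerSeries A := fun u v => PowerSeries.mk fun n =>
      ⟨tailCoeff (ζ ^ (u : ZMod M₀).val) n, hmemA A p hp hpM hA u n⟩ -
        ⟨tailCoeff (ζ ^ (v : ZMod M₀).val) n, hmemA A p hp hpM hA v n⟩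
    have hι : ∀ u v, ιS A (polarSer (P u v)) = polarSer (diffPS ζ u v) := fun u v => by
      refine (coeffMap_polarSer _ _).trans (congrArg polarSer ?_)
      ext n
      simp [P, diffPS, tailPS]
    have hr : ∀ u v, redS A (polarSer (P u v)) =
        polarSer (diffPS (IsLocalRing.residue A zA) u v) := fun u v => by
      refine (coeffMap_polarSer _ _).trans (congrArg polarSer ?_)
      ext n
      simp only [P, diffPS, tailPS, PowerSeries.coeff_map, PowerSeries.coeff_mk, map_sub]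
      rw [hred _ (ZMod.val_coe_unit_coprime u), hred _ (ZMod.val_coe_unit_coprime v)]
    rw [← hr, ← hr]
    exact hd u v _ _ (hι u v) (hι (d * u) (d * v))
  · refine eq_one_or_neg_one_of_diffPS h hζ fun u v => polarSer_injective ?_
    have h1 := hser u v
    have h2 := hser (d * u) (d * v)
    rw [show (⟨coverFn (d * u) (d * v), coverFn_mem _ _⟩ : ↥(perMero 1)) =
      ⟨coverFn u v, coverFn_mem u v⟩ from Subtype.ext (hd u v), h1] at h2
    exact HahnSeries.ext (funext fun n =>
      jEmb.injective (congrArg (fun s : LaurentSeries ℂ => s.coeff n) h2))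

end Fermat.Agent.Row48.Cover

end
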