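import Fermat.Agent.Row48.Cover.GaloisFamily
import Fermat.Agent.Row48.Cover.FullLevel
import Fermat.Agent.Row48.Cover.Functions

/-!
# The family of level `M₀²` containing the generators of the cover

The functions `℘((a τ + b) / M₀) E₄ E₆ / Δ` and `j(d g τ)`, `d ∣ M₀²`, as functions of period
`M₀²`, with series integral at a prime not dividing `M₀`.
-/

set_option autoImplicit false

noncomputable section

open UpperHalfPlane ModularCurve CongruenceSubgroup Fermat.Agent.Reduction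
open scoped MatrixGroups Manifold Real

namespace Fermat.Agent.Row48.Cover

open X0Analytic (perMero qSer qp jFun jqC rot scaledJ scaleGL upperGL)
open Gamma0Count (CosetSpace)
open J0Torsion (jEmb)
open Mazur.Moduli

local notation "Qbar" => AlgebraicClosure ℚ
local notation "Δ" => ModularForm.discriminant

/-! ### Change of period -/

section Period

theorem qp_eq_pow_mul (h m : ℕ) [NeZero h] [NeZero m] (τ : ℍ) : qp h τ = qp (h * m) τ ^ m := by
  simp only [qp, Function.Periodic.qParam, ← Complex.exp_nat_mul]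
  congr 1
  have h1 : (h : ℂ) ≠ 0 := Nat.cast_ne_zero.mpr (NeZero.ne h)
  have h2 : (m : ℂ) ≠ 0 := Nat.cast_ne_zero.mpr (NeZero.ne m)
  push_cast
  field_simp

/-- A function of period `h` as a function of period `h m`. -/
theorem exists_widen (h m : ℕ) [NeZero h] [NeZero m] {f : ℍ → ℂ} (hf : f ∈ perMero h) :
    f ∈ perMero (h * m) ∧ ∀ hm : f ∈ perMero (h * m),
      qSer (h * m) ⟨f, hm⟩ = qExpand ℂ m (qSer h ⟨f, hf⟩) := by
  obtain ⟨hm, hs⟩ := X0Analytic.qSer_subst (h' := h * m) (M := m) (⟨f, hf⟩ : ↥(perMero h))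
    (fun τ => τ) mdifferentiable_id 1 one_ne_zero (fun τ => by rw [one_mul, qp_eq_pow_mul h m τ])
  rw [X0Analytic.rot_one] at hs
  exact ⟨hm, fun _ => hs⟩

theorem qSer_of_hasSum_width (h : ℕ) [NeZero h] {f : ℍ → ℂ} (hf : MDiff f) {a : ℕ → ℂ}
    (hs : ∀ τ : ℍ, HasSum (fun n => a n • qp h τ ^ n) (f τ)) :
    ∃ hm : f ∈ perMero h,
      qSer h ⟨f, hm⟩ = HahnSeries.ofPowerSeries ℤ ℂ (PowerSeries.mk a) := by
  have hp : X0Analytic.IsPer h f := fun τ => by
    have h1 := hs ((h : ℝ) +ᵥ τ)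
    simp only [X0Analytic.qp_vadd] at h1
    exact h1.unique (hs τ)
  have hb : IsBoundedAtImInfty (f * qp h ^ 0) := by
    simpa using isBoundedAtImInfty_of_hasSum_qExpansion (X0Analytic.hpos h) hs
  refine ⟨⟨hf, hp, 0, hb⟩, ?_⟩
  rw [X0Analytic.qSer_eq _ (m := 0) hb, X0Analytic.qSerAux]
  simp only [Nat.cast_zero, neg_zero, HahnSeries.single_zero_one, one_mul]
  congr 1
  ext n
  rw [pow_zero, mul_one, X0Analytic.qExpansion_coeff_eq_of_hasSum hf hp hs, PowerSeries.coeff_mk]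

/-- `E₄ E₆ / Δ`. -/
def polarFn (τ : ℍ) : ℂ := ModularForm.E₄ τ * ModularForm.E₆ τ / Δ τ

theorem polarFn_mem : ∃ h : polarFn ∈ perMero 1, qSer 1 ⟨polarFn, h⟩ = polarSer 1 := by
  have hd : MDiff polarFn := UpperHalfPlane.mdifferentiable_iff.mpr
    (((UpperHalfPlane.mdifferentiable_iff.mp ModularForm.E₄.holo').mul
      (UpperHalfPlane.mdifferentiable_iff.mp ModularForm.E₆.holo')).div
      (UpperHalfPlane.mdifferentiable_iff.mp CuspForm.discriminant.holo')
      fun _ _ => ModularForm.discriminant_ne_zero _)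
  have hp : X0Analytic.IsPer 1 polarFn := fun τ => by
    have h4 := X0Analytic.E4_mem.2.1 τ
    have h6 := E6_mem.2.1 τ
    have hΔ := X0Analytic.discriminant_mem.2.1 τ
    simp only [polarFn, h4, h6, hΔ]
  have hb : IsBoundedAtImInfty (polarFn * qp 1 ^ 1) := by
    have e : polarFn * qp 1 ^ 1 =
        fun τ : ℍ => ModularForm.E₄ τ * ModularForm.E₆ τ * (qp 1 τ / Δ τ) := funext fun τ => by
      simp only [polarFn, Pi.mul_apply, pow_one]
      ring
    rw [e]
    exact E4_E6_div_isBounded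
  have hm : polarFn ∈ perMero 1 := ⟨hd, hp, 1, hb⟩
  refine ⟨hm, ?_⟩
  have hne : qSer 1 ⟨Δ, X0Analytic.discriminant_mem⟩ ≠ 0 :=
    (map_ne_zero_iff _ X0Analytic.qSer_injective).mpr fun h =>
      ModularForm.discriminant_ne_zero UpperHalfPlane.I (congrFun (congrArg Subtype.val h) _)
  have hmul : (⟨polarFn, hm⟩ : ↥(perMero 1)) * ⟨Δ, X0Analytic.discriminant_mem⟩ =
      1 * ⟨_, X0Analytic.E4_mem⟩ * ⟨_, E6_mem⟩ := by
    refine Subtype.ext (funext fun τ => ?_)
    show polarFn τ * Δ τ = 1 * ModularForm.E₄ τ * ModularForm.E₆ τ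
    have hΔ := ModularForm.discriminant_ne_zero τ
    simp only [polarFn]
    field_simp
  refine mul_right_cancel₀ hne ?_
  rw [← map_mul, hmul, map_mul, map_mul, map_one,
    ← map_one (HahnSeries.ofPowerSeries ℤ ℂ), X0Analytic.qSer_E4, qSer_E6,
    X0Analytic.qSer_discriminant, polarSer]
  simp only [unitPS, map_mul (PowerSeries.map _)]
  refine neg_injective ((laurent_aux _ _ _ _ _ ?_).trans (neg_mul _ _))
  rw [← map_mul, mul_comm, ModularCurve.dedekindEtaUnit_mul_inv, map_one]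

end Period

variable {M : ℕ} [NeZero M]

/-- The series of `℘ E₄ E₆ / Δ` at a nonzero point of level `M`. -/
theorem qSer_wpFn {v : ZMod M × ZMod M} (hv : v ≠ 0) :
    ∃ hm : wpFn M v.1.val v.2.val ∈ perMero M,
      qSer M ⟨_, hm⟩ = HahnSeries.ofPowerSeries ℤ ℂ (PowerSeries.mk fun n =>
          (if n = 0 then 1 / 12 else 0) + wpCoeffM (zetaM M) v n) *
        qExpand ℂ M (polarSer 1) := by
  have harg : ∀ τ : ℍ, ptArg M (v.1.val : ℤ) (v.2.val : ℤ) τ = argM v τ := fun τ => by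
    simp [ptArg, argM]
  have hsum : ∀ T : ℍ, HasSum (fun n => ((if n = 0 then 1 / 12 else 0) + wpCoeffM (zetaM M) v n) •
      qp M T ^ n) (wpN (ptArg M (v.1.val : ℤ) (v.2.val : ℤ) T) T) := by
    intro T
    have h := hasSum_wpM hv ((scaleGL M)⁻¹ • T)
    rw [smul_inv_smul] at h
    have hq : qp 1 ((scaleGL M)⁻¹ • T) = qp M T := by
      have hT : (M : ℂ) * (((scaleGL M)⁻¹ • T : ℍ) : ℂ) = T := by
        rw [← X0Analytic.coe_scaleGL_smul, smul_inv_smul]
      have hM : (M : ℂ) ≠ 0 := Nat.cast_ne_zero.mpr (NeZero.ne M)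
      simp only [qp, Function.Periodic.qParam]
      congr 1
      push_cast
      rw [← hT]
      field_simp
    rw [hq] at h
    have h2 := (hasSum_ite_eq 0 (1 / 12 : ℂ)).add h
    rw [add_sub_cancel, ← harg] at h2
    refine h2.congr_fun fun n => ?_
    rcases eq_or_ne n 0 with rfl | hn
    · simp [smul_eq_mul]
    · simp [hn]
  obtain ⟨hW, hqW⟩ := qSer_of_hasSum_width M (wpN_ptArg_good (M := M) _ _).1 hsum
  obtain ⟨hP, hqP⟩ := polarFn_mem
  obtain ⟨hPM, hqPM⟩ := exists_widen 1 M hP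
  have hPM' : polarFn ∈ perMero M := by simpa using hPM
  refine ⟨mul_mem hW hPM', ?_⟩
  rw [show (⟨wpFn M v.1.val v.2.val, mul_mem hW hPM'⟩ : ↥(perMero M)) = ⟨_, hW⟩ * ⟨_, hPM'⟩ from
    rfl, map_mul, hqW]
  congr 1
  obtain ⟨hx, hy⟩ := X0Analytic.qSer_subst (h' := M) (M := M) (⟨polarFn, hP⟩ : ↥(perMero 1))
    (fun τ => τ) mdifferentiable_id 1 one_ne_zero
    (fun τ => by rw [one_mul, X0Analytic.qp_one_eq_pow M τ])
  rw [X0Analytic.rot_one, hqP] at hy
  exact hy

/-! ### The index set and its action -/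

/-- Indices: `(d, coset)` and points of order dividing `M`. -/
inductive CovIdx (M : ℕ) [NeZero M] : Type
  | jay (d : (lev M).divisors) (x : CosetSpace (lev M))
  | pt (v w : ZMod M × ZMod M)

namespace CovIdx

/-- The indices as a sum type. -/
def equivSum : CovIdx M ≃
    ((lev M).divisors × CosetSpace (lev M)) ⊕ ((ZMod M × ZMod M) × (ZMod M × ZMod M)) where
  toFun i := match i with
    | .jay d x => Sum.inl (d, x)
    | .pt v w => Sum.inr (v, w)
  invFun s := match s with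
    | Sum.inl (d, x) => .jay d x
    | Sum.inr (v, w) => .pt v w
  left_inv i := by cases i <;> rfl
  right_inv s := by rcases s with ⟨d, x⟩ | ⟨v, w⟩ <;> rfl

instance : Fintype (CovIdx M) := Fintype.ofEquiv _ equivSum.symm

/-- Right multiplication of a row vector modulo `M` by the inverse. -/
def vecAct (δ : SL(2, ℤ)) (v : ZMod M × ZMod M) : ZMod M × ZMod M :=
  (v.1 * ((δ⁻¹ : SL(2, ℤ)) 0 0 : ℤ) + v.2 * ((δ⁻¹ : SL(2, ℤ)) 1 0 : ℤ),
    v.1 * ((δ⁻¹ : SL(2, ℤ)) 0 1 : ℤ) + v.2 * ((δ⁻¹ : SL(2, ℤ)) 1 1 : ℤ))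

instance : MulAction SL(2, ℤ) (CovIdx M) where
  smul δ i := match i with
    | .jay d x => .jay d (δ • x)
    | .pt v w => .pt (vecAct δ v) (vecAct δ w)
  one_smul i := by
    cases i with
    | jay d x => exact congrArg (CovIdx.jay d) (one_smul _ x)
    | pt v w => exact congrArg₂ CovIdx.pt (by simp [vecAct]) (by simp [vecAct])
  mul_smul a b i := by
    cases i with
    | jay d x => exact congrArg (CovIdx.jay d) (mul_smul a b x)
    | pt v w =>
      refine congrArg₂ CovIdx.pt ?_ ?_ <;>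
      · simp only [vecAct, mul_inv_rev, Matrix.SpecialLinearGroup.coe_mul, Matrix.mul_apply,
          Fin.sum_univ_two]
        push_cast
        ext <;> simp <;> ring

theorem smul_jay (δ : SL(2, ℤ)) (d : (lev M).divisors) (x : CosetSpace (lev M)) :
    δ • jay d x = jay d (δ • x) := rfl

theorem smul_pt (δ : SL(2, ℤ)) (v w : ZMod M × ZMod M) :
    δ • pt v w = pt (vecAct δ v) (vecAct δ w) := rfl

theorem Gamma_smul {δ : SL(2, ℤ)} (hδ : δ ∈ Gamma (lev M)) (i : CovIdx M) : δ • i = i := by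
  cases i with
  | jay d x =>
    refine congrArg (CovIdx.jay d) ?_
    induction x using QuotientGroup.induction_on with
    | H g =>
      rw [MulAction.Quotient.smul_coe, smul_eq_mul, QuotientGroup.eq]
      have h := (Gamma_normal (lev M)).conj_mem _ (inv_mem hδ) g⁻¹
      rw [inv_inv] at h
      have h' : (g⁻¹ * δ * g)⁻¹ ∈ Gamma (lev M) := by
        simpa [mul_assoc] using h
      rw [show (δ * g)⁻¹ * g = (g⁻¹ * δ * g)⁻¹ by group]
      obtain ⟨-, -, h10, -⟩ := Gamma_mem.mp h'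
      exact Gamma0_mem.mpr h10
  | pt v w =>
    refine congrArg₂ CovIdx.pt ?_ ?_
    all_goals
      have hm : ∀ {z y : ℤ}, ((z : ℤ) : ZMod (lev M)) = (y : ZMod (lev M)) →
          ((z : ℤ) : ZMod M) = (y : ZMod M) := fun {z y} h => by
        have := congrArg (ZMod.castHom (dvd_mul_right M M) (ZMod M)) h
        simpa using this
      obtain ⟨h00, h01, h10, h11⟩ := Gamma_mem.mp (inv_mem hδ)
      simp [vecAct, -Matrix.SpecialLinearGroup.coe_inv, hm (y := 1) (by rw [h00]; simp),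
        hm (y := 0) (by rw [h01]; simp),
        hm (y := 0) (by rw [h10]; simp), hm (y := 1) (by rw [h11]; simp)]

end CovIdx

theorem vecAct_eq_zero_iff (δ : SL(2, ℤ)) (v : ZMod M × ZMod M) :
    CovIdx.vecAct δ v = 0 ↔ v = 0 := by
  refine ⟨fun h => ?_, fun h => by simp [CovIdx.vecAct, h]⟩
  have h1 : δ⁻¹ • (δ • CovIdx.pt v v) = CovIdx.pt v v := inv_smul_smul δ _
  rw [CovIdx.smul_pt, h, CovIdx.smul_pt] at h1
  rw [← (CovIdx.pt.inj h1).1]
  simp [CovIdx.vecAct]

/-- The functions of the family. -/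
def covFn : CovIdx M → ↥(perMero (lev M))
  | .jay d x => X0Analytic.conj x
      (haveI : NeZero (d : ℕ) := ⟨(Nat.pos_of_mem_divisors d.2).ne'⟩
       ⟨scaledJ (d : ℕ), X0Analytic.scaledJ_mem (Nat.dvd_of_mem_divisors d.2)⟩)
  | .pt v w => if v = 0 ∨ w = 0 then 0 else
      ⟨wpFn M v.1.val v.2.val, wpFn_mem (dvd_mul_right M M) _ _⟩ -
        ⟨wpFn M w.1.val w.2.val, wpFn_mem (dvd_mul_right M M) _ _⟩

theorem covFn_equivariant (δ : SL(2, ℤ)) (i : CovIdx M) (τ : ℍ) :
    (covFn i : ℍ → ℂ) (δ • τ) = (covFn (δ⁻¹ • i) : ℍ → ℂ) τ := by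
  cases i with
  | jay d x =>
    rw [CovIdx.smul_jay, covFn, covFn, X0Analytic.conj_smul_apply, inv_inv]
  | pt v w =>
    rw [CovIdx.smul_pt]
    by_cases hv : v = 0 ∨ w = 0
    · rw [covFn, covFn, if_pos hv, if_pos (hv.imp (vecAct_eq_zero_iff _ _).mpr
        (vecAct_eq_zero_iff _ _).mpr)]
      rfl
    · rw [covFn, covFn, if_neg hv, if_neg fun h => hv (h.imp (vecAct_eq_zero_iff _ _).mp
        (vecAct_eq_zero_iff _ _).mp)]
      show wpFn M _ _ (δ • τ) - wpFn M _ _ (δ • τ) = wpFn M _ _ τ - wpFn M _ _ τ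
      rw [wpFn_smul, wpFn_smul]
      congr 1 <;>
      · refine congrFun (wpFn_congr ?_ ?_) τ <;> simp [CovIdx.vecAct]

/-! ### Integrality -/

section Integral

variable {A : ValuationSubring Qbar} {p : ℕ} (hp : p.Prime) (hA : A.LiesOverPrime p)
  (hpM : ¬ p ∣ M)

/-- `A` inside `ℂ`. -/
abbrev embA (A : ValuationSubring Qbar) : A →+* ℂ := jEmb.comp A.subtype

theorem embA_injective : Function.Injective (embA A) :=
  jEmb.injective.comp Subtype.val_injective

/-- A series over `A` for a function of period `W`. -/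
def HasSerA (A : ValuationSubring Qbar) (W : ℕ) [NeZero W] (f : ↥(perMero W)) : Prop :=
  ∃ s : LaurentSeries A, coeffMap (embA A) s = qSer W f

include hp hA hpM in
theorem wpCoeffM_mem {z : Qbar} (hz : IsPrimitiveRoot z M) {v : ZMod M × ZMod M} (hv : v ≠ 0)
    (n : ℕ) : wpCoeffM z v n ∈ A := by
  rw [← A.valuation_le_one_iff]
  have h1 : ∀ k : ℕ, A.valuation (z ^ k) = 1 := valuation_root_pow hz
  unfold wpCoeffM
  split_ifs with hn ha
  · have hne : z ^ v.2.val ≠ 1 := fun h => hv (Prod.ext ha ((ZMod.val_eq_zero _).mp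
      (Nat.eq_zero_of_dvd_of_lt ((hz.pow_eq_one_iff_dvd _).mp h) (ZMod.val_lt _))))
    have hord : orderOf (z ^ v.2.val) ∣ M :=
      orderOf_dvd_of_pow_eq_one (by rw [← pow_mul, mul_comm, pow_mul, hz.pow_eq_one, one_pow])
    have : NeZero (orderOf (z ^ v.2.val)) :=
      ⟨fun h => NeZero.ne M (Nat.eq_zero_of_zero_dvd (h ▸ hord))⟩
    have hlt : 1 < orderOf (z ^ v.2.val) := by
      have h' : orderOf (z ^ v.2.val) ≠ 1 := fun h => hne (orderOf_eq_one_iff.mp h)
      have := NeZero.ne (orderOf (z ^ v.2.val))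
      omega
    rw [geomDeriv, map_div₀, h1, map_pow, valuation_one_sub_root hp hA (fun h => hpM (h.trans hord))
      (IsPrimitiveRoot.orderOf _) hlt, one_pow, div_one]
  · simp
  · refine A.valuation.map_sum_le fun x _ => ?_
    refine MultRed.vmul_le_left (MultRed.vnatCast_le _ _)
      (A.valuation.map_sub_le (A.valuation.map_add_le ?_ ?_) ?_)
    all_goals split_ifs
    all_goals first
      | (rw [map_inv₀, ← pow_mul, h1, inv_one])
      | (rw [← pow_mul, h1])
      | exact MultRed.vofNat_le _ 2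
      | simp

include hp hA hpM in
theorem hasSerA_pt (v w : ZMod M × ZMod M) : HasSerA A (lev M) (covFn (.pt v w)) := by
  by_cases hv : v = 0 ∨ w = 0
  · exact ⟨0, by rw [covFn, if_pos hv, map_zero, map_zero]⟩
  obtain ⟨hv0, hw0⟩ := not_or.mp hv
  obtain ⟨z, hzj, hz⟩ := exists_zetaBar (M := M)
  let P : PowerSeries A := PowerSeries.mk fun n =>
    ⟨wpCoeffM z v n, wpCoeffM_mem hp hA hpM hz hv0 n⟩ -
      ⟨wpCoeffM z w n, wpCoeffM_mem hp hA hpM hz hw0 n⟩
  refine ⟨qExpand A M (HahnSeries.ofPowerSeries ℤ A P * qExpand A M (polarSer 1)), ?_⟩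
  obtain ⟨hm, hs⟩ := qSer_wpFn hv0
  obtain ⟨hm', hs'⟩ := qSer_wpFn hw0
  rw [covFn, if_neg hv, map_sub, (exists_widen M M hm).2 _, (exists_widen M M hm').2 _, hs, hs',
    coeffMap_qExpand, ← map_sub (qExpand ℂ M), RingHom.map_mul (coeffMap (embA A)),
    coeffMap_qExpand, coeffMap_polarSer, map_one, coeffMap_ofPowerSeries, ← sub_mul,
    ← map_sub (HahnSeries.ofPowerSeries ℤ ℂ)]
  refine congrArg (fun Q => qExpand ℂ M (HahnSeries.ofPowerSeries ℤ ℂ Q * _)) ?_
  ext n
  simp only [P, PowerSeries.coeff_map, PowerSeries.coeff_mk, map_sub]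
  show jEmb (wpCoeffM z v n) - jEmb (wpCoeffM z w n) = _
  rw [map_wpCoeffM, map_wpCoeffM, hzj, zetaM]
  abel

include hp hA hpM in
theorem mem_of_pow_lev_eq_one {x : Qbar} (hx : x ^ lev M = 1) : x ∈ A := by
  have _ := hp
  have _ := hA
  have _ := hpM
  rw [← A.valuation_le_one_iff]
  have h : A.valuation x ^ lev M = 1 := by rw [← map_pow, hx, map_one]
  exact ((pow_eq_one_iff_of_nonneg zero_le (NeZero.ne (lev M))).mp h).le

include hp hA hpM in
theorem exists_unit_of_pow_eq_one {c : ℂ} (hc : c ^ lev M = 1) :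
    ∃ u : Aˣ, embA A u = c ∧ u ^ lev M = 1 := by
  obtain ⟨z, hzj, hz⟩ := exists_zetaBar (M := lev M)
  obtain ⟨i, -, hi⟩ := (hz.map_of_injective jEmb.injective).eq_pow_of_pow_eq_one hc
  have hx : (⟨z ^ i, mem_of_pow_lev_eq_one hp hA hpM (by
      rw [← pow_mul, mul_comm, pow_mul, hz.pow_eq_one, one_pow])⟩ : A) ^ lev M = 1 :=
    Subtype.ext (by
      push_cast
      rw [← pow_mul, mul_comm, pow_mul, hz.pow_eq_one, one_pow])
  refine ⟨Units.ofPowEqOne _ _ hx (NeZero.ne _), ?_, Units.ext (by simp)⟩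
  show jEmb (z ^ i) = c
  rw [map_pow, hi]

theorem coeffMap_scale_eq_rot {R : Type*} [CommRing R] (e : R →+* ℂ) (u : Rˣ) {c : ℂ} (hc : c ≠ 0)
    (h : e u = c) (x : LaurentSeries R) :
    coeffMap e (Igusa.scale u x) = rot c hc (coeffMap e x) := by
  ext n
  rw [coeffMap_coeff, Igusa.scale_coeff, X0Analytic.rot_coeff, coeffMap_coeff, map_mul]
  congr 1
  have : Units.map (e : R →* ℂ) u = Units.mk0 c hc := Units.ext h
  have h2 := congrArg (fun w : ℂˣ => ((w ^ n : ℂˣ) : ℂ)) this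
  rw [← map_zpow, Units.val_zpow_eq_zpow_val, Units.val_mk0] at h2
  exact h2

include hp hA hpM in
theorem hasSerA_jay (d : (lev M).divisors) (x : CosetSpace (lev M)) :
    HasSerA A (lev M) (covFn (.jay d x)) := by
  obtain ⟨d, hd⟩ := d
  have hdvd := Nat.dvd_of_mem_divisors hd
  have : NeZero d := ⟨(Nat.pos_of_mem_divisors hd).ne'⟩
  induction x using QuotientGroup.induction_on with
  | H g =>
    obtain ⟨γ, a, b, D, _, _, haD, -, hτ⟩ := X0Analytic.exists_decomp d g⁻¹
    obtain ⟨k, hk⟩ := hdvd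
    have hM' : (a * a * k) * D = a * lev M := by rw [hk, ← haD]; ring
    have : NeZero (a * a * k) := ⟨fun h => by
      rw [h, zero_mul] at hM'
      exact mul_ne_zero (NeZero.ne a) (NeZero.ne (lev M)) hM'.symm⟩
    have hD : D ∣ lev M := by rw [hk, ← haD]; exact ⟨a * k, by ring⟩
    set c := Complex.exp (2 * π * Complex.I * b / D) with hc
    obtain ⟨hmem, hser⟩ := X0Analytic.qSer_subst (h' := lev M) (M := a * a * k)
      (⟨jFun, X0Analytic.jFun_mem⟩ : ↥(perMero 1)) (fun τ => upperGL a b D • τ)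
      (mdifferentiable_smul (X0Analytic.det_pos_upperGL a b D)) c (Complex.exp_ne_zero _)
      (X0Analytic.qp_one_upperGL a b D (lev M) _ hM')
    rw [X0Analytic.qSer_jFun] at hser
    have hcW : c ^ lev M = 1 := by
      obtain ⟨e, he⟩ := hD
      rw [hc, ← Complex.exp_nat_mul, Complex.exp_eq_one_iff]
      refine ⟨b * e, ?_⟩
      have hD0 : (D : ℂ) ≠ 0 := Nat.cast_ne_zero.mpr (NeZero.ne D)
      rw [he]
      push_cast
      field_simp
    obtain ⟨u, hu, -⟩ := exists_unit_of_pow_eq_one hp hA hpM hcW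
    refine ⟨qExpand A (a * a * k) (Igusa.scale u (jqModC A)), ?_⟩
    rw [coeffMap_qExpand, coeffMap_scale_eq_rot _ u (Complex.exp_ne_zero _) hu, coeffMap_jqModC,
      show jqModC ℂ = jqC from (coeffMap_jqModC _).symm, ← hser]
    refine congrArg _ (Subtype.ext (funext fun τ => ?_))
    show jFun (upperGL a b D • τ) = scaledJ d (g⁻¹ • τ)
    rw [scaledJ, hτ, X0Analytic.jFun_smul]

include hp hA hpM in
theorem hasSerA_covFn (i : CovIdx M) : HasSerA A (lev M) (covFn i) := by
  cases i with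
  | jay d x => exact hasSerA_jay hp hA hpM d x
  | pt v w => exact hasSerA_pt hp hA hpM v w

/-- The family at `A`. -/
def covFamily : ModFamily (lev M) (CovIdx M) A (embA A) where
  f := covFn
  equivariant := covFn_equivariant
  s i := (hasSerA_covFn hp hA hpM i).choose
  series i := (hasSerA_covFn hp hA hpM i).choose_spec

end Integral

end Fermat.Agent.Row48.Cover

end
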