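import Fermat.Agent.Row48.Cover.Defs
import Fermat.Agent.J0Torsion.Main
import Fermat.Agent.Reduction.Series
import Fermat.Prelude.Def_ModularCurve_X0ModL
import Fermat.Prelude.Def_FLTPrelim_Ramification

/-!
# The functions generating the cover

`CoverFns M₀` is a family of functions `F u v` on `ℍ`, permuted by `Γ₀(M₀²)` through the lower
right entry modulo `M₀`, with cyclotomic integral `q`-series whose reductions separate the deck
group `(ℤ/M₀)ˣ/±1` at every prime not dividing `M₀`.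
-/

set_option autoImplicit false

noncomputable section

open CongruenceSubgroup UpperHalfPlane ModularCurve IntermediateField Fermat.Agent.Reduction
open scoped MatrixGroups

namespace Fermat.Agent.Row48.Cover

open X0Analytic (perMero qSer qp)
open J0Torsion (jEmb)

local notation "Qbar" => AlgebraicClosure ℚ

/-- Generators of the function field of the cover. -/
structure CoverFns (M₀ : ℕ) [NeZero M₀] where
  /-- the functions -/
  F : (ZMod M₀)ˣ → (ZMod M₀)ˣ → ℍ → ℂ
  /-- their series -/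
  ser : (ZMod M₀)ˣ → (ZMod M₀)ˣ → LaurentSeries Qbar
  neg : ∀ u v, F (-u) (-v) = F u v
  smul : ∀ (u v d : (ZMod M₀)ˣ) (γ : SL(2, ℤ)), γ ∈ Gamma0 (lev M₀) →
    ((γ 1 1 : ℤ) : ZMod M₀) = (d : ZMod M₀) → ∀ τ, F u v (γ • τ) = F (d * u) (d * v) τ
  cusp : ∀ (u v : (ZMod M₀)ˣ) (g : SL(2, ℤ)), (fun τ : ℍ => F u v (g • τ)) ∈ perMero (lev M₀)
  mem : ∀ u v, F u v ∈ perMero 1
  qSer_eq : ∀ u v, qSer 1 ⟨F u v, mem u v⟩ = coeffMap jEmb (ser u v)
  galois : ∀ (σ : Qbar →+* Qbar) (d : (ZMod M₀)ˣ),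
    (∀ μ : Qbar, μ ^ M₀ = 1 → σ μ = μ ^ (d : ZMod M₀).val) →
      ∀ u v, coeffMap σ (ser u v) = ser (d * u) (d * v)
  integral : ∀ (A : ValuationSubring Qbar) (p : ℕ), p.Prime → ¬ p ∣ M₀ → A.LiesOverPrime p →
    ∀ u v, ∃ y : LaurentSeries A, ιS A y = ser u v
  separates : ∀ (A : ValuationSubring Qbar) (p : ℕ), p.Prime → ¬ p ∣ M₀ → A.LiesOverPrime p →
    ∀ d : (ZMod M₀)ˣ, (∀ u v (y z : LaurentSeries A), ιS A y = ser u v →
      ιS A z = ser (d * u) (d * v) → redS A y = redS A z) → d = 1 ∨ d = -1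
  separatesℂ : ∀ d : (ZMod M₀)ˣ, (∀ u v, F (d * u) (d * v) = F u v) → d = 1 ∨ d = -1

namespace CoverFns

variable {M₀ : ℕ} [NeZero M₀] (C : CoverFns M₀)

/-- The generators of the field of the cover over `ℚ̄`. -/
def gens : Set (LaurentSeries Qbar) :=
  divisorExpansionsC Qbar (lev M₀) ∪ Set.range (fun x : (ZMod M₀)ˣ × (ZMod M₀)ˣ => C.ser x.1 x.2)

/-- The function field of the cover over `ℚ̄`. -/
def field : IntermediateField Qbar (LaurentSeries Qbar) := adjoin Qbar C.gens

/-- The function field of the cover over `ℂ`. -/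
def fieldC : IntermediateField ℂ (LaurentSeries ℂ) :=
  adjoin ℂ (coeffMap jEmb '' C.gens)

/-- The reduced function field at a valuation ring. -/
def fieldK (A : ValuationSubring Qbar) :
    IntermediateField (IsLocalRing.ResidueField A) (LaurentSeries (IsLocalRing.ResidueField A)) :=
  adjoin (IsLocalRing.ResidueField A)
    (divisorExpansionsC (IsLocalRing.ResidueField A) (lev M₀) ∪
      redS A '' {y : LaurentSeries A | ∃ u v, ιS A y = C.ser u v})

end CoverFns

end Fermat.Agent.Row48.Cover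

end
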