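import Fermat.Agent.Row48.Cover.AlgSeries
import Fermat.Agent.EigenRep.Cyclotomic

/-!
# The action on roots of unity of order `M` as a character of the Galois group
-/

set_option autoImplicit false

noncomputable section

open scoped Pointwise

namespace Fermat.Agent.Row48.Cover

local notation "Qbar" => AlgebraicClosure ℚ
local notation "Γℚ" => (AlgebraicClosure ℚ ≃ₐ[ℚ] AlgebraicClosure ℚ)

variable (M : ℕ) [NeZero M]

theorem galChar_eq {σ : Qbar →+* Qbar} {ζ : Qbar} (hζ : IsPrimitiveRoot ζ M) {d : (ZMod M)ˣ}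
    (h : σ ζ = ζ ^ (d : ZMod M).val) : galChar M σ = d :=
  Units.ext (ZMod.val_injective M (hζ.pow_inj (ZMod.val_lt _) (ZMod.val_lt _)
    ((galChar_spec M σ hζ.pow_eq_one).symm.trans h)))

/-- The action on `M`-th roots of unity. -/
def galCharHom : Γℚ →* (ZMod M)ˣ where
  toFun σ := galChar M (σ : Qbar →+* Qbar)
  map_one' := by
    obtain ⟨ζ, hζ⟩ := HasEnoughRootsOfUnity.exists_primitiveRoot Qbar M
    refine galChar_eq M hζ ?_
    rcases eq_or_ne M 1 with rfl | hM
    · simp [IsPrimitiveRoot.one_right_iff.mp hζ]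
    · have : Fact (1 < M) := ⟨by have := NeZero.ne M; omega⟩
      simp [ZMod.val_one]
  map_mul' σ τ := by
    obtain ⟨ζ, hζ⟩ := HasEnoughRootsOfUnity.exists_primitiveRoot Qbar M
    refine galChar_eq M hζ ?_
    show (σ * τ) ζ = _
    rw [AlgEquiv.mul_apply, show τ ζ = (τ : Qbar →+* Qbar) ζ from rfl,
      galChar_spec M (τ : Qbar →+* Qbar) hζ.pow_eq_one, map_pow,
      show σ ζ = (σ : Qbar →+* Qbar) ζ from rfl, galChar_spec M (σ : Qbar →+* Qbar) hζ.pow_eq_one,
      ← pow_mul, Units.val_mul, ZMod.val_mul]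
    exact pow_eq_pow_mod _ hζ.pow_eq_one

theorem galCharHom_apply (σ : Γℚ) : galCharHom M σ = galChar M (σ : Qbar →+* Qbar) := rfl

theorem galCharHom_of_residue {A : ValuationSubring Qbar} {σ : Γℚ} {m : ℕ}
    (hσ : σ ∈ A.decompositionSubgroup ℚ)
    (hM : (M : IsLocalRing.ResidueField A) ≠ 0)
    (h : ∀ x : IsLocalRing.ResidueField A,
      (⟨σ, hσ⟩ : A.decompositionSubgroup ℚ) • x = x ^ m)
    {k : (ZMod M)ˣ} (hk : (k : ZMod M) = (m : ZMod M)) : galCharHom M σ = k := by
  obtain ⟨ζ, hζ⟩ := HasEnoughRootsOfUnity.exists_primitiveRoot Qbar M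
  refine galChar_eq M hζ ?_
  let z : A := ⟨ζ, Frobenius.mem_of_isIntegral A (hζ.isIntegral (NeZero.pos M))⟩
  have hz : z ^ M = 1 := Subtype.ext hζ.pow_eq_one
  set w : A := (⟨σ, hσ⟩ : A.decompositionSubgroup ℚ) • z with hw
  have hwM : w ^ M = 1 := by rw [hw, ← smul_pow', hz, smul_one]
  have hres : IsLocalRing.residue A w = IsLocalRing.residue A (z ^ m) := by
    rw [map_pow, ← h, IsLocalRing.ResidueField.residue_smul]
  have hzz : (z ^ (m * (M - 1))) * z ^ m = 1 := by
    rw [← pow_add, show m * (M - 1) + m = M * m by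
      rw [← Nat.mul_succ, Nat.succ_eq_add_one, Nat.sub_add_cancel (NeZero.pos M), mul_comm],
      pow_mul, hz, one_pow]
  have h1 : w * z ^ (m * (M - 1)) = 1 := by
    refine EigenRep.eq_one_of_residue_eq_one hM ?_ ?_
    · rw [mul_pow, hwM, one_mul, ← pow_mul, mul_comm, pow_mul, hz, one_pow]
    · rw [map_mul, hres, ← map_mul, mul_comm, hzz, map_one]
  have h2 : w = z ^ m := by
    calc w = w * (z ^ (m * (M - 1)) * z ^ m) := by rw [hzz, mul_one]
      _ = z ^ m := by rw [← mul_assoc, h1, one_mul]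
  have h3 : σ ζ = ζ ^ m := congrArg Subtype.val h2
  show σ ζ = _
  rw [h3, hk, ZMod.val_natCast]
  exact pow_eq_pow_mod _ hζ.pow_eq_one

variable {M}

omit [NeZero M] in
theorem natCast_residue_ne_zero {p : ℕ} (hp : p.Prime) (hpM : p.Coprime M)
    {A : ValuationSubring Qbar} (hA : A.LiesOverPrime p) :
    (M : IsLocalRing.ResidueField A) ≠ 0 := by
  have := Frobenius.residueField_charP hp hA
  rw [Ne, CharP.cast_eq_zero_iff _ p]
  exact (hp.coprime_iff_not_dvd).mp hpM

theorem galCharHom_frobenius {p : ℕ} (hp : p.Prime) (hpM : p.Coprime M)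
    {A : ValuationSubring Qbar} (hA : A.LiesOverPrime p) {σ : Γℚ}
    (hσ : A.IsFrobeniusAt σ p) : galCharHom M σ = ZMod.unitOfCoprime p hpM :=
  galCharHom_of_residue M hσ.mem_decompositionSubgroup (natCast_residue_ne_zero hp hpM hA)
    hσ.smul_residue_eq (ZMod.coe_unitOfCoprime p hpM)

theorem galCharHom_inertia {p : ℕ} (hp : p.Prime) (hpM : p.Coprime M)
    {A : ValuationSubring Qbar} (hA : A.LiesOverPrime p) {σ : Γℚ}
    (hσ : σ ∈ A.inertiaSubgroupIn ℚ) : galCharHom M σ = 1 := by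
  obtain ⟨h, hx⟩ := Frobenius.mem_inertiaSubgroupIn_iff.mp hσ
  exact galCharHom_of_residue M (m := 1) h (natCast_residue_ne_zero hp hpM hA)
    (by simpa using hx) (by simp)

/-- The character on roots of unity has finite level. -/
theorem exists_level_galCharHom :
    ∃ L : IntermediateField ℚ Qbar, FiniteDimensional ℚ L ∧
      ∀ σ : Γℚ, (∀ x ∈ L, σ x = x) → galCharHom M σ = 1 := by
  obtain ⟨ζ, hζ⟩ := HasEnoughRootsOfUnity.exists_primitiveRoot Qbar M
  refine ⟨IntermediateField.adjoin ℚ {ζ}, IntermediateField.adjoin.finiteDimensional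
    (hζ.isIntegral (NeZero.pos M)).tower_top, fun σ h => galChar_eq M hζ ?_⟩
  rcases eq_or_ne M 1 with rfl | hM
  · simp [IsPrimitiveRoot.one_right_iff.mp hζ]
  · have : Fact (1 < M) := ⟨by have := NeZero.ne M; omega⟩
    rw [Units.val_one, ZMod.val_one, pow_one]
    exact h ζ (IntermediateField.mem_adjoin_simple_self ℚ ζ)

end Fermat.Agent.Row48.Cover

end
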