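import Fermat.Agent.Reduction.Gauss

/-!
# Representatives inside a subring containing the generators

The numerator and denominator of a function in a series model can be taken in any subring of
integral series that contains the generators and the constants.
-/

set_option autoImplicit false

noncomputable section

namespace Fermat.Agent.Reduction

open IsLocalRing ModularCurve HahnSeries IntermediateField Polynomial

variable {L : Type*} [Field L] {A : ValuationSubring L}
  {F : IntermediateField L (LaurentSeries L)}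
  {Fk : IntermediateField (ResidueField A) (LaurentSeries (ResidueField A))}

namespace SeriesModel

variable (M : SeriesModel A F Fk) [FiniteDimensional (ResidueField A)⟮M.jK⟯ Fk]
  [FiniteDimensional L⟮M.jF⟯ F]
  (hdeg : Module.finrank L⟮M.jF⟯ F ≤ Module.finrank (ResidueField A)⟮M.jK⟯ Fk)

include hdeg in
/-- Every nonzero function is a constant times a ratio of elements with nonzero reductions of
a given subring containing the generators and the constants. -/
theorem exists_rep_subring (S : Subring (LaurentSeries A)) (hS : M.gens ⊆ S)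
    (hSc : ∀ a : A, HahnSeries.C a ∈ S) {x : F} (hx : x ≠ 0) :
    ∃ (c : L) (P Q : LaurentSeries A), c ≠ 0 ∧
      ιS A Q * (x : LaurentSeries L) = HahnSeries.single 0 c * ιS A P ∧
      P ∈ S ∧ Q ∈ S ∧ redS A P ≠ 0 ∧ redS A Q ≠ 0 := by
  classical
  have hev : ∀ p : A[X], M.evalJ p ∈ S := fun p => by
    induction p using Polynomial.induction_on' with
    | add p q hp hq => rw [map_add]; exact add_mem hp hq
    | monomial n a =>
      rw [evalJ, coe_eval₂RingHom, eval₂_monomial]
      exact mul_mem (hSc a) (pow_mem (hS M.j_mem) n)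
  have hli := M.linearIndependent_basisLift
  have hspan : Submodule.span L⟮M.jF⟯
      (Set.range fun i => (⟨_, (M.basisLift_mem i).1⟩ : F)) = ⊤ := by
    refine hli.span_eq_top_of_card_eq_finrank' ?_
    refine le_antisymm ?_ ?_
    · exact hli.fintype_card_le_finrank
    · rw [Fintype.card_fin]; exact hdeg
  obtain ⟨a, ha⟩ := (Submodule.mem_span_range_iff_exists_fun _).mp
    (hspan ▸ Submodule.mem_top : x ∈ _)
  choose p s hs hps using fun i => exists_aeval_mul_eq M.transcendental_jF (a i)
  set S₀ := ∏ m, s m with hS₀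
  let P : Fin (Module.finrank (ResidueField A)⟮M.jK⟯ Fk) → L[X] := fun l =>
    p l * ∏ m ∈ Finset.univ.erase l, s m
  have hsum : aeval M.jF S₀ * x =
      ∑ l, aeval M.jF (P l) * (⟨_, (M.basisLift_mem l).1⟩ : F) := by
    rw [← ha, Finset.mul_sum]
    refine Finset.sum_congr rfl fun l _ => ?_
    rw [hS₀, ← Finset.mul_prod_erase Finset.univ s (Finset.mem_univ l), map_mul, map_mul, ← hps]
    rw [IntermediateField.smul_def, smul_eq_mul]
    ring
  have hS₀0 : S₀ ≠ 0 := Finset.prod_ne_zero_iff.mpr fun m _ => hs m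
  set d := max S₀.natDegree (Finset.univ.sup (fun l => (P l).natDegree)) with hd
  -- scale numerator and denominator separately
  have hscale : ∀ (T : L[X]), T.natDegree ≤ d →
      ∀ (c₀ : L) (b : Fin (d + 1) → A), (∀ n : Fin (d + 1), T.coeff n = c₀ * (b n : L)) →
      T = Polynomial.C c₀ *
        (∑ n : Fin (d + 1), Polynomial.C (b n) * Polynomial.X ^ (n : ℕ)).map A.subtype := by
    intro T hT c₀ b hb
    conv_lhs => rw [Polynomial.as_sum_range' T (d + 1) (Nat.lt_succ_of_le hT)]
    rw [← Fin.sum_univ_eq_sum_range (fun k => monomial k (T.coeff k)), Polynomial.map_sum,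
      Finset.mul_sum]
    refine Finset.sum_congr rfl fun n _ => ?_
    rw [Polynomial.map_mul, Polynomial.map_pow, Polynomial.map_C, Polynomial.map_X, ← mul_assoc,
      ← map_mul, ← C_mul_X_pow_eq_monomial]
    exact congrArg (fun z => Polynomial.C z * _) (hb n)
  have hx' : ∃ l, P l ≠ 0 := by
    by_contra hall
    push Not at hall
    simp only [hall, map_zero, zero_mul, Finset.sum_const_zero, mul_eq_zero] at hsum
    exact hsum.elim (fun h => hS₀0 (transcendental_iff.mp M.transcendental_jF _ h)) hx
  obtain ⟨cs, bs, hcs, hbs, ns, hns⟩ := exists_scale A (fun n : Fin (d + 1) => S₀.coeff n)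
    ⟨⟨S₀.natDegree, Nat.lt_succ_of_le (le_max_left _ _)⟩, by simpa using hS₀0⟩
  have hPd : ∀ l, (P l).natDegree ≤ d := fun l =>
    (Finset.le_sup (f := fun l => (P l).natDegree) (Finset.mem_univ l)).trans (le_max_right _ _)
  obtain ⟨cp, bp, hcp, hbp, ⟨lp, np⟩, hnp⟩ := exists_scale A
    (fun z : Fin (Module.finrank (ResidueField A)⟮M.jK⟯ Fk) × Fin (d + 1) => (P z.1).coeff z.2)
    (by
      obtain ⟨l, hl⟩ := hx'
      exact ⟨⟨l, ⟨(P l).natDegree, Nat.lt_succ_of_le (hPd l)⟩⟩, by simpa using hl⟩)
  let qs : A[X] := ∑ n : Fin (d + 1), Polynomial.C (bs n) * Polynomial.X ^ (n : ℕ)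
  let qp : Fin (Module.finrank (ResidueField A)⟮M.jK⟯ Fk) → A[X] := fun l =>
    ∑ n : Fin (d + 1), Polynomial.C (bp (l, n)) * Polynomial.X ^ (n : ℕ)
  have hqs : S₀ = Polynomial.C cs * qs.map A.subtype :=
    hscale S₀ (le_max_left _ _) cs bs hbs
  have hqp : ∀ l, P l = Polynomial.C cp * (qp l).map A.subtype := fun l =>
    hscale (P l) (hPd l) cp (fun n => bp (l, n)) fun n => hbp (l, n)
  have hQ0 : redS A (M.evalJ qs) ≠ 0 := by
    rw [red_evalJ]
    intro h
    have h' := transcendental_iff.mp M.transcendental_jK _ (Subtype.ext h)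
    have := congrArg (fun z : (ResidueField A)[X] => z.coeff ns) h'
    simp [qs, Polynomial.map_sum, coeff_X_pow, Fin.val_inj, hns] at this
  refine ⟨cp / cs, M.comb qp, M.evalJ qs, div_ne_zero hcp hcs, ?_, ?_, hev qs,
    M.red_comb_ne_zero ⟨lp, fun h => ?_⟩, hQ0⟩
  · have h0 := congrArg (Subtype.val : F → LaurentSeries L) hsum
    simp only [hqs, hqp, map_mul, aeval_C, AddSubmonoidClass.coe_finsetSum, MulMemClass.coe_mul,
      IntermediateField.coe_algebraMap_apply, algebraMap_laurentSeries_eq_single, mul_assoc,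
      ← Finset.mul_sum] at h0
    have hcs' : (HahnSeries.single 0 cs : LaurentSeries L) ≠ 0 := by simpa using hcs
    apply mul_left_cancel₀ hcs'
    rw [ι_evalJ, h0, ← mul_assoc, HahnSeries.single_mul_single, zero_add,
      mul_div_cancel₀ _ hcs, comb, map_sum]
    congr 1
    refine Finset.sum_congr rfl fun l _ => ?_
    rw [map_mul, ι_evalJ]
  · exact sum_mem fun i _ => mul_mem (hev _)
      (Subring.closure_le.mpr hS (M.exists_lift_basis.choose_spec.1 i))
  · have := congrArg (fun z : (ResidueField A)[X] => z.coeff np) h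
    simp [qp, Polynomial.map_sum, coeff_X_pow, Fin.val_inj, hnp] at this

end SeriesModel

end Fermat.Agent.Reduction

end
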