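import Fermat.Agent.Row48.Cover.Model
import Fermat.Agent.Row48.Cover.RepSubring
import Fermat.Agent.Row48.Cover.AlgSeries

/-!
# The deck transformations preserve integrality and reduce to the deck transformations

Every function is a constant times a ratio of polynomials in the generators with nonzero
reductions, and on those the deck transformation is integral and commutes with reduction.
-/

set_option autoImplicit false

noncomputable section

open CongruenceSubgroup UpperHalfPlane ModularCurve IntermediateField Fermat.Agent.Reduction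
open scoped MatrixGroups

namespace Fermat.Agent.Row48.Cover

open IsLocalRing (ResidueField residue)

local notation "Qbar" => AlgebraicClosure ℚ

variable {M : ℕ} [NeZero M] {A : ValuationSubring Qbar} {p : ℕ} (hp : p.Prime)
  (hA : A.LiesOverPrime p) (hpM : ¬ p ∣ M) (C : CoverFns M) (hC : C.F = coverFn) (hL : LevelOK M)

namespace CoverFns

/-- Integral series whose deck transform is integral and reduces to the deck transform. -/
def deckS (d : (ZMod M)ˣ) : Subring (LaurentSeries A) where
  carrier := {y | ∃ (y' : LaurentSeries A) (x : ↥C.algH) (z : C.fieldK A),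
    (x : LaurentSeries Qbar) = ιS A y ∧ (z : LaurentSeries (ResidueField A)) = redS A y ∧
      ιS A y' = ((C.deckAlg d x : ↥C.algH) : LaurentSeries Qbar) ∧
      redS A y' = (redDeck hp hA hpM C hC hL d z : LaurentSeries (ResidueField A))}
  zero_mem' := ⟨0, 0, 0, by simp, by simp, by simp, by simp⟩
  one_mem' := ⟨1, 1, 1, by simp, by simp, by simp, by simp⟩
  add_mem' := by
    rintro a b ⟨a', x, z, hx, hz, hx', hz'⟩ ⟨b', u, w, hu, hw, hu', hw'⟩
    exact ⟨a' + b', x + u, z + w, by rw [map_add, AddMemClass.coe_add, hx, hu],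
      by rw [map_add, AddMemClass.coe_add, hz, hw],
      by rw [map_add, map_add, AddMemClass.coe_add, hx', hu'],
      by rw [map_add, map_add, AddMemClass.coe_add, hz', hw']⟩
  mul_mem' := by
    rintro a b ⟨a', x, z, hx, hz, hx', hz'⟩ ⟨b', u, w, hu, hw, hu', hw'⟩
    exact ⟨a' * b', x * u, z * w, by rw [map_mul, MulMemClass.coe_mul, hx, hu],
      by rw [map_mul, MulMemClass.coe_mul, hz, hw],
      by rw [map_mul, map_mul, MulMemClass.coe_mul, hx', hu'],
      by rw [map_mul, map_mul, MulMemClass.coe_mul, hz', hw']⟩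
  neg_mem' := by
    rintro a ⟨a', x, z, hx, hz, hx', hz'⟩
    exact ⟨-a', -x, -z, by rw [map_neg, NegMemClass.coe_neg, hx],
      by rw [map_neg, NegMemClass.coe_neg, hz],
      by rw [map_neg, map_neg, NegMemClass.coe_neg, hx'],
      by rw [map_neg, map_neg, NegMemClass.coe_neg, hz']⟩

theorem gens_subset_deckS (d : (ZMod M)ˣ) :
    (C.seriesModel hp hA hpM).gens ⊆ C.deckS hp hA hpM hC hL d := by
  rintro y (⟨m, hm, hmd, rfl⟩ | ⟨u, v, hy⟩)
  · have hx : ιS A (qExpand A m (jqModC A)) ∈ divisorExpansionsC Qbar (lev M) :=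
      ⟨m, hm, hmd, coeffMap_qExpand_jq A.subtype m⟩
    have hz : redS A (qExpand A m (jqModC A)) ∈
        modularFunctionFieldFullC (ResidueField A) (lev M) :=
      IntermediateField.subset_adjoin _ _ ⟨m, hm, hmd, coeffMap_qExpand_jq (residue A) m⟩
    exact ⟨_, ⟨_, Algebra.subset_adjoin (Or.inl hx)⟩, ⟨_, F0k_le C hz⟩, rfl, rfl,
      (congrArg Subtype.val (C.deckAlg_jq d
        (x := ⟨_, Algebra.subset_adjoin (Or.inl hx)⟩) hx)).symm,
      (congrArg Subtype.val (redDeck_base hp hA hpM C hC hL d hz)).symm⟩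
  · obtain rfl : y = serY hp hA hpM C u v :=
      ιS_injective (hy.trans (ιS_serY hp hA hpM C u v).symm)
    exact ⟨serY hp hA hpM C (d * u) (d * v),
      ⟨C.ser u v, Algebra.subset_adjoin (Or.inr ⟨(u, v), rfl⟩)⟩,
      ⟨_, redS_serY_mem hp hA hpM C u v⟩, hy.symm, rfl,
      (ιS_serY hp hA hpM C (d * u) (d * v)).trans (C.deckAlg_ser d u v rfl).symm,
      (congrArg Subtype.val (redDeck_gen hp hA hpM C hC hL d u v)).symm⟩

theorem C_mem_deckS (d : (ZMod M)ˣ) (a : A) :
    HahnSeries.C a ∈ C.deckS hp hA hpM hC hL d := by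
  rw [HahnSeries.C_apply]
  refine ⟨HahnSeries.single 0 a, algebraMap Qbar _ (a : Qbar),
    algebraMap (ResidueField A) _ (residue A a), ?_, ?_, ?_, ?_⟩
  · rw [ιS_single, Subalgebra.coe_algebraMap, algebraMap_laurentSeries_eq_single]
  · rw [redS_single, IntermediateField.coe_algebraMap_apply, algebraMap_laurentSeries_eq_single]
  · rw [ιS_single, C.deckAlg_const, Subalgebra.coe_algebraMap,
      algebraMap_laurentSeries_eq_single]
  · rw [redS_single, AlgHom.commutes, IntermediateField.coe_algebraMap_apply,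
      algebraMap_laurentSeries_eq_single]

include hp hA hpM hC hL in
/-- **The deck transformations preserve primitive integral series.** -/
theorem exists_deck_integral (d : (ZMod M)ˣ) (x : ↥C.algH) (y : LaurentSeries A)
    (hy : ιS A y = (x : LaurentSeries Qbar)) (hy0 : redS A y ≠ 0) :
    ∃ yD : LaurentSeries A, ιS A yD = ((C.deckAlg d x : ↥C.algH) : LaurentSeries Qbar) ∧
      redS A yD ≠ 0 := by
  have hx0 : (x : LaurentSeries Qbar) ≠ 0 := fun h => hy0 (by
    rw [show y = 0 from ιS_injective (by rw [hy, h, map_zero]), map_zero])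
  have := (C.coverModel hp hA hpM hC hL).fin_bar
  have := (C.coverModel hp hA hpM hC hL).fin_red
  obtain ⟨c, P, Q, hc, he, ⟨P', a, za, haP, hzP, haP', hzP'⟩, ⟨Q', b, zb, hbQ, hzQ, hbQ', hzQ'⟩,
      hP0, hQ0⟩ :=
    (C.coverModel hp hA hpM hC hL).toSeriesModel.exists_rep_subring
      (C.coverModel hp hA hpM hC hL).degree_le (C.deckS hp hA hpM hC hL d)
      (C.gens_subset_deckS hp hA hpM hC hL d) (C.C_mem_deckS hp hA hpM hC hL d)
      (x := ⟨_, C.algH_le x.2⟩) (fun h => hx0 (congrArg Subtype.val h))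
  -- the constant is a unit
  have hQy : ιS A (Q * y) = HahnSeries.single 0 c * ιS A P := by rw [map_mul, hy, he]
  have hcA : c ∈ A := by
    by_contra hcA
    have hinv : c⁻¹ ∈ A := (A.mem_or_inv_mem c).resolve_left hcA
    have e : P = HahnSeries.single 0 (⟨c⁻¹, hinv⟩ : A) * (Q * y) := ιS_injective (by
      rw [map_mul, ιS_single, hQy, ← mul_assoc, HahnSeries.single_mul_single, zero_add,
        inv_mul_cancel₀ hc]
      simp)
    refine hP0 ?_
    rw [e, map_mul, redS_single, (IsLocalRing.residue_eq_zero_iff _).mpr fun hu => ?_]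
    · simp
    · obtain ⟨w, hw⟩ := hu
      have h1 : ((w : A) : Qbar) * ((↑(w⁻¹) : A) : Qbar) = 1 := by
        rw [← MulMemClass.coe_mul, Units.mul_inv]; rfl
      rw [hw] at h1
      exact hcA ((inv_mul_eq_one₀ hc).mp h1 ▸ SetLike.coe_mem _)
  have hres : residue A ⟨c, hcA⟩ ≠ 0 := fun h => by
    have e : Q * y = HahnSeries.single 0 (⟨c, hcA⟩ : A) * P :=
      ιS_injective (by rw [hQy, map_mul, ιS_single])
    have e' := congrArg (redS A) e
    rw [map_mul, map_mul, redS_single, h, map_zero, zero_mul] at e'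
    exact mul_ne_zero hQ0 hy0 e'
  have hz : ∀ {w : C.fieldK A} {r : LaurentSeries A},
      (w : LaurentSeries (ResidueField A)) = redS A r → redS A r ≠ 0 →
      (redDeck hp hA hpM C hC hL d w : LaurentSeries (ResidueField A)) ≠ 0 := fun hw hr h =>
    hr (hw ▸ congrArg Subtype.val ((map_eq_zero _).mp (Subtype.ext h)))
  have hQ'0 : redS A Q' ≠ 0 := hzQ'.symm ▸ hz hzQ hQ0
  have hP'0 : redS A P' ≠ 0 := hzP'.symm ▸ hz hzP hP0
  -- transport the relation
  have halg : b * x = algebraMap Qbar ↥C.algH c * a := Subtype.ext (by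
    rw [MulMemClass.coe_mul, MulMemClass.coe_mul, Subalgebra.coe_algebraMap,
      algebraMap_laurentSeries_eq_single, hbQ, haP, he])
  have hD := congrArg (fun t : ↥C.algH => ((C.deckAlg d t : ↥C.algH) : LaurentSeries Qbar)) halg
  simp only [map_mul, C.deckAlg_const, MulMemClass.coe_mul, Subalgebra.coe_algebraMap,
    algebraMap_laurentSeries_eq_single, ← hbQ', ← haP'] at hD
  have hD' : ιS A Q' * ((C.deckAlg d x : ↥C.algH) : LaurentSeries Qbar) =
      ιS A (HahnSeries.single 0 ⟨c, hcA⟩ * P') := by rw [hD, map_mul, ιS_single]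
  obtain ⟨w, hw, hQw⟩ := exists_div (C.coverModel hp hA hpM hC hL).nil hQ'0
    (C.bdd_algH hp hA hpM (C.deckAlg d x).2) hD'
  refine ⟨w, hw, fun h0 => ?_⟩
  have h1 := congrArg (redS A) hQw
  rw [map_mul, map_mul, redS_single, h0, mul_zero] at h1
  exact mul_ne_zero (HahnSeries.single_ne_zero hres) hP'0 h1.symm

end CoverFns

end Fermat.Agent.Row48.Cover

end
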