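import Fermat.Agent.Row48.Cover.Series
import Fermat.Agent.J0Torsion.SerMem
import Fermat.Agent.J0Torsion.CoeffDescent
import Fermat.Agent.Reduction.Facts

/-!
# The cover has degree at most `φ(M₀)/2` over `X₀(M₀²)` in characteristic zero

A deck-invariant element of `algH C` lies in the function field of `X₀(M₀²)`, so every function
of the cover is a root of the product over the deck group.
-/

set_option autoImplicit false

noncomputable section

open CongruenceSubgroup UpperHalfPlane ModularCurve IntermediateField Polynomial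
open scoped MatrixGroups

namespace Fermat.Agent.Row48.Cover

open X0Analytic (perMero qSer modFun FLevel)
open J0Torsion (jEmb)

local notation "Qbar" => AlgebraicClosure ℚ

variable (M₀ : ℕ) [NeZero M₀]

/-- The kernel `±1` of the deck action. -/
abbrev pmSub : Subgroup (ZMod M₀)ˣ := Subgroup.zpowers (-1)

/-- The deck group. -/
abbrev DeckQuot : Type := (ZMod M₀)ˣ ⧸ pmSub M₀

/-- The degree of the cover. -/
def deckCard : ℕ := Nat.card (DeckQuot M₀)

omit [NeZero M₀] in
theorem deckCard_pos : 0 < deckCard M₀ := Nat.card_pos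

variable {M₀}

omit [NeZero M₀] in
theorem mem_pmSub {x : (ZMod M₀)ˣ} : x ∈ pmSub M₀ ↔ x = 1 ∨ x = -1 := by
  constructor
  · rintro ⟨i, rfl⟩
    rcases Int.even_or_odd i with hi | hi
    · exact Or.inl (hi.neg_one_zpow)
    · exact Or.inr (hi.neg_one_zpow)
  · rintro (rfl | rfl)
    · exact one_mem _
    · exact Subgroup.mem_zpowers _

theorem deckFn_neg_one (a : ↥(modH M₀)) : deckFn (-1 : (ZMod M₀)ˣ) a = a :=
  Subtype.ext (funext fun τ =>
    a.2.2.1 _ ⟨gammaD_mem _, Or.inr (by rw [gammaD_diag]; simp)⟩ τ)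

theorem deckFn_one (a : ↥(modH M₀)) : deckFn (1 : (ZMod M₀)ˣ) a = a :=
  Subtype.ext (funext fun τ =>
    a.2.2.1 _ ⟨gammaD_mem _, Or.inl (by rw [gammaD_diag]; simp)⟩ τ)

theorem deckFn_comp (d e : (ZMod M₀)ˣ) (a : ↥(modH M₀)) :
    deckFn d (deckFn e a) = deckFn (e * d) a := by
  rw [← deckFn_eq (mul_mem (gammaD_mem e) (gammaD_mem d)) (d := e * d) (by
    rw [diag_mul (gammaD_mem e), gammaD_diag, gammaD_diag, Units.val_mul])]
  refine Subtype.ext (funext fun τ => ?_)
  show (a : ℍ → ℂ) (gammaD e • gammaD d • τ) = _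
  rw [compH_apply, mul_smul]

/-- A field generated by finitely many integral elements is finite over the smaller field. -/
theorem finite_extendScalars_of_integral {k L : Type*} [Field k] [Field L] [Algebra k L]
    (K0 : IntermediateField k L) (S : Set L) (hS : S.Finite) (F : IntermediateField k L)
    (hF : F = IntermediateField.adjoin k S) (hle : K0 ≤ F) (hint : ∀ x ∈ S, IsIntegral K0 x) :
    FiniteDimensional K0 (IntermediateField.extendScalars hle) := by
  have heq : IntermediateField.extendScalars hle = IntermediateField.adjoin K0 S := by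
    refine IntermediateField.restrictScalars_injective k ?_
    rw [IntermediateField.extendScalars_restrictScalars]
    refine le_antisymm ?_ fun x hx => ?_
    · rw [hF, IntermediateField.adjoin_le_iff]
      exact IntermediateField.subset_adjoin K0 S
    · rw [IntermediateField.mem_restrictScalars] at hx
      induction hx using IntermediateField.adjoin_induction with
      | mem y hy => rw [hF]; exact IntermediateField.subset_adjoin k S hy
      | algebraMap y => exact hle y.2
      | add y z _ _ ihy ihz => exact add_mem ihy ihz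
      | inv y _ ihy => exact inv_mem ihy
      | mul y z _ _ ihy ihz => exact mul_mem ihy ihz
  rw [heq]
  have := hS.to_subtype
  exact IntermediateField.finiteDimensional_adjoin fun x hx => hint x hx

namespace CoverFns

variable (C : CoverFns M₀)

theorem deckAlg_comp (d e : (ZMod M₀)ˣ) (x : ↥C.algH) :
    C.deckAlg d (C.deckAlg e x) = C.deckAlg (e * d) x := by
  refine C.fn_injective ?_
  rw [fn_deckAlg, fn_deckAlg, fn_deckAlg, deckFn_comp]

theorem deckAlg_eq_of_mk {d e : (ZMod M₀)ˣ}
    (h : (QuotientGroup.mk d : DeckQuot M₀) = QuotientGroup.mk e) (x : ↥C.algH) :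
    C.deckAlg d x = C.deckAlg e x := by
  obtain ⟨c, hc, rfl⟩ : ∃ c ∈ pmSub M₀, e = c * d :=
    ⟨d⁻¹ * e, QuotientGroup.eq.mp h, by rw [mul_comm, mul_inv_cancel_left]⟩
  refine C.fn_injective ?_
  rw [fn_deckAlg, fn_deckAlg, ← deckFn_comp]
  rcases mem_pmSub.mp hc with rfl | rfl
  · rw [deckFn_one]
  · rw [deckFn_neg_one]

theorem deckAlg_injective (d : (ZMod M₀)ˣ) : Function.Injective (C.deckAlg d) := fun x y h => by
  have h1 := congrArg (C.deckAlg d⁻¹) h
  rw [deckAlg_comp, deckAlg_comp, mul_inv_cancel] at h1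
  refine C.fn_injective ?_
  have h2 := congrArg C.fn h1
  rwa [fn_deckAlg, fn_deckAlg, deckFn_one, deckFn_one] at h2

/-- A deck-invariant element of `algH C` is in the function field of `X₀(M₀²)`. -/
theorem mem_bar_of_invariant {x : ↥C.algH} (h : ∀ d, C.deckAlg d x = x) :
    (x : LaurentSeries Qbar) ∈ modularFunctionFieldBar (lev M₀) := by
  set a := C.fn x with ha
  have hinv : ∀ γ ∈ Gamma0 (lev M₀), ∀ τ : ℍ, (a : ℍ → ℂ) (γ • τ) = (a : ℍ → ℂ) τ := by
    intro γ hγ τ
    obtain ⟨d, hd⟩ : ∃ d : (ZMod M₀)ˣ, ((γ 1 1 : ℤ) : ZMod M₀) = d := by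
      have h1 := diag_inv hγ
      exact ⟨⟨_, _, by rw [mul_comm]; exact h1, h1⟩, rfl⟩
    have h2 : compH hγ a = a := by
      rw [deckFn_eq hγ hd, ha, ← fn_deckAlg, h]
    exact congrFun (congrArg Subtype.val h2) τ
  let G : ↥(modFun (lev M₀)) := ⟨(a : ℍ → ℂ), a.2.1, hinv, a.2.2.2⟩
  refine J0Torsion.mem_FLevel_of_coeffMap_mem jEmb ?_
  rw [← C.serH_fn x]
  exact J0Torsion.ser_mem_FLevel G

/-- The function field of `X₀(M₀²)` lies in the field of the cover. -/
theorem bar_le_field : modularFunctionFieldBar (lev M₀) ≤ C.field := by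
  rw [Reduction.modularFunctionFieldBar_eq, IntermediateField.adjoin_le_iff]
  exact fun x hx => C.gens_subset_field (Or.inl hx)

/-- The field of the cover over the field of `X₀(M₀²)`. -/
def fieldOver : IntermediateField (modularFunctionFieldBar (lev M₀)) (LaurentSeries Qbar) :=
  IntermediateField.extendScalars C.bar_le_field

/-- The orbit polynomial `∏ (δ(b) X - δ(a))`. -/
def deckPoly (a b : ↥C.algH) : Polynomial ↥C.algH :=
  ∏ q : DeckQuot M₀, (Polynomial.C (C.deckAlg q.out b) * Polynomial.X -
    Polynomial.C (C.deckAlg q.out a))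

theorem deckPoly_invariant (a b : ↥C.algH) (e : (ZMod M₀)ˣ) :
    (C.deckPoly a b).map (C.deckAlg e) = C.deckPoly a b := by
  rw [deckPoly, Polynomial.map_prod]
  refine Fintype.prod_equiv (Equiv.mulRight (QuotientGroup.mk e)) _ _ fun q => ?_
  simp only [Polynomial.map_sub, Polynomial.map_mul, Polynomial.map_C, Polynomial.map_X,
    deckAlg_comp, Equiv.coe_mulRight]
  have h : (QuotientGroup.mk (q.out * e) : DeckQuot M₀) =
      QuotientGroup.mk (Quotient.out (q * QuotientGroup.mk e)) := by
    rw [QuotientGroup.out_eq', QuotientGroup.mk_mul, QuotientGroup.out_eq']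
  rw [C.deckAlg_eq_of_mk h a, C.deckAlg_eq_of_mk h b]

theorem exists_root_poly (x : C.fieldOver) :
    ∃ P : Polynomial (modularFunctionFieldBar (lev M₀)), P ≠ 0 ∧
      P.natDegree ≤ deckCard M₀ ∧ aeval x P = 0 := by
  classical
  obtain ⟨u, v, hu, hv, hv0, he⟩ := C.exists_algH_div ⟨(x : LaurentSeries Qbar), x.2⟩
  set a : ↥C.algH := ⟨u, hu⟩
  set b : ↥C.algH := ⟨v, hv⟩
  set Q := C.deckPoly a b
  have hlift : Q.map C.algH.val.toRingHom ∈
      Polynomial.lifts (algebraMap (modularFunctionFieldBar (lev M₀)) (LaurentSeries Qbar)) := by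
    rw [Polynomial.lifts_iff_coeff_lifts]
    intro i
    rw [Polynomial.coeff_map]
    refine ⟨⟨_, C.mem_bar_of_invariant (x := Q.coeff i) fun d => ?_⟩, rfl⟩
    show _ = (C.deckPoly a b).coeff i
    conv_rhs => rw [← C.deckPoly_invariant a b d]
    rw [Polynomial.coeff_map]
  obtain ⟨P, hP⟩ := hlift
  rw [Polynomial.coe_mapRingHom] at hP
  have hb0 : b ≠ 0 := fun h => hv0 (congrArg Subtype.val h)
  have hQ0 : Q ≠ 0 := by
    refine Finset.prod_ne_zero_iff.mpr fun q _ h => ?_
    have h1 := congrArg (fun r : Polynomial ↥C.algH => r.coeff 1) h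
    simp only [Polynomial.coeff_sub, Polynomial.coeff_C_mul, Polynomial.coeff_X_one, mul_one,
      Polynomial.coeff_C, one_ne_zero, if_false, sub_zero, Polynomial.coeff_zero] at h1
    exact hb0 (C.deckAlg_injective _ (h1.trans (map_zero _).symm))
  refine ⟨P, fun h => hQ0 ?_, ?_, ?_⟩
  · rw [h, Polynomial.map_zero] at hP
    exact Polynomial.map_injective C.algH.val.toRingHom Subtype.val_injective
      (hP.symm.trans (Polynomial.map_zero _).symm)
  · rw [← Polynomial.natDegree_map (algebraMap (modularFunctionFieldBar (lev M₀))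
      (LaurentSeries Qbar)), hP]
    refine Polynomial.natDegree_map_le.trans ((Polynomial.natDegree_prod_le _ _).trans ?_)
    refine (Finset.sum_le_card_nsmul _ _ 1 fun q _ => ?_).trans ?_
    · exact (Polynomial.natDegree_sub_le _ _).trans
        (max_le (Polynomial.natDegree_C_mul_le _ _ |>.trans Polynomial.natDegree_X_le)
          (by rw [Polynomial.natDegree_C]; exact zero_le_one))
    · rw [smul_eq_mul, mul_one, Finset.card_univ, deckCard, Nat.card_eq_fintype_card]
  · refine Subtype.ext ?_
    have h2 : (Polynomial.aeval (x : LaurentSeries Qbar)) P = 0 := by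
      rw [Polynomial.aeval_def, ← Polynomial.eval_map, hP]
      simp only [Q, deckPoly, Polynomial.map_prod, Polynomial.eval_prod]
      refine Finset.prod_eq_zero (Finset.mem_univ ((1 : (ZMod M₀)ˣ) : DeckQuot M₀)) ?_
      have h1 : ∀ y, C.deckAlg (Quotient.out ((1 : (ZMod M₀)ˣ) : DeckQuot M₀)) y = y := fun y => by
        rw [C.deckAlg_eq_of_mk (e := 1) (QuotientGroup.out_eq' _)]
        exact C.fn_injective (by rw [fn_deckAlg, deckFn_one])
      simp only [Polynomial.map_sub, Polynomial.map_mul, Polynomial.map_C, Polynomial.map_X,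
        Polynomial.eval_sub, Polynomial.eval_mul, Polynomial.eval_C, Polynomial.eval_X, h1]
      show v * (x : LaurentSeries Qbar) - u = 0
      rw [mul_comm, sub_eq_zero]
      exact he
    exact (Polynomial.aeval_algHom_apply C.fieldOver.val x P).symm.trans h2

theorem finite_gens : C.gens.Finite := by
  refine Set.Finite.union ?_ (Set.finite_range _)
  have h : divisorExpansionsC Qbar (lev M₀) ⊆
      Set.range fun d : {d : ℕ // d ∈ (lev M₀).divisors} =>
        (haveI : NeZero d.1 := ⟨(Nat.pos_of_mem_divisors d.2).ne'⟩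
         qExpand Qbar d.1 (jqModC Qbar)) := by
    rintro x ⟨d, hd0, hd, rfl⟩
    exact ⟨⟨d, Nat.mem_divisors.mpr ⟨hd, NeZero.ne _⟩⟩, rfl⟩
  exact (Set.finite_range _).subset h

/-- The cover is finite over `X₀(M₀²)`. -/
theorem finite_fieldOver :
    FiniteDimensional (modularFunctionFieldBar (lev M₀)) C.fieldOver := by
  have hint : ∀ x ∈ C.gens, IsIntegral (modularFunctionFieldBar (lev M₀)) x := fun x hx => by
    obtain ⟨P, hP0, -, hP⟩ := C.exists_root_poly ⟨x, C.gens_subset_field hx⟩
    have h := (Polynomial.aeval_algHom_apply C.fieldOver.val ⟨x, C.gens_subset_field hx⟩ P)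
    rw [hP, map_zero] at h
    exact IsAlgebraic.isIntegral ⟨P, hP0, h⟩
  exact finite_extendScalars_of_integral (modularFunctionFieldBar (lev M₀)) C.gens C.finite_gens
    C.field rfl C.bar_le_field hint

/-- The cover has degree at most `φ(M₀)/2` over `X₀(M₀²)`. -/
theorem finrank_fieldOver_le :
    Module.finrank (modularFunctionFieldBar (lev M₀)) C.fieldOver ≤ deckCard M₀ := by
  have := C.finite_fieldOver
  have : CharZero (modularFunctionFieldBar (lev M₀)) :=
    charZero_of_injective_algebraMap (algebraMap Qbar _).injective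
  obtain ⟨θ, hθ⟩ := Field.exists_primitive_element (modularFunctionFieldBar (lev M₀)) C.fieldOver
  obtain ⟨P, hP0, hdeg, hP⟩ := C.exists_root_poly θ
  rw [← IntermediateField.finrank_top', ← hθ,
    IntermediateField.adjoin.finrank (IsIntegral.of_finite _ θ)]
  exact (Polynomial.natDegree_le_of_dvd (minpoly.dvd _ _ hP) hP0).trans hdeg

end CoverFns

end Fermat.Agent.Row48.Cover

end
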