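import Fermat.Agent.Row48.Cover.Monodromy
import Fermat.Agent.Row48.Cover.DegreeBar
import Mathlib.FieldTheory.Fixed

/-!
# The deck transformations of the reduced cover

At a prime not dividing `M₀` the reduced field of the cover has the deck transformations as
automorphisms over the reduced field of `X₀(M₀²)`, so it has degree at least `φ(M₀)/2` over it.
-/

set_option autoImplicit false

noncomputable section

open CongruenceSubgroup UpperHalfPlane ModularCurve IntermediateField Fermat.Agent.Reduction
open scoped MatrixGroups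

namespace Fermat.Agent.Row48.Cover

open X0Analytic (perMero qSer)
open Gamma0Count (CosetSpace)
open J0Torsion (jEmb)
open IsLocalRing (ResidueField residue)

local notation "Qbar" => AlgebraicClosure ℚ

/-- An element integral over `k(J)` after `qExpand` is integral over `k(j)`. -/
theorem isIntegral_of_expand {k : Type*} [Field k] (N : ℕ) [NeZero N] {x : LaurentSeries k}
    (h : IsIntegral (ModFamily.baseJ N k) (expandAlg k N x)) : IsIntegral (Igusa.jField k) x := by
  have hb : (Igusa.jField k).map (expandAlg k N) = ModFamily.baseJ N k := by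
    rw [IntermediateField.adjoin_map, Set.image_singleton]
    rfl
  let e : Igusa.jField k ≃ₐ[k] ModFamily.baseJ N k :=
    ((Igusa.jField k).equivMap (expandAlg k N)).trans (IntermediateField.equivOfEq hb)
  refine ⟨(minpoly (ModFamily.baseJ N k) (expandAlg k N x)).map e.symm.toRingEquiv.toRingHom,
    (minpoly.monic h).map _, ?_⟩
  refine (expandAlg k N).injective ?_
  rw [map_zero, Polynomial.eval₂_map]
  refine (Polynomial.hom_eval₂ _ _ (expandAlg k N).toRingHom x).trans ?_
  refine Eq.trans ?_ (minpoly.aeval (ModFamily.baseJ N k) (expandAlg k N x))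
  rw [Polynomial.aeval_def]
  congr 1
  refine RingHom.ext fun y => ?_
  exact congrArg Subtype.val (e.apply_symm_apply y)

theorem isIntegral_of_le {k L : Type*} [Field k] [Field L] [Algebra k L]
    {K1 K2 : IntermediateField k L} (h : K1 ≤ K2) {x : L} (hx : IsIntegral K1 x) :
    IsIntegral K2 x := by
  obtain ⟨Q, hQ, hQ0⟩ := hx
  refine ⟨Q.map (IntermediateField.inclusion h).toRingHom, hQ.map _, ?_⟩
  rw [Polynomial.eval₂_map]
  exact hQ0

variable {M : ℕ} [NeZero M] {A : ValuationSubring Qbar} {p : ℕ} (hp : p.Prime)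
  (hA : A.LiesOverPrime p) (hpM : ¬ p ∣ M) (C : CoverFns M) (hC : C.F = coverFn) (hL : LevelOK M)

local notation "k" => ResidueField A
local notation "W" => lev M
local notation "πA" => residue A
local notation "Φ" => covFamily hp hA hpM
local notation "F0k" => modularFunctionFieldFullC (ResidueField A) (lev M)

/-- The integral series of a generator. -/
def serY (u v : (ZMod M)ˣ) : LaurentSeries A := (C.integral A p hp hpM hA u v).choose

theorem ιS_serY (u v : (ZMod M)ˣ) : ιS A (serY hp hA hpM C u v) = C.ser u v :=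
  (C.integral A p hp hpM hA u v).choose_spec

include hC hL in
theorem s_pt_eq (u v : (ZMod M)ˣ) :
    (Φ).s (.pt (0, (u : ZMod M)) (0, (v : ZMod M))) = qExpand A W (serY hp hA hpM C u v) := by
  refine Igusa.coeffMap_injective embA_injective ?_
  rw [(Φ).series, coeffMap_qExpand, show coeffMap (embA A) (serY hp hA hpM C u v) =
    coeffMap jEmb (ιS A (serY hp hA hpM C u v)) from (coeffMap_coeffMap _ _ _).symm, ιS_serY,
    ← C.qSer_eq]
  have hz : ∀ w : (ZMod M)ˣ, ((0 : ZMod M), (w : ZMod M)) ≠ 0 := fun w h => by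
    have : (w : ZMod M) = 0 := congrArg Prod.snd h
    have hF : Fact (1 < M) := ⟨by have := hL.five_le; omega⟩
    exact w.ne_zero this
  obtain ⟨hx, hy⟩ := X0Analytic.qSer_subst (h' := W) (M := W) (⟨C.F u v, C.mem u v⟩ : ↥(perMero 1))
    (fun τ => τ) mdifferentiable_id 1 one_ne_zero
    (fun τ => by rw [one_mul, X0Analytic.qp_one_eq_pow W τ])
  rw [X0Analytic.rot_one] at hy
  refine Eq.trans (congrArg _ (Subtype.ext ?_)) hy
  show ((covFn _ : ↥(perMero (lev M))) : ℍ → ℂ) = C.F u v
  rw [covFn, if_neg (not_or.mpr ⟨hz u, hz v⟩), hC]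
  funext τ
  show wpFn M _ _ τ - wpFn M _ _ τ = coverFn u v τ
  simp [coverFn]

/-- The image of the reduced field of the cover lies in the field of the family. -/
abbrev famField : IntermediateField (ModFamily.baseJ W k) (LaurentSeries k) :=
  ModFamily.field (covFamily hp hA hpM) (residue A)

theorem red_divisor_mem_baseJ_field {x : LaurentSeries k}
    (hx : x ∈ divisorExpansionsC k W) :
    ∃ e : (W).divisors, expandAlg k W x =
      (Φ).red πA (.jay e ((1 : SL(2, ℤ)) : CosetSpace W)) := by
  obtain ⟨d, hd0, hd, rfl⟩ := hx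
  refine ⟨⟨d, Nat.mem_divisors.mpr ⟨hd, NeZero.ne _⟩⟩, ?_⟩
  rw [red_jay_one, Igusa.jd]
  rfl

include hC hL in
theorem red_pt_eq (u v : (ZMod M)ˣ) :
    (Φ).red πA (.pt (0, (u : ZMod M)) (0, (v : ZMod M))) =
      expandAlg k W (redS A (serY hp hA hpM C u v)) := by
  rw [ModFamily.red, s_pt_eq hp hA hpM C hC hL, coeffMap_qExpand]
  rfl

/-- The generators of the reduced field of the cover. -/
theorem fieldK_gens_iff {x : LaurentSeries k}
    (hx : x ∈ redS A '' {y : LaurentSeries A | ∃ u v, ιS A y = C.ser u v}) :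
    ∃ u v, x = redS A (serY hp hA hpM C u v) := by
  obtain ⟨y, ⟨u, v, hy⟩, rfl⟩ := hx
  exact ⟨u, v, by rw [ιS_injective (hy.trans (ιS_serY hp hA hpM C u v).symm)]⟩

theorem redS_serY_mem (u v : (ZMod M)ˣ) : redS A (serY hp hA hpM C u v) ∈ C.fieldK A :=
  IntermediateField.subset_adjoin _ _ (Or.inr ⟨_, ⟨u, v, ιS_serY hp hA hpM C u v⟩, rfl⟩)

include hC hL in
theorem expand_mem_famField {x : LaurentSeries k} (hx : x ∈ C.fieldK A) :
    expandAlg k W x ∈ famField hp hA hpM := by
  induction hx using IntermediateField.adjoin_induction with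
  | mem y hy =>
    rcases hy with hy | hy
    · obtain ⟨e, he⟩ := red_divisor_mem_baseJ_field hp hA hpM hy
      rw [he]
      exact IntermediateField.subset_adjoin _ _ ⟨_, rfl⟩
    · obtain ⟨u, v, rfl⟩ := fieldK_gens_iff hp hA hpM C hy
      rw [← red_pt_eq hp hA hpM C hC hL]
      exact IntermediateField.subset_adjoin _ _ ⟨_, rfl⟩
  | algebraMap a =>
    rw [AlgHom.commutes, IsScalarTower.algebraMap_apply k (ModFamily.baseJ W k) (LaurentSeries k)]
    exact IntermediateField.algebraMap_mem _ _
  | add y z _ _ ihy ihz => rw [map_add]; exact add_mem ihy ihz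
  | inv y _ ihy => rw [map_inv₀]; exact inv_mem ihy
  | mul y z _ _ ihy ihz => rw [map_mul]; exact mul_mem ihy ihz

/-- The deck automorphism of the field of the family. -/
def famDeck (d : (ZMod M)ˣ) : famField hp hA hpM ≃ₐ[ModFamily.baseJ W k] famField hp hA hpM :=
  (exists_deckAut hp hA hpM d).choose

/-- The deck map followed by the inclusion into the series. -/
def liftDeck (d : (ZMod M)ˣ) : C.fieldK A →+* LaurentSeries k :=
  ((famField hp hA hpM).val.toRingHom.comp (famDeck hp hA hpM d).toAlgHom.toRingHom).comp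
    (((expandAlg k W).toRingHom.comp (C.fieldK A).val.toRingHom).codRestrict
      (famField hp hA hpM).toSubfield fun x => expand_mem_famField hp hA hpM C hC hL x.2)

theorem liftDeck_apply (d : (ZMod M)ˣ) {x : C.fieldK A} {z : famField hp hA hpM}
    (h : (z : LaurentSeries k) = expandAlg k W (x : LaurentSeries k)) :
    liftDeck hp hA hpM C hC hL d x = (famDeck hp hA hpM d z : LaurentSeries k) := by
  have : z = (((expandAlg k W).toRingHom.comp (C.fieldK A).val.toRingHom).codRestrict
      (famField hp hA hpM).toSubfield (fun x => expand_mem_famField hp hA hpM C hC hL x.2) x :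
      famField hp hA hpM) := Subtype.ext h
  rw [this]
  rfl

theorem liftDeck_gen (d u v : (ZMod M)ˣ) :
    liftDeck hp hA hpM C hC hL d ⟨_, redS_serY_mem hp hA hpM C u v⟩ =
      expandAlg k W (redS A (serY hp hA hpM C (d * u) (d * v))) := by
  rw [liftDeck_apply hp hA hpM C hC hL d (x := ⟨_, redS_serY_mem hp hA hpM C u v⟩)
    (z := ModFamily.gen (covFamily hp hA hpM) πA (.pt (0, (u : ZMod M)) (0, (v : ZMod M))))
    (red_pt_eq hp hA hpM C hC hL u v)]
  rw [show famDeck hp hA hpM d (ModFamily.gen _ πA _) = _ from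
    (exists_deckAut hp hA hpM d).choose_spec.2 u v]
  exact red_pt_eq hp hA hpM C hC hL (d * u) (d * v)

theorem F0k_le : F0k ≤ C.fieldK A :=
  IntermediateField.adjoin.mono _ _ _ Set.subset_union_left

theorem liftDeck_base (d : (ZMod M)ˣ) {x : LaurentSeries k} (hx : x ∈ F0k) :
    liftDeck hp hA hpM C hC hL d ⟨x, F0k_le C hx⟩ = expandAlg k W x := by
  induction hx using IntermediateField.adjoin_induction with
  | mem y hy =>
    obtain ⟨e, he⟩ := red_divisor_mem_baseJ_field hp hA hpM hy
    rw [liftDeck_apply hp hA hpM C hC hL d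
      (x := ⟨y, F0k_le C (IntermediateField.subset_adjoin _ _ hy)⟩)
      (z := ModFamily.gen (covFamily hp hA hpM) πA (.jay e ((1 : SL(2, ℤ)) : CosetSpace W)))
      he.symm]
    rw [show famDeck hp hA hpM d (ModFamily.gen _ πA _) = _ from
      (exists_deckAut hp hA hpM d).choose_spec.1 e]
    exact he.symm
  | algebraMap a =>
    rw [liftDeck_apply hp hA hpM C hC hL d
      (z := algebraMap (ModFamily.baseJ W k) _ (algebraMap k _ a)) (by
        rw [AlgHom.commutes]; rfl), AlgEquiv.commutes, AlgHom.commutes]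
    rfl
  | add y z hy hz ihy ihz =>
    rw [show (⟨y + z, _⟩ : C.fieldK A) = ⟨y, F0k_le C hy⟩ + ⟨z, F0k_le C hz⟩ from rfl, map_add,
      ihy, ihz, map_add]
  | inv y hy ihy =>
    rw [show (⟨y⁻¹, _⟩ : C.fieldK A) = (⟨y, F0k_le C hy⟩ : C.fieldK A)⁻¹ from rfl, map_inv₀, ihy,
      map_inv₀]
  | mul y z hy hz ihy ihz =>
    rw [show (⟨y * z, _⟩ : C.fieldK A) = ⟨y, F0k_le C hy⟩ * ⟨z, F0k_le C hz⟩ from rfl, map_mul,
      ihy, ihz, map_mul]

theorem exists_liftDeck_preimage (d : (ZMod M)ˣ) (x : C.fieldK A) :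
    ∃ z : C.fieldK A, liftDeck hp hA hpM C hC hL d x = expandAlg k W (z : LaurentSeries k) := by
  obtain ⟨x, hx⟩ := x
  induction hx using IntermediateField.adjoin_induction with
  | mem y hy =>
    rcases hy with hy | hy
    · exact ⟨⟨y, F0k_le C (IntermediateField.subset_adjoin _ _ hy)⟩,
        liftDeck_base hp hA hpM C hC hL d (IntermediateField.subset_adjoin _ _ hy)⟩
    · obtain ⟨u, v, rfl⟩ := fieldK_gens_iff hp hA hpM C hy
      exact ⟨⟨_, redS_serY_mem hp hA hpM C (d * u) (d * v)⟩, liftDeck_gen hp hA hpM C hC hL d u v⟩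
  | algebraMap a =>
    exact ⟨⟨_, F0k_le C (IntermediateField.algebraMap_mem _ a)⟩,
      liftDeck_base hp hA hpM C hC hL d (IntermediateField.algebraMap_mem _ a)⟩
  | add y z hy hz ihy ihz =>
    obtain ⟨a, ha⟩ := ihy
    obtain ⟨b, hb⟩ := ihz
    exact ⟨a + b, by
      rw [show (⟨y + z, _⟩ : C.fieldK A) = ⟨y, hy⟩ + ⟨z, hz⟩ from rfl, map_add, ha, hb,
        ← map_add]; rfl⟩
  | inv y hy ihy =>
    obtain ⟨a, ha⟩ := ihy
    exact ⟨a⁻¹, by
      rw [show (⟨y⁻¹, _⟩ : C.fieldK A) = (⟨y, hy⟩ : C.fieldK A)⁻¹ from rfl, map_inv₀, ha,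
        IntermediateField.coe_inv, map_inv₀]⟩
  | mul y z hy hz ihy ihz =>
    obtain ⟨a, ha⟩ := ihy
    obtain ⟨b, hb⟩ := ihz
    exact ⟨a * b, by
      rw [show (⟨y * z, _⟩ : C.fieldK A) = ⟨y, hy⟩ * ⟨z, hz⟩ from rfl, map_mul, ha, hb,
        ← map_mul]; rfl⟩

/-- The underlying map of the deck transformation. -/
def redDeckFun (d : (ZMod M)ˣ) (x : C.fieldK A) : C.fieldK A :=
  (exists_liftDeck_preimage hp hA hpM C hC hL d x).choose

theorem redDeckFun_spec (d : (ZMod M)ˣ) (x : C.fieldK A) :
    expandAlg k W (redDeckFun hp hA hpM C hC hL d x : LaurentSeries k) =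
      liftDeck hp hA hpM C hC hL d x :=
  (exists_liftDeck_preimage hp hA hpM C hC hL d x).choose_spec.symm

theorem expand_inj {a b : C.fieldK A}
    (h : expandAlg k W (a : LaurentSeries k) = expandAlg k W (b : LaurentSeries k)) : a = b :=
  Subtype.ext ((expandAlg k W).injective h)

/-- **The deck transformation of the reduced cover.** -/
def redDeck (d : (ZMod M)ˣ) : C.fieldK A →ₐ[k] C.fieldK A where
  toFun := redDeckFun hp hA hpM C hC hL d
  map_one' := expand_inj C (by rw [redDeckFun_spec, map_one, OneMemClass.coe_one, map_one])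
  map_mul' x y := expand_inj C (by
    rw [MulMemClass.coe_mul, map_mul (expandAlg k W), redDeckFun_spec, redDeckFun_spec,
      redDeckFun_spec, map_mul])
  map_zero' := expand_inj C (by rw [redDeckFun_spec, map_zero, ZeroMemClass.coe_zero, map_zero])
  map_add' x y := expand_inj C (by
    rw [AddMemClass.coe_add, map_add (expandAlg k W), redDeckFun_spec, redDeckFun_spec,
      redDeckFun_spec, map_add])
  commutes' a := expand_inj C (by
    rw [redDeckFun_spec]
    exact liftDeck_base hp hA hpM C hC hL d (IntermediateField.algebraMap_mem _ a))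

theorem redDeck_spec (d : (ZMod M)ˣ) (x : C.fieldK A) :
    expandAlg k W (redDeck hp hA hpM C hC hL d x : LaurentSeries k) =
      liftDeck hp hA hpM C hC hL d x :=
  redDeckFun_spec hp hA hpM C hC hL d x

theorem redDeck_gen (d u v : (ZMod M)ˣ) :
    redDeck hp hA hpM C hC hL d ⟨_, redS_serY_mem hp hA hpM C u v⟩ =
      ⟨_, redS_serY_mem hp hA hpM C (d * u) (d * v)⟩ :=
  expand_inj C (by rw [redDeck_spec, liftDeck_gen])

theorem redDeck_base (d : (ZMod M)ˣ) {x : LaurentSeries k} (hx : x ∈ F0k) :
    redDeck hp hA hpM C hC hL d ⟨x, F0k_le C hx⟩ = ⟨x, F0k_le C hx⟩ :=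
  expand_inj C (by rw [redDeck_spec, liftDeck_base hp hA hpM C hC hL d hx])

/-- The deck transformation over the field of `X₀(M²)`. -/
def redDeckOver (d : (ZMod M)ˣ) :
    IntermediateField.extendScalars (F0k_le (A := A) C) →ₐ[F0k]
      IntermediateField.extendScalars (F0k_le (A := A) C) :=
  { (redDeck hp hA hpM C hC hL d).toRingHom with
    commutes' := fun a => redDeck_base hp hA hpM C hC hL d a.2 }

include hp hA hpM hC hL in
theorem finite_fieldK_over :
    FiniteDimensional F0k (IntermediateField.extendScalars (F0k_le (A := A) C)) := by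
  have hJ : Igusa.jField k ≤ F0k := by
    rw [IntermediateField.adjoin_le_iff, Set.singleton_subset_iff]
    exact jqModC_mem_full k W
  refine finite_extendScalars_of_integral (F0k) _ ?_ (C.fieldK A) rfl (F0k_le C) fun x hx => ?_
  · refine Set.Finite.union ?_ ?_
    · have h : divisorExpansionsC k W ⊆
          Set.range fun d : {d : ℕ // d ∈ (lev M).divisors} =>
            (haveI : NeZero d.1 := ⟨(Nat.pos_of_mem_divisors d.2).ne'⟩
             qExpand k d.1 (jqModC k)) := by
        rintro x ⟨d, hd0, hd, rfl⟩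
        exact ⟨⟨d, Nat.mem_divisors.mpr ⟨hd, NeZero.ne _⟩⟩, rfl⟩
      exact (Set.finite_range _).subset h
    · refine (Set.finite_range fun z : (ZMod M)ˣ × (ZMod M)ˣ =>
        redS A (serY hp hA hpM C z.1 z.2)).subset fun x hx => ?_
      obtain ⟨u, v, rfl⟩ := fieldK_gens_iff hp hA hpM C hx
      exact ⟨(u, v), rfl⟩
  · refine isIntegral_of_le hJ (isIntegral_of_expand W ?_)
    have := (Φ).finiteDimensional πA embA_injective
    have hmem := expand_mem_famField hp hA hpM C hC hL
      (IntermediateField.subset_adjoin k _ hx : x ∈ C.fieldK A)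
    exact (IsIntegral.of_finite (ModFamily.baseJ W k)
      (⟨_, hmem⟩ : famField hp hA hpM)).map (famField hp hA hpM).val

/-- Distinct classes give distinct deck transformations of the reduced cover. -/
theorem redDeckOver_out_injective :
    Function.Injective fun q : DeckQuot M => redDeckOver hp hA hpM C hC hL (A := A) q.out := by
  intro q q' h
  have hd : ∀ u v : (ZMod M)ˣ, redS A (serY hp hA hpM C (q.out * u) (q.out * v)) =
      redS A (serY hp hA hpM C (q'.out * u) (q'.out * v)) := fun u v => by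
    have h1 := congrArg (fun φ : IntermediateField.extendScalars (F0k_le (A := A) C) →ₐ[F0k] _ =>
      φ ⟨_, redS_serY_mem hp hA hpM C u v⟩) h
    have h2 : redDeck hp hA hpM C hC hL q.out ⟨_, redS_serY_mem hp hA hpM C u v⟩ =
        redDeck hp hA hpM C hC hL q'.out ⟨_, redS_serY_mem hp hA hpM C u v⟩ := h1
    rw [redDeck_gen, redDeck_gen] at h2
    exact congrArg Subtype.val h2
  rw [← QuotientGroup.out_eq' q, ← QuotientGroup.out_eq' q', QuotientGroup.eq, mem_pmSub]
  refine C.separates A p hp hpM hA _ fun u v y z hy hz => ?_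
  rw [ιS_injective (hy.trans (ιS_serY hp hA hpM C u v).symm),
    ιS_injective (hz.trans (ιS_serY hp hA hpM C (q.out⁻¹ * q'.out * u) _).symm)]
  have := hd (q.out⁻¹ * u) (q.out⁻¹ * v)
  simp only [mul_inv_cancel_left] at this
  rw [this, mul_left_comm q'.out, mul_left_comm q'.out, mul_assoc, mul_assoc]

include hp hA hpM hC hL in
/-- The reduced cover has degree at least the order of the deck group. -/
theorem deckCard_le_finrank :
    deckCard M ≤ Module.finrank F0k (IntermediateField.extendScalars (F0k_le (A := A) C)) := by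
  classical
  have := finite_fieldK_over hp hA hpM C hC hL
  refine le_trans ?_ (AlgHom.card_le (F := F0k)
    (K := IntermediateField.extendScalars (F0k_le (A := A) C)))
  rw [deckCard, Nat.card_eq_fintype_card]
  exact Fintype.card_le_of_injective _ (redDeckOver_out_injective hp hA hpM C hC hL)

end Fermat.Agent.Row48.Cover

end
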