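import Fermat.Agent.HeckeModule.Localize
import Fermat.Prelude.Def_GaloisRep_Residual
import Fermat.Prelude.Def_Deformations_MatrixRepresentation
import Fermat.Prelude.Def_ModularCurve_LaurentCoeff

/-!
# The cover `X_H → X₀(M₀²)` and the residual representation of an eigenclass

`H` is the subgroup of `Γ₀(M₀²)` with lower right entry `±1` modulo `M₀`; the deck group of
`X_H` over `X₀(M₀²)` is `(ℤ/M₀)ˣ/±1`. For `LevelOK M₀` this cover is étale, and `X₀(M₀²)` has no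
elliptic points. A class in `H¹(Γ₀(M₀²), k(χ))` killed by parabolic elements of `H` is a
homomorphism on `H`, i.e. a point of order `ℓ` of the Jacobian of `X_H`.
-/

set_option autoImplicit false

noncomputable section

open CongruenceSubgroup
open scoped MatrixGroups

namespace Fermat.Agent.Row48.Cover

open HeckeModule

local notation "Γℚ" => (AlgebraicClosure ℚ ≃ₐ[ℚ] AlgebraicClosure ℚ)

/-- The level of the base curve. -/
abbrev lev (M₀ : ℕ) : ℕ := M₀ * M₀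

/-- The group of the cover. -/
def gammaH (M₀ : ℕ) : Subgroup SL(2, ℤ) where
  carrier := {γ | γ ∈ Gamma0 (lev M₀) ∧
    (((γ 1 1 : ℤ) : ZMod M₀) = 1 ∨ ((γ 1 1 : ℤ) : ZMod M₀) = -1)}
  one_mem' := ⟨one_mem _, Or.inl (by simp)⟩
  mul_mem' := fun {a b} ha hb => ⟨mul_mem ha.1 hb.1, by
    have hc : ((a 1 0 : ℤ) : ZMod M₀) = 0 := by
      rw [ZMod.intCast_zmod_eq_zero_iff_dvd]
      refine dvd_trans ?_ ((ZMod.intCast_zmod_eq_zero_iff_dvd _ _).mp (Gamma0_mem.mp ha.1))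
      exact Int.natCast_dvd_natCast.mpr (dvd_mul_right M₀ M₀)
    have h : (((a * b) 1 1 : ℤ) : ZMod M₀)
        = ((a 1 1 : ℤ) : ZMod M₀) * ((b 1 1 : ℤ) : ZMod M₀) := by
      simp [Matrix.mul_apply, Fin.sum_univ_two, hc]
    rw [h]
    rcases ha.2 with h1 | h1 <;> rcases hb.2 with h2 | h2 <;> simp [h1, h2]⟩
  inv_mem' := fun {a} ha => ⟨inv_mem ha.1, by
    have hd := congrArg (Int.cast : ℤ → ZMod M₀) a.det_coe
    rw [Matrix.det_fin_two] at hd
    push_cast at hd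
    have hc : ((a 1 0 : ℤ) : ZMod M₀) = 0 := by
      rw [ZMod.intCast_zmod_eq_zero_iff_dvd]
      refine dvd_trans ?_ ((ZMod.intCast_zmod_eq_zero_iff_dvd _ _).mp (Gamma0_mem.mp ha.1))
      exact Int.natCast_dvd_natCast.mpr (dvd_mul_right M₀ M₀)
    have h : ((a⁻¹ 1 1 : ℤ) : ZMod M₀) = ((a 0 0 : ℤ) : ZMod M₀) := by
      simp [Matrix.SpecialLinearGroup.coe_inv, Matrix.adjugate_fin_two]
    rw [h]
    rcases ha.2 with h1 | h1
    · exact Or.inl (by linear_combination hd + ((a 0 1 : ℤ) : ZMod M₀) * hc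
        - ((a 0 0 : ℤ) : ZMod M₀) * h1)
    · exact Or.inr (by linear_combination -1 * hd - ((a 0 1 : ℤ) : ZMod M₀) * hc
        + ((a 0 0 : ℤ) : ZMod M₀) * h1)⟩

theorem gammaH_le (M₀ : ℕ) : gammaH M₀ ≤ Gamma0 (lev M₀) := fun _ h => h.1

/-- No elliptic points on `X₀(M₀²)`, and `M₀` large enough for the level structure. -/
structure LevelOK (M₀ : ℕ) : Prop where
  five_le : 5 ≤ M₀
  three_mod_four : ∃ q : ℕ, q.Prime ∧ q ∣ M₀ ∧ q % 4 = 3
  two_mod_three : ∃ q : ℕ, q.Prime ∧ q ∣ M₀ ∧ q % 3 = 2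

/-- A character modulo `M₀` as a representation at level `M₀²`. -/
abbrev chiRep {K : Type} [Field K] (M₀ : ℕ) (χ : (ZMod M₀)ˣ →* Kˣ) :
    Representation K (ZMod (lev M₀))ˣ K :=
  scalarRep (((Units.coeHom K).comp χ).comp (ZMod.unitsMap (dvd_mul_right M₀ M₀))) K

/-- A nonzero eigenclass with eigenvalues `a`, killed by the parabolic elements of `gammaH`. -/
def EigenClass {K : Type} [Field K] (M₀ : ℕ) (χ : (ZMod M₀)ˣ →* Kˣ) (a : ℕ → K) : Prop :=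
  ∃ c : Cocycle (chiRep M₀ χ), toCoh (chiRep M₀ χ) c ≠ 0 ∧
    (∀ γ : Gamma0 (lev M₀), (γ : SL(2, ℤ)) ∈ gammaH M₀ →
      ((γ : SL(2, ℤ)) : Matrix (Fin 2) (Fin 2) ℤ).trace ^ 2 = 4 → c.1 γ = 0) ∧
    ∀ (p : ℕ) [Fact p.Prime], ¬ p ∣ M₀ →
      heckeOp (chiRep M₀ χ) p (toCoh (chiRep M₀ χ) c) = a p • toCoh (chiRep M₀ χ) c

/-- A semisimple representation of finite level, unramified outside `M₀`, with
`charpoly(Frob_p) = X² - a p X + p χ(p)`. -/
def HasRep {K : Type} [Field K] (M₀ : ℕ) (χ : (ZMod M₀)ˣ →* Kˣ) (a : ℕ → K) : Prop :=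
  ∃ ρ : Γℚ →* GL (Fin 2) K, GaloisFactorsThroughFiniteLevel ρ ∧
    (Deformation.matrixRepresentation ρ).IsSemisimpleRepresentation ∧
    ∀ (p : ℕ) (_ : p.Prime) (hp : p.Coprime M₀) (P : ValuationSubring (AlgebraicClosure ℚ)),
      P.LiesOverPrime p →
        (∀ σ ∈ P.inertiaSubgroupIn ℚ, ρ σ = 1) ∧
        ∀ σ : Γℚ, P.IsFrobeniusAt σ p →
          (ρ σ : Matrix (Fin 2) (Fin 2) K).trace = a p ∧
          (ρ σ : Matrix (Fin 2) (Fin 2) K).det =
            (p : K) * ((χ (ZMod.unitOfCoprime p hp) : Kˣ) : K)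

/-- What the arithmetic of the cover supplies. -/
def EigenClassHasRep : Prop :=
  ∀ (K : Type) [Field K] [IsAlgClosed K] (M₀ ℓ : ℕ) [NeZero M₀],
    LevelOK M₀ → ℓ.Prime → CharP K ℓ → ℓ ∣ M₀ → ¬ ℓ ∣ Nat.totient M₀ →
    ∀ (χ : (ZMod M₀)ˣ →* Kˣ) (a : ℕ → K), χ (-1) = 1 → EigenClass M₀ χ a → HasRep M₀ χ a

end Fermat.Agent.Row48.Cover

end
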