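import Fermat.Agent.Row48.Cover.MultOps
import Fermat.Agent.HeckeModule.Finite
import Mathlib.LinearAlgebra.Matrix.ToLin

/-!
# Homomorphisms with values in a field of characteristic `ℓ`

`goodHom M₀ K` is `K ⊗ goodHom M₀ (ℤ/ℓ)`; endomorphisms are extended through a basis, and an
eigenclass gives an eigenvector.
-/

set_option autoImplicit false

noncomputable section

open CongruenceSubgroup
open scoped MatrixGroups

namespace Fermat.Agent.Row48.Cover

open HeckeJ0 (Idx permOf gOf rep)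
open HeckeModule (Cocycle toCoh heckeOp)

variable {M₀ : ℕ} [NeZero M₀]

theorem deckHom_add {A : Type*} [AddCommGroup A] (d : (ZMod M₀)ˣ) (φ ψ : goodHom M₀ A) :
    deckHom d (φ + ψ) = deckHom d φ + deckHom d ψ := rfl

theorem heckeHom_add {A : Type*} [AddCommGroup A] (p : ℕ) [Fact p.Prime] (φ ψ : goodHom M₀ A) :
    heckeHom p (φ + ψ) = heckeHom p φ + heckeHom p ψ :=
  Subtype.ext (AddMonoidHom.ext fun γ => by
    exact Finset.sum_add_distrib)

instance : (gammaH M₀).FiniteIndex := by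
  refine Subgroup.finiteIndex_of_le (H := Gamma1 (lev M₀)) fun γ hγ =>
    ⟨Gamma1_in_Gamma0 _ hγ, Or.inl ?_⟩
  have h := congrArg (ZMod.castHom (dvd_mul_right M₀ M₀) (ZMod M₀)) ((Gamma1_mem _ _).mp hγ).2.1
  rwa [map_intCast, map_one] at h

theorem exists_generators (M₀ : ℕ) [NeZero M₀] :
    ∃ s : Finset (gammaH M₀), Subgroup.closure (s : Set (gammaH M₀)) = ⊤ := by
  have : Group.FG (gammaH M₀) := inferInstance
  exact Group.fg_def.mp this

omit [NeZero M₀] in
theorem hom_ext_of_gens {A : Type*} [AddCommGroup A] {s : Finset (gammaH M₀)}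
    (hs : Subgroup.closure (s : Set (gammaH M₀)) = ⊤) {f g : Additive (gammaH M₀) →+ A}
    (h : ∀ γ ∈ s, f (Additive.ofMul γ) = g (Additive.ofMul γ)) : f = g := by
  refine AddMonoidHom.ext fun x => ?_
  obtain ⟨γ, rfl⟩ : ∃ γ, Additive.ofMul γ = x := ⟨Additive.toMul x, rfl⟩
  have hmem : γ ∈ Subgroup.closure (s : Set (gammaH M₀)) := hs ▸ Subgroup.mem_top γ
  induction hmem using Subgroup.closure_induction with
  | mem γ hγ => exact h γ hγ
  | one => rw [ofMul_one, map_zero, map_zero]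
  | mul a b _ _ ha hb => rw [ofMul_mul, map_add, map_add, ha, hb]
  | inv a _ ha => rw [ofMul_inv, map_neg, map_neg, ha]

instance (n : ℕ) [NeZero n] : Finite (goodHom M₀ (ZMod n)) := by
  obtain ⟨s, hs⟩ := exists_generators M₀
  refine Finite.of_injective (fun φ (γ : s) => (φ : Additive (gammaH M₀) →+ ZMod n)
    (Additive.ofMul (γ : gammaH M₀))) fun φ ψ h => ?_
  exact Subtype.ext (hom_ext_of_gens hs fun γ hγ => congrFun h ⟨γ, hγ⟩)

/-- The diamond operator as a linear map. -/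
def deckEnd (n : ℕ) (d : (ZMod M₀)ˣ) : Module.End (ZMod n) (goodHom M₀ (ZMod n)) :=
  AddMonoidHom.toZModLinearMap n
    (AddMonoidHom.mk' (deckHom (A := ZMod n) d) (deckHom_add (A := ZMod n) d) :
      goodHom M₀ (ZMod n) →+ goodHom M₀ (ZMod n))

/-- The Hecke operator as a linear map. -/
def heckeEnd (n p : ℕ) [Fact p.Prime] : Module.End (ZMod n) (goodHom M₀ (ZMod n)) :=
  AddMonoidHom.toZModLinearMap n
    (AddMonoidHom.mk' (heckeHom (M₀ := M₀) (A := ZMod n) p)
      (heckeHom_add (M₀ := M₀) (A := ZMod n) p) : goodHom M₀ (ZMod n) →+ goodHom M₀ (ZMod n))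

theorem deckEnd_apply (n : ℕ) (d : (ZMod M₀)ˣ) (φ : goodHom M₀ (ZMod n)) :
    deckEnd n d φ = deckHom d φ := rfl

theorem heckeEnd_apply (n p : ℕ) [Fact p.Prime] (φ : goodHom M₀ (ZMod n)) :
    heckeEnd n p φ = heckeHom p φ := rfl

section Extend

variable {ℓ : ℕ} [Fact ℓ.Prime] {K : Type} [Field K] [CharP K ℓ] {d : ℕ}
  (b : Module.Basis (Fin d) (ZMod ℓ) (goodHom M₀ (ZMod ℓ)))

local notation "ι" => ZMod.castHom (dvd_refl ℓ) K

/-- The homomorphism to `K` with coordinates `v`. -/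
def ev (v : Fin d → K) (γ : gammaH M₀) : K :=
  ∑ i, v i * ι ((b i : Additive (gammaH M₀) →+ ZMod ℓ) (Additive.ofMul γ))

/-- An endomorphism on coordinates in `K`. -/
def extEnd : Module.End (ZMod ℓ) (goodHom M₀ (ZMod ℓ)) →+* Module.End K (Fin d → K) :=
  ((Matrix.toLinAlgEquiv' : _ ≃ₐ[K] _).toAlgHom.toRingHom.comp (ι).mapMatrix).comp
    (LinearMap.toMatrixAlgEquiv b).toAlgHom.toRingHom

omit [NeZero M₀] in
theorem extEnd_apply (T : Module.End (ZMod ℓ) (goodHom M₀ (ZMod ℓ))) (v : Fin d → K) (i : Fin d) :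
    extEnd b T v i = ∑ j, ι (b.repr (T (b j)) i) * v j := by
  show Matrix.mulVec ((LinearMap.toMatrixAlgEquiv b T).map ι) v i = _
  simp [Matrix.mulVec, dotProduct, LinearMap.toMatrixAlgEquiv_apply]

/-- Evaluation at an element, linearly. -/
def evalAt (γ : gammaH M₀) : goodHom M₀ (ZMod ℓ) →ₗ[ZMod ℓ] ZMod ℓ :=
  (AddMonoidHom.mk' (fun φ : goodHom M₀ (ZMod ℓ) =>
    (φ : Additive (gammaH M₀) →+ ZMod ℓ) (Additive.ofMul γ)) fun _ _ => rfl).toZModLinearMap ℓ

omit [NeZero M₀] in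
theorem sum_repr_apply (φ : goodHom M₀ (ZMod ℓ)) (γ : gammaH M₀) :
    ∑ i, b.repr φ i * (b i : Additive (gammaH M₀) →+ ZMod ℓ) (Additive.ofMul γ) =
      (φ : Additive (gammaH M₀) →+ ZMod ℓ) (Additive.ofMul γ) := by
  have h := congrArg (evalAt γ) (b.sum_repr φ)
  rw [map_sum] at h
  simp only [map_smul, smul_eq_mul] at h
  exact h

omit [NeZero M₀] in
theorem ev_extEnd (T : Module.End (ZMod ℓ) (goodHom M₀ (ZMod ℓ))) (v : Fin d → K)
    (γ : gammaH M₀) :
    ev b (extEnd b T v) γ =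
      ∑ j, v j * ι ((T (b j) : Additive (gammaH M₀) →+ ZMod ℓ) (Additive.ofMul γ)) := by
  simp only [ev, extEnd_apply, Finset.sum_mul]
  rw [Finset.sum_comm]
  refine Finset.sum_congr rfl fun j _ => ?_
  rw [← sum_repr_apply b (T (b j)) γ, map_sum, Finset.mul_sum]
  refine Finset.sum_congr rfl fun i _ => ?_
  rw [map_mul]
  ring

theorem ev_deck (e : (ZMod M₀)ˣ) (v : Fin d → K) (γ : gammaH M₀) :
    ev b (extEnd b (deckEnd ℓ e) v) γ = ev b v (conjH (gammaD_mem e) γ) := by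
  rw [ev_extEnd]; rfl

theorem ev_hecke (p : ℕ) [Fact p.Prime] (v : Fin d → K) (γ : gammaH M₀) :
    ev b (extEnd b (heckeEnd ℓ p) v) γ = ∑ x : Idx (lev M₀) p, ev b v (deltaG x γ) := by
  rw [ev_extEnd]
  simp only [ev]
  rw [Finset.sum_comm]
  refine Finset.sum_congr rfl fun j _ => ?_
  rw [heckeEnd_apply,
    show ((heckeHom p (b j) : goodHom M₀ (ZMod ℓ)) : Additive (gammaH M₀) →+ ZMod ℓ)
    (Additive.ofMul γ) = _ from heckeHomRaw_apply _ γ, map_sum, Finset.mul_sum]

omit [NeZero M₀] in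
theorem ev_smul (k : K) (v : Fin d → K) (γ : gammaH M₀) : ev b (k • v) γ = k * ev b v γ := by
  simp [ev, Finset.mul_sum, mul_assoc]

omit [NeZero M₀] in
theorem ev_sub (v w : Fin d → K) (γ : gammaH M₀) : ev b (v - w) γ = ev b v γ - ev b w γ := by
  simp [ev, sub_mul, Finset.sum_sub_distrib]

omit [NeZero M₀] in
theorem eq_of_ev_eq {v w : Fin d → K} (h : ∀ γ, ev b v γ = ev b w γ) : v = w := by
  let := ZMod.algebra K ℓ
  refine funext fun i => sub_eq_zero.mp ((Module.forall_dual_apply_eq_zero_iff (ZMod ℓ) _).mp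
    fun l => ?_)
  have key : ∑ j, l (v j - w j) • b j = 0 := by
    refine Subtype.ext (AddMonoidHom.ext fun x => ?_)
    obtain ⟨γ, rfl⟩ : ∃ γ, Additive.ofMul γ = x := ⟨Additive.toMul x, rfl⟩
    have h0 : ∑ j, (v j - w j) * ι ((b j : Additive (gammaH M₀) →+ ZMod ℓ) (Additive.ofMul γ))
        = 0 := by
      have := ev_sub b v w γ
      rw [h γ, sub_self] at this
      exact this
    have h1 : evalAt γ (∑ j, l (v j - w j) • b j) = 0 := by
      rw [← l.map_zero, ← h0, map_sum, map_sum]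
      refine Finset.sum_congr rfl fun j _ => ?_
      rw [map_smul, mul_comm _ (ι _),
        show (ι : ZMod ℓ →+* K) = algebraMap (ZMod ℓ) K from Subsingleton.elim _ _,
        ← Algebra.smul_def, map_smul, smul_eq_mul, smul_eq_mul, mul_comm]
      rfl
    exact h1
  exact Fintype.linearIndependent_iff.mp b.linearIndependent _ key i

theorem exists_coords (f : Additive (gammaH M₀) →+ K) (hf : f ∈ goodHom M₀ K) :
    ∃ v : Fin d → K, ∀ γ, ev b v γ = f (Additive.ofMul γ) := by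
  classical
  let := ZMod.algebra K ℓ
  obtain ⟨s, hs⟩ := exists_generators M₀
  let B := Module.Free.chooseBasis (ZMod ℓ) K
  let φ := fun j => (⟨(B.coord j).toAddMonoidHom.comp f, fun γ hγ => by
    show B.coord j (f _) = 0
    rw [hf γ hγ, map_zero]⟩ : goodHom M₀ (ZMod ℓ))
  let S := s.biUnion fun γ => (B.repr (f (Additive.ofMul γ))).support
  refine ⟨fun i => ∑ j ∈ S, b.repr (φ j) i • B j, fun γ => ?_⟩
  let f' : Additive (gammaH M₀) →+ K :=
    ∑ j ∈ S, (AddMonoidHom.mk' (fun c : ZMod ℓ => c • B j) fun _ _ => add_smul _ _ _).comp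
      (φ j : Additive (gammaH M₀) →+ ZMod ℓ)
  have hff : f' = f := hom_ext_of_gens hs fun γ hγ => by
    simp only [f', AddMonoidHom.finsetSum_apply]
    show ∑ j ∈ S, B.repr (f (Additive.ofMul γ)) j • B j = _
    conv_rhs => rw [← B.linearCombination_repr (f (Additive.ofMul γ)),
      Finsupp.linearCombination_apply, Finsupp.sum]
    refine (Finset.sum_subset (Finset.subset_biUnion_of_mem
      (fun γ => (B.repr (f (Additive.ofMul γ))).support) hγ) fun j _ hj => ?_).symm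
    rw [Finsupp.notMem_support_iff.mp hj, zero_smul]
  rw [← hff]
  simp only [ev, f', AddMonoidHom.finsetSum_apply, Finset.sum_mul]
  rw [Finset.sum_comm]
  refine Finset.sum_congr rfl fun j _ => ?_
  show _ = ((φ j : Additive (gammaH M₀) →+ ZMod ℓ) (Additive.ofMul γ)) • B j
  rw [← sum_repr_apply b (φ j) γ, Finset.sum_smul]
  refine Finset.sum_congr rfl fun i _ => ?_
  rw [show (ι : ZMod ℓ →+* K) = algebraMap (ZMod ℓ) K from Subsingleton.elim _ _, mul_comm,
    ← Algebra.smul_def, smul_smul, mul_comm]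

end Extend

end Fermat.Agent.Row48.Cover

end
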