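import Fermat.Agent.Row48.Cover.Defs
import Fermat.Agent.Row48.Cover.HomExt

/-!
# An eigenclass restricted to the group of the cover
-/

set_option autoImplicit false

noncomputable section

open CongruenceSubgroup
open scoped MatrixGroups

namespace Fermat.Agent.Row48.Cover

open HeckeJ0 (Idx permOf gOf rep)
open HeckeModule (Cocycle toCoh heckeOp)

variable {M₀ : ℕ} [NeZero M₀] {K : Type} [Field K]

/-- The lower right entry modulo `M₀`. -/
def dM (M₀ : ℕ) : Gamma0 (lev M₀) →* (ZMod M₀)ˣ :=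
  (ZMod.unitsMap (dvd_mul_right M₀ M₀)).comp (HeckeModule.dUnit (lev M₀))

omit [NeZero M₀] in
theorem coe_dM (γ : Gamma0 (lev M₀)) :
    ((dM M₀ γ : (ZMod M₀)ˣ) : ZMod M₀) = (((γ : SL(2, ℤ)) 1 1 : ℤ) : ZMod M₀) := by
  rw [dM, MonoidHom.comp_apply, ZMod.unitsMap_def, Units.coe_map, MonoidHom.coe_coe,
    HeckeModule.coe_dUnit, map_intCast]

omit [NeZero M₀] in
theorem mem_gammaH_iff (γ : Gamma0 (lev M₀)) :
    (γ : SL(2, ℤ)) ∈ gammaH M₀ ↔ dM M₀ γ = 1 ∨ dM M₀ γ = -1 := by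
  constructor
  · rintro ⟨-, h | h⟩
    · exact Or.inl (Units.ext (by rw [coe_dM, h]; rfl))
    · exact Or.inr (Units.ext (by rw [coe_dM, h]; rfl))
  · rintro (h | h)
    · exact ⟨γ.2, Or.inl (by rw [← coe_dM, h]; rfl)⟩
    · exact ⟨γ.2, Or.inr (by rw [← coe_dM, h]; rfl)⟩

/-- The element of `Γ₀(M₀²)` chosen over `d`. -/
def gd (d : (ZMod M₀)ˣ) : Gamma0 (lev M₀) := ⟨gammaD d, gammaD_mem d⟩

theorem dM_gd (d : (ZMod M₀)ˣ) : dM M₀ (gd d) = d :=
  Units.ext (by rw [coe_dM]; exact gammaD_diag d)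

variable {χ : (ZMod M₀)ˣ →* Kˣ}

omit [NeZero M₀] in
theorem chiRep_gamma (γ : Gamma0 (lev M₀)) (x : K) :
    HeckeModule.gammaRep (chiRep M₀ χ) γ x = ((χ (dM M₀ γ) : Kˣ) : K) * x := rfl

omit [NeZero M₀] in
theorem chiRep_apply (u : (ZMod (lev M₀))ˣ) (x : K) :
    chiRep M₀ χ u x = ((χ (ZMod.unitsMap (dvd_mul_right M₀ M₀) u) : Kˣ) : K) * x := rfl

variable (c : Cocycle (chiRep M₀ χ))

omit [NeZero M₀] in
theorem cocycle_mul (g h : Gamma0 (lev M₀)) :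
    c.1 (g * h) = c.1 g + ((χ (dM M₀ g) : Kˣ) : K) * c.1 h := by
  rw [c.2.1, chiRep_gamma]

omit [NeZero M₀] in
theorem cocycle_mul_inv (u g : Gamma0 (lev M₀)) :
    c.1 (u * g⁻¹) = c.1 u - ((χ (dM M₀ (u * g⁻¹)) : Kˣ) : K) * c.1 g := by
  have h := cocycle_mul c (u * g⁻¹) g
  rw [inv_mul_cancel_right] at h
  rw [h, add_sub_cancel_right]

omit [NeZero M₀] in
theorem chi_eq_one (hχ : χ (-1) = 1) (γ : gammaH M₀) : χ (dM M₀ (toG0 γ)) = 1 := by
  rcases (mem_gammaH_iff (toG0 γ)).mp γ.2 with h | h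
  · rw [h, map_one]
  · rw [h, hχ]

/-- The restriction of a cocycle to the group of the cover. -/
def resH (hχ : χ (-1) = 1) : Additive (gammaH M₀) →+ K :=
  AddMonoidHom.mk' (fun γ => c.1 (toG0 (Additive.toMul γ))) fun γ δ => by
    rw [toMul_add, map_mul, cocycle_mul, chi_eq_one hχ, Units.val_one, one_mul]

omit [NeZero M₀] in
theorem resH_apply (hχ : χ (-1) = 1) (γ : gammaH M₀) :
    resH c hχ (Additive.ofMul γ) = c.1 (toG0 γ) := rfl

theorem resH_conj (hχ : χ (-1) = 1) (e : (ZMod M₀)ˣ) (γ : gammaH M₀) :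
    resH c hχ (Additive.ofMul (conjH (gammaD_mem e) γ)) =
      ((χ e : Kˣ) : K) * resH c hχ (Additive.ofMul γ) := by
  have he : toG0 (conjH (gammaD_mem e) γ) = gd e * toG0 γ * (gd e)⁻¹ := Subtype.ext rfl
  rw [resH_apply, resH_apply, he, cocycle_mul_inv, cocycle_mul]
  simp only [map_mul, map_inv, dM_gd, chi_eq_one hχ, mul_one, mul_inv_cancel, Units.val_one,
    one_mul]
  ring

theorem sum_resH_deltaG (hχ : χ (-1) = 1) {p : ℕ} [Fact p.Prime] {a : K}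
    (hev : heckeOp (chiRep M₀ χ) p (toCoh (chiRep M₀ χ) c) = a • toCoh (chiRep M₀ χ) c)
    (γ : gammaH M₀) :
    ∑ x : Idx (lev M₀) p, resH c hχ (Additive.ofMul (deltaG x γ)) =
      a * resH c hχ (Additive.ofMul γ) := by
  classical
  rw [HeckeModule.heckeOp_toCoh, ← map_smul] at hev
  obtain ⟨t, ht⟩ := (HeckeModule.cls_eq_cls_iff _ _).mp hev
  have h1 := ht (toG0 γ)
  rw [chiRep_gamma, chi_eq_one hχ, Units.val_one, one_mul, sub_self, sub_eq_zero] at h1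
  change (HeckeModule.heckeData (chiRep M₀ χ) p).raw c.1 (toG0 γ) = a * c.1 (toG0 γ) at h1
  rw [resH_apply, ← h1, HeckeModule.Data.raw_apply]
  have htr : ∀ x, (HeckeModule.heckeData (chiRep M₀ χ) p).tr x (toG0 γ) = gOf x (toG0 γ) :=
    fun x => by
      have h2 : (HeckeModule.heckeData (chiRep M₀ χ) p).α x * HeckeModule.toGL (lev M₀) (toG0 γ) =
          HeckeModule.toGL (lev M₀) (gOf x (toG0 γ)) *
            (HeckeModule.heckeData (chiRep M₀ χ) p).α (permOf (toG0 γ) x) := HeckeJ0.rep_mul x _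
      exact ((HeckeModule.heckeData (chiRep M₀ χ) p).spec_unique HeckeModule.toGL_injective h2).2
  have hterm : ∀ x : Idx (lev M₀) p, resH c hχ (Additive.ofMul (deltaG x γ)) =
      ((χ (aU x) : Kˣ) : K) * c.1 (gOf x (toG0 γ)) +
        (c.1 (gd (aU x)) - c.1 (gd (aU (permOf (toG0 γ) x)))) := by
    intro x
    have he : toG0 (deltaG x γ) =
        gd (aU x) * gOf x (toG0 γ) * (gd (aU (permOf (toG0 γ) x)))⁻¹ := Subtype.ext rfl
    have hd : dM M₀ (toG0 (deltaG x γ)) = dM M₀ (toG0 γ) :=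
      Units.ext (by rw [coe_dM, coe_dM]; exact deltaH_diag x (toG0 γ))
    rw [resH_apply, he, cocycle_mul_inv, ← he, hd, chi_eq_one hχ, Units.val_one, one_mul,
      cocycle_mul, dM_gd]
    ring
  rw [Finset.sum_congr rfl fun x _ => hterm x, Finset.sum_add_distrib, Finset.sum_sub_distrib,
    Equiv.sum_comp (permOf (ℓ := p) (toG0 γ)) fun x => c.1 (gd (aU x)), sub_self, add_zero]
  refine Finset.sum_congr rfl fun x _ => ?_
  show _ = chiRep M₀ χ (HeckeModule.aUnit x) _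
  rw [chiRep_apply, htr]
  rfl

theorem eq_zero_of_resH_eq_zero (hχ : χ (-1) = 1) (hφ : (Nat.totient M₀ : K) ≠ 0)
    (h : resH c hχ = 0) : toCoh (chiRep M₀ χ) c = 0 := by
  have hres : ∀ δ : Gamma0 (lev M₀), (δ : SL(2, ℤ)) ∈ gammaH M₀ → c.1 δ = 0 := fun δ hδ =>
    DFunLike.congr_fun h (Additive.ofMul (⟨δ, hδ⟩ : gammaH M₀))
  have key : ∀ γ, c.1 γ = c.1 (gd (dM M₀ γ)) := by
    intro γ
    have hmem : ((gd (dM M₀ γ))⁻¹ * γ : Gamma0 (lev M₀)).1 ∈ gammaH M₀ :=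
      (mem_gammaH_iff _).mpr (Or.inl (by rw [map_mul, map_inv, dM_gd, inv_mul_cancel]))
    have h1 := cocycle_mul c (gd (dM M₀ γ)) ((gd (dM M₀ γ))⁻¹ * γ)
    rwa [mul_inv_cancel_left, hres _ hmem, mul_zero, add_zero] at h1
  set S := ∑ e : (ZMod M₀)ˣ, c.1 (gd e) with hS
  refine (HeckeModule.cls_eq_zero_iff c).mpr ⟨-(S / (Nat.totient M₀ : K)), fun γ => ?_⟩
  have h2 : S = (Nat.totient M₀ : K) * c.1 γ + ((χ (dM M₀ γ) : Kˣ) : K) * S := by
    conv_lhs => rw [hS, ← Equiv.sum_comp (Equiv.mulLeft (dM M₀ γ))]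
    rw [hS, Finset.mul_sum]
    have : ∀ e : (ZMod M₀)ˣ, c.1 (gd (Equiv.mulLeft (dM M₀ γ) e)) =
        c.1 γ + ((χ (dM M₀ γ) : Kˣ) : K) * c.1 (gd e) := fun e => by
      rw [← cocycle_mul, key (γ * gd e), map_mul, dM_gd]
      rfl
    rw [Finset.sum_congr rfl fun e _ => this e, Finset.sum_add_distrib, Finset.sum_const,
      Finset.card_univ, ZMod.card_units_eq_totient, nsmul_eq_mul]
  rw [chiRep_gamma]
  field_simp
  linear_combination -h2

theorem exists_eigenvector {ℓ : ℕ} [Fact ℓ.Prime] [CharP K ℓ] {a : ℕ → K} {d : ℕ}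
    (b : Module.Basis (Fin d) (ZMod ℓ) (goodHom M₀ (ZMod ℓ))) (hℓ : ¬ ℓ ∣ Nat.totient M₀)
    (hχ : χ (-1) = 1) (h : EigenClass M₀ χ a) :
    ∃ v : Fin d → K, v ≠ 0 ∧
      (∀ e, extEnd b (deckEnd ℓ e) v = ((χ e : Kˣ) : K) • v) ∧
      ∀ (p : ℕ) [Fact p.Prime], ¬ p ∣ M₀ → extEnd b (heckeEnd ℓ p) v = a p • v := by
  obtain ⟨c, hc, hpar, hev⟩ := h
  obtain ⟨v, hv⟩ := exists_coords b (resH c hχ) fun γ hγ => hpar (toG0 γ) γ.2 hγ
  refine ⟨v, fun h0 => hc ?_, fun e => eq_of_ev_eq b fun γ => ?_, fun p _ hp =>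
    eq_of_ev_eq b fun γ => ?_⟩
  · refine eq_zero_of_resH_eq_zero c hχ (fun hφ => hℓ ((CharP.cast_eq_zero_iff K ℓ _).mp hφ)) ?_
    refine AddMonoidHom.ext fun x => ?_
    obtain ⟨γ, rfl⟩ : ∃ γ, Additive.ofMul γ = x := ⟨Additive.toMul x, rfl⟩
    rw [← hv, h0]
    simp [ev]
  · rw [ev_deck, ev_smul, hv, hv, resH_conj]
  · rw [ev_hecke, ev_smul, hv, Finset.sum_congr rfl fun x _ => hv _]
    exact sum_resH_deltaG c hχ (hev p hp) γ

end Fermat.Agent.Row48.Cover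

end
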