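import Fermat.Agent.Row48.Cover.Series
import Fermat.Agent.X0Analytic.Places

/-!
# `X₀(M₀²)` has no elliptic points and parabolic elements lie in the group of the cover
-/

set_option autoImplicit false

noncomputable section

open CongruenceSubgroup
open scoped MatrixGroups

namespace Fermat.Agent.Row48.Cover

open Gamma0Count (CosetSpace)
open X0Analytic (cosetPerm)

variable {M₀ : ℕ} [NeZero M₀]

omit [NeZero M₀] in
/-- In characteristic `q` an element of trace `t` of `Γ₀(M₀²)` solves `d² - t d + 1 = 0`. -/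
theorem trace_equation {q : ℕ} (hq : q ∣ M₀) {γ : SL(2, ℤ)} (hγ : γ ∈ Gamma0 (lev M₀)) :
    ((γ 1 1 : ℤ) : ZMod q) ^ 2 - (((γ : Matrix (Fin 2) (Fin 2) ℤ).trace : ℤ) : ZMod q) *
      ((γ 1 1 : ℤ) : ZMod q) + 1 = 0 := by
  have hc : ((γ 1 0 : ℤ) : ZMod q) = 0 := by
    rw [ZMod.intCast_zmod_eq_zero_iff_dvd]
    exact (Int.natCast_dvd_natCast.mpr (dvd_mul_of_dvd_left hq M₀)).trans
      ((ZMod.intCast_zmod_eq_zero_iff_dvd _ _).mp (Gamma0_mem.mp hγ))
  have hdet := congrArg (Int.cast : ℤ → ZMod q) γ.det_coe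
  rw [Matrix.det_fin_two] at hdet
  push_cast at hdet
  rw [Matrix.trace_fin_two]
  push_cast
  linear_combination (-1 : ZMod q) * hdet - ((γ 0 1 : ℤ) : ZMod q) * hc

omit [NeZero M₀] in
/-- A parabolic element of `Γ₀(M₀²)` has lower right entry `±1` modulo `M₀`. -/
theorem mem_gammaH_of_trace {γ : SL(2, ℤ)} (hγ : γ ∈ Gamma0 (lev M₀))
    (ht : (γ : Matrix (Fin 2) (Fin 2) ℤ).trace ^ 2 = 4) : γ ∈ gammaH M₀ := by
  refine ⟨hγ, ?_⟩
  obtain ⟨u, hu, hd⟩ : ∃ u : ℤ, (u = 1 ∨ u = -1) ∧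
      (γ : Matrix (Fin 2) (Fin 2) ℤ).trace = 2 * u := by
    rcases sq_eq_sq_iff_eq_or_eq_neg.mp (ht.trans (by norm_num : (4 : ℤ) = 2 ^ 2)) with h | h
    · exact ⟨1, Or.inl rfl, by rw [h]; norm_num⟩
    · exact ⟨-1, Or.inr rfl, by rw [h]; norm_num⟩
  have hc : ((lev M₀ : ℕ) : ℤ) ∣ γ 1 0 :=
    (ZMod.intCast_zmod_eq_zero_iff_dvd _ _).mp (Gamma0_mem.mp hγ)
  have hdet := γ.det_coe
  rw [Matrix.det_fin_two] at hdet
  rw [Matrix.trace_fin_two] at hd
  have hu2 : u * u = 1 := by rcases hu with rfl | rfl <;> norm_num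
  have hsq : ((M₀ : ℕ) : ℤ) ^ 2 ∣ (γ 1 1 - u) ^ 2 := by
    have e : (γ 1 1 - u) ^ 2 = -(γ 0 1 * γ 1 0) := by
      linear_combination hdet * (-1 : ℤ) + γ 1 1 * hd + hu2
    rw [e]
    refine dvd_neg.mpr (dvd_mul_of_dvd_right ?_ _)
    simpa [lev, sq] using hc
  have hdvd : ((M₀ : ℕ) : ℤ) ∣ γ 1 1 - u := (Int.pow_dvd_pow_iff two_ne_zero).mp hsq
  have h1 : ((γ 1 1 : ℤ) : ZMod M₀) = (u : ZMod M₀) :=
    (sub_eq_zero.mp (by rw [← Int.cast_sub, ZMod.intCast_zmod_eq_zero_iff_dvd]; exact hdvd))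
  rcases hu with rfl | rfl
  · exact Or.inl (by simpa using h1)
  · exact Or.inr (by simpa using h1)

theorem trace_conj_inv (g σ : SL(2, ℤ)) :
    ((g⁻¹ * σ * g : SL(2, ℤ)) : Matrix (Fin 2) (Fin 2) ℤ).trace =
      (σ : Matrix (Fin 2) (Fin 2) ℤ).trace := by
  rw [Matrix.SpecialLinearGroup.coe_mul, Matrix.trace_mul_comm,
    ← Matrix.SpecialLinearGroup.coe_mul, mul_inv_cancel_left]

theorem mem_Gamma0_of_fixed {N : ℕ} {σ g : SL(2, ℤ)}
    (h : σ • (g : CosetSpace N) = g) : g⁻¹ * σ * g ∈ Gamma0 N := by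
  rw [MulAction.Quotient.smul_coe, QuotientGroup.eq, smul_eq_mul] at h
  have := inv_mem h
  rwa [mul_inv_rev, inv_inv, ← mul_assoc] at this

omit [NeZero M₀] in
/-- `S` fixes no coset. -/
theorem S_smul_ne (hL : LevelOK M₀) (s : CosetSpace (lev M₀)) : ModularGroup.S • s ≠ s := by
  obtain ⟨g, rfl⟩ := QuotientGroup.mk_surjective s
  intro h
  obtain ⟨q, hq, hqM, hq4⟩ := hL.three_mod_four
  have := Fact.mk hq
  have h1 := trace_equation hqM (mem_Gamma0_of_fixed h)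
  rw [trace_conj_inv, show ((ModularGroup.S : SL(2, ℤ)) : Matrix (Fin 2) (Fin 2) ℤ).trace = 0 by
    simp [ModularGroup.coe_S], Int.cast_zero, zero_mul, sub_zero] at h1
  exact ZMod.exists_sq_eq_neg_one_iff.mp ⟨((g⁻¹ * ModularGroup.S * g) 1 1 : ℤ), by
    linear_combination -h1⟩ hq4

omit [NeZero M₀] in
/-- `ST` fixes no coset. -/
theorem ST_smul_ne (hL : LevelOK M₀) (s : CosetSpace (lev M₀)) :
    (ModularGroup.S * ModularGroup.T) • s ≠ s := by
  obtain ⟨g, rfl⟩ := QuotientGroup.mk_surjective s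
  intro h
  obtain ⟨q, hq, hqM, hq3⟩ := hL.two_mod_three
  have := Fact.mk hq
  have h1 := trace_equation hqM (mem_Gamma0_of_fixed h)
  rw [trace_conj_inv, show ((ModularGroup.S * ModularGroup.T : SL(2, ℤ)) :
      Matrix (Fin 2) (Fin 2) ℤ).trace = 1 by
    simp [ModularGroup.coe_S, ModularGroup.coe_T, Matrix.trace_fin_two], Int.cast_one,
    one_mul] at h1
  generalize ((((g⁻¹ * (ModularGroup.S * ModularGroup.T) * g) 1 1 : ℤ)) : ZMod q) = d at h1
  -- `-d` is a cube root of unity different from `1`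
  have hd3 : (-d) ^ 3 = 1 := by linear_combination (-d - 1) * h1
  have hd0 : -d ≠ 0 := fun h0 => by rw [h0] at hd3; simp at hd3
  have hcard := ZMod.pow_card_sub_one_eq_one hd0
  have hcop : Nat.Coprime 3 (q - 1) := by
    refine Nat.prime_three.coprime_iff_not_dvd.mpr fun h3 => ?_
    have := hq.two_le
    omega
  have hone : -d = 1 := by
    have := pow_gcd_eq_one.mpr ⟨hd3, hcard⟩
    rwa [hcop.gcd_eq_one, pow_one] at this
  have h3 : ((3 : ℕ) : ZMod q) = 0 := by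
    push_cast
    linear_combination h1 + (d - 2) * hone
  rw [ZMod.natCast_eq_zero_iff] at h3
  rw [(Nat.prime_dvd_prime_iff_eq hq Nat.prime_three).mp h3] at hq3
  omega

/-- The stabilisers of the elliptic points act freely. -/
theorem period_eq_of_ne {σ : SL(2, ℤ)} {m : ℕ} (hm : m.Prime) (hσ : σ ^ m = (-1 : SL(2, ℤ)))
    {s : CosetSpace (lev M₀)} (hne : σ • s ≠ s) :
    Function.minimalPeriod (cosetPerm σ) s = m := by
  refine (hm.eq_one_or_self_of_dvd _ (X0Analytic.period_dvd hσ s)).resolve_left fun h => hne ?_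
  exact Function.minimalPeriod_eq_one_iff_isFixedPt.mp h

end Fermat.Agent.Row48.Cover

end
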