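import Fermat.Agent.X0Analytic.Ser
import Fermat.Agent.Igusa.LaurentTools
import Mathlib.FieldTheory.Normal.Basic

/-!
# The Galois group of a reduced family of modular functions over `k(j)`

A finite family of periodic functions permuted by `SL(2, ℤ)`, with series over a ring `R`, and a
reduction `π : R → k`. The reduced series generate a normal extension `E` of `k(J)`; every
automorphism acts on them as an element of `SL(2, ℤ)` does.
-/

set_option autoImplicit false

noncomputable section

open UpperHalfPlane ModularCurve Polynomial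
open scoped MatrixGroups

namespace Fermat.Agent.Row48.Cover

open X0Analytic (perMero qSer qp jFun jqC)

variable {W : ℕ} [NeZero W]

theorem jFun_mem_perMero : jFun ∈ perMero W ∧
    ∀ h : jFun ∈ perMero W, qSer W ⟨jFun, h⟩ = qExpand ℂ W jqC := by
  obtain ⟨hm, hs⟩ := X0Analytic.qSer_subst (h' := W) (M := W)
    (⟨jFun, X0Analytic.jFun_mem⟩ : ↥(perMero 1)) (fun τ => τ) mdifferentiable_id 1 one_ne_zero
    (fun τ => by rw [one_mul, X0Analytic.qp_one_eq_pow W τ])
  rw [X0Analytic.rot_one, X0Analytic.qSer_jFun] at hs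
  exact ⟨hm, fun _ => hs⟩

/-- `j` as a function of period `W`. -/
def jPer (W : ℕ) [NeZero W] : ↥(perMero W) := ⟨jFun, jFun_mem_perMero.1⟩

theorem qSer_jPer : qSer W (jPer W) = qExpand ℂ W jqC := jFun_mem_perMero.2 _

theorem qSer_algMap_C (c : ℂ) :
    qSer W (algebraMap ℂ ↥(perMero W) c) = HahnSeries.C c := by
  rw [X0Analytic.qSer_algebraMap, HahnSeries.C_apply]

variable {R : Type*} [CommRing R]

/-- A polynomial in `jqModC` with coefficients in the image of `e` comes from `R`. -/
theorem lifts_of_eval_jqModC (e : R →+* ℂ) (P : Polynomial ℂ)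
    (h : ∀ n, (P.eval₂ HahnSeries.C (jqModC ℂ)).coeff n ∈ e.range) :
    P ∈ Polynomial.lifts e := by
  induction hd : P.natDegree using Nat.strong_induction_on generalizing P with
  | _ d ih =>
    obtain ⟨a, ha⟩ := h (-(P.natDegree : ℤ))
    rw [Igusa.coeff_poly_eval_lead] at ha
    have hT : Polynomial.C P.leadingCoeff * Polynomial.X ^ P.natDegree ∈ Polynomial.lifts e :=
      mul_mem (ha ▸ Polynomial.C_mem_lifts e a) (Polynomial.X_pow_mem_lifts e _)
    rw [← Polynomial.eraseLead_add_C_mul_X_pow P]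
    refine add_mem ?_ hT
    rcases eq_or_ne P.eraseLead 0 with h0 | h0
    · rw [h0]; exact zero_mem _
    refine ih _ ?_ _ (fun n => ?_) rfl
    · rw [← hd]
      rcases Polynomial.eraseLead_natDegree_lt_or_eraseLead_eq_zero P with h1 | h1
      · exact h1
      · exact absurd h1 h0
    · have hn := h n
      rw [← Polynomial.eraseLead_add_C_mul_X_pow P, Polynomial.eval₂_add, Polynomial.eval₂_mul,
        Polynomial.eval₂_C, Polynomial.eval₂_X_pow, HahnSeries.coeff_add] at hn
      have hlead : (HahnSeries.C P.leadingCoeff * jqModC ℂ ^ P.natDegree).coeff n ∈ e.range := by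
        rw [HahnSeries.C_mul_eq_smul, HahnSeries.coeff_smul, smul_eq_mul]
        refine mul_mem ⟨a, ha⟩ ?_
        rw [← coeffMap_jqModC e, ← map_pow, coeffMap_coeff]
        exact ⟨_, rfl⟩
      simpa using sub_mem hn hlead

/-- An invariant function with series over `R` is a polynomial in `j` over `R`. -/
theorem exists_poly_of_invariant (e : R →+* ℂ) (he : Function.Injective e) (f : ↥(perMero W))
    (hinv : ∀ (δ : SL(2, ℤ)) (τ : ℍ), (f : ℍ → ℂ) (δ • τ) = (f : ℍ → ℂ) τ)
    (s : LaurentSeries R) (hs : coeffMap e s = qSer W f) :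
    ∃ P : Polynomial R, s = P.eval₂ HahnSeries.C (qExpand R W (jqModC R)) := by
  have hmem : (f : ℍ → ℂ) ∈ perMero 1 := X0Analytic.mem_perMero_one f.2 fun τ => by
    rw [Nat.cast_one, ← UpperHalfPlane.modular_T_smul]
    exact hinv _ τ
  obtain ⟨P, hP⟩ := X0Analytic.exists_polynomial_of_levelOne hmem hinv
  have hf : f = P.eval₂ (algebraMap ℂ ↥(perMero W)) (jPer W) := by
    refine Subtype.ext (funext fun τ => ?_)
    rw [hP τ]
    exact (Polynomial.hom_eval₂ P (algebraMap ℂ ↥(perMero W))
      ((Pi.evalRingHom (fun _ : ℍ => ℂ) τ).comp (perMero W).val.toRingHom) (jPer W)).symm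
  have hq : qSer W f = qExpand ℂ W (P.eval₂ HahnSeries.C (jqModC ℂ)) := by
    rw [hf, Polynomial.hom_eval₂, qSer_jPer, Polynomial.hom_eval₂,
      show jqC = jqModC ℂ from coeffMap_jqModC _]
    congr 1
    · refine RingHom.ext fun c => ?_
      rw [RingHom.comp_apply, RingHom.comp_apply, qSer_algMap_C, qExpand_C]
  have hlift : P ∈ Polynomial.lifts e := by
    refine lifts_of_eval_jqModC e P fun n => ⟨s.coeff ((W : ℤ) * n), ?_⟩
    rw [← coeffMap_coeff, hs, hq, qExpand_coeff_mul]
  obtain ⟨Q, rfl⟩ := hlift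
  refine ⟨Q, Igusa.coeffMap_injective he ?_⟩
  rw [hs, hq, Polynomial.hom_eval₂, Polynomial.hom_eval₂, Polynomial.coe_mapRingHom,
    Polynomial.eval₂_map]
  congr 1
  · refine RingHom.ext fun c => ?_
    simp [coeffMap_single, HahnSeries.C_apply]
  · rw [coeffMap_qExpand, coeffMap_jqModC]

/-- A finite family of periodic functions permuted by `SL(2, ℤ)`, with series over `R`. -/
structure ModFamily (W : ℕ) [NeZero W] (ι : Type*) [MulAction SL(2, ℤ) ι]
    (R : Type*) [CommRing R] (e : R →+* ℂ) where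
  /-- the functions -/
  f : ι → ↥(perMero W)
  equivariant : ∀ (δ : SL(2, ℤ)) (i : ι) (τ : ℍ),
    (f i : ℍ → ℂ) (δ • τ) = (f (δ⁻¹ • i) : ℍ → ℂ) τ
  /-- the series -/
  s : ι → LaurentSeries R
  series : ∀ i, coeffMap e (s i) = qSer W (f i)

variable {ι : Type*} [MulAction SL(2, ℤ) ι] [Fintype ι] {e : R →+* ℂ}

/-- The permutations coming from `SL(2, ℤ)`. -/
abbrev permsOf (ι : Type*) [MulAction SL(2, ℤ) ι] : Subgroup (Equiv.Perm ι) :=
  (MulAction.toPermHom SL(2, ℤ) ι).range

instance : Fintype (permsOf ι) := Fintype.ofFinite _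

/-- The generic linear form at a permutation. -/
def linForm {S : Type*} [CommRing S] (v : ι → S) (π : permsOf ι) : MvPolynomial ι S :=
  ∑ i, MvPolynomial.C (v ((π : Equiv.Perm ι) i)) * MvPolynomial.X i

/-- The product of the generic linear forms. -/
def orbPoly {S : Type*} [CommRing S] (v : ι → S) : Polynomial (MvPolynomial ι S) :=
  ∏ π : permsOf ι, (Polynomial.X - Polynomial.C (linForm v π))

theorem map_linForm {S T : Type*} [CommRing S] [CommRing T] (g : S →+* T) (v : ι → S)
    (π : permsOf ι) : MvPolynomial.map g (linForm v π) = linForm (fun i => g (v i)) π := by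
  simp only [linForm, map_sum, map_mul, MvPolynomial.map_C, MvPolynomial.map_X]

theorem map_orbPoly {S T : Type*} [CommRing S] [CommRing T] (g : S →+* T) (v : ι → S) :
    (orbPoly v).map (MvPolynomial.map g) = orbPoly (fun i => g (v i)) := by
  simp only [orbPoly, Polynomial.map_prod, Polynomial.map_sub, Polynomial.map_X,
    Polynomial.map_C, map_linForm]

theorem coeff_linForm {S : Type*} [CommRing S] (v : ι → S) (π : permsOf ι) (i : ι) :
    MvPolynomial.coeff (Finsupp.single i 1) (linForm v π) = v ((π : Equiv.Perm ι) i) := by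
  classical
  rw [linForm, MvPolynomial.coeff_sum]
  simp [MvPolynomial.coeff_X, Finsupp.single_eq_single_iff]

namespace ModFamily

variable (Φ : ModFamily W ι R e)

theorem exists_poly_coeff (he : Function.Injective e) (n : ℕ) (m : ι →₀ ℕ) :
    ∃ P : Polynomial R, MvPolynomial.coeff m ((orbPoly Φ.s).coeff n) =
      P.eval₂ HahnSeries.C (qExpand R W (jqModC R)) := by
  refine exists_poly_of_invariant e he (MvPolynomial.coeff m ((orbPoly Φ.f).coeff n))
    (fun δ τ => ?_) _ ?_
  · let ev : ℍ → (↥(perMero W) →+* ℂ) := fun τ =>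
      (Pi.evalRingHom (fun _ : ℍ => ℂ) τ).comp (perMero W).val.toRingHom
    have h : (orbPoly Φ.f).map (MvPolynomial.map (ev (δ • τ))) =
        (orbPoly Φ.f).map (MvPolynomial.map (ev τ)) := by
      rw [map_orbPoly, map_orbPoly]
      unfold orbPoly
      refine Fintype.prod_equiv
        (Equiv.mulLeft (⟨MulAction.toPerm δ⁻¹, δ⁻¹, rfl⟩ : permsOf ι)) _ _ fun π => ?_
      refine congrArg (fun x : MvPolynomial ι ℂ => Polynomial.X - Polynomial.C x) ?_
      refine Finset.sum_congr rfl fun i _ => ?_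
      exact congrArg (fun x : ℂ => (MvPolynomial.C x * MvPolynomial.X i : MvPolynomial ι ℂ))
        (Φ.equivariant δ ((π : Equiv.Perm ι) i) τ)
    have h' := congrArg
      (fun q : Polynomial (MvPolynomial ι ℂ) => MvPolynomial.coeff m (q.coeff n)) h
    simp only [Polynomial.coeff_map, MvPolynomial.coeff_map] at h'
    exact h'
  · have h : (orbPoly Φ.s).map (MvPolynomial.map (coeffMap e)) =
        (orbPoly Φ.f).map (MvPolynomial.map (qSer W)) := by
      rw [map_orbPoly, map_orbPoly]
      exact congrArg orbPoly (funext Φ.series)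
    have h' := congrArg
      (fun q : Polynomial (MvPolynomial ι (LaurentSeries ℂ)) => MvPolynomial.coeff m (q.coeff n)) h
    simp only [Polynomial.coeff_map, MvPolynomial.coeff_map] at h'
    exact h'

section Reduced

variable {k : Type*} [Field k] (π : R →+* k)

/-- The field `k(J)`. -/
abbrev baseJ (W : ℕ) [NeZero W] (k : Type*) [Field k] : IntermediateField k (LaurentSeries k) :=
  IntermediateField.adjoin k {qExpand k W (jqModC k)}

/-- The reduced series. -/
def red (i : ι) : LaurentSeries k := coeffMap π (Φ.s i)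

theorem coeff_orbPoly_mem (he : Function.Injective e) (n : ℕ) (m : ι →₀ ℕ) :
    MvPolynomial.coeff m ((orbPoly (Φ.red π)).coeff n) ∈ baseJ W k := by
  obtain ⟨P, hP⟩ := Φ.exists_poly_coeff he n m
  have h : (orbPoly Φ.s).map (MvPolynomial.map (coeffMap π)) = orbPoly (Φ.red π) := map_orbPoly _ _
  rw [← h, Polynomial.coeff_map, MvPolynomial.coeff_map, hP, Polynomial.hom_eval₂,
    coeffMap_qExpand, coeffMap_jqModC]
  rw [show (coeffMap π).comp HahnSeries.C = (algebraMap k (LaurentSeries k)).comp π from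
    RingHom.ext fun c => by
      simp [algebraMap_laurentSeries_eq_single, coeffMap_single, HahnSeries.C_apply]]
  rw [← Polynomial.eval₂_map]
  exact IntermediateField.algebra_adjoin_le_adjoin k _ (Polynomial.aeval_mem_adjoin_singleton k _)

/-- The field generated by the reduced series. -/
def field : IntermediateField (baseJ W k) (LaurentSeries k) :=
  IntermediateField.adjoin (baseJ W k) (Set.range (Φ.red π))

/-- A reduced series as an element of the field. -/
def gen (i : ι) : Φ.field π :=
  ⟨Φ.red π i, IntermediateField.subset_adjoin _ _ ⟨i, rfl⟩⟩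

theorem coeff_orbPoly_gen_mem (he : Function.Injective e) (n : ℕ) (m : ι →₀ ℕ) :
    MvPolynomial.coeff m ((orbPoly (Φ.gen π)).coeff n) ∈
      Set.range (algebraMap (baseJ W k) (Φ.field π)) := by
  refine ⟨⟨_, Φ.coeff_orbPoly_mem π he n m⟩, Subtype.ext ?_⟩
  show _ = (Φ.field π).val.toRingHom _
  rw [← MvPolynomial.coeff_map, ← Polynomial.coeff_map, map_orbPoly]
  rfl

theorem gen_split (he : Function.Injective e) (i : ι) :
    IsIntegral (baseJ W k) (Φ.red π i) ∧
      ((minpoly (baseJ W k) (Φ.red π i)).map (algebraMap (baseJ W k) (Φ.field π))).Splits := by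
  classical
  set φ : MvPolynomial ι (Φ.field π) →+* Φ.field π :=
    MvPolynomial.eval (fun j => if j = i then 1 else 0)
  have hQ : (orbPoly (Φ.gen π)).map φ =
      ∏ σ : permsOf ι, (Polynomial.X - Polynomial.C (Φ.gen π ((σ : Equiv.Perm ι) i))) := by
    have hlin : ∀ σ : permsOf ι,
        φ (linForm (Φ.gen π) σ) = Φ.gen π ((σ : Equiv.Perm ι) i) := fun σ => by
      simp [linForm, φ]
    simp only [orbPoly, Polynomial.map_prod, Polynomial.map_sub, Polynomial.map_X,
      Polynomial.map_C, hlin]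
  have hlift : (orbPoly (Φ.gen π)).map φ ∈
      Polynomial.lifts (algebraMap (baseJ W k) (Φ.field π)) := by
    rw [Polynomial.lifts_iff_coeff_lifts]
    intro n
    rw [Polynomial.coeff_map]
    show MvPolynomial.eval _ _ ∈ (algebraMap (baseJ W k) (Φ.field π)).range
    rw [MvPolynomial.eval_eq']
    refine sum_mem fun m _ => mul_mem (Φ.coeff_orbPoly_gen_mem π he n m)
      (prod_mem fun j _ => pow_mem ?_ _)
    split_ifs
    · exact one_mem _
    · exact zero_mem _
  obtain ⟨Q, hQ'⟩ := hlift
  rw [Polynomial.coe_mapRingHom, hQ] at hQ'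
  have hQne : Q.map (algebraMap (baseJ W k) (Φ.field π)) ≠ 0 := by
    rw [hQ']
    exact Finset.prod_ne_zero_iff.mpr fun _ _ => Polynomial.X_sub_C_ne_zero _
  have hQ0 : Q ≠ 0 := fun h => hQne (by rw [h, Polynomial.map_zero])
  have hroot : aeval (Φ.gen π i) Q = 0 := by
    rw [aeval_def, ← eval_map, hQ', Polynomial.eval_prod]
    refine Finset.prod_eq_zero (Finset.mem_univ (1 : permsOf ι)) ?_
    simp
  have hroot' : aeval (Φ.red π i) Q = 0 := by
    have := congrArg (Φ.field π).val hroot
    rwa [← aeval_algHom_apply, map_zero] at this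
  refine ⟨(⟨Q * Polynomial.C Q.leadingCoeff⁻¹, Polynomial.monic_mul_leadingCoeff_inv hQ0, by
    rw [← aeval_def, map_mul, hroot', zero_mul]⟩ : IsIntegral (baseJ W k) (Φ.red π i)), ?_⟩
  refine Polynomial.Splits.of_dvd ?_ hQne (Polynomial.map_dvd _ (minpoly.dvd _ _ hroot'))
  rw [hQ']
  exact Polynomial.Splits.prod fun _ _ => Polynomial.Splits.X_sub_C _

theorem normal (he : Function.Injective e) : Normal (baseJ W k) (Φ.field π) := by
  refine normal_iff.mpr fun x => ⟨?_, ?_⟩
  · have : Algebra.IsAlgebraic (baseJ W k) (Φ.field π) :=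
      IntermediateField.isAlgebraic_adjoin fun y hy => by
        obtain ⟨i, rfl⟩ := hy
        exact (Φ.gen_split π he i).1
    exact (Algebra.IsAlgebraic.isAlgebraic x).isIntegral
  · rw [show minpoly (baseJ W k) x = minpoly (baseJ W k) (x : LaurentSeries k) from
      (minpoly.algHom_eq (Φ.field π).val (Φ.field π).val.injective x).symm]
    exact IntermediateField.splits_of_mem_adjoin (baseJ W k) (LaurentSeries k)
      (S := Set.range (Φ.red π))
      (fun y hy => by
      obtain ⟨i, rfl⟩ := hy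
      exact Φ.gen_split π he i) x.2

theorem finiteDimensional (he : Function.Injective e) :
    FiniteDimensional (baseJ W k) (Φ.field π) :=
  IntermediateField.finiteDimensional_adjoin fun y hy => by
    obtain ⟨i, rfl⟩ := hy
    exact (Φ.gen_split π he i).1

/-- Every automorphism permutes the reduced series as an element of `SL(2, ℤ)`. -/
theorem exists_act (he : Function.Injective e) (σ : Φ.field π ≃ₐ[baseJ W k] Φ.field π) :
    ∃ δ : SL(2, ℤ), ∀ i, σ (Φ.gen π i) = Φ.gen π (δ • i) := by
  classical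
  set g : Φ.field π →+* Φ.field π := σ.toAlgHom.toRingHom
  have hfix : (orbPoly (Φ.gen π)).map (MvPolynomial.map g) = orbPoly (Φ.gen π) := by
    refine Polynomial.ext fun n => MvPolynomial.ext _ _ fun m => ?_
    rw [Polynomial.coeff_map, MvPolynomial.coeff_map]
    obtain ⟨c, hc⟩ := Φ.coeff_orbPoly_gen_mem π he n m
    rw [← hc]
    exact σ.commutes c
  have h1 : (orbPoly (Φ.gen π)).eval (linForm (fun i => g (Φ.gen π i)) 1) = 0 := by
    rw [← hfix, map_orbPoly, orbPoly, Polynomial.eval_prod]
    exact Finset.prod_eq_zero (Finset.mem_univ (1 : permsOf ι)) (by simp)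
  rw [orbPoly, Polynomial.eval_prod, Finset.prod_eq_zero_iff] at h1
  obtain ⟨ρ, -, hρ⟩ := h1
  rw [eval_sub, eval_X, eval_C, sub_eq_zero] at hρ
  obtain ⟨δ, hδ⟩ := ρ.2
  refine ⟨δ, fun i => ?_⟩
  have h := congrArg (MvPolynomial.coeff (Finsupp.single i 1)) hρ
  rw [coeff_linForm, coeff_linForm, ← hδ] at h
  exact h

/-- The elements of `SL(2, ℤ)` induced by automorphisms. -/
def galGroup : Subgroup SL(2, ℤ) where
  carrier := {δ | ∃ σ : Φ.field π ≃ₐ[baseJ W k] Φ.field π,
    ∀ i, σ (Φ.gen π i) = Φ.gen π (δ • i)}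
  one_mem' := ⟨AlgEquiv.refl, fun i => by rw [one_smul]; rfl⟩
  mul_mem' := by
    rintro a b ⟨σ, hσ⟩ ⟨σ', hσ'⟩
    exact ⟨σ'.trans σ, fun i => by rw [AlgEquiv.trans_apply, hσ', hσ, mul_smul]⟩
  inv_mem' := by
    rintro a ⟨σ, hσ⟩
    exact ⟨σ.symm, fun i => by rw [AlgEquiv.symm_apply_eq, hσ, smul_inv_smul]⟩

omit [Fintype ι] in
theorem mem_galGroup_of_fix {δ : SL(2, ℤ)} (h : ∀ i : ι, δ • i = i) : δ ∈ Φ.galGroup π :=
  ⟨AlgEquiv.refl, fun i => by rw [h]; rfl⟩

end Reduced

end ModFamily

end Fermat.Agent.Row48.Cover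

end
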