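import Fermat.Agent.Row48.Cover.Relation
import Fermat.Agent.EigenRep.Smooth
import Fermat.Agent.Row48.Cover.CycloChar

/-!
# Galois commutes with the diamond and Hecke operators on multipliers, and is smooth
-/

set_option autoImplicit false

noncomputable section

open CongruenceSubgroup UpperHalfPlane ModularCurve AlgebraicCurve
open scoped MatrixGroups

namespace Fermat.Agent.Row48.Cover

open J0Torsion (jEmb)
open EigenRep (HasLevel)

local notation "Qbar" => AlgebraicClosure ℚ

variable {M₀ : ℕ} [NeZero M₀] {n : ℕ} [NeZero n]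

namespace CoverFns

variable (C : CoverFns M₀)

theorem galAlg_ne_zero (σ : Qbar →+* Qbar) {y : ↥C.algH} (hy : y ≠ 0) : C.galAlg σ y ≠ 0 :=
  fun h => hy (Subtype.ext ((map_eq_zero_iff _ (X0Analytic.coeffMap_injective σ.injective)).mp
    ((C.coe_galAlg σ y).symm.trans (congrArg Subtype.val h))))

variable (R : Roots C n)

include R in
/-- Every multiplier is that of a quotient of two elements of the algebra of the generators. -/
theorem exists_root_div (φ : goodHom M₀ (ZMod n)) :
    ∃ x y : ↥C.algH, y ≠ 0 ∧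
      HasMult n (coeffMap jEmb ((x : LaurentSeries Qbar) / y)) φ := by
  obtain ⟨x, y, hx, hy, hy0, he⟩ := C.exists_algH_div (C.root R φ)
  refine ⟨⟨x, hx⟩, ⟨y, hy⟩, fun h => hy0 (congrArg Subtype.val h), ?_⟩
  have h := C.hasMult_root R φ
  rwa [show (C.root R φ : LaurentSeries Qbar) = x / y from (eq_div_iff hy0).mpr he] at h

theorem hasMult_galAlg (σ : Qbar ≃ₐ[ℚ] Qbar) {x y : ↥C.algH} {φ : goodHom M₀ (ZMod n)}
    (h : HasMult n (coeffMap jEmb ((x : LaurentSeries Qbar) / y)) φ) :
    HasMult n (coeffMap jEmb ((C.galAlg (σ : Qbar →+* Qbar) x : LaurentSeries Qbar) /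
      (C.galAlg (σ : Qbar →+* Qbar) y : ↥C.algH))) (C.galMult R σ φ) := by
  have h1 := C.galMult_eq R σ
    (f := ⟨(x : LaurentSeries Qbar) / y, div_mem (C.algH_le x.2) (C.algH_le y.2)⟩) h
  rw [coe_galField, map_div₀] at h1
  rwa [coe_galAlg, coe_galAlg]

/-- Galois commutes with the diamond operators on multipliers. -/
theorem galMult_deckHom (σ : Qbar ≃ₐ[ℚ] Qbar) (d : (ZMod M₀)ˣ) (φ : goodHom M₀ (ZMod n)) :
    C.galMult R σ (deckHom d φ) = deckHom d (C.galMult R σ φ) := by
  obtain ⟨x, y, hy, h⟩ := C.exists_root_div R φ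
  have h1 := C.hasMult_galAlg R σ (x := C.deckAlg d x) (y := C.deckAlg d y)
    (C.hasMult_deck d hy h)
  rw [galAlg_deckAlg, galAlg_deckAlg] at h1
  exact R.unique _ _ _ h1 (C.hasMult_deck d (C.galAlg_ne_zero _ hy) (C.hasMult_galAlg R σ h))

/-- Galois commutes with the Hecke operators on multipliers. -/
theorem galMult_heckeHom {p : ℕ} [Fact p.Prime] (hp : ¬ p ∣ M₀) (σ : Qbar ≃ₐ[ℚ] Qbar)
    (φ : goodHom M₀ (ZMod n)) :
    C.galMult R σ (heckeHom p φ) = heckeHom p (C.galMult R σ φ) := by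
  obtain ⟨x, y, hy, h⟩ := C.exists_root_div R φ
  have h1 := C.galMult_eq R σ
    (f := ⟨C.normSer hp x / C.normSer hp y,
      div_mem (C.normSer_mem R hp x) (C.normSer_mem R hp y)⟩) (C.hasMult_hecke hp hy h)
  rw [coe_galField, map_div₀, coeffMap_normSer_galois, coeffMap_normSer_galois] at h1
  exact R.unique _ _ _ h1 (C.hasMult_hecke hp (C.galAlg_ne_zero _ hy) (C.hasMult_galAlg R σ h))

/-- Every series in the algebra of the generators is fixed by an open subgroup of Galois. -/
theorem hasLevel_algH {x : LaurentSeries Qbar} (hx : x ∈ C.algH) : HasLevel x := by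
  induction hx using Algebra.adjoin_induction with
  | mem y hy =>
    rcases hy with hy | ⟨⟨u, v⟩, rfl⟩
    · exact ⟨⊥, inferInstance, fun σ _ => coeffMap_divisorExpansions _ hy⟩
    · obtain ⟨L, hL, hfix⟩ := exists_level_galCharHom (M := M₀)
      refine ⟨L, hL, fun σ hσ => ?_⟩
      rw [C.galois (σ : Qbar →+* Qbar) (galChar M₀ (σ : Qbar →+* Qbar))
        fun μ hμ => galChar_spec M₀ (σ : Qbar →+* Qbar) hμ]
      rw [← galCharHom_apply, hfix σ hσ, one_mul, one_mul]
  | algebraMap c =>
    have : Algebra.IsAlgebraic ℚ Qbar := AlgebraicClosure.isAlgebraic ℚ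
    refine ⟨IntermediateField.adjoin ℚ {c}, IntermediateField.adjoin.finiteDimensional
      (Algebra.IsIntegral.isIntegral c), fun σ hσ => ?_⟩
    rw [algebraMap_laurentSeries_eq_single, coeffMap_single]
    exact congrArg _ (hσ c (IntermediateField.mem_adjoin_simple_self ℚ c))
  | add y z _ _ hy hz => exact hy.op₂ hz fun f h k => by rw [map_add, h, k]
  | mul y z _ _ hy hz => exact hy.op₂ hz fun f h k => by rw [map_mul, h, k]

include R in
/-- The Galois action on multipliers is smooth. -/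
theorem exists_level_galMult (φ : goodHom M₀ (ZMod n)) :
    ∃ L : IntermediateField ℚ Qbar, FiniteDimensional ℚ L ∧
      ∀ σ : Qbar ≃ₐ[ℚ] Qbar, (∀ a ∈ L, σ a = a) → C.galMult R σ φ = φ := by
  obtain ⟨x, y, hy, h⟩ := C.exists_root_div R φ
  obtain ⟨L, hL, hx⟩ := C.hasLevel_algH x.2
  obtain ⟨L', hL', hy'⟩ := C.hasLevel_algH y.2
  refine ⟨L ⊔ L', IntermediateField.finiteDimensional_sup L L', fun σ hσ => ?_⟩
  have h1 := C.hasMult_galAlg R σ h
  rw [coe_galAlg, coe_galAlg, hx σ fun a ha => hσ a (le_sup_left (a := L) (b := L') ha),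
    hy' σ fun a ha => hσ a (le_sup_right (a := L) (b := L') ha)] at h1
  exact R.unique _ _ _ h1 h

end CoverFns

end Fermat.Agent.Row48.Cover

end
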