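import Fermat.Agent.FunctionFieldRR.Genus
import Fermat.Agent.FunctionFieldRR.PushPull

/-!
# Riemann–Hurwitz for a separable extension of function fields

The different of the larger field over `K(x)` dominates the pull back of the different of the
smaller one, with equality when the extension is unramified in characteristic zero.
-/

set_option autoImplicit false

noncomputable section

open AlgebraicCurve IntermediateField
open scoped Classical

namespace Fermat.Agent.Row48.Cover.Hurwitz

open Fermat.Agent.FunctionFieldRR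

variable {K F F' : Type*} [Field K] [Field F] [Field F'] [Algebra K F] [Algebra K F']
  [Algebra F F'] [IsScalarTower K F F'] [FiniteDimensional F F']
  [IsAlgClosed K] [IsFunctionField K F] [IsFunctionField K F']
  {x : F} (hx : Transcendental K x) [FiniteDimensional K⟮x⟯ F] [Algebra.IsSeparable K⟮x⟯ F]
  {x' : F'} (hx' : Transcendental K x') [FiniteDimensional K⟮x'⟯ F']
  [Algebra.IsSeparable K⟮x'⟯ F'] (hxx : algebraMap F F' x = x')

/-- The two simple subfields are isomorphic. -/
def baseEquiv : K⟮x⟯ ≃ₐ[K] K⟮x'⟯ :=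
  (K⟮x⟯.equivMap (IsScalarTower.toAlgHom K F F')).trans (IntermediateField.equivOfEq (by
    rw [adjoin_map, Set.image_singleton, ← hxx]; rfl))

omit [FiniteDimensional F F'] [IsAlgClosed K] [IsFunctionField K F] [IsFunctionField K F']
  [FiniteDimensional K⟮x⟯ F] [Algebra.IsSeparable K⟮x⟯ F] [FiniteDimensional K⟮x'⟯ F']
  [Algebra.IsSeparable K⟮x'⟯ F'] in
theorem coe_baseEquiv (a : K⟮x⟯) :
    ((baseEquiv hxx a : K⟮x'⟯) : F') = algebraMap F F' (a : F) := rfl

include hxx in
omit [IsAlgClosed K] [IsFunctionField K F] [IsFunctionField K F'] [FiniteDimensional (↥K⟮x⟯) F]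
    [FiniteDimensional (↥K⟮x'⟯) F'] in
theorem ord_baseEquiv (w : Place K F') (a : K⟮x⟯) :
    (w.ramificationIndex K⟮x'⟯ : ℤ) * (w.restrict K⟮x'⟯).ord (baseEquiv hxx a) =
      (w.ramificationIndex F : ℤ) * (((w.restrict F).ramificationIndex K⟮x⟯ : ℤ) *
        ((w.restrict F).restrict K⟮x⟯).ord a) := by
  rw [← w.ord_restrict (F := K⟮x'⟯), ← (w.restrict F).ord_restrict (F := K⟮x⟯),
    ← w.ord_restrict (F := F)]
  rfl

include hxx in
omit [IsAlgClosed K] [IsFunctionField K F] [IsFunctionField K F'] [FiniteDimensional (↥K⟮x⟯) F]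
    [FiniteDimensional (↥K⟮x'⟯) F'] in
theorem ord_nonneg_baseEquiv (w : Place K F') (a : K⟮x⟯) :
    0 ≤ (w.restrict K⟮x'⟯).ord (baseEquiv hxx a) ↔
      0 ≤ ((w.restrict F).restrict K⟮x⟯).ord a := by
  have h := ord_baseEquiv hxx w a
  have h1 : (1 : ℤ) ≤ w.ramificationIndex K⟮x'⟯ := by exact_mod_cast w.ramificationIndex_pos
  have h2 : (1 : ℤ) ≤ w.ramificationIndex F := by exact_mod_cast w.ramificationIndex_pos
  have h3 : (1 : ℤ) ≤ (w.restrict F).ramificationIndex K⟮x⟯ := by
    exact_mod_cast (w.restrict F).ramificationIndex_pos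
  rw [← mul_assoc] at h
  have h4 : (0 : ℤ) < w.ramificationIndex F * (w.restrict F).ramificationIndex K⟮x⟯ := by positivity
  constructor
  · intro h0
    nlinarith [mul_nonneg (by omega : (0 : ℤ) ≤ (w.ramificationIndex K⟮x'⟯ : ℤ)) h0]
  · intro h0
    nlinarith [mul_nonneg h4.le h0]

include hxx in
omit [IsAlgClosed K] [IsFunctionField K F] [IsFunctionField K F'] [FiniteDimensional K⟮x⟯ F]
    [FiniteDimensional K⟮x'⟯ F'] in
theorem restrict_eq_of_restrict {w w' : Place K F'}
    (h : (w'.restrict F).restrict K⟮x⟯ = (w.restrict F).restrict K⟮x⟯) :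
    w'.restrict K⟮x'⟯ = w.restrict K⟮x'⟯ := by
  refine Place.ext (SetLike.ext fun b => ?_)
  obtain ⟨a, rfl⟩ := (baseEquiv hxx).surjective b
  rw [← ord_nonneg_iff, ← ord_nonneg_iff, ord_nonneg_baseEquiv hxx, ord_nonneg_baseEquiv hxx, h]

include hxx in
/-- Pull back of a dual element is dual. -/
theorem isDual_algebraMap [IsFunctionField K K⟮x⟯] [IsFunctionField K K⟮x'⟯] (w : Place K F')
    {y : F}
    (hy : IsDual ((w.restrict F).restrict K⟮x⟯) y) :
    IsDual (w.restrict K⟮x'⟯) (algebraMap F F' y) := by
  intro g hg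
  set u := (w.restrict F).restrict K⟮x⟯ with hu
  have htr : ∀ v' ∈ placesOver F u, VanishesTo v' 0 (Algebra.trace F F' g) := fun v' hv' =>
    (trace_regular (fullFiber (F' := F') v') fun w' hw' => hg w' (mem_placesOver.2
      (restrict_eq_of_restrict hxx (by rw [mem_placesOver.1 hw', mem_placesOver.1 hv'])))).1
  have h1 := hy _ htr
  have heq : Algebra.trace K⟮x'⟯ F' (algebraMap F F' y * g) =
      baseEquiv hxx (Algebra.trace K⟮x⟯ F (y * Algebra.trace F F' g)) := by
    rw [← smul_eq_mul y, ← map_smul (Algebra.trace F F'), Algebra.smul_def,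
      Algebra.trace_trace]
    rw [Algebra.trace_eq_of_equiv_equiv (baseEquiv hxx).toRingEquiv (RingEquiv.refl F')
      (RingHom.ext fun b => by
        show ((baseEquiv hxx b : K⟮x'⟯) : F') = algebraMap F F' (b : F)
        rw [coe_baseEquiv hxx]) _]
    exact ((baseEquiv hxx).apply_symm_apply _).symm
  rw [heq]
  rcases h1 with h0 | h0
  · exact Or.inl (by rw [h0, map_zero])
  · exact Or.inr ((ord_nonneg_baseEquiv hxx w _).2 h0)

include hxx in
/-- The different grows at least by the ramification index. -/
theorem mul_differentExp_le (w : Place K F') :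
    w.ramificationIndex F * differentExp hx (w.restrict F) ≤ differentExp hx' w := by
  have := isFunctionField_adjoin hx
  have := isFunctionField_adjoin hx'
  rw [differentExp, differentExp]
  obtain ⟨y, hy0, hy, hord⟩ := exists_dual_ord_eq (fullFiber_adjoin hx) (w.restrict F)
  have hd := isDual_algebraMap hxx w hy
  have hy1 : algebraMap F F' y ≠ 0 := by simpa using hy0
  have h := ((isDual_iff (fullFiber_adjoin hx')).1 hd w (mem_placesOver.2 rfl)).resolve_left hy1
  rw [w.ord_restrict (F := F), hord] at h
  have h2 : ((w.ramificationIndex F * diffExp K⟮x⟯ (w.restrict F) : ℕ) : ℤ) ≤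
      (diffExp K⟮x'⟯ w : ℕ) := by push_cast; linarith
  exact_mod_cast h2

include hxx in
theorem mul_sub_le_canonicalDiv [HasPrincipalDivisors K F'] (w : Place K F') :
    Divisor.pullback F' (canonicalDiv hx) w ≤ canonicalDiv hx' w := by
  have hox : w.ord x' = (w.ramificationIndex F : ℤ) * (w.restrict F).ord x := by
    rw [← hxx, w.ord_restrict (F := F)]
  rw [Divisor.pullback_apply, canonicalDiv_apply, canonicalDiv_apply, hox]
  have h : ((w.ramificationIndex F * differentExp hx (w.restrict F) : ℕ) : ℤ) ≤
      (differentExp hx' w : ℕ) := by exact_mod_cast mul_differentExp_le hx hx' hxx w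
  push_cast at h
  have he : (0 : ℤ) ≤ w.ramificationIndex F := Int.natCast_nonneg _
  rw [mul_sub, show max (-((w.ramificationIndex F : ℤ) * (w.restrict F).ord x)) 0 =
    (w.ramificationIndex F : ℤ) * max (-(w.restrict F).ord x) 0 by
      rw [mul_max_of_nonneg _ _ he, mul_neg, mul_zero]]
  linarith

include hxx in
/-- **Riemann–Hurwitz inequality.** -/
theorem mul_two_genus_le :
    (Module.finrank F F' : ℤ) * (2 * (genusOf hx : ℤ) - 2) ≤ 2 * (genusOf hx' : ℤ) - 2 := by
  have := (hasPrincipalDivisors : HasPrincipalDivisors K F')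
  have := fundamentalIdentity (K := K) (F := F) (F' := F')
  rw [← degree_canonicalDiv hx, ← degree_canonicalDiv hx', ← Divisor.degree_pullback (F' := F'),
    ← sub_nonneg, ← map_sub, degree_eq_sum]
  exact Finset.sum_nonneg fun w _ => by
    simpa using mul_sub_le_canonicalDiv hx hx' hxx w

include hxx in
/-- **Riemann–Hurwitz for an unramified extension in characteristic zero.** -/
theorem two_genus_eq [CharZero K] (hun : ∀ w : Place K F', w.ramificationIndex F = 1) :
    (Module.finrank F F' : ℤ) * (2 * (genusOf hx : ℤ) - 2) = 2 * (genusOf hx' : ℤ) - 2 := by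
  have := (hasPrincipalDivisors : HasPrincipalDivisors K F')
  have := fundamentalIdentity (K := K) (F := F) (F' := F')
  rw [← degree_canonicalDiv hx, ← degree_canonicalDiv hx', ← Divisor.degree_pullback (F' := F')]
  congr 1
  refine Finsupp.ext fun w => ?_
  have hv := tame_of_charZero (x := x) (w.restrict F)
  have hw := tame_of_charZero (x := x') w
  have he : w.ramificationIndex K⟮x'⟯ = (w.restrict F).ramificationIndex K⟮x⟯ := by
    obtain ⟨a, ha, ha'⟩ := (w.restrict F).exists_ord_eq_ramificationIndex (F := K⟮x⟯)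
    obtain ⟨b, hb, hb'⟩ := w.exists_ord_eq_ramificationIndex (F := K⟮x'⟯)
    obtain ⟨b, rfl⟩ := (baseEquiv hxx).surjective b
    refine Nat.le_antisymm ?_ ?_
    · have h1 : w.ord (algebraMap K⟮x'⟯ F' (baseEquiv hxx a)) =
          (w.restrict F).ramificationIndex K⟮x⟯ := by
        show w.ord (algebraMap F F' (a : F)) = _
        rw [w.ord_restrict (F := F), hun, Nat.cast_one, one_mul]
        exact ha'
      have h2 := w.ramificationIndex_le_ord (F := K⟮x'⟯) (f := baseEquiv hxx a)
        (by simpa using ha) (by rw [h1]; exact_mod_cast (w.restrict F).ramificationIndex_pos)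
      rw [h1] at h2
      exact_mod_cast h2
    · have h1 : (w.restrict F).ord (b : F) = w.ramificationIndex K⟮x'⟯ := by
        have h0 : w.ord (algebraMap F F' (b : F)) = _ := hb'
        rwa [w.ord_restrict (F := F), hun, Nat.cast_one, one_mul] at h0
      have h2 := (w.restrict F).ramificationIndex_le_ord (F := K⟮x⟯) (f := b)
        (fun h0 => hb (by rw [h0, map_zero]))
        (by show 0 < (w.restrict F).ord (b : F); rw [h1]; exact_mod_cast w.ramificationIndex_pos)
      change _ ≤ (w.restrict F).ord (b : F) at h2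
      rw [h1] at h2
      exact_mod_cast h2
  rw [Divisor.pullback_apply, canonicalDiv_apply, canonicalDiv_apply,
    differentExp_eq_of_tame hx hv, differentExp_eq_of_tame hx' hw, he,
    show w.ord x' = (w.ramificationIndex F : ℤ) * (w.restrict F).ord x by
      rw [← hxx, w.ord_restrict (F := F)], hun, Nat.cast_one, one_mul, one_mul]

end Fermat.Agent.Row48.Cover.Hurwitz

end
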