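import Fermat.Agent.Row48.Cover.DeckInt
import Fermat.Agent.Row48.Cover.RiemannHurwitz
import Fermat.Agent.IgusaGenus.Main
import Fermat.Agent.Reduction.Facts

/-!
# The genus of the cover does not drop under reduction

In characteristic zero the cover is unramified over `X₀(M₀²)`, so by Riemann–Hurwitz its genus
is the least possible; after reduction it is still a separable cover of the same degree.
-/

set_option autoImplicit false

noncomputable section

open CongruenceSubgroup UpperHalfPlane ModularCurve IntermediateField Fermat.Agent.Reduction
open AlgebraicCurve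
open scoped MatrixGroups

namespace Fermat.Agent.Row48.Cover

open IsLocalRing (ResidueField residue)
open Fermat.Agent.FunctionFieldRR

local notation "Qbar" => AlgebraicClosure ℚ

variable {M : ℕ} [NeZero M] {A : ValuationSubring Qbar} {p : ℕ} (hp : p.Prime)
  (hA : A.LiesOverPrime p) (hpM : ¬ p ∣ M) (C : CoverFns M) (hC : C.F = coverFn) (hL : LevelOK M)

/-- The cover is unramified over `X₀(M₀²)` in characteristic zero. -/
def CoverFns.Etale : Prop :=
  ∀ w : Place Qbar C.field, ∃ t : C.field,
    (t : LaurentSeries Qbar) ∈ modularFunctionFieldBar (lev M) ∧ w.ord t = 1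

include hp hA hpM hC hL in
/-- The degrees of the cover before and after reduction. -/
theorem finrank_cover_eq :
    Module.finrank (modularFunctionFieldBar (lev M)) C.fieldOver = deckCard M ∧
      Module.finrank (modularFunctionFieldFullC (ResidueField A) (lev M))
        (IntermediateField.extendScalars (F0k_le (A := A) C)) = deckCard M := by
  have h1 := C.finrank_fieldOver_le
  have h2 := deckCard_le_finrank hp hA hpM C hC hL
  have hψ := dedekindPsi_pos (lev M)
  set G := C.coverModel hp hA hpM hC hL
  have := G.fin_bar
  have := G.fin_red
  have h3 : Module.finrank (ResidueField A)⟮G.jK⟯ (C.fieldK A) ≤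
      Module.finrank Qbar⟮G.jF⟯ C.field := by
    simpa using G.toSeriesModel.linearIndependent_basisLift.fintype_card_le_finrank
  have e1 : Module.finrank Qbar⟮G.jF⟯ C.field = dedekindPsi (lev M) *
      Module.finrank (modularFunctionFieldBar (lev M)) C.fieldOver :=
    (C.finrank_jF hp hA hpM).trans C.relfinrank_field
  have e2 : Module.finrank (ResidueField A)⟮G.jK⟯ (C.fieldK A) = dedekindPsi (lev M) *
      Module.finrank (modularFunctionFieldFullC (ResidueField A) (lev M))
        (IntermediateField.extendScalars (F0k_le (A := A) C)) := by
    refine (C.finrank_jK hp hA hpM).trans ?_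
    rw [← relfinrank_mul_relfinrank (jField_le_full _ (lev M)) (F0k_le (A := A) C),
      relfinrank_eq_finrank_of_le (F0k_le (A := A) C),
      Igusa.relfinrank_fullC _ (lev M) (lev_cast_ne_zero hp hA hpM)]
  rw [e1, e2] at h3
  have h4 := Nat.le_of_mul_le_mul_left h3 hψ
  exact ⟨le_antisymm h1 (h2.trans h4), le_antisymm (h4.trans h1) h2⟩

include hp hA hpM hC hL in
/-- The reduced cover is Galois over the reduced base. -/
theorem isGalois_fieldK_over :
    IsGalois (modularFunctionFieldFullC (ResidueField A) (lev M))
      (IntermediateField.extendScalars (F0k_le (A := A) C)) := by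
  classical
  have := finite_fieldK_over hp hA hpM C hC hL
  refine IsGalois.of_card_aut_eq_finrank _ _ (le_antisymm ?_ ?_)
  · rw [Nat.card_eq_fintype_card]
    exact AlgEquiv.card_le
  · rw [(finrank_cover_eq hp hA hpM C hC hL).2, Nat.card_congr (algEquivEquivAlgHom _ _).toEquiv,
      Nat.card_eq_fintype_card]
    rw [deckCard, Nat.card_eq_fintype_card]
    refine Fintype.card_le_of_injective (fun q => redDeckOver hp hA hpM C hC hL q.out)
      (redDeckOver_out_injective hp hA hpM C hC hL)

/-- The inclusion of the base as an algebra structure. -/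
abbrev algBar : Algebra (modularFunctionFieldBar (lev M)) C.field :=
  (IntermediateField.inclusion C.bar_le_field).toRingHom.toAlgebra

/-- The inclusion of the reduced base as an algebra structure. -/
abbrev algFull : Algebra (modularFunctionFieldFullC (ResidueField A) (lev M)) (C.fieldK A) :=
  (IntermediateField.inclusion (F0k_le (A := A) C)).toRingHom.toAlgebra

include hp hA hpM hC hL in
theorem isSeparable_fieldK :
    Algebra.IsSeparable (ResidueField A)⟮(C.seriesModel hp hA hpM).jK⟯ (C.fieldK A) := by
  have hN := lev_cast_ne_zero (A := A) hp hA hpM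
  let := algFull (A := A) C
  have : IsScalarTower (ResidueField A) (modularFunctionFieldFullC (ResidueField A) (lev M))
      (C.fieldK A) := IsScalarTower.of_algebraMap_eq fun a => rfl
  have := isSeparable_jC (ResidueField A) (lev M) hN
  have hG := isGalois_fieldK_over hp hA hpM C hC hL
  have : Algebra.IsSeparable (modularFunctionFieldFullC (ResidueField A) (lev M)) (C.fieldK A) :=
    hG.to_isSeparable
  have : Algebra.IsSeparable (ResidueField A)⟮jC (ResidueField A) (lev M)⟯ (C.fieldK A) :=
    Algebra.IsSeparable.trans _ (modularFunctionFieldFullC (ResidueField A) (lev M)) _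
  have hxx : algebraMap (modularFunctionFieldFullC (ResidueField A) (lev M)) (C.fieldK A)
      (jC (ResidueField A) (lev M)) = (C.seriesModel hp hA hpM).jK :=
    Subtype.ext (coeffMap_jqModC (residue A)).symm
  exact Algebra.IsSeparable.of_equiv_equiv (Hurwitz.baseEquiv hxx).toRingEquiv
    (RingEquiv.refl (C.fieldK A)) (RingHom.ext fun a => rfl)

include hp hA hpM hC hL in
theorem isFunctionField_field : IsFunctionField Qbar C.field :=
  haveI : FiniteDimensional Qbar⟮(C.seriesModel hp hA hpM).jF⟯ C.field :=
    (C.coverModel hp hA hpM hC hL).fin_bar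
  IsFunctionField.of_finiteDimensional _ (C.seriesModel hp hA hpM).transcendental_jF

include hp hA hpM hC hL in
theorem isFunctionField_fieldK : IsFunctionField (ResidueField A) (C.fieldK A) :=
  haveI : FiniteDimensional (ResidueField A)⟮(C.seriesModel hp hA hpM).jK⟯ (C.fieldK A) :=
    (C.coverModel hp hA hpM hC hL).fin_red
  IsFunctionField.of_finiteDimensional _ (C.seriesModel hp hA hpM).transcendental_jK

include hp hA hpM hC hL in
/-- **The genus of the cover does not drop under reduction.** -/
theorem exists_genus_bounds [IsAlgClosed (ResidueField A)] (hun : C.Etale) :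
    ∃ g c : ℤ,
      (∀ D : Divisor Qbar C.field,
        Divisor.degree D + 1 - g ≤ (Module.finrank Qbar (riemannRochSpace D) : ℤ)) ∧
      (∀ D : Divisor (ResidueField A) (C.fieldK A),
        Divisor.degree D + 1 - g ≤
          (Module.finrank (ResidueField A) (riemannRochSpace D) : ℤ)) ∧
      ∀ D : Divisor (ResidueField A) (C.fieldK A), c ≤ Divisor.degree D →
        (Module.finrank (ResidueField A) (riemannRochSpace D) : ℤ) ≤
          Divisor.degree D + 1 - g := by
  classical
  have := Fact.mk hp
  have hN := lev_cast_ne_zero (A := A) hp hA hpM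
  have hG := C.coverModel hp hA hpM hC hL
  have := (C.coverModel hp hA hpM hC hL).fin_bar
  have := (C.coverModel hp hA hpM hC hL).fin_red
  have : FiniteDimensional Qbar⟮(C.seriesModel hp hA hpM).jF⟯ C.field :=
    (C.coverModel hp hA hpM hC hL).fin_bar
  have : FiniteDimensional (ResidueField A)⟮(C.seriesModel hp hA hpM).jK⟯ (C.fieldK A) :=
    (C.coverModel hp hA hpM hC hL).fin_red
  have := isFunctionField_field hp hA hpM C hC hL
  have := isFunctionField_fieldK hp hA hpM C hC hL
  have hx' := (C.seriesModel hp hA hpM).transcendental_jF
  have hy' := (C.seriesModel hp hA hpM).transcendental_jK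
  have : CharZero Qbar⟮(C.seriesModel hp hA hpM).jF⟯ :=
    charZero_of_injective_algebraMap (algebraMap Qbar _).injective
  have := isSeparable_fieldK hp hA hpM C hC hL
  have : HasPrincipalDivisors Qbar C.field := hasPrincipalDivisors
  have : HasPrincipalDivisors (ResidueField A) (C.fieldK A) := hasPrincipalDivisors
  have hle : (genusOf hy' : ℤ) ≤ genusOf hx' :=
    (C.coverModel hp hA hpM hC hL).genus_red_le (c := 2 * (genusOf hy' : ℤ) - 1)
      (riemann_inequality hx') (riemann_inequality hy') fun D hD =>
        le_of_eq (finrank_eq_of_degree_gt hy' (show 2 * (genusOf hy' : ℤ) - 2 < _ by omega))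
  refine ⟨genusOf hx', 2 * (genusOf hy' : ℤ) - 1, riemann_inequality hx',
    fun D => le_trans (by omega) (riemann_inequality hy' D), fun D hD => ?_⟩
  -- the two bases
  have := finiteDimensional_jBar (lev M)
  have := finiteDimensional_jC (ResidueField A) (lev M) hN
  have := isSeparable_jBar (lev M)
  have := isSeparable_jC (ResidueField A) (lev M) hN
  have : IsFunctionField Qbar (modularFunctionFieldBar (lev M)) :=
    IsFunctionField.of_finiteDimensional _ (transcendental_jBar (lev M))
  have : IsFunctionField (ResidueField A) (modularFunctionFieldFullC (ResidueField A) (lev M)) :=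
    IsFunctionField.of_finiteDimensional _ (Reduction.transcendental_jC _ (lev M))
  have hg : genusOf (transcendental_jBar (lev M)) =
      genusOf (Reduction.transcendental_jC (ResidueField A) (lev M)) :=
    le_antisymm (IgusaGenus.genus0_le_genusC hA hN) (genusC_le_genus0 hA hN)
  -- characteristic zero
  let := algBar C
  have : IsScalarTower Qbar (modularFunctionFieldBar (lev M)) C.field :=
    IsScalarTower.of_algebraMap_eq fun a => rfl
  have : FiniteDimensional (modularFunctionFieldBar (lev M)) C.field := C.finite_fieldOver
  have hxx : algebraMap (modularFunctionFieldBar (lev M)) C.field (jBar (lev M)) =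
      (C.seriesModel hp hA hpM).jF :=
    Subtype.ext (coeffMap_jqModC A.subtype).symm
  have hram : ∀ w : Place Qbar C.field,
      w.ramificationIndex (modularFunctionFieldBar (lev M)) = 1 := fun w => by
    obtain ⟨t, ht, htw⟩ := hun w
    have ht0 : t ≠ 0 := fun h => by rw [h, Place.ord_zero] at htw; exact zero_ne_one htw
    have h1 := w.ramificationIndex_le_ord (F := modularFunctionFieldBar (lev M))
      (f := ⟨_, ht⟩) (fun h => ht0 (Subtype.ext (congrArg Subtype.val h :)))
      (show 0 < w.ord t by rw [htw]; exact one_pos)
    have h2 := w.ramificationIndex_pos (F := modularFunctionFieldBar (lev M))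
    change _ ≤ w.ord t at h1
    omega
  have h0 := Hurwitz.two_genus_eq (transcendental_jBar (lev M)) hx' hxx hram
  -- after reduction
  let := algFull (A := A) C
  have : IsScalarTower (ResidueField A) (modularFunctionFieldFullC (ResidueField A) (lev M))
      (C.fieldK A) := IsScalarTower.of_algebraMap_eq fun a => rfl
  have : FiniteDimensional (modularFunctionFieldFullC (ResidueField A) (lev M)) (C.fieldK A) :=
    finite_fieldK_over hp hA hpM C hC hL
  have hyy : algebraMap (modularFunctionFieldFullC (ResidueField A) (lev M)) (C.fieldK A)
      (jC (ResidueField A) (lev M)) = (C.seriesModel hp hA hpM).jK :=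
    Subtype.ext (coeffMap_jqModC (residue A)).symm
  have hk := Hurwitz.mul_two_genus_le (Reduction.transcendental_jC (ResidueField A) (lev M))
    hy' hyy
  obtain ⟨n0, nk⟩ := finrank_cover_eq hp hA hpM C hC hL
  have e0 : Module.finrank (modularFunctionFieldBar (lev M)) C.field = deckCard M := n0
  have ek : Module.finrank (modularFunctionFieldFullC (ResidueField A) (lev M)) (C.fieldK A) =
      deckCard M := nk
  rw [e0, hg] at h0
  rw [ek] at hk
  rw [finrank_eq_of_degree_gt hy' (show 2 * (genusOf hy' : ℤ) - 2 < _ by omega)]
  omega

end Fermat.Agent.Row48.Cover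

end
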