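import Fermat.Agent.Row48.Cover.MultOps
import Fermat.Agent.Congruence.Reduction
import Fermat.Agent.Reduction.Rank

/-!
# The Eichler–Shimura relation on multipliers

Given good reduction at a prime `p ∤ n M₀` (`GoodRed`), for a Frobenius `σ` the Hecke operator is
`T = σ + p ⟨p⟩ σ⁻¹` on multipliers, and inertia acts trivially.
-/

set_option autoImplicit false

noncomputable section

open CongruenceSubgroup UpperHalfPlane ModularCurve AlgebraicCurve Fermat.Agent.Reduction
open scoped MatrixGroups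

namespace Fermat.Agent.Row48.Cover

open J0Torsion (jEmb)
open Congruence (actRingHom coeffMap_subtype_act)

local notation "Qbar" => AlgebraicClosure ℚ

variable {M₀ : ℕ} [NeZero M₀]

/-- What the good reduction of the cover at `A` supplies, for torsion of order `n`. -/
structure GoodRed (C : CoverFns M₀) (A : ValuationSubring Qbar) (n : ℕ) : Prop where
  scale : ∀ x : ↥C.algH, x ≠ 0 → ∃ c : Qbar, c ≠ 0 ∧ ∃ y : LaurentSeries A,
    ιS A y = HahnSeries.single 0 c * (x : LaurentSeries Qbar) ∧ redS A y ≠ 0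
  deck : ∀ (d : (ZMod M₀)ˣ) (x : ↥C.algH) (y : LaurentSeries A),
    ιS A y = (x : LaurentSeries Qbar) → redS A y ≠ 0 →
      ∃ yD : LaurentSeries A, ιS A yD = ((C.deckAlg d x : ↥C.algH) : LaurentSeries Qbar) ∧
        redS A yD ≠ 0
  inj : ∀ f : C.field, f ≠ 0 → (∀ P : Place Qbar C.field, (n : ℤ) ∣ P.ord f) →
    ∀ Num Den : LaurentSeries A, (f : LaurentSeries Qbar) * ιS A Den = ιS A Num →
      redS A Num = redS A Den → redS A Den ≠ 0 → ∃ g : C.field, g ^ n = f

variable {n : ℕ} [NeZero n] {C : CoverFns M₀}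

namespace CoverFns

variable (C)

theorem normSer_mem (R : Roots C n) {p : ℕ} [Fact p.Prime] (hp : ¬ p ∣ M₀) (x : ↥C.algH) :
    C.normSer hp x ∈ C.field :=
  R.mem_field _ (normH M₀ p (C.fn x)) 1 one_ne_zero
    (by rw [map_one, mul_one, C.coeffMap_normSer])

theorem normSer_ne_zero {p : ℕ} [Fact p.Prime] (hp : ¬ p ∣ M₀) {x : ↥C.algH} (hx : x ≠ 0) :
    C.normSer hp x ≠ 0 := fun h => by
  have h1 := C.coeffMap_normSer hp x
  rw [h, map_zero] at h1
  exact normH_ne_zero ((map_ne_zero_iff _ C.fn_injective).mpr hx)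
    ((map_eq_zero_iff _ serH_injective).mp h1.symm)

end CoverFns

variable {A : ValuationSubring Qbar} (G : GoodRed C A n) (R : Roots C n)

include G in
theorem GoodRed.exists_root_integral {φ : goodHom M₀ (ZMod n)} :
    ∃ (x y : ↥C.algH) (X Y : LaurentSeries A), ιS A X = (x : LaurentSeries Qbar) ∧
      ιS A Y = (y : LaurentSeries Qbar) ∧ redS A X ≠ 0 ∧ redS A Y ≠ 0 ∧ y ≠ 0 ∧
      ∀ (_ : Roots C n), HasMult n (coeffMap jEmb ((x : LaurentSeries Qbar) / y)) φ := by
  by_cases hR : Roots C n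
  swap
  · exact ⟨1, 1, 1, 1, map_one _, map_one _, by simp, by simp, one_ne_zero, fun h => absurd h hR⟩
  obtain ⟨x, y, hx, hy, hy0, he⟩ := C.exists_algH_div (C.root hR φ)
  have hf0 : (C.root hR φ : LaurentSeries Qbar) ≠ 0 := fun h0 =>
    C.root_ne_zero hR φ (Subtype.ext h0)
  have hx0 : x ≠ 0 := he ▸ mul_ne_zero hf0 hy0
  obtain ⟨c, hc, X, hX, hX0⟩ := G.scale ⟨x, hx⟩ fun h => hx0 (congrArg Subtype.val h)
  obtain ⟨e, he', Y, hY, hY0⟩ := G.scale ⟨y, hy⟩ fun h => hy0 (congrArg Subtype.val h)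
  have hmem : ∀ (t : Qbar) {z : LaurentSeries Qbar}, z ∈ C.algH →
      HahnSeries.single 0 t * z ∈ C.algH := fun t z hz => by
    rw [← algebraMap_laurentSeries_eq_single]
    exact mul_mem (Subalgebra.algebraMap_mem _ t) hz
  refine ⟨⟨_, hmem c hx⟩, ⟨_, hmem e hy⟩, X, Y, hX, hY, hX0, hY0, fun h => ?_, fun _ => ?_⟩
  · have := congrArg Subtype.val h
    exact mul_ne_zero (HahnSeries.single_ne_zero he') hy0 this
  · have h1 := (hasMult_const (M₀ := M₀) (n := n)
      (div_ne_zero ((map_ne_zero jEmb).mpr hc) ((map_ne_zero jEmb).mpr he'))).mul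
        (C.hasMult_root hR φ)
    rw [zero_add] at h1
    refine (?_ : coeffMap jEmb _ = _) ▸ h1
    show coeffMap jEmb (HahnSeries.single 0 c * x / (HahnSeries.single 0 e * y)) = _
    rw [show (C.root hR φ : LaurentSeries Qbar) = x / y from (eq_div_iff hy0).mpr he,
      ← map_div₀ jEmb, ← coeffMap_single, ← map_mul, mul_div_mul_comm,
      ← algebraMap_laurentSeries_eq_single, ← algebraMap_laurentSeries_eq_single,
      ← algebraMap_laurentSeries_eq_single, ← map_div₀]

/-- A function congruent to `1` whose multiplier is defined has multiplier zero. -/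
theorem GoodRed.mult_eq_zero (hG : GoodRed C A n) (R : Roots C n) {h : C.field}
    {φ : goodHom M₀ (ZMod n)}
    (hm : HasMult n (coeffMap jEmb (h : LaurentSeries Qbar)) φ) {Num Den : LaurentSeries A}
    (he : (h : LaurentSeries Qbar) * ιS A Den = ιS A Num) (hred : redS A Num = redS A Den)
    (hD : redS A Den ≠ 0) : φ = 0 := by
  have hh : h ≠ 0 := fun h0 => hm.ne_zero (by rw [h0]; simp)
  obtain ⟨g, hg⟩ := hG.inj h hh (R.dvd_ord h φ hm) Num Den he hred hD
  refine R.unique _ _ _ hm ?_
  have hg0 : g ≠ 0 := fun h0 => hh (by rw [← hg, h0, zero_pow (NeZero.ne n)])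
  have := C.hasMult_pow (n := n) hg0
  rwa [← hg, SubmonoidClass.coe_pow]

theorem nsmul_mult {f : C.field} {φ : goodHom M₀ (ZMod n)}
    (h : HasMult n (coeffMap jEmb (f : LaurentSeries Qbar)) φ) (k : ℕ) :
    HasMult n (coeffMap jEmb ((f ^ k : C.field) : LaurentSeries Qbar)) (k • φ) := by
  induction k with
  | zero =>
    rw [pow_zero, zero_nsmul, OneMemClass.coe_one, map_one]
    exact hasMult_const one_ne_zero
  | succ k ih =>
    rw [pow_succ, succ_nsmul, MulMemClass.coe_mul, map_mul]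
    exact ih.mul h

include G R in
/-- Inertia acts trivially on multipliers. -/
theorem galMult_inertia {σ : Qbar ≃ₐ[ℚ] Qbar} (hσ : σ ∈ A.inertiaSubgroupIn ℚ)
    (φ : goodHom M₀ (ZMod n)) : C.galMult R σ φ = φ := by
  obtain ⟨⟨s, hs⟩, hker, rfl⟩ := hσ
  obtain ⟨x, y, X, Y, hX, hY, hX0, hY0, hy, hm⟩ := G.exists_root_integral (φ := φ)
  have hfm := hm R
  set f : C.field := ⟨(x : LaurentSeries Qbar) / y, div_mem (C.algH_le x.2) (C.algH_le y.2)⟩ with hf
  have hsig := C.galMult_eq R s (f := f) hfm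
  have hq := hsig.mul (C.mult_neg_of_field (f := f) hfm)
  rw [← map_mul, ← MulMemClass.coe_mul] at hq
  have hi : ∀ z : IsLocalRing.ResidueField A, (⟨s, hs⟩ : A.decompositionSubgroup ℚ) • z = z :=
    fun z => RingEquiv.congr_fun (MonoidHom.mem_ker.1 hker) z
  have hxne : (x : LaurentSeries Qbar) ≠ 0 := fun h0 => hX0 (by
    rw [show X = 0 from ιS_injective (by rw [hX, h0, map_zero]), map_zero])
  have hyne : (y : LaurentSeries Qbar) ≠ 0 := fun h0 => hy (Subtype.ext h0)
  have hsy : coeffMap (s : Qbar →+* Qbar) (y : LaurentSeries Qbar) ≠ 0 :=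
    (map_ne_zero_iff _ (X0Analytic.coeffMap_injective (RingHom.injective _))).mpr hyne
  have hzero := G.mult_eq_zero R hq (Num := coeffMap (actRingHom A hs) X * Y)
    (Den := coeffMap (actRingHom A hs) Y * X) (by
      rw [map_mul, map_mul]
      simp only [coeffMap_subtype_act]
      show ((C.galField s f * f⁻¹ : C.field) : LaurentSeries Qbar) * _ = _
      rw [MulMemClass.coe_mul, C.coe_galField, IntermediateField.coe_inv, hf, map_div₀]
      simp only [ιS, hX, hY]
      field_simp) (by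
      rw [map_mul, map_mul, Congruence.residue_actRingHom_of_inertia A hs hi,
        Congruence.residue_actRingHom_of_inertia A hs hi, mul_comm]) (by
      rw [map_mul, Congruence.residue_actRingHom_of_inertia A hs hi]
      exact mul_ne_zero hY0 hX0)
  exact eq_of_sub_eq_zero ((sub_eq_add_neg _ _).trans hzero)

include G R in
/-- **The Eichler–Shimura relation on multipliers.** -/
theorem heckeHom_eq {p : ℕ} [Fact p.Prime] (hp : ¬ p ∣ M₀)
    [CharP (IsLocalRing.ResidueField A) p] {σ : Qbar ≃ₐ[ℚ] Qbar}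
    (hs : σ ∈ A.decompositionSubgroup ℚ)
    (hact : ∀ z : IsLocalRing.ResidueField A, (⟨σ, hs⟩ : A.decompositionSubgroup ℚ) • z = z ^ p)
    (φ : goodHom M₀ (ZMod n)) :
    heckeHom p φ = C.galMult R σ φ +
      p • C.galMult R σ⁻¹ (deckHom (CoverFns.unitP hp) φ) := by
  obtain ⟨x, y, X, Y, hX, hY, hX0, hY0, hy, hm⟩ := G.exists_root_integral (φ := φ)
  have hfm := hm R
  set dp := CoverFns.unitP (M₀ := M₀) hp
  obtain ⟨XD, hXD, hXD0⟩ := G.deck dp x X hX hX0
  obtain ⟨YD, hYD, hYD0⟩ := G.deck dp y Y hY hY0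
  obtain ⟨WX, hWX, hWX'⟩ := C.exists_normSer_red hp x hX hXD
  obtain ⟨WY, hWY, hWY'⟩ := C.exists_normSer_red hp y hY hYD
  have hxne : (x : LaurentSeries Qbar) ≠ 0 := fun h0 => hX0 (by
    rw [show X = 0 from ιS_injective (by rw [hX, h0, map_zero]), map_zero])
  have hyne : (y : LaurentSeries Qbar) ≠ 0 := fun h0 => hy (Subtype.ext h0)
  have hyDne : ((C.deckAlg dp y : ↥C.algH) : LaurentSeries Qbar) ≠ 0 := fun h0 => hYD0 (by
    rw [show YD = 0 from ιS_injective (by rw [hYD, h0, map_zero]), map_zero])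
  have hxDne : ((C.deckAlg dp x : ↥C.algH) : LaurentSeries Qbar) ≠ 0 := fun h0 => hXD0 (by
    rw [show XD = 0 from ιS_injective (by rw [hXD, h0, map_zero]), map_zero])
  set f : C.field := ⟨(x : LaurentSeries Qbar) / y, div_mem (C.algH_le x.2) (C.algH_le y.2)⟩ with hf
  set fD : C.field := ⟨((C.deckAlg dp x : ↥C.algH) : LaurentSeries Qbar) /
    ((C.deckAlg dp y : ↥C.algH) : LaurentSeries Qbar),
    div_mem (C.algH_le (SetLike.coe_mem _)) (C.algH_le (SetLike.coe_mem _))⟩ with hfD
  set fT : C.field := ⟨C.normSer hp x / C.normSer hp y,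
    div_mem (C.normSer_mem R hp x) (C.normSer_mem R hp y)⟩ with hfT
  have hTm : HasMult n (coeffMap jEmb (fT : LaurentSeries Qbar)) (heckeHom p φ) :=
    C.hasMult_hecke hp hy hfm
  have hDm : HasMult n (coeffMap jEmb (fD : LaurentSeries Qbar)) (deckHom dp φ) :=
    C.hasMult_deck dp hy hfm
  have hR := (C.galMult_eq R σ (f := f) hfm).mul
    (nsmul_mult (C.galMult_eq R σ⁻¹ (f := fD) hDm) p)
  rw [← map_mul, ← MulMemClass.coe_mul] at hR
  have hq := hTm.mul (C.mult_neg_of_field hR)
  rw [← map_mul, ← MulMemClass.coe_mul] at hq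
  have hs' : σ⁻¹ ∈ A.decompositionSubgroup ℚ := inv_mem hs
  set a := actRingHom A hs
  set b := actRingHom A hs'
  -- the reduction of a norm
  have key : ∀ {Z ZD W : LaurentSeries A},
      qExpand _ p (redS A W) = redS A Z ^ p * qExpand _ (p * p) (redS A ZD) →
      redS A W = redS A (coeffMap a Z * (coeffMap b ZD) ^ p) := by
    intro Z ZD W hW
    refine qExpand_injective (R := IsLocalRing.ResidueField A) p ?_
    have hZ : redS A (coeffMap a Z) = coeffMap (frobenius _ p) (redS A Z) :=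
      Congruence.residue_actRingHom_of_frobenius A hs hact Z
    have hab : coeffMap a (coeffMap b ZD) = ZD := by
      refine ιS_injective ?_
      simp only [ιS, a, b, coeffMap_subtype_act]
      ext k
      simp
    have hZD : coeffMap (frobenius _ p) (redS A (coeffMap b ZD)) = redS A ZD := by
      rw [← Congruence.residue_actRingHom_of_frobenius A hs hact (coeffMap b ZD)]
      exact congrArg (redS A) hab
    rw [hW, map_mul, map_pow, map_mul, hZ, Congruence.laurent_pow_char p (redS A Z)]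
    congr 1
    rw [Congruence.laurent_pow_char p (redS A (coeffMap b ZD)), hZD, qExpand_qExpand]
  have hfrob : Function.Injective (coeffMap (frobenius (IsLocalRing.ResidueField A) p)) :=
    X0Analytic.coeffMap_injective (frobenius_inj _ p)
  have hne : ∀ {Z : LaurentSeries A}, redS A Z ≠ 0 → redS A (coeffMap a Z) ≠ 0 := fun hZ => by
    rw [Congruence.residue_actRingHom_of_frobenius A hs hact, map_ne_zero_iff _ hfrob]
    exact hZ
  have hneb : ∀ {Z : LaurentSeries A}, redS A Z ≠ 0 → redS A (coeffMap b Z) ≠ 0 := fun {Z} hZ h0 =>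
    hZ (by
      have hab : coeffMap a (coeffMap b Z) = Z := by
        refine ιS_injective ?_
        simp only [ιS, a, b, coeffMap_subtype_act]
        ext k
        simp
      have := Congruence.residue_actRingHom_of_frobenius A hs hact (coeffMap b Z)
      rw [hab] at this
      rw [this]
      show coeffMap _ (redS A (coeffMap b Z)) = 0
      rw [h0, map_zero])
  have hzero := G.mult_eq_zero R hq
    (Num := WX * (coeffMap a Y * (coeffMap b YD) ^ p))
    (Den := WY * (coeffMap a X * (coeffMap b XD) ^ p)) (by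
      have hinj : ∀ (t : Qbar →+* Qbar) {z : LaurentSeries Qbar}, z ≠ 0 → coeffMap t z ≠ 0 :=
        fun t z hz => (map_ne_zero_iff _ (X0Analytic.coeffMap_injective t.injective)).mpr hz
      have hny := C.normSer_ne_zero hp (x := y) hy
      have h1 := hinj (σ : Qbar →+* Qbar) hyne
      have h2 := hinj (σ : Qbar →+* Qbar) hxne
      have h3 := hinj ((σ⁻¹ : Qbar ≃ₐ[ℚ] Qbar) : Qbar →+* Qbar) hyDne
      have h4 := hinj ((σ⁻¹ : Qbar ≃ₐ[ℚ] Qbar) : Qbar →+* Qbar) hxDne
      simp only [ιS, map_mul, map_pow, a, b, coeffMap_subtype_act]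
      simp only [ιS] at hX hY hXD hYD hWX hWY
      rw [hX, hY, hXD, hYD, hWX, hWY]
      simp only [MulMemClass.coe_mul, IntermediateField.coe_inv, SubmonoidClass.coe_pow,
        C.coe_galField, hf, hfD, hfT, map_div₀]
      field_simp
      rw [mul_assoc, ← mul_pow, div_mul_cancel₀ _ h3]) (by
      simp only [map_mul]
      rw [key hWX', key hWY']
      simp only [map_mul]
      ring) (by
      rw [map_mul, key hWY', map_mul, map_mul, map_pow, map_pow]
      exact mul_ne_zero (mul_ne_zero (hne hY0) (pow_ne_zero _ (hneb hYD0)))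
        (mul_ne_zero (hne hX0) (pow_ne_zero _ (hneb hXD0))))
  exact eq_of_sub_eq_zero ((sub_eq_add_neg _ _).trans hzero)

end Fermat.Agent.Row48.Cover

end
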