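import Fermat.Agent.Row48.Cover.Genus
import Fermat.Agent.Row48.Cover.Relation
import Fermat.Agent.Reduction.Injective
import Fermat.Agent.Reduction.Construction

/-!
# Good reduction of the cover
-/

set_option autoImplicit false

noncomputable section

open CongruenceSubgroup UpperHalfPlane ModularCurve IntermediateField Fermat.Agent.Reduction
open AlgebraicCurve
open scoped MatrixGroups

namespace Fermat.Agent.Row48.Cover

open IsLocalRing (ResidueField residue)
open Fermat.Agent.FunctionFieldRR

local notation "Qbar" => AlgebraicClosure ℚ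

variable {M : ℕ} [NeZero M] {A : ValuationSubring Qbar} {p : ℕ} (hp : p.Prime)
  (hA : A.LiesOverPrime p) (hpM : ¬ p ∣ M) (C : CoverFns M) (hC : C.F = coverFn) (hL : LevelOK M)

include hp hA hpM hC hL in
/-- A function congruent to `1` whose orders are divisible by `n` is an `n`-th power. -/
theorem exists_pow_eq_of_red_one (hun : C.Etale) {n : ℕ} (hn : ¬ p ∣ n) (f : C.field) (hf : f ≠ 0)
    (hdvd : ∀ P : Place Qbar C.field, (n : ℤ) ∣ P.ord f) (Num Den : LaurentSeries A)
    (he : (f : LaurentSeries Qbar) * ιS A Den = ιS A Num) (hred : redS A Num = redS A Den)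
    (hD : redS A Den ≠ 0) : ∃ g : C.field, g ^ n = f := by
  classical
  have := Fact.mk hp
  have : IsAlgClosed (ResidueField A) := isAlgClosed_residueField
  have := isFunctionField_field hp hA hpM C hC hL
  have := isFunctionField_fieldK hp hA hpM C hC hL
  have : HasPrincipalDivisors Qbar C.field := hasPrincipalDivisors
  have : HasPrincipalDivisors (ResidueField A) (C.fieldK A) := hasPrincipalDivisors
  set G := C.coverModel hp hA hpM hC hL
  obtain ⟨g, c, hlow, hlowK, hup⟩ := exists_genus_bounds hp hA hpM C hC hL hun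
  have H : GoodModel.RRData (A := A) (F := C.field) (Fk := C.fieldK A) g c := ⟨hlow, hup⟩
  obtain ⟨R⟩ := GoodModel.exists_reductionMap (M := G) (g := g) (c := c) ⟨hlow, hlowK, hup⟩
  have hn0 : n ≠ 0 := fun h => hn (h ▸ dvd_zero p)
  have hunit : IsUnit (n : A) := isUnit_natCast_of_not_dvd hA hn
  set D : Divisor Qbar C.field := (dvs (K := Qbar) f).mapRange (· / (n : ℤ)) (by simp) with hDdef
  have hnD : n • D = dvs (K := Qbar) f := Finsupp.ext fun v => by
    rw [Finsupp.smul_apply, nsmul_eq_mul, hDdef, Finsupp.mapRange_apply, dvs_apply]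
    exact Int.mul_ediv_cancel' (hdvd v)
  have hdeg : Divisor.degree D = 0 := by
    have h1 := congrArg Divisor.degree hnD
    rw [degree_dvs, map_nsmul] at h1
    exact (nsmul_eq_zero_iff.mp h1).resolve_right hn0
  obtain ⟨hfi, hfr⟩ := G.coe_red (x := f) (P := Num) (Q := Den) (by rw [mul_comm, he]) hD
  have hf1 : G.red f = 1 := Subtype.ext (by rw [hfr, hred, div_self hD]; rfl)
  have hrD : Finsupp.mapDomain R.toFun D = 0 := by
    have h1 := R.spec f hfi (by rw [hf1]; exact one_ne_zero)
    rw [← hnD, ← Finsupp.mapDomain.addMonoidHom_apply, map_nsmul,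
      Finsupp.mapDomain.addMonoidHom_apply, hf1] at h1
    refine Finsupp.ext fun w => ?_
    have h2 := congrArg (fun E : Divisor (ResidueField A) (C.fieldK A) => E w) h1
    simp only [Finsupp.smul_apply, nsmul_eq_mul, dvs_apply, Place.ord_one] at h2
    simpa [hn0] using h2
  obtain ⟨h, hh0, hh⟩ := GoodModel.isPrincipal_of_nsmul R H hunit hdeg
    ⟨f, hf, fun v => by rw [hnD, dvs_apply]⟩ (by rw [hrD]; exact ⟨1, one_ne_zero, fun v => by simp⟩)
  have hz : dvs (K := Qbar) (f / h ^ n) = 0 := by
    rw [dvs_div hf (pow_ne_zero _ hh0), dvs_pow, ← eq_dvs hh, hnD, sub_self]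
  obtain ⟨a, ha⟩ := exists_eq_algebraMap_of_dvs_eq_zero hz
  obtain ⟨t, ht⟩ := IsAlgClosed.exists_pow_nat_eq a (Nat.pos_of_ne_zero hn0)
  refine ⟨algebraMap Qbar C.field t * h, ?_⟩
  rw [mul_pow, ← map_pow, ht, ← ha, div_mul_cancel₀ _ (pow_ne_zero _ hh0)]

include hp hA hpM hC hL in
/-- **The cover has good reduction at a prime dividing neither `n` nor `M₀`.** -/
theorem goodRed (hun : C.Etale) {n : ℕ} (hn : ¬ p ∣ n) : GoodRed C A n where
  scale x hx := C.exists_scale_algH hp hA hpM hC hL x.2 fun h => hx (Subtype.ext h)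
  deck := C.exists_deck_integral hp hA hpM hC hL
  inj f hf hdvd Num Den he hred hD :=
    exists_pow_eq_of_red_one hp hA hpM C hC hL hun hn f hf hdvd Num Den he hred hD

end Fermat.Agent.Row48.Cover

end
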