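import Fermat.Agent.EigenRep.RankTwo
import Fermat.Prelude.Def_Deformations_MatrixRepresentation
import Mathlib.RepresentationTheory.Semisimple

/-!
# A semisimple representation with given characteristic polynomials in dimension two
-/

set_option autoImplicit false

noncomputable section

namespace Fermat.Agent.Row48.Cover

open Module Polynomial Matrix

variable {G : Type} [Group G] {K : Type} [Field K]

theorem trace_det_of_charpoly {M : Matrix (Fin 2) (Fin 2) K} {t e : K}
    (h : M.charpoly = X ^ 2 - C t * X + C e) : M.trace = t ∧ M.det = e := by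
  rw [Matrix.charpoly_fin_two] at h
  have h1 := congrArg (fun P => Polynomial.coeff P 1) h
  have h0 := congrArg (fun P => Polynomial.coeff P 0) h
  simp [coeff_X_pow, coeff_C] at h1 h0
  exact ⟨h1, h0⟩

theorem isCompl_span_of {U : Submodule K (Fin 2 → K)} {i j : Fin 2} (hij : i ≠ j)
    (hi : Pi.single i (1 : K) ∉ U)
      (hj : ∃ c : K, Pi.single j (1 : K) + c • Pi.single i (1 : K) ∈ U) :
    IsCompl U (Submodule.span K {Pi.single i (1 : K)}) := by
  obtain ⟨c, hc⟩ := hj
  constructor
  · rw [Submodule.disjoint_def]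
    intro x hxU hx
    obtain ⟨k, rfl⟩ := Submodule.mem_span_singleton.mp hx
    by_contra hk
    have hk0 : k ≠ 0 := fun h => hk (by rw [h, zero_smul])
    exact hi (by simpa [smul_smul, inv_mul_cancel₀ hk0] using U.smul_mem k⁻¹ hxU)
  · rw [codisjoint_iff, eq_top_iff]
    intro x _
    refine Submodule.mem_sup.mpr ⟨x j • (Pi.single j (1 : K) + c • Pi.single i (1 : K)),
      U.smul_mem _ hc, (x i - x j * c) • Pi.single i (1 : K),
      Submodule.smul_mem _ _ (Submodule.mem_span_singleton_self _), ?_⟩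
    funext k
    rcases (show k = i ∨ k = j by omega) with rfl | rfl
    · simp [hij, smul_eq_mul]
    · simp [hij.symm, smul_eq_mul]

/-- A diagonal representation is semisimple. -/
theorem isSemisimple_of_diagonal (ρ : G →* GL (Fin 2) K)
    (h : ∀ g, ∃ d : Fin 2 → K, (ρ g : Matrix (Fin 2) (Fin 2) K) = Matrix.diagonal d) :
    (Deformation.matrixRepresentation ρ).IsSemisimpleRepresentation := by
  set R := Deformation.matrixRepresentation ρ
  have hline : ∀ i : Fin 2, ∀ g, ∀ x ∈ Submodule.span K {Pi.single i (1 : K)},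
      R g x ∈ Submodule.span K {Pi.single i (1 : K)} := by
    intro i g x hx
    obtain ⟨k, rfl⟩ := Submodule.mem_span_singleton.mp hx
    obtain ⟨d, hd⟩ := h g
    refine Submodule.mem_span_singleton.mpr ⟨k * d i, ?_⟩
    funext j
    simp only [R, Deformation.matrixRepresentation_apply, map_smul, Matrix.mulVecLin_apply]
    rw [hd]
    simp [Pi.single_apply]
  refine ⟨fun U => ?_⟩
  suffices ∃ W : Submodule K (Fin 2 → K),
      (∀ g, ∀ x ∈ W, R g x ∈ W) ∧ IsCompl U.toSubmodule W by
    obtain ⟨W, hW, hc⟩ := this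
    refine ⟨⟨W, fun g x hx => hW g x hx⟩, ?_, ?_⟩
    · rw [disjoint_iff]
      exact Subrepresentation.toSubmodule_injective (disjoint_iff.mp hc.1)
    · rw [codisjoint_iff]
      exact Subrepresentation.toSubmodule_injective (codisjoint_iff.mp hc.2)
  by_cases h0 : Pi.single (0 : Fin 2) (1 : K) ∈ U.toSubmodule
  · by_cases h1 : Pi.single (1 : Fin 2) (1 : K) ∈ U.toSubmodule
    · refine ⟨⊥, fun g x hx => ?_, ?_⟩
      · simp only [Submodule.mem_bot] at hx ⊢
        rw [hx, map_zero]
      · have : U.toSubmodule = ⊤ := by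
          rw [eq_top_iff]
          intro x _
          rw [show x = x 0 • Pi.single (0 : Fin 2) (1 : K) + x 1 • Pi.single (1 : Fin 2) (1 : K) by
            funext k; fin_cases k <;> simp]
          exact add_mem (Submodule.smul_mem _ _ h0) (Submodule.smul_mem _ _ h1)
        rw [this]
        exact isCompl_top_bot
    · exact ⟨_, hline 1, isCompl_span_of (j := 0) (by decide) h1 ⟨0, by simpa using h0⟩⟩
  · by_cases hU : U.toSubmodule = ⊥
    · exact ⟨⊤, fun g x _ => Submodule.mem_top, by rw [hU]; exact isCompl_bot_top⟩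
    · obtain ⟨v, hv, hv0⟩ := Submodule.exists_mem_ne_zero_of_ne_bot hU
      have hv1 : v 1 ≠ 0 := by
        intro hv1
        have hv00 : v 0 ≠ 0 := fun h' => hv0 (funext fun k => by fin_cases k <;> simpa)
        refine h0 ?_
        have := Submodule.smul_mem _ (v 0)⁻¹ hv
        convert this using 1
        funext k
        fin_cases k <;> simp [hv00, hv1]
      refine ⟨_, hline 0, isCompl_span_of (j := 1) (by decide) h0 ⟨(v 1)⁻¹ * v 0, ?_⟩⟩
      have := Submodule.smul_mem _ (v 1)⁻¹ hv
      convert this using 1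
      funext k
      fin_cases k <;> simp [hv1]

/-- A semisimple representation with the same characteristic polynomials. -/
theorem exists_semisimple (r : G →* Matrix (Fin 2) (Fin 2) K) (ε : G →* Kˣ) (t : G → K)
    (hr : ∀ g, (r g).charpoly = X ^ 2 - C (t g) * X + C (ε g : K)) :
    ∃ ρ : G →* GL (Fin 2) K,
      (Deformation.matrixRepresentation ρ).IsSemisimpleRepresentation ∧
      (∀ g, (ρ g : Matrix (Fin 2) (Fin 2) K).trace = t g ∧
        (ρ g : Matrix (Fin 2) (Fin 2) K).det = (ε g : K)) ∧
      ∀ g, r g = 1 → ε g = 1 → ρ g = 1 := by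
  let ρ₀ : G →* Module.End K (Fin 2 → K) :=
    (Matrix.toLinAlgEquiv' : _ ≃ₐ[K] _).toAlgHom.toMonoidHom.comp r
  have hρ₀ : ∀ g x, ρ₀ g x = r g *ᵥ x := fun g x => rfl
  have hrel : ∀ g, ρ₀ g * ρ₀ g - t g • ρ₀ g + (ε g : K) • 1 = 0 := fun g => by
    have := congrArg (Matrix.toLinAlgEquiv' : _ ≃ₐ[K] _) (Matrix.aeval_self_charpoly (r g))
    rw [hr g] at this
    simp [sq, Algebra.algebraMap_eq_smul_one] at this
    simpa [ρ₀] using this
  by_cases hl : ∃ v : Fin 2 → K, v ≠ 0 ∧ ∀ g, ∃ c : K, ρ₀ g v = c • v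
  · obtain ⟨v, hv, hline⟩ := hl
    let ψ := EigenRep.lineChar ρ₀ hv hline
    have hψ : ∀ g, ρ₀ g v = (ψ g : K) • v := EigenRep.lineChar_spec ρ₀ hv hline
    refine ⟨(EigenRep.diagRep ψ ε).toHomUnits,
      isSemisimple_of_diagonal _ fun g => ⟨_, by rw [MonoidHom.coe_toHomUnits]; rfl⟩,
      fun g => ?_, fun g hg hε => ?_⟩
    · rw [MonoidHom.coe_toHomUnits]
      refine trace_det_of_charpoly ?_
      rw [EigenRep.charpoly_diagRep, EigenRep.t_eq_of_line ρ₀ ε t hrel hv ψ hψ g]
    · refine Units.ext ?_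
      rw [MonoidHom.coe_toHomUnits, Units.val_one]
      refine EigenRep.diagRep_eq_one ψ ε (Units.ext (smul_left_injective K hv ?_)) hε
      show (ψ g : K) • v = ((1 : Kˣ) : K) • v
      rw [← hψ, hρ₀, hg, one_mulVec, Units.val_one, one_smul]
  · refine ⟨r.toHomUnits, ⟨fun U => ?_⟩, fun g => ?_, fun g hg _ => Units.ext ?_⟩
    · have hU : U = ⊥ ∨ U = ⊤ := by
        by_cases h0 : U.toSubmodule = ⊥
        · exact Or.inl (Subrepresentation.toSubmodule_injective h0)
        refine Or.inr (Subrepresentation.toSubmodule_injective ?_)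
        by_contra h1
        have hlt := Submodule.finrank_lt (K := K) (V := Fin 2 → K) h1
        rw [Module.finrank_fin_fun] at hlt
        have hpos : 0 < finrank K U.toSubmodule :=
          Nat.pos_of_ne_zero fun h' => h0 (Submodule.finrank_eq_zero.mp h')
        obtain ⟨v, hv, hspan⟩ := finrank_eq_one_iff'.mp (show finrank K U.toSubmodule = 1 by omega)
        refine hl ⟨(v : Fin 2 → K), fun h' => hv (Subtype.ext h'), fun g => ?_⟩
        have hmem : ρ₀ g (v : Fin 2 → K) ∈ U.toSubmodule := by
          have := U.apply_mem_toSubmodule g v.2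
          simpa [Deformation.matrixRepresentation_apply, hρ₀] using this
        obtain ⟨c, hc⟩ := hspan ⟨_, hmem⟩
        exact ⟨c, (congrArg Subtype.val hc).symm⟩
      rcases hU with rfl | rfl
      · exact ⟨⊤, isCompl_bot_top⟩
      · exact ⟨⊥, isCompl_top_bot⟩
    · rw [MonoidHom.coe_toHomUnits]; exact trace_det_of_charpoly (hr g)
    · rw [MonoidHom.coe_toHomUnits, hg, Units.val_one]

end Fermat.Agent.Row48.Cover

end
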