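import Fermat.Agent.Row48.Cover.GaloisMult
import Fermat.Agent.Row48.Cover.Eigen
import Fermat.Agent.Row48.Cover.Semisimple
import Fermat.Agent.EigenRep.Inputs
import Fermat.Agent.EigenRep.EigenSpace

/-!
# The representation of an eigenclass

From the roots with multipliers and good reduction of the cover, the Galois action on the
homomorphisms `gammaH M₀ → K` in the eigenspace of an eigenclass satisfies the Eichler–Shimura
relation, and gives a two-dimensional representation.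
-/

set_option autoImplicit false

noncomputable section

open CongruenceSubgroup Polynomial
open scoped MatrixGroups

namespace Fermat.Agent.Row48.Cover

local notation "Qbar" => AlgebraicClosure ℚ
local notation "Γℚ" => (AlgebraicClosure ℚ ≃ₐ[ℚ] AlgebraicClosure ℚ)

variable {M₀ : ℕ} [NeZero M₀]

/-- The Galois action on homomorphisms to `ℤ/n`. -/
def galLin {n : ℕ} [NeZero n] (C : CoverFns M₀) (R : Roots C n) :
    Γℚ →* Module.End (ZMod n) (goodHom M₀ (ZMod n)) where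
  toFun σ := (AddMonoidHom.mk' (C.galMult R σ) (C.galMult_add R σ)).toZModLinearMap n
  map_one' := LinearMap.ext fun φ => C.galMult_one R φ
  map_mul' σ τ := LinearMap.ext fun φ => C.galMult_mul R σ τ φ

theorem galLin_apply {n : ℕ} [NeZero n] (C : CoverFns M₀) (R : Roots C n) (σ : Γℚ)
    (φ : goodHom M₀ (ZMod n)) : galLin C R σ φ = C.galMult R σ φ := rfl

/-- The value of the determinant: cyclotomic character times `χ`. -/
def detChar {ℓ : ℕ} {K : Type} [Field K] [CharP K ℓ] (hd : ℓ ∣ M₀) (χ : (ZMod M₀)ˣ →* Kˣ) :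
    Γℚ →* Kˣ :=
  (Units.map (ZMod.castHom hd K).toMonoidHom * χ).comp (galCharHom M₀)

theorem detChar_frobenius {ℓ : ℕ} {K : Type} [Field K] [CharP K ℓ] (hd : ℓ ∣ M₀)
    (χ : (ZMod M₀)ˣ →* Kˣ) {p : ℕ} (hp : p.Prime) (hpM : p.Coprime M₀)
    {A : ValuationSubring Qbar} (hA : A.LiesOverPrime p) {σ : Γℚ} (hσ : A.IsFrobeniusAt σ p) :
    (detChar hd χ σ : K) = (p : K) * ((χ (ZMod.unitOfCoprime p hpM) : Kˣ) : K) := by
  rw [detChar, MonoidHom.comp_apply, galCharHom_frobenius hp hpM hA hσ, MonoidHom.mul_apply,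
    Units.val_mul, Units.coe_map, RingHom.toMonoidHom_eq_coe, MonoidHom.coe_coe,
    ZMod.coe_unitOfCoprime, map_natCast]

theorem hasRep_of_inputs {K : Type} [Field K] [IsAlgClosed K] {ℓ : ℕ} [Fact ℓ.Prime]
    [CharP K ℓ] (C : CoverFns M₀) (R : Roots C ℓ)
    (hG : ∀ p : ℕ, p.Prime → ¬ p ∣ M₀ → ∀ A : ValuationSubring Qbar, A.LiesOverPrime p →
      GoodRed C A ℓ)
    (hd : ℓ ∣ M₀) (hℓ : ¬ ℓ ∣ Nat.totient M₀) (χ : (ZMod M₀)ˣ →* Kˣ) (a : ℕ → K)
    (hχ : χ (-1) = 1) (h : EigenClass M₀ χ a) : HasRep M₀ χ a := by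
  classical
  have : Module.Finite (ZMod ℓ) (goodHom M₀ (ZMod ℓ)) := Module.Finite.of_finite
  let d := Module.finrank (ZMod ℓ) (goodHom M₀ (ZMod ℓ))
  let b : Module.Basis (Fin d) (ZMod ℓ) (goodHom M₀ (ZMod ℓ)) :=
    Module.finBasis (ZMod ℓ) (goodHom M₀ (ZMod ℓ))
  obtain ⟨v₀, hv₀, hdeck₀, hhecke₀⟩ := exists_eigenvector b hℓ hχ h
  let V : Submodule K (Fin d → K) :=
    { carrier := {v | (∀ e, extEnd b (deckEnd ℓ e) v = ((χ e : Kˣ) : K) • v) ∧
        ∀ (p : ℕ) [Fact p.Prime], ¬ p ∣ M₀ → extEnd b (heckeEnd ℓ p) v = a p • v}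
      zero_mem' := ⟨fun e => by simp, fun p _ _ => by simp⟩
      add_mem' := fun {v w} hv hw => ⟨fun e => by rw [map_add, hv.1, hw.1, smul_add],
        fun p _ hp => by rw [map_add, hv.2 p hp, hw.2 p hp, smul_add]⟩
      smul_mem' := fun k v hv => ⟨fun e => by rw [map_smul, hv.1, smul_comm],
        fun p _ hp => by rw [map_smul, hv.2 p hp, smul_comm]⟩ }
  have hv₀V : v₀ ∈ V := ⟨hdeck₀, hhecke₀⟩
  have : Nontrivial V := ⟨⟨v₀, hv₀V⟩, 0, fun h => hv₀ (congrArg Subtype.val h)⟩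
  let G₀ : Γℚ →* Module.End K (Fin d → K) := (extEnd b).toMonoidHom.comp (galLin C R)
  have hcomm : ∀ (σ : Γℚ) (T : Module.End (ZMod ℓ) (goodHom M₀ (ZMod ℓ))),
      (∀ φ, C.galMult R σ (T φ) = T (C.galMult R σ φ)) → ∀ v,
        extEnd b T (G₀ σ v) = G₀ σ (extEnd b T v) := fun σ T hT v => by
    have h1 : T * galLin C R σ = galLin C R σ * T := LinearMap.ext fun φ => (hT φ).symm
    have h2 := LinearMap.congr_fun (congrArg (extEnd b (K := K)) h1) v
    simpa [G₀, Module.End.mul_apply] using h2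
  have hstab : ∀ σ, ∀ v ∈ V, G₀ σ v ∈ V := fun σ v hv => by
    refine ⟨fun e => ?_, fun p _ hp => ?_⟩
    · rw [hcomm σ (deckEnd ℓ e) (fun φ => C.galMult_deckHom R σ e φ), hv.1, map_smul]
    · rw [hcomm σ (heckeEnd ℓ p) (fun φ => C.galMult_heckeHom R hp σ φ), hv.2 p hp, map_smul]
  let ρ : Γℚ →* Module.End K V :=
    { toFun := fun g => (G₀ g).restrict (hstab g)
      map_one' := by ext v; simp
      map_mul' := fun g k => by ext v; simp }
  have hρ : ∀ g (v : V), ((ρ g v : V) : Fin d → K) = G₀ g v := fun g v => rfl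
  let ε := detChar hd χ
  have hfrob : ∀ {p : ℕ} (hp : p.Prime) (hpM : p.Coprime M₀) {A : ValuationSubring Qbar},
      A.LiesOverPrime p → ∀ {σ : Γℚ}, A.IsFrobeniusAt σ p →
        ρ σ * ρ σ - a p • ρ σ + (ε σ : K) • 1 = 0 := by
    intro p hp hpM A hA σ hσ
    have : Fact p.Prime := ⟨hp⟩
    have hpd : ¬ p ∣ M₀ := hp.coprime_iff_not_dvd.mp hpM
    have := Frobenius.residueField_charP hp hA
    have hrel : heckeEnd ℓ p = galLin C R σ +
        p • (galLin C R σ⁻¹ * deckEnd ℓ (CoverFns.unitP hpd)) := LinearMap.ext fun φ => by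
      simp only [LinearMap.add_apply, LinearMap.smul_apply, Module.End.mul_apply, galLin_apply,
        heckeEnd_apply, deckEnd_apply]
      exact heckeHom_eq (hG p hp hpd A hA) R hpd hσ.mem_decompositionSubgroup
        hσ.smul_residue_eq φ
    refine LinearMap.ext fun v => Subtype.ext ?_
    have hw := hstab σ _ v.2
    have e1 := LinearMap.congr_fun (congrArg (extEnd b (K := K)) hrel) (G₀ σ v)
    rw [map_add, map_nsmul, map_mul, LinearMap.add_apply, LinearMap.smul_apply,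
      Module.End.mul_apply] at e1
    rw [(hw.2 p hpd : extEnd b (heckeEnd ℓ p) (G₀ σ v) = a p • G₀ σ v),
      (hw.1 (CoverFns.unitP hpd) :
        extEnd b (deckEnd ℓ (CoverFns.unitP hpd)) (G₀ σ v) = _ • G₀ σ v), map_smul] at e1
    have e2 : extEnd b (galLin C R σ⁻¹) (G₀ σ v) = (v : Fin d → K) := by
      show G₀ σ⁻¹ (G₀ σ v) = v
      rw [← Module.End.mul_apply, ← map_mul, inv_mul_cancel, map_one, Module.End.one_apply]
    rw [e2, ← Nat.cast_smul_eq_nsmul K, smul_smul] at e1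
    change a p • G₀ σ v = G₀ σ (G₀ σ v) + _ at e1
    simp only [LinearMap.add_apply, LinearMap.sub_apply, LinearMap.smul_apply,
      LinearMap.zero_apply, Module.End.mul_apply, Module.End.one_apply, Submodule.coe_add,
      Submodule.coe_sub, Submodule.coe_smul, Submodule.coe_zero, hρ]
    rw [show (ε σ : K) = _ from detChar_frobenius hd χ hp hpM hA hσ, e1]
    unfold CoverFns.unitP
    abel
  choose Lφ hLfin hLfix using fun φ => C.exists_level_galMult R φ
  have : Fintype (goodHom M₀ (ZMod ℓ)) := Fintype.ofFinite _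
  obtain ⟨L₀, hL₀, hL₀fix⟩ := exists_level_galCharHom (M := M₀)
  let L := L₀ ⊔ ⨆ φ ∈ (Finset.univ : Finset (goodHom M₀ (ZMod ℓ))), Lφ φ
  have hLfd : FiniteDimensional ℚ L := by
    have := IntermediateField.finiteDimensional_iSup_of_finset
      (t := Lφ) (s := (Finset.univ : Finset (goodHom M₀ (ZMod ℓ))))
    exact IntermediateField.finiteDimensional_sup _ _
  have hLρ : ∀ σ : Γℚ, (∀ x ∈ L, σ x = x) → ρ σ = 1 ∧ ε σ = 1 := by
    intro σ hσ
    constructor
    · have h1 : galLin C R σ = 1 := LinearMap.ext fun φ => hLfix φ σ fun x hx =>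
        hσ x (le_sup_right (a := L₀) (le_iSup₂ (f := fun ψ (_ : ψ ∈ Finset.univ) => Lφ ψ) φ
          (Finset.mem_univ φ) hx))
      refine LinearMap.ext fun v => Subtype.ext ?_
      rw [hρ]
      show extEnd b (galLin C R σ) (v : Fin d → K) = _
      rw [h1, map_one]
      rfl
    · show detChar hd χ σ = 1
      rw [detChar, MonoidHom.comp_apply, hL₀fix σ fun x hx =>
        hσ x (le_sup_left (a := L₀) hx), map_one]
  have hcongr : ∀ {g σ : Γℚ}, (∀ x ∈ L, σ x = g x) → ρ g = ρ σ ∧ ε g = ε σ := fun {g σ} h => by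
    obtain ⟨h1, h2⟩ := hLρ _ (EigenRep.inv_mul_fixes h)
    constructor
    · calc ρ g = ρ σ * ρ (σ⁻¹ * g) := by rw [← map_mul, mul_inv_cancel_left]
        _ = ρ σ := by rw [h1, mul_one]
    · calc ε g = ε σ * ε (σ⁻¹ * g) := by rw [← map_mul, mul_inv_cancel_left]
        _ = ε σ := by rw [h2, mul_one]
  have hrel : ∀ g, ∃ t : K, ρ g * ρ g - t • ρ g + (ε g : K) • 1 = 0 := by
    intro g
    obtain ⟨p, hp, hpS, A, hA, σ, hσ, hg⟩ :=
      EigenRep.frobeniusDense L hLfd g M₀.primeFactors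
    have hpM : p.Coprime M₀ := hp.coprime_iff_not_dvd.mpr fun h =>
      hpS (Nat.mem_primeFactors.mpr ⟨hp, h, NeZero.ne M₀⟩)
    obtain ⟨h1, h2⟩ := hcongr hg
    exact ⟨a p, by rw [h1, h2]; exact hfrob hp hpM hA hσ⟩
  choose t ht using hrel
  obtain ⟨r, hr, hr1⟩ := EigenRep.exists_rankTwo ρ ε t ht
  obtain ⟨τ, hss, hτ, hτ1⟩ := exists_semisimple r ε t hr
  refine ⟨τ, ⟨L, hLfd, fun σ hσ => ?_⟩, hss, fun p hp hpM P hP => ⟨fun σ hσ => ?_, fun σ hσ => ?_⟩⟩
  · obtain ⟨h1, h2⟩ := hLρ σ hσ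
    exact hτ1 σ (hr1 σ h1 h2) h2
  · have hpd : ¬ p ∣ M₀ := hp.coprime_iff_not_dvd.mp hpM
    have h1 : ρ σ = 1 := by
      have h0 : galLin C R σ = 1 :=
        LinearMap.ext fun φ => galMult_inertia (hG p hp hpd P hP) R hσ φ
      refine LinearMap.ext fun v => Subtype.ext ?_
      rw [hρ]
      show extEnd b (galLin C R σ) (v : Fin d → K) = _
      rw [h0, map_one]
      rfl
    have h2 : ε σ = 1 := by
      show detChar hd χ σ = 1
      rw [detChar, MonoidHom.comp_apply, galCharHom_inertia hp hpM hP hσ, map_one]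
    exact hτ1 σ (hr1 σ h1 h2) h2
  · refine ⟨(hτ σ).1.trans ?_, (hτ σ).2.trans (detChar_frobenius hd χ hp hpM hP hσ)⟩
    have hw : G₀ σ v₀ ≠ 0 := fun h0 => hv₀ <| by
      have := congrArg (G₀ σ⁻¹) h0
      rwa [← Module.End.mul_apply, ← map_mul, inv_mul_cancel, map_one, Module.End.one_apply,
        map_zero] at this
    have e1 := congr(($(hfrob hp hpM hP hσ) ⟨v₀, hv₀V⟩ : V).1)
    have e2 := congr(($(ht σ) ⟨v₀, hv₀V⟩ : V).1)
    simp only [LinearMap.add_apply, LinearMap.sub_apply, LinearMap.smul_apply,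
      LinearMap.zero_apply, Module.End.mul_apply, Module.End.one_apply, Submodule.coe_add,
      Submodule.coe_sub, Submodule.coe_smul, Submodule.coe_zero, hρ] at e1 e2
    refine smul_left_injective K hw (?_ : t σ • _ = a p • _)
    linear_combination (norm := module) e1 - e2

/-- `EigenClassHasRep` from the roots and the good reduction of the covers. -/
theorem eigenClassHasRep_of_inputs
    (hI : ∀ (M₀ ℓ : ℕ) [NeZero M₀] [NeZero ℓ], LevelOK M₀ → ℓ.Prime → ℓ ∣ M₀ →
      ∃ C : CoverFns M₀, Roots C ℓ ∧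
        ∀ p : ℕ, p.Prime → ¬ p ∣ M₀ → ∀ A : ValuationSubring Qbar, A.LiesOverPrime p →
          GoodRed C A ℓ) :
    EigenClassHasRep := fun K _ _ M₀ ℓ _ hM hℓ _ hd hφ χ a hχ h => by
  have : Fact ℓ.Prime := ⟨hℓ⟩
  obtain ⟨C, R, hG⟩ := hI M₀ ℓ hM hℓ hd
  exact hasRep_of_inputs C R hG hd hφ χ a hχ h

end Fermat.Agent.Row48.Cover

end
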