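import Fermat.Agent.Row48.Cover.GoodRedProof
import Fermat.Agent.Row48.Cover.Rep
import Fermat.Agent.Row48.Cover.Functions

/-!
# The representations of eigenclasses from the analytic inputs of the cover
-/

set_option autoImplicit false

noncomputable section

namespace Fermat.Agent.Row48.Cover

local notation "Qbar" => AlgebraicClosure ℚ

/-- `EigenClassHasRep` from the roots and the étaleness of the cover in characteristic zero. -/
theorem eigenClassHasRep_of_roots
    (hR : ∀ (M₀ : ℕ) [NeZero M₀] (C : CoverFns M₀), C.F = coverFn → LevelOK M₀ →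
      ∀ (n : ℕ) [NeZero n], Roots C n)
    (hE : ∀ (M₀ : ℕ) [NeZero M₀] (C : CoverFns M₀), C.F = coverFn → LevelOK M₀ → C.Etale) :
    EigenClassHasRep :=
  eigenClassHasRep_of_inputs fun M₀ ℓ _ _ hL hℓ hd => by
    obtain ⟨C, hC⟩ := exists_coverFns M₀ hL
    exact ⟨C, hR M₀ C hC hL ℓ, fun p hp hpM A hA =>
      goodRed hp hA hpM C hC hL (hE M₀ C hC hL) fun h => hpM (h.trans hd)⟩

end Fermat.Agent.Row48.Cover

end
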