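import Fermat.Agent.Row48.Cover.DeckRed
import Fermat.Agent.Reduction.FieldFacts
import Fermat.Agent.Reduction.RedRing

/-!
# The good model of the cover at a prime not dividing `M₀`

The cover has degree `ψ(M₀²) φ(M₀)/2` over `j`, in characteristic zero and after reduction, so
its series are a good model.
-/

set_option autoImplicit false

noncomputable section

open CongruenceSubgroup UpperHalfPlane ModularCurve IntermediateField Fermat.Agent.Reduction
open scoped MatrixGroups

namespace Fermat.Agent.Row48.Cover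

open IsLocalRing (ResidueField residue)

local notation "Qbar" => AlgebraicClosure ℚ

/-- The degree over a simple subfield, computed inside the Laurent series. -/
theorem finrank_adjoin_eq_relfinrank {k E : Type*} [Field k] [Field E] [Algebra k E]
    (F : IntermediateField k E) (x : F) :
    Module.finrank k⟮x⟯ F = relfinrank (adjoin k {(x : E)}) F := by
  rw [← relfinrank_top_right, ← relfinrank_map_map (k⟮x⟯) ⊤ F.val, adjoin_map,
    Set.image_singleton, ← AlgHom.fieldRange_eq_map, fieldRange_val]
  rfl

theorem jField_le_full (k : Type*) [Field k] (N : ℕ) :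
    Igusa.jField k ≤ modularFunctionFieldFullC k N := by
  rw [IntermediateField.adjoin_le_iff, Set.singleton_subset_iff]
  exact jqModC_mem_full k N

theorem bdd_mul {L : Type*} [Field L] {A : ValuationSubring L} {x y : LaurentSeries L}
    (hx : Bdd A x) (hy : Bdd A y) : Bdd A (x * y) := by
  obtain ⟨c, hc, z, hz⟩ := hx
  obtain ⟨e, he, w, hw⟩ := hy
  refine ⟨c * e, mul_ne_zero hc he, z * w, ?_⟩
  rw [map_mul, hz, hw, MulMemClass.coe_mul, mul_mul_mul_comm, HahnSeries.single_mul_single,
    add_zero]

variable {M : ℕ} [NeZero M] {A : ValuationSubring Qbar} {p : ℕ} (hp : p.Prime)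
  (hA : A.LiesOverPrime p) (hpM : ¬ p ∣ M) (C : CoverFns M) (hC : C.F = coverFn) (hL : LevelOK M)

include hp hA hpM in
omit [NeZero M] in
theorem lev_cast_ne_zero : ((lev M : ℕ) : ResidueField A) ≠ 0 := by
  have := Fact.mk hp
  have := charP_residueField (A := A) hA
  intro h
  have h1 := (CharP.cast_eq_zero_iff (ResidueField A) p _).mp h
  rcases (Nat.Prime.dvd_mul hp).mp h1 with h2 | h2 <;> exact hpM h2

namespace CoverFns

include hp hA hpM in
theorem bdd_algH {x : LaurentSeries Qbar} (hx : x ∈ C.algH) : Bdd A x := by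
  induction hx using Algebra.adjoin_induction with
  | mem y hy =>
    refine Bdd.of_range ?_
    rcases hy with ⟨m, hm, -, rfl⟩ | ⟨⟨u, v⟩, rfl⟩
    · exact ⟨qExpand A m (jqModC A), coeffMap_qExpand_jq A.subtype m⟩
    · obtain ⟨y, hy⟩ := C.integral A p hp hpM hA u v
      exact ⟨y, hy⟩
  | algebraMap c =>
    rw [algebraMap_laurentSeries_eq_single, ← mul_one (HahnSeries.single 0 c)]
    exact (Bdd.of_range ⟨1, map_one _⟩).single_mul c
  | add y z _ _ hy hz => exact hy.add hz
  | mul y z _ _ hy hz => exact bdd_mul hy hz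

/-- The integral series generating the cover. -/
def seriesModel : SeriesModel A C.field (C.fieldK A) where
  gens := {x | ∃ (d : ℕ) (_ : NeZero d), d ∣ lev M ∧ x = qExpand A d (jqModC A)} ∪
    {y | ∃ u v, ιS A y = C.ser u v}
  j := jqModC A
  j_mem := Or.inl ⟨1, inferInstance, one_dvd _, (qExpand_one_apply _).symm⟩
  coeff_j := coeff_jqModC_neg_one A
  coeff_j_of_lt := fun _ hn => coeff_jqModC_of_lt A hn
  bar_eq := by
    rw [CoverFns.field, CoverFns.gens, Set.image_union]
    congr 2
    · ext x
      constructor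
      · rintro ⟨d, hne, hd, rfl⟩
        exact ⟨_, ⟨d, hne, hd, rfl⟩, coeffMap_qExpand_jq A.subtype d⟩
      · rintro ⟨_, ⟨d, hne, hd, rfl⟩, rfl⟩
        exact ⟨d, hne, hd, coeffMap_qExpand_jq A.subtype d⟩
    · ext x
      constructor
      · rintro ⟨⟨u, v⟩, rfl⟩
        obtain ⟨y, hy⟩ := C.integral A p hp hpM hA u v
        exact ⟨y, ⟨u, v, hy⟩, hy⟩
      · rintro ⟨y, ⟨u, v, hy⟩, rfl⟩
        exact ⟨(u, v), hy.symm⟩
  red_eq := by
    rw [CoverFns.fieldK, Set.image_union]
    congr 2
    ext x
    constructor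
    · rintro ⟨d, hne, hd, rfl⟩
      exact ⟨_, ⟨d, hne, hd, rfl⟩, coeffMap_qExpand_jq (residue A) d⟩
    · rintro ⟨_, ⟨d, hne, hd, rfl⟩, rfl⟩
      exact ⟨d, hne, hd, coeffMap_qExpand_jq (residue A) d⟩

theorem relfinrank_field :
    relfinrank (Igusa.jField Qbar) C.field =
      dedekindPsi (lev M) * Module.finrank (modularFunctionFieldBar (lev M)) C.fieldOver := by
  have hb : modularFunctionFieldBar (lev M) = modularFunctionFieldFullC Qbar (lev M) :=
    modularFunctionFieldBar_eq _
  have hψ : relfinrank (Igusa.jField Qbar) (modularFunctionFieldBar (lev M)) =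
      dedekindPsi (lev M) := by
    rw [hb]
    exact Igusa.relfinrank_fullC Qbar (lev M) (Nat.cast_ne_zero.mpr (NeZero.ne _))
  rw [← relfinrank_mul_relfinrank (hb ▸ jField_le_full Qbar (lev M)) C.bar_le_field,
    relfinrank_eq_finrank_of_le C.bar_le_field, hψ]
  rfl

include hp hA hpM hC hL in
theorem relfinrank_fieldK_le :
    dedekindPsi (lev M) * deckCard M ≤
      relfinrank (Igusa.jField (ResidueField A)) (C.fieldK A) := by
  rw [← relfinrank_mul_relfinrank (jField_le_full _ (lev M)) (F0k_le (A := A) C),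
    relfinrank_eq_finrank_of_le (F0k_le (A := A) C),
    Igusa.relfinrank_fullC _ (lev M) (lev_cast_ne_zero hp hA hpM)]
  exact Nat.mul_le_mul_left _ (deckCard_le_finrank hp hA hpM C hC hL)

theorem finrank_jF :
    Module.finrank Qbar⟮(C.seriesModel hp hA hpM).jF⟯ C.field =
      relfinrank (Igusa.jField Qbar) C.field := by
  rw [finrank_adjoin_eq_relfinrank, SeriesModel.coe_jF]
  exact congrArg (fun s => relfinrank (adjoin Qbar {s}) C.field) (coeffMap_jqModC A.subtype)

theorem finrank_jK :
    Module.finrank (ResidueField A)⟮(C.seriesModel hp hA hpM).jK⟯ (C.fieldK A) =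
      relfinrank (Igusa.jField (ResidueField A)) (C.fieldK A) := by
  rw [finrank_adjoin_eq_relfinrank, SeriesModel.coe_jK]
  exact congrArg (fun s => relfinrank (adjoin (ResidueField A) {s}) (C.fieldK A))
    (coeffMap_jqModC (residue A))

/-- **The good model of the cover.** -/
def coverModel : GoodModel A C.field (C.fieldK A) where
  toSeriesModel := C.seriesModel hp hA hpM
  nil :=
    letI : Algebra ℚ Qbar := AlgebraicClosure.instAlgebra ℚ
    haveI : Algebra.IsAlgebraic ℚ Qbar := AlgebraicClosure.isAlgebraic ℚ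
    haveI := Fact.mk hp
    nilModulo_of_liesOverPrime hA
  fin_bar := by
    have := C.finite_fieldOver
    refine Module.finite_of_finrank_pos ?_
    rw [finrank_jF, relfinrank_field]
    exact Nat.mul_pos (dedekindPsi_pos _) Module.finrank_pos
  fin_red := by
    refine Module.finite_of_finrank_pos ?_
    rw [finrank_jK]
    exact lt_of_lt_of_le (Nat.mul_pos (dedekindPsi_pos _) (deckCard_pos M))
      (C.relfinrank_fieldK_le hp hA hpM hC hL)
  degree_le := by
    rw [finrank_jF, finrank_jK, relfinrank_field]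
    exact (Nat.mul_le_mul_left _ C.finrank_fieldOver_le).trans
      (C.relfinrank_fieldK_le hp hA hpM hC hL)

include hp hA hpM hC hL in
/-- A nonzero element of `algH C` has a multiple that is an integral series with nonzero
reduction. -/
theorem exists_scale_algH {x : LaurentSeries Qbar} (hx : x ∈ C.algH) (hx0 : x ≠ 0) :
    ∃ c : Qbar, c ≠ 0 ∧ ∃ y : LaurentSeries A,
      ιS A y = HahnSeries.single 0 c * x ∧ redS A y ≠ 0 := by
  set xF : C.field := ⟨x, C.algH_le hx⟩
  obtain ⟨c, hc, hi, hr⟩ := (C.coverModel hp hA hpM hC hL).exists_scale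
    (x := xF) fun h => hx0 (congrArg Subtype.val h)
  have hv : ((c • xF : C.field) : LaurentSeries Qbar) = HahnSeries.single 0 c * x :=
    coe_smul_intermediateField ..
  obtain ⟨y, hy, hy'⟩ := (C.coverModel hp hA hpM hC hL).exists_series hi
    (hv ▸ (C.bdd_algH hp hA hpM hx).single_mul c)
  exact ⟨c, hc, y, hy.symm.trans hv, fun h => hr (Subtype.ext (hy'.trans h))⟩

end CoverFns

end Fermat.Agent.Row48.Cover

end
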