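import Fermat.Agent.Row48.Cover.Mult

/-!
# The algebra generated by the generators of the cover, as functions; the diamond operators

Every element of `C.field` is a quotient of two elements of `algH C`, and every element of `algH C`
is the series of a function in `modH M₀`. The diamond operator of `d` is composition with an
element of `Γ₀(M₀²)` with lower right entry `d`.
-/

set_option autoImplicit false

noncomputable section

open CongruenceSubgroup UpperHalfPlane ModularCurve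
open scoped MatrixGroups Manifold

namespace Fermat.Agent.Row48.Cover

open X0Analytic (perMero qSer qp)
open J0Torsion (jEmb)

local notation "Qbar" => AlgebraicClosure ℚ

variable {M₀ : ℕ} [NeZero M₀]

omit [NeZero M₀] in
theorem isPer_comp_gammaH {f : ℍ → ℂ} (hf : ∀ γ ∈ gammaH M₀, ∀ τ : ℍ, f (γ • τ) = f τ)
    (g : SL(2, ℤ)) : X0Analytic.IsPer (lev M₀) (fun τ : ℍ => f (g • τ)) := by
  intro τ
  have h0 := EichlerShimura.T_pow_conj_mem (N := lev M₀) g
  have hd : (((g * ModularGroup.T ^ (lev M₀ : ℤ) * g⁻¹ : SL(2, ℤ)) 1 1 : ℤ) : ZMod M₀) = 1 := by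
    have hdet := congrArg (Int.cast : ℤ → ZMod M₀) g.det_coe
    rw [Matrix.det_fin_two] at hdet
    push_cast at hdet
    simp [ModularGroup.coe_T_zpow, Matrix.SpecialLinearGroup.coe_inv, Matrix.adjugate_fin_two,
      Matrix.mul_apply, Fin.sum_univ_two, lev]
    linear_combination hdet
  have := hf _ ⟨h0, Or.inl hd⟩ (g • τ)
  rw [mul_smul, mul_smul, inv_smul_smul, UpperHalfPlane.modular_T_zpow_smul] at this
  simpa using this

/-- An element of `Γ₀(M₀²)` with lower right entry `d` modulo `M₀`. -/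
theorem exists_gamma (d : (ZMod M₀)ˣ) :
    ∃ γ : SL(2, ℤ), γ ∈ Gamma0 (lev M₀) ∧ ((γ 1 1 : ℤ) : ZMod M₀) = (d : ZMod M₀) := by
  obtain ⟨u, hu⟩ := ZMod.unitsMap_surjective (dvd_mul_right M₀ M₀) d
  have hcop : IsCoprime (((u : ZMod (lev M₀)).val : ℕ) : ℤ) ((lev M₀ : ℕ) : ℤ) :=
    Nat.Coprime.isCoprime (ZMod.val_coe_unit_coprime u)
  obtain ⟨x, y, hxy⟩ := hcop
  refine ⟨⟨!![x, -y; ((lev M₀ : ℕ) : ℤ), (((u : ZMod (lev M₀)).val : ℕ) : ℤ)], by
    rw [Matrix.det_fin_two_of]; linear_combination hxy⟩, ?_, ?_⟩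
  · rw [Gamma0_mem]
    show ((((lev M₀ : ℕ) : ℤ)) : ZMod (lev M₀)) = 0
    rw [Int.cast_natCast, ZMod.natCast_self]
  · have h := congrArg Units.val hu
    rw [ZMod.unitsMap_def, Units.coe_map, MonoidHom.coe_coe, ZMod.castHom_apply,
      ZMod.cast_eq_val] at h
    simpa using h

/-- The chosen element with lower right entry `d`. -/
def gammaD (d : (ZMod M₀)ˣ) : SL(2, ℤ) := (exists_gamma d).choose

theorem gammaD_mem (d : (ZMod M₀)ˣ) : gammaD d ∈ Gamma0 (lev M₀) :=
  (exists_gamma d).choose_spec.1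

theorem gammaD_diag (d : (ZMod M₀)ˣ) : ((gammaD d 1 1 : ℤ) : ZMod M₀) = (d : ZMod M₀) :=
  (exists_gamma d).choose_spec.2

omit [NeZero M₀] in
theorem lowerLeft_eq_zero {γ : SL(2, ℤ)} (h : γ ∈ Gamma0 (lev M₀)) :
    ((γ 1 0 : ℤ) : ZMod M₀) = 0 := by
  rw [ZMod.intCast_zmod_eq_zero_iff_dvd]
  refine dvd_trans ?_ ((ZMod.intCast_zmod_eq_zero_iff_dvd _ _).mp (Gamma0_mem.mp h))
  exact Int.natCast_dvd_natCast.mpr (dvd_mul_right M₀ M₀)

omit [NeZero M₀] in
theorem diag_mul {γ δ : SL(2, ℤ)} (h : γ ∈ Gamma0 (lev M₀)) :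
    (((γ * δ) 1 1 : ℤ) : ZMod M₀) = ((γ 1 1 : ℤ) : ZMod M₀) * ((δ 1 1 : ℤ) : ZMod M₀) := by
  simp [Matrix.mul_apply, Fin.sum_univ_two, lowerLeft_eq_zero h]

omit [NeZero M₀] in
theorem diag_inv {γ : SL(2, ℤ)} (h : γ ∈ Gamma0 (lev M₀)) :
    (((γ⁻¹ : SL(2, ℤ)) 1 1 : ℤ) : ZMod M₀) * ((γ 1 1 : ℤ) : ZMod M₀) = 1 := by
  rw [← diag_mul (inv_mem h), inv_mul_cancel]
  simp

omit [NeZero M₀] in
theorem conj_mem_gammaH {g γ : SL(2, ℤ)} (hg : g ∈ Gamma0 (lev M₀)) (hγ : γ ∈ gammaH M₀) :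
    g * γ * g⁻¹ ∈ gammaH M₀ := by
  refine ⟨mul_mem (mul_mem hg hγ.1) (inv_mem hg), ?_⟩
  rw [diag_mul (mul_mem hg hγ.1), diag_mul hg, mul_assoc, mul_left_comm,
    mul_comm ((g 1 1 : ℤ) : ZMod M₀), diag_inv hg, mul_one]
  exact hγ.2

/-- Composition with an element of `Γ₀(M₀²)`. -/
def compH {g : SL(2, ℤ)} (hg : g ∈ Gamma0 (lev M₀)) : ↥(modH M₀) →ₐ[ℂ] ↥(modH M₀) where
  toFun a := ⟨fun τ => (a : ℍ → ℂ) (g • τ),
    a.2.1.comp (mdifferentiable_smul (X0Analytic.det_pos_SL g)), fun γ hγ τ => by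
      have h : g * γ = g * γ * g⁻¹ * g := by group
      show (a : ℍ → ℂ) (g • γ • τ) = _
      rw [← mul_smul, h, mul_smul]
      exact a.2.2.1 _ (conj_mem_gammaH hg hγ) _,
    fun α => by simpa only [mul_smul] using a.2.2.2 (g * α)⟩
  map_one' := rfl
  map_mul' _ _ := rfl
  map_zero' := rfl
  map_add' _ _ := rfl
  commutes' _ := rfl

theorem compH_apply {g : SL(2, ℤ)} (hg : g ∈ Gamma0 (lev M₀)) (a : ↥(modH M₀)) (τ : ℍ) :
    (compH hg a : ℍ → ℂ) τ = (a : ℍ → ℂ) (g • τ) := rfl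

/-- The diamond operator on functions. -/
def deckFn (d : (ZMod M₀)ˣ) : ↥(modH M₀) →ₐ[ℂ] ↥(modH M₀) := compH (gammaD_mem d)

theorem deckFn_eq {g : SL(2, ℤ)} (hg : g ∈ Gamma0 (lev M₀)) {d : (ZMod M₀)ˣ}
    (hd : ((g 1 1 : ℤ) : ZMod M₀) = (d : ZMod M₀)) (a : ↥(modH M₀)) : compH hg a = deckFn d a := by
  refine Subtype.ext (funext fun τ => ?_)
  have hmem : g * (gammaD d)⁻¹ ∈ gammaH M₀ := by
    refine ⟨mul_mem hg (inv_mem (gammaD_mem d)), Or.inl ?_⟩
    rw [diag_mul hg, hd, ← gammaD_diag d, mul_comm, diag_inv (gammaD_mem d)]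
  have h := a.2.2.1 _ hmem (gammaD d • τ)
  rw [mul_smul, inv_smul_smul] at h
  exact h

theorem modFun_le_modH : X0Analytic.modFun (lev M₀) ≤ modH M₀ := fun _ hf =>
  ⟨hf.1, fun γ hγ => hf.2.1 γ hγ.1, hf.2.2⟩

namespace CoverFns

variable (C : CoverFns M₀)

/-- A generator as a function on the cover. -/
def fnGen (u v : (ZMod M₀)ˣ) : ↥(modH M₀) :=
  ⟨C.F u v, (C.mem u v).1, fun γ hγ τ => by
    rcases hγ.2 with h | h
    · simpa using C.smul u v 1 γ hγ.1 (by simpa using h) τ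
    · have h1 := C.smul u v (-1) γ hγ.1 (by simpa using h) τ
      rw [neg_one_mul, neg_one_mul, C.neg] at h1
      exact h1,
    fun g => C.cusp u v g⟩

theorem serH_fnGen (u v : (ZMod M₀)ˣ) : serH M₀ (C.fnGen u v) = coeffMap jEmb (C.ser u v) :=
  C.qSer_eq u v

theorem deckFn_fnGen (d u v : (ZMod M₀)ˣ) :
    deckFn d (C.fnGen u v) = C.fnGen (d * u) (d * v) :=
  Subtype.ext (funext fun τ => C.smul u v d _ (gammaD_mem d) (gammaD_diag d) τ)

/-- The algebra generated by the generators. -/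
def algH : Subalgebra Qbar (LaurentSeries Qbar) := Algebra.adjoin Qbar C.gens

theorem gens_subset_field : C.gens ⊆ (C.field : Set (LaurentSeries Qbar)) :=
  IntermediateField.subset_adjoin _ _

theorem algH_le : C.algH ≤ C.field.toSubalgebra := Algebra.adjoin_le C.gens_subset_field

/-- Every function of the cover is a quotient of two elements of the algebra of the generators. -/
theorem exists_algH_div (f : C.field) :
    ∃ x y : LaurentSeries Qbar, x ∈ C.algH ∧ y ∈ C.algH ∧ y ≠ 0 ∧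
      (f : LaurentSeries Qbar) * y = x := by
  obtain ⟨a, ha, b, hb, hab⟩ := IntermediateField.mem_adjoin_iff_div.mp
    (show (f : LaurentSeries Qbar) ∈ IntermediateField.adjoin Qbar C.gens from f.2)
  rcases eq_or_ne b 0 with rfl | hb0
  · exact ⟨0, 1, zero_mem _, one_mem _, one_ne_zero, by simp [hab]⟩
  · exact ⟨a, b, ha, hb, hb0, by rw [hab, div_mul_cancel₀ _ hb0]⟩

theorem divisorExpansions_invariant {x : LaurentSeries Qbar}
    (hx : x ∈ divisorExpansionsC Qbar (lev M₀)) :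
    ∃ a : ↥(modH M₀), serH M₀ a = coeffMap jEmb x ∧ ∀ d, deckFn d a = a := by
  obtain ⟨m, hm, hdvd, rfl⟩ := hx
  obtain ⟨a, ha⟩ := X0Analytic.exists_modFun (N := lev M₀) jEmb
    (x := X0Analytic.jL Qbar m) (Algebra.subset_adjoin ⟨m, hm, hdvd, rfl⟩)
  refine ⟨⟨(a : ℍ → ℂ), modFun_le_modH a.2⟩, ?_, fun d => Subtype.ext (funext fun τ => ?_)⟩
  · refine ha.trans (congrArg _ ?_)
    rw [X0Analytic.jL, coeffEmb, coeffMap_qExpand, ← jqModC_rat, coeffMap_jqModC]
  · exact a.2.2.1 _ (gammaD_mem d) τ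

theorem exists_fn {x : LaurentSeries Qbar} (hx : x ∈ C.algH) :
    ∃ a : ↥(modH M₀), serH M₀ a = coeffMap jEmb x := by
  induction hx using Algebra.adjoin_induction with
  | mem y hy =>
    rcases hy with hy | ⟨⟨u, v⟩, rfl⟩
    · obtain ⟨a, ha, -⟩ := divisorExpansions_invariant hy
      exact ⟨a, ha⟩
    · exact ⟨C.fnGen u v, C.serH_fnGen u v⟩
  | algebraMap c =>
    refine ⟨algebraMap ℂ _ (jEmb c), ?_⟩
    rw [algebraMap_laurentSeries_eq_single, coeffMap_single]
    exact X0Analytic.qSer_algebraMap (h := 1) (jEmb c)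
  | add y z _ _ hy hz =>
    obtain ⟨a, ha⟩ := hy
    obtain ⟨b, hb⟩ := hz
    exact ⟨a + b, by rw [map_add, ha, hb, map_add]⟩
  | mul y z _ _ hy hz =>
    obtain ⟨a, ha⟩ := hy
    obtain ⟨b, hb⟩ := hz
    exact ⟨a * b, by rw [map_mul, ha, hb, map_mul]⟩

/-- The function of an element of `algH C`. -/
def fn : ↥C.algH →+* ↥(modH M₀) where
  toFun x := (C.exists_fn x.2).choose
  map_one' := serH_injective (by
    rw [(C.exists_fn (one_mem C.algH)).choose_spec, map_one, map_one])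
  map_mul' x y := serH_injective (by
    rw [(C.exists_fn (x * y).2).choose_spec, map_mul, (C.exists_fn x.2).choose_spec,
      (C.exists_fn y.2).choose_spec, MulMemClass.coe_mul, map_mul])
  map_zero' := serH_injective (by
    rw [(C.exists_fn (zero_mem C.algH)).choose_spec, map_zero, map_zero])
  map_add' x y := serH_injective (by
    rw [(C.exists_fn (x + y).2).choose_spec, map_add, (C.exists_fn x.2).choose_spec,
      (C.exists_fn y.2).choose_spec, AddMemClass.coe_add, map_add])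

/-- The series of the function of an element of the algebra is that element. -/
theorem serH_fn (x : ↥C.algH) : serH M₀ (C.fn x) = coeffMap jEmb (x : LaurentSeries Qbar) :=
  (C.exists_fn x.2).choose_spec

theorem fn_injective : Function.Injective C.fn := fun x y h => by
  have h' := congrArg (serH M₀) h
  rw [serH_fn, serH_fn] at h'
  exact Subtype.ext (X0Analytic.coeffMap_injective jEmb.injective h')

theorem exists_deck (d : (ZMod M₀)ˣ) (x : ↥C.algH) :
    ∃ y : ↥C.algH, C.fn y = deckFn d (C.fn x) := by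
  suffices ∃ y ∈ C.algH, serH M₀ (deckFn d (C.fn x)) = coeffMap jEmb y by
    obtain ⟨y, hy, h⟩ := this
    exact ⟨⟨y, hy⟩, serH_injective (by rw [serH_fn, h])⟩
  obtain ⟨x, hx⟩ := x
  induction hx using Algebra.adjoin_induction with
  | mem y hy =>
    rcases hy with hy | ⟨⟨u, v⟩, rfl⟩
    · obtain ⟨a, ha, hinv⟩ := divisorExpansions_invariant hy
      rw [serH_injective ((C.serH_fn _).trans ha.symm), hinv]
      exact ⟨y, Algebra.subset_adjoin (Or.inl hy), ha⟩
    · rw [serH_injective ((C.serH_fn _).trans (C.serH_fnGen u v).symm), deckFn_fnGen]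
      exact ⟨_, Algebra.subset_adjoin (Or.inr ⟨(d * u, d * v), rfl⟩), C.serH_fnGen _ _⟩
  | algebraMap c =>
    refine ⟨algebraMap Qbar _ c, Subalgebra.algebraMap_mem _ c, ?_⟩
    have h : C.fn ⟨algebraMap Qbar (LaurentSeries Qbar) c, Subalgebra.algebraMap_mem _ c⟩ =
        algebraMap ℂ _ (jEmb c) := serH_injective (by
      refine (C.serH_fn _).trans ?_
      show coeffMap jEmb (algebraMap Qbar (LaurentSeries Qbar) c) = _
      rw [algebraMap_laurentSeries_eq_single, coeffMap_single]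
      exact (X0Analytic.qSer_algebraMap (h := 1) (jEmb c)).symm)
    rw [h, AlgHom.commutes, ← h, serH_fn]
  | add y z hy hz ihy ihz =>
    obtain ⟨a, ha, ha'⟩ := ihy
    obtain ⟨b, hb, hb'⟩ := ihz
    refine ⟨a + b, add_mem ha hb, ?_⟩
    rw [show (⟨y + z, _⟩ : ↥C.algH) = ⟨y, hy⟩ + ⟨z, hz⟩ from rfl, map_add, map_add, map_add, ha',
      hb', map_add]
  | mul y z hy hz ihy ihz =>
    obtain ⟨a, ha, ha'⟩ := ihy
    obtain ⟨b, hb, hb'⟩ := ihz
    refine ⟨a * b, mul_mem ha hb, ?_⟩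
    rw [show (⟨y * z, _⟩ : ↥C.algH) = ⟨y, hy⟩ * ⟨z, hz⟩ from rfl, map_mul, map_mul, map_mul, ha',
      hb', map_mul]

/-- The diamond operator on `algH C`. -/
def deckAlg (d : (ZMod M₀)ˣ) : ↥C.algH →+* ↥C.algH where
  toFun x := (C.exists_deck d x).choose
  map_one' := C.fn_injective (by rw [(C.exists_deck d 1).choose_spec, map_one, map_one])
  map_mul' x y := C.fn_injective (by
    rw [(C.exists_deck d (x * y)).choose_spec, map_mul, map_mul, map_mul,
      (C.exists_deck d x).choose_spec, (C.exists_deck d y).choose_spec])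
  map_zero' := C.fn_injective (by rw [(C.exists_deck d 0).choose_spec, map_zero, map_zero])
  map_add' x y := C.fn_injective (by
    rw [(C.exists_deck d (x + y)).choose_spec, map_add, map_add, map_add,
      (C.exists_deck d x).choose_spec, (C.exists_deck d y).choose_spec])

theorem fn_deckAlg (d : (ZMod M₀)ˣ) (x : ↥C.algH) : C.fn (C.deckAlg d x) = deckFn d (C.fn x) :=
  (C.exists_deck d x).choose_spec

end CoverFns

end Fermat.Agent.Row48.Cover

end
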