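import Fermat.Agent.Row48.Cover.CoverFamily
import Fermat.Agent.Reduction.FieldFacts
import Fermat.Agent.Row48.Cover.Series

/-!
# Monodromy of the reduced cover

At a prime not dividing `M`, the automorphisms of the field generated by the reduced family of
level `M²` over `k(j)` realise every element of `SL(2, ℤ)`: they contain the translation, are
transitive on the cusps of `X₀(M²)` by Igusa's degree theorem, and contain `Γ(M²)` trivially.
-/

set_option autoImplicit false

noncomputable section

open UpperHalfPlane ModularCurve CongruenceSubgroup IntermediateField Fermat.Agent.Reduction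
open scoped MatrixGroups Manifold Real

namespace Fermat.Agent.Row48.Cover

open X0Analytic (perMero qSer qp rot scaledJ)
open Gamma0Count (CosetSpace)
open J0Torsion (jEmb)
open IsLocalRing (ResidueField residue)

local notation "Qbar" => AlgebraicClosure ℚ

section Maps

variable (k : Type*) [Field k]

/-- `qExpand` over the constants. -/
def expandAlg (W : ℕ) [NeZero W] : LaurentSeries k →ₐ[k] LaurentSeries k :=
  { qExpand k W with
    commutes' := fun c => by
      rw [algebraMap_laurentSeries_eq_single, ← HahnSeries.C_apply]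
      exact qExpand_C (N := W) c }

/-- `Igusa.scale` over the constants. -/
def scaleAlg (c : kˣ) : LaurentSeries k →ₐ[k] LaurentSeries k :=
  { Igusa.scale c with
    commutes' := fun a => by
      show Igusa.scale c (algebraMap k (LaurentSeries k) a) = _
      rw [algebraMap_laurentSeries_eq_single, Igusa.scale_single]
      simp }

theorem scale_eq_of_mem_baseJ (W : ℕ) [NeZero W] {c : kˣ} (hc : c ^ W = 1) {x : LaurentSeries k}
    (hx : x ∈ ModFamily.baseJ W k) : Igusa.scale c x = x := by
  induction hx using IntermediateField.adjoin_induction with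
  | mem y hy =>
    rw [Set.mem_singleton_iff.mp hy, Igusa.scale_qExpand_of_pow_eq_one hc]
  | algebraMap a => exact (scaleAlg k c).commutes a
  | add y z _ _ ihy ihz => rw [map_add, ihy, ihz]
  | inv y _ ihy => rw [map_inv₀, ihy]
  | mul y z _ _ ihy ihz => rw [map_mul, ihy, ihz]

/-- `Igusa.scale` over `k(J)`. -/
def scaleBase (W : ℕ) [NeZero W] (c : kˣ) (hc : c ^ W = 1) :
    LaurentSeries k →ₐ[ModFamily.baseJ W k] LaurentSeries k :=
  { Igusa.scale c with commutes' := fun y => scale_eq_of_mem_baseJ k W hc y.2 }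

end Maps

variable {M : ℕ} [NeZero M] {A : ValuationSubring Qbar} {p : ℕ} (hp : p.Prime)
  (hA : A.LiesOverPrime p) (hpM : ¬ p ∣ M)

local notation "k" => ResidueField A
local notation "W" => lev M
local notation "Φ" => covFamily hp hA hpM
local notation "πA" => residue A
local notation "E" => ModFamily.field (covFamily hp hA hpM) (residue A)
local notation "g" => ModFamily.gen (covFamily hp hA hpM) (residue A)
local notation "G" => ModFamily.galGroup (covFamily hp hA hpM) (residue A)

include hp hA hpM in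
omit [NeZero M] in
theorem lev_ne_zero_residue : ((W : ℕ) : k) ≠ 0 := by
  intro h
  have h1 : ((W : ℕ) : A) ∈ IsLocalRing.maximalIdeal A :=
    (IsLocalRing.residue_eq_zero_iff _).mp (by rw [map_natCast]; exact h)
  have h1 := (A.valuation_lt_one_iff _).mp h1
  have h2 := MultRed.vnat_eq_one hp hA
    (fun h => (hp.dvd_mul.mp h).elim hpM hpM : ¬ p ∣ M * M)
  push_cast at h1
  exact h1.ne (by simpa using h2)

theorem T_inv_mem_galGroup : (ModularGroup.T⁻¹ : SL(2, ℤ)) ∈ G := by
  set c := Complex.exp (2 * π * Complex.I / (W : ℕ)) with hc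
  have hW : ((W : ℕ) : ℂ) ≠ 0 := Nat.cast_ne_zero.mpr (NeZero.ne W)
  have hcW : c ^ (W : ℕ) = 1 := (Complex.isPrimitiveRoot_exp W (NeZero.ne W)).pow_eq_one
  obtain ⟨u, hu, huW⟩ := exists_unit_of_pow_eq_one hp hA hpM hcW
  set uk : kˣ := Units.map (πA : A →* k) u
  have hukW : uk ^ (W : ℕ) = 1 := by rw [← map_pow, huW, map_one]
  have hscale : ∀ i, Igusa.scale uk ((Φ).red πA i) = (Φ).red πA (ModularGroup.T⁻¹ • i) := by
    intro i
    rw [ModFamily.red, ModFamily.red, ← Igusa.coeffMap_scale πA u]
    refine congrArg _ (Igusa.coeffMap_injective embA_injective ?_)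
    rw [coeffMap_scale_eq_rot _ u (Complex.exp_ne_zero _) hu, (Φ).series, (Φ).series]
    obtain ⟨hm, hs⟩ := X0Analytic.qSer_subst (h' := W) (M := 1) ((Φ).f i)
      (fun τ => ModularGroup.T • τ) (mdifferentiable_smul (X0Analytic.det_pos_SL _)) c
      (Complex.exp_ne_zero _) (fun τ => by
        simp only [qp, Function.Periodic.qParam, pow_one, hc, ← Complex.exp_add,
          UpperHalfPlane.modular_T_smul, UpperHalfPlane.coe_vadd]
        congr 1
        push_cast
        field_simp)
    rw [qExpand_one_apply] at hs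
    rw [← hs]
    exact congrArg _ (Subtype.ext (funext fun τ => (Φ).equivariant _ i τ))
  have := (Φ).normal πA embA_injective
  refine ⟨(scaleBase k W uk hukW).restrictNormal' E, fun i => ?_⟩
  refine Subtype.ext ?_
  exact ((scaleBase k W uk hukW).restrictNormal_commutes E (g i)).trans (hscale i)

theorem T_mem_galGroup : ModularGroup.T ∈ G := by
  simpa using inv_mem (T_inv_mem_galGroup hp hA hpM)

theorem red_jay_one (d : (W).divisors) :
    haveI : NeZero (d : ℕ) := ⟨(Nat.pos_of_mem_divisors d.2).ne'⟩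
    (Φ).red πA (.jay d ((1 : SL(2, ℤ)) : CosetSpace W)) =
      qExpand k W (Igusa.jd k (d : ℕ)) := by
  obtain ⟨d, hd⟩ := d
  have : NeZero d := ⟨(Nat.pos_of_mem_divisors hd).ne'⟩
  have h : (Φ).s (.jay ⟨d, hd⟩ ((1 : SL(2, ℤ)) : CosetSpace W)) =
      qExpand A W (qExpand A d (jqModC A)) := by
    refine Igusa.coeffMap_injective embA_injective ?_
    rw [(Φ).series, coeffMap_qExpand, coeffMap_qExpand, coeffMap_jqModC]
    refine (X0Analytic.qSer_conj_one _).trans ?_
    rw [X0Analytic.ser_scaledJ (Nat.dvd_of_mem_divisors hd)]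
    exact congrArg _ (congrArg _ (coeffMap_jqModC _))
  show (Φ).red πA _ = _
  rw [ModFamily.red, h, coeffMap_qExpand, coeffMap_qExpand, coeffMap_jqModC]
  rfl

/-- The generators of the reduced field of `X₀(M²)`. -/
def baseGens : Set E := Set.range fun d => g (.jay d ((1 : SL(2, ℤ)) : CosetSpace W))

/-- The reduced field of `X₀(M²)` inside the field of the family. -/
def baseField : IntermediateField (ModFamily.baseJ W k) E :=
  IntermediateField.adjoin _ (baseGens hp hA hpM)

theorem map_baseField_eq :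
    ((baseField hp hA hpM).map
      (ModFamily.field (covFamily hp hA hpM) (residue A)).val).restrictScalars k
      = (modularFunctionFieldFullC k W).map (expandAlg k W) := by
  have hJ : ModFamily.baseJ W k ≤ (modularFunctionFieldFullC k W).map (expandAlg k W) := by
    rw [IntermediateField.adjoin_le_iff, Set.singleton_subset_iff]
    exact ⟨jqModC k, jqModC_mem_full k W, rfl⟩
  rw [baseField, IntermediateField.adjoin_map, baseGens, ← Set.range_comp]
  refine le_antisymm ?_ ?_
  · intro x hx
    rw [IntermediateField.mem_restrictScalars] at hx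
    induction hx using IntermediateField.adjoin_induction with
    | mem y hy =>
      obtain ⟨d, rfl⟩ := hy
      have : NeZero (d : ℕ) := ⟨(Nat.pos_of_mem_divisors d.2).ne'⟩
      show (Φ).red πA (.jay d _) ∈ _
      rw [red_jay_one]
      exact ⟨_, Igusa.jd_mem k (Nat.dvd_of_mem_divisors d.2), rfl⟩
    | algebraMap a => exact hJ a.2
    | add y z _ _ ihy ihz => exact add_mem ihy ihz
    | inv y _ ihy => exact inv_mem ihy
    | mul y z _ _ ihy ihz => exact mul_mem ihy ihz
  · rw [modularFunctionFieldFullC, IntermediateField.adjoin_map, IntermediateField.adjoin_le_iff]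
    rintro x ⟨y, ⟨d, _, hd, rfl⟩, rfl⟩
    rw [SetLike.mem_coe, IntermediateField.mem_restrictScalars]
    refine IntermediateField.subset_adjoin _ _ ⟨⟨d, Nat.mem_divisors.mpr ⟨hd, NeZero.ne _⟩⟩, ?_⟩
    exact red_jay_one hp hA hpM _

theorem finrank_baseField :
    Module.finrank (ModFamily.baseJ W k) (baseField hp hA hpM) = dedekindPsi W := by
  have hN := lev_ne_zero_residue hp hA hpM
  have h1 : relfinrank (ModFamily.baseJ W k)
      ((modularFunctionFieldFullC k W).map (expandAlg k W)) = dedekindPsi W := by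
    have hb : ModFamily.baseJ W k = (Igusa.jField k).map (expandAlg k W) := by
      rw [IntermediateField.adjoin_map, Set.image_singleton]
      rfl
    rw [hb, relfinrank_map_map, Igusa.relfinrank_fullC k W hN]
  have hle : ModFamily.baseJ W k ≤ (modularFunctionFieldFullC k W).map (expandAlg k W) := by
    rw [IntermediateField.adjoin_le_iff, Set.singleton_subset_iff]
    exact ⟨jqModC k, jqModC_mem_full k W, rfl⟩
  rw [relfinrank_eq_finrank_of_le hle] at h1
  rw [← h1, (IntermediateField.equivMap (baseField hp hA hpM)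
    (ModFamily.field (covFamily hp hA hpM) (residue A)).val).toLinearEquiv.finrank_eq]
  have he : (baseField hp hA hpM).map (ModFamily.field (covFamily hp hA hpM) (residue A)).val =
      extendScalars hle :=
    IntermediateField.restrictScalars_injective k (by
      rw [map_baseField_eq, IntermediateField.extendScalars_restrictScalars])
  exact (IntermediateField.equivOfEq he).toLinearEquiv.finrank_eq

theorem isSeparable_baseField :
    Algebra.IsSeparable (ModFamily.baseJ W k) (baseField hp hA hpM) := by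
  rw [baseField, IntermediateField.isSeparable_adjoin_iff_isSeparable]
  rintro x ⟨d, rfl⟩
  have : NeZero (d : ℕ) := ⟨(Nat.pos_of_mem_divisors d.2).ne'⟩
  have hN := lev_ne_zero_residue hp hA hpM
  have hd : ((d : ℕ) : k) ≠ 0 := Igusa.cast_ne_zero_of_dvd k (Nat.dvd_of_mem_divisors d.2) hN
  have hsep := isSeparable_jd k (d : ℕ) inferInstance hd
  have hJmem : ∀ x ∈ Igusa.jField k, expandAlg k W x ∈ ModFamily.baseJ W k := by
    intro x hx
    have h2 : expandAlg k W x ∈ (Igusa.jField k).map (expandAlg k W) := ⟨x, hx, rfl⟩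
    rw [IntermediateField.adjoin_map, Set.image_singleton] at h2
    exact h2
  let ψ : Igusa.jField k →+* ModFamily.baseJ W k :=
    ((expandAlg k W).toRingHom.comp (Igusa.jField k).toSubfield.subtype).codRestrict
      (ModFamily.baseJ W k) fun x => hJmem x.1 x.2
  show (minpoly (ModFamily.baseJ W k) (g _)).Separable
  rw [show minpoly (ModFamily.baseJ W k) (g (.jay d ((1 : SL(2, ℤ)) : CosetSpace W))) =
      minpoly (ModFamily.baseJ W k) ((Φ).red πA (.jay d ((1 : SL(2, ℤ)) : CosetSpace W))) from
    (minpoly.algHom_eq (ModFamily.field (covFamily hp hA hpM) (residue A)).val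
      (ModFamily.field (covFamily hp hA hpM) (residue A)).val.injective _).symm, red_jay_one]
  refine (Polynomial.Separable.map (f := ψ) hsep).of_dvd (minpoly.dvd _ _ ?_)
  rw [Polynomial.aeval_def, Polynomial.eval₂_map]
  refine (Polynomial.hom_eval₂ _ (algebraMap (Igusa.jField k) (LaurentSeries k))
    (qExpand k W) (Igusa.jd k (d : ℕ))).symm.trans ?_
  rw [← Polynomial.aeval_def, minpoly.aeval, map_zero]

theorem exists_galGroup_smul_one (x : CosetSpace W) :
    ∃ δ ∈ G, δ • ((1 : SL(2, ℤ)) : CosetSpace W) = x := by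
  classical
  have := (Φ).normal πA embA_injective
  have := (Φ).finiteDimensional πA embA_injective
  have := isSeparable_baseField hp hA hpM
  set S := baseField hp hA hpM
  have hcard : Nat.card (S →ₐ[ModFamily.baseJ W k] E) = dedekindPsi W := by
    rw [AlgHom.natCard_of_splits (ModFamily.baseJ W k) S E fun y => ?_, finrank_baseField]
    rw [show minpoly (ModFamily.baseJ W k) y = minpoly (ModFamily.baseJ W k) (y : E) from
      (minpoly.algHom_eq S.val S.val.injective y).symm]
    exact Normal.splits inferInstance _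
  have hext : ∀ φ : S →ₐ[ModFamily.baseJ W k] E,
      ∃ δ ∈ G, ∀ (d : (W).divisors) (h : g (.jay d ((1 : SL(2, ℤ)) : CosetSpace W)) ∈ S),
        φ ⟨_, h⟩ = g (.jay d (δ • ((1 : SL(2, ℤ)) : CosetSpace W))) := by
    intro φ
    let σ : E ≃ₐ[ModFamily.baseJ W k] E :=
      AlgEquiv.ofBijective (φ.liftNormal E) (AlgHom.normal_bijective _ E E _)
    obtain ⟨δ, hδ⟩ := (Φ).exists_act πA embA_injective σ
    refine ⟨δ, ⟨σ, hδ⟩, fun d h => ?_⟩
    rw [← CovIdx.smul_jay, ← hδ]
    exact (φ.liftNormal_commutes E ⟨_, h⟩).symm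
  choose δ hδG hδ using hext
  have hinj : Function.Injective fun φ => δ φ • ((1 : SL(2, ℤ)) : CosetSpace W) := by
    intro φ φ' h
    refine IntermediateField.algHom_ext_of_eq_adjoin _ (show S = adjoin _ (baseGens hp hA hpM) from
      rfl) ?_
    rintro y ⟨d, rfl⟩
    exact ((hδ φ d _).trans (congrArg (fun x => g (.jay d x)) h)).trans (hδ φ' d _).symm
  have hbij := (Nat.bijective_iff_injective_and_card _).mpr
    ⟨hinj, by rw [hcard, Gamma0Count.card_cosetSpace]⟩
  obtain ⟨φ, hφ⟩ := hbij.2 x
  exact ⟨δ φ, hδG φ, hφ⟩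

theorem conj_T_mem_galGroup (x : SL(2, ℤ)) : x * ModularGroup.T * x⁻¹ ∈ G := by
  obtain ⟨δ, hδ, hx⟩ := exists_galGroup_smul_one hp hA hpM ((x : SL(2, ℤ)) : CosetSpace W)
  rw [MulAction.Quotient.smul_coe, smul_eq_mul, mul_one, QuotientGroup.eq] at hx
  set b := δ⁻¹ * x
  have hb : b ∈ Gamma0 W := hx
  have hxb : x * ModularGroup.T * x⁻¹ = δ * (b * ModularGroup.T * b⁻¹) * δ⁻¹ := by
    simp only [b]
    group
  rw [hxb]
  refine mul_mem (mul_mem hδ ?_) (inv_mem hδ)
  set n : ℤ := b 0 0 * b 0 0
  have hγ : ModularGroup.T ^ (-n) * (b * ModularGroup.T * b⁻¹) ∈ Gamma W := by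
    have hc : ((b 1 0 : ℤ) : ZMod W) = 0 := Gamma0_mem.mp hb
    have hdet := congrArg (Int.cast : ℤ → ZMod W) b.det_coe
    rw [Matrix.det_fin_two] at hdet
    push_cast at hdet
    rw [hc, mul_zero, sub_zero] at hdet
    rw [Gamma_mem]
    simp only [Matrix.SpecialLinearGroup.coe_mul, ModularGroup.coe_T_zpow, ModularGroup.coe_T,
      Matrix.SpecialLinearGroup.coe_inv, Matrix.adjugate_fin_two, Matrix.mul_apply,
      Fin.sum_univ_two, n]
    refine ⟨?_, ?_, ?_, ?_⟩ <;> simp [hc] <;>
      first
        | linear_combination hdet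
        | linear_combination (1 - ((b 0 0 : ℤ) : ZMod W) ^ 2) * hdet
        | linear_combination (-1 - ((b 0 0 : ℤ) : ZMod W) ^ 2) * hdet
        | linear_combination (-(((b 0 0 : ℤ) : ZMod W) ^ 2)) * hdet
  have h1 : ModularGroup.T ^ (-n) * (b * ModularGroup.T * b⁻¹) ∈ G :=
    (Φ).mem_galGroup_of_fix πA fun i => CovIdx.Gamma_smul hγ i
  have h2 := mul_mem (zpow_mem (T_mem_galGroup hp hA hpM) n) h1
  rwa [← mul_assoc, ← zpow_add, add_neg_cancel, zpow_zero, one_mul] at h2

/-- **Monodromy**: every element of `SL(2, ℤ)` is induced by an automorphism over `k(j)`. -/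
theorem galGroup_eq_top : G = ⊤ := by
  rw [eq_top_iff, ← SpecialLinearGroup.SL2Z_generators, Subgroup.closure_le]
  rintro x (rfl | rfl)
  · have h := conj_T_mem_galGroup hp hA hpM ModularGroup.S
    have hT := T_inv_mem_galGroup hp hA hpM
    have h2 := mul_mem (mul_mem hT (inv_mem h)) hT
    have key : ModularGroup.T⁻¹ * (ModularGroup.S * ModularGroup.T * ModularGroup.S⁻¹)⁻¹ *
        ModularGroup.T⁻¹ = ModularGroup.S := by
      ext i j
      fin_cases i <;> fin_cases j <;>
        simp [ModularGroup.coe_T, ModularGroup.coe_S, Matrix.SpecialLinearGroup.coe_inv,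
          Matrix.adjugate_fin_two, Matrix.mul_apply, Fin.sum_univ_two]
    rwa [key] at h2
  · exact T_mem_galGroup hp hA hpM

/-- The deck transformation of the reduced cover attached to `d`. -/
theorem exists_deckAut (d : (ZMod M)ˣ) :
    ∃ σ : E ≃ₐ[ModFamily.baseJ W k] E,
      (∀ e : (W).divisors, σ (g (.jay e ((1 : SL(2, ℤ)) : CosetSpace W))) =
        g (.jay e ((1 : SL(2, ℤ)) : CosetSpace W))) ∧
      ∀ u v : (ZMod M)ˣ, σ (g (.pt (0, (u : ZMod M)) (0, (v : ZMod M)))) =
        g (.pt (0, ((d * u : (ZMod M)ˣ) : ZMod M)) (0, ((d * v : (ZMod M)ˣ) : ZMod M))) := by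
  obtain ⟨σ, hσ⟩ : (gammaD d)⁻¹ ∈ G := by rw [galGroup_eq_top]; trivial
  refine ⟨σ, fun e => ?_, fun u v => ?_⟩
  · rw [hσ, CovIdx.smul_jay]
    refine congrArg (fun x => g (.jay e x)) ?_
    rw [MulAction.Quotient.smul_coe, smul_eq_mul, mul_one, QuotientGroup.eq, inv_inv, mul_one]
    exact gammaD_mem d
  · rw [hσ, CovIdx.smul_pt]
    have hv : ∀ w : (ZMod M)ˣ, CovIdx.vecAct (gammaD d)⁻¹ (0, (w : ZMod M)) =
        (0, ((d * w : (ZMod M)ˣ) : ZMod M)) := fun w => by
      simp only [CovIdx.vecAct, inv_inv, zero_mul, zero_add]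
      refine Prod.ext ?_ ?_
      · show _ * _ = _
        rw [lowerLeft_eq_zero (gammaD_mem d), mul_zero]
      · show _ * _ = _
        rw [gammaD_diag, Units.val_mul, mul_comm]
    rw [hv, hv]

end Fermat.Agent.Row48.Cover

end
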