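import Fermat.Agent.Row48.Cover.Curve

/-!
# Roots with multipliers on the cover

A function of the cover whose orders are all divisible by `n` has an `n`-th root on `ℍ` with a
multiplier, which is a homomorphism `gammaH M₀ → ℤ/n` killing parabolic elements. `Roots C n` says
that this gives a bijection between such homomorphisms and such functions modulo `n`-th powers,
already with `ℚ̄` coefficients.
-/

set_option autoImplicit false

noncomputable section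

open CongruenceSubgroup UpperHalfPlane ModularCurve AlgebraicCurve
open scoped MatrixGroups Manifold

namespace Fermat.Agent.Row48.Cover

open X0Analytic (perMero qSer qp)
open J0Torsion (jEmb)

local notation "Qbar" => AlgebraicClosure ℚ

instance (M₀ : ℕ) [NeZero M₀] : NeZero (lev M₀) := ⟨mul_ne_zero (NeZero.ne M₀) (NeZero.ne M₀)⟩

variable (M₀ : ℕ)

/-- Homomorphisms on the group of the cover killing the parabolic elements. -/
def goodHom (A : Type*) [AddCommGroup A] : AddSubgroup (Additive (gammaH M₀) →+ A) where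
  carrier := {φ | ∀ γ : gammaH M₀, ((γ : SL(2, ℤ)) : Matrix (Fin 2) (Fin 2) ℤ).trace ^ 2 = 4 →
    φ (Additive.ofMul γ) = 0}
  zero_mem' := fun _ _ => rfl
  add_mem' := fun {φ ψ} hφ hψ γ hγ => by
    rw [AddMonoidHom.add_apply, hφ γ hγ, hψ γ hγ, add_zero]
  neg_mem' := fun {φ} hφ γ hγ => by rw [AddMonoidHom.neg_apply, hφ γ hγ, neg_zero]

variable {M₀}

theorem T_mem_gammaH : ModularGroup.T ∈ gammaH M₀ :=
  ⟨by simp [Gamma0_mem, ModularGroup.T], Or.inl (by simp [ModularGroup.T])⟩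

variable (M₀) [NeZero M₀]

/-- Holomorphic functions on `ℍ` invariant under the group of the cover, meromorphic at the
cusps. -/
def modH : Subalgebra ℂ (ℍ → ℂ) where
  carrier := {f | MDiff f ∧ (∀ γ ∈ gammaH M₀, ∀ τ : ℍ, f (γ • τ) = f τ) ∧
    ∀ g : SL(2, ℤ), (fun τ : ℍ => f (g • τ)) ∈ perMero (lev M₀)}
  mul_mem' hf hg := ⟨hf.1.mul hg.1,
    fun γ hγ τ => congrArg₂ (· * ·) (hf.2.1 γ hγ τ) (hg.2.1 γ hγ τ),
    fun α => mul_mem (hf.2.2 α) (hg.2.2 α)⟩
  add_mem' hf hg := ⟨hf.1.add hg.1,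
    fun γ hγ τ => congrArg₂ (· + ·) (hf.2.1 γ hγ τ) (hg.2.1 γ hγ τ),
    fun α => add_mem (hf.2.2 α) (hg.2.2 α)⟩
  algebraMap_mem' c := ⟨mdifferentiable_const, fun _ _ _ => rfl,
    fun _ => Subalgebra.algebraMap_mem (perMero (lev M₀)) c⟩

variable {M₀}

theorem modH_mem_perMero_one (f : ↥(modH M₀)) : (f : ℍ → ℂ) ∈ perMero 1 := by
  refine X0Analytic.mem_perMero_one (N := lev M₀) (by simpa using f.2.2.2 1) fun τ => ?_
  rw [Nat.cast_one, ← UpperHalfPlane.modular_T_smul]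
  exact f.2.2.1 _ T_mem_gammaH τ

/-- A function on the cover as a `1`-periodic function. -/
def toPerH (M₀ : ℕ) [NeZero M₀] : ↥(modH M₀) →ₐ[ℂ] ↥(perMero 1) where
  toFun f := ⟨(f : ℍ → ℂ), modH_mem_perMero_one f⟩
  map_one' := rfl
  map_mul' _ _ := rfl
  map_zero' := rfl
  map_add' _ _ := rfl
  commutes' _ := rfl

/-- The series at `i∞`. -/
def serH (M₀ : ℕ) [NeZero M₀] : ↥(modH M₀) →+* LaurentSeries ℂ :=
  (qSer 1).comp (toPerH M₀).toRingHom

theorem serH_apply (f : ↥(modH M₀)) : serH M₀ f = qSer 1 (toPerH M₀ f) := rfl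

theorem serH_injective : Function.Injective (serH M₀) :=
  X0Analytic.qSer_injective.comp fun _ _ h =>
    Subtype.ext (congrArg (fun x : ↥(perMero 1) => (x : ℍ → ℂ)) h)

/-- The multiplier `γ ↦ exp (2πi φ(γ) / n)`. -/
def chiH {n : ℕ} [NeZero n] (φ : Additive (gammaH M₀) →+ ZMod n) : gammaH M₀ →* ℂ where
  toFun γ := ZMod.stdAddChar (φ (Additive.ofMul γ))
  map_one' := by rw [ofMul_one, map_zero, AddChar.map_zero_eq_one]
  map_mul' γ δ := by rw [ofMul_mul, map_add, AddChar.map_add_eq_mul]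

omit [NeZero M₀] in
theorem chiH_apply {n : ℕ} [NeZero n] (φ : Additive (gammaH M₀) →+ ZMod n) (γ : gammaH M₀) :
    chiH φ γ = ZMod.stdAddChar (φ (Additive.ofMul γ)) := rfl

/-- `G` is holomorphic, has multiplier `ξ` and is meromorphic at the cusps. -/
def IsTw (ξ : gammaH M₀ →* ℂ) (G : ℍ → ℂ) : Prop :=
  MDiff G ∧ (∀ (γ : gammaH M₀) (τ : ℍ), G ((γ : SL(2, ℤ)) • τ) = ξ γ * G τ) ∧
    ∀ g : SL(2, ℤ), ∃ m : ℕ,
      IsBoundedAtImInfty ((fun τ : ℍ => G (g • τ)) * qp (lev M₀) ^ m)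

/-- `f` has an `n`-th root with multiplier `φ`. -/
def HasMult (n : ℕ) [NeZero n] (f : LaurentSeries ℂ) (φ : goodHom M₀ (ZMod n)) : Prop :=
  ∃ (G : ℍ → ℂ) (b a : ↥(modH M₀)), IsTw (chiH (φ : Additive (gammaH M₀) →+ ZMod n)) G ∧
    G ≠ 0 ∧ b ≠ 0 ∧ (a : ℍ → ℂ) = G ^ n ∧ f * serH M₀ (b ^ n) = serH M₀ a

/-- What the analytic theory of the cover supplies. -/
structure Roots (C : CoverFns M₀) (n : ℕ) [NeZero n] : Prop where
  exists_mult : ∀ f : C.field, f ≠ 0 → (∀ P : Place Qbar C.field, (n : ℤ) ∣ P.ord f) →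
    ∃ φ : goodHom M₀ (ZMod n), HasMult n (coeffMap jEmb (f : LaurentSeries Qbar)) φ
  dvd_ord : ∀ (f : C.field) (φ : goodHom M₀ (ZMod n)),
    HasMult n (coeffMap jEmb (f : LaurentSeries Qbar)) φ →
      ∀ P : Place Qbar C.field, (n : ℤ) ∣ P.ord f
  unique : ∀ (f : LaurentSeries ℂ) (φ ψ : goodHom M₀ (ZMod n)),
    HasMult n f φ → HasMult n f ψ → φ = ψ
  surj : ∀ φ : goodHom M₀ (ZMod n),
    ∃ f : C.field, HasMult n (coeffMap jEmb (f : LaurentSeries Qbar)) φ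
  trivial : ∀ f : C.field,
    HasMult n (coeffMap jEmb (f : LaurentSeries Qbar)) (0 : goodHom M₀ (ZMod n)) →
    ∃ g : C.field, g ^ n = f
  mem_field : ∀ (z : LaurentSeries Qbar) (a b : ↥(modH M₀)), b ≠ 0 →
    coeffMap jEmb z * serH M₀ b = serH M₀ a → z ∈ C.field

omit [NeZero M₀] in
theorem IsTw.mul {ξ ξ' : gammaH M₀ →* ℂ} {G G' : ℍ → ℂ} (hG : IsTw ξ G) (hG' : IsTw ξ' G') :
    IsTw (ξ * ξ') (G * G') := by
  refine ⟨hG.1.mul hG'.1, fun γ τ => ?_, fun g => ?_⟩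
  · simp only [Pi.mul_apply, hG.2.1, hG'.2.1, MonoidHom.mul_apply]; ring
  · obtain ⟨m, hm⟩ := hG.2.2 g
    obtain ⟨k, hk⟩ := hG'.2.2 g
    refine ⟨m + k, ?_⟩
    rw [show (fun τ : ℍ => (G * G') (g • τ)) * qp (lev M₀) ^ (m + k)
        = ((fun τ : ℍ => G (g • τ)) * qp (lev M₀) ^ m) *
          ((fun τ : ℍ => G' (g • τ)) * qp (lev M₀) ^ k) from by
      funext τ; simp only [Pi.mul_apply, Pi.pow_apply, pow_add]; ring]
    exact Filter.BoundedAtFilter.mul hm hk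

omit [NeZero M₀] in
theorem chiH_add {n : ℕ} [NeZero n] (φ ψ : Additive (gammaH M₀) →+ ZMod n) :
    chiH (φ + ψ) = chiH φ * chiH ψ :=
  MonoidHom.ext fun γ => by simp [chiH_apply, AddChar.map_add_eq_mul]

theorem HasMult.ne_zero {n : ℕ} [NeZero n] {f : LaurentSeries ℂ} {φ : goodHom M₀ (ZMod n)}
    (h : HasMult n f φ) : f ≠ 0 := by
  obtain ⟨G, b, a, hG, hG0, hb, ha, hf⟩ := h
  intro h0
  rw [h0, zero_mul, ← map_zero (serH M₀)] at hf
  have h1 : (a : ℍ → ℂ) = 0 := by rw [← serH_injective hf]; rfl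
  obtain ⟨τ, hτ⟩ := Function.ne_iff.mp hG0
  exact hτ (pow_eq_zero_iff (NeZero.ne n) |>.mp (by
    simpa [ha] using congrFun h1 τ))

theorem HasMult.mul {n : ℕ} [NeZero n] {f f' : LaurentSeries ℂ}
    {φ ψ : goodHom M₀ (ZMod n)} (h : HasMult n f φ) (h' : HasMult n f' ψ) :
    HasMult n (f * f') (φ + ψ) := by
  obtain ⟨G, b, a, hG, hG0, hb, ha, hf⟩ := h
  obtain ⟨G', b', a', hG', hG0', hb', ha', hf'⟩ := h'
  refine ⟨G * G', b * b', a * a', by rw [AddSubgroup.coe_add, chiH_add]; exact hG.mul hG',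
    J0Torsion.hol_mul_ne_zero hG.1 hG'.1 hG0 hG0',
    fun h0 => J0Torsion.hol_mul_ne_zero b.2.1 b'.2.1 (fun e => hb (Subtype.ext e))
      (fun e => hb' (Subtype.ext e)) (congrArg Subtype.val h0),
    by rw [MulMemClass.coe_mul, ha, ha', mul_pow], ?_⟩
  rw [mul_pow, map_mul, map_mul, ← hf, ← hf']
  ring

end Fermat.Agent.Row48.Cover

end
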