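import Fermat.Agent.Row48.Cover.AlgSeries
import Fermat.Agent.HeckeJ0.Periods

/-!
# Galois, diamond and Hecke operators on multipliers

The Galois action on `goodHom M₀ (ℤ/n)` is transported by the roots; the diamond and Hecke
operators are given by conjugation and transfer, and match composition and norm of functions.
-/

set_option autoImplicit false

noncomputable section

open CongruenceSubgroup UpperHalfPlane ModularCurve AlgebraicCurve Matrix.SpecialLinearGroup
open scoped MatrixGroups Manifold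

namespace Fermat.Agent.Row48.Cover

open X0Analytic (qp)
open J0Torsion (jEmb)
open HeckeJ0 (Idx rep permOf gOf)

local notation "Qbar" => AlgebraicClosure ℚ

variable {M₀ : ℕ} [NeZero M₀] {n : ℕ} [NeZero n]

/-! ### Galois on the field -/

namespace CoverFns

variable (C : CoverFns M₀)

theorem coeffMap_mem_field (σ : Qbar →+* Qbar) {x : LaurentSeries Qbar} (hx : x ∈ C.field) :
    coeffMap σ x ∈ C.field := by
  obtain ⟨a, b, ha, hb, hb0, he⟩ := C.exists_algH_div ⟨x, hx⟩
  have hb0' : coeffMap σ b ≠ 0 :=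
    (map_ne_zero_iff _ (X0Analytic.coeffMap_injective σ.injective)).mpr hb0
  have : coeffMap σ x = coeffMap σ a / coeffMap σ b := by
    rw [eq_div_iff hb0', ← map_mul, he]
  rw [this]
  exact div_mem (C.algH_le (C.coeffMap_mem_algH σ ha)) (C.algH_le (C.coeffMap_mem_algH σ hb))

/-- An automorphism of the coefficients on the field of the cover. -/
def galField (σ : Qbar ≃ₐ[ℚ] Qbar) : C.field ≃+* C.field where
  toFun x := ⟨coeffMap (σ : Qbar →+* Qbar) x, C.coeffMap_mem_field _ x.2⟩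
  invFun x := ⟨coeffMap (σ.symm : Qbar →+* Qbar) x, C.coeffMap_mem_field _ x.2⟩
  left_inv x := Subtype.ext (by
    show coeffMap (σ.symm : Qbar →+* Qbar) (coeffMap (σ : Qbar →+* Qbar) x) = x
    ext k; simp)
  right_inv x := Subtype.ext (by
    show coeffMap (σ : Qbar →+* Qbar) (coeffMap (σ.symm : Qbar →+* Qbar) x) = x
    ext k; simp)
  map_mul' x y := Subtype.ext (map_mul (coeffMap (σ : Qbar →+* Qbar)) _ _)
  map_add' x y := Subtype.ext (map_add (coeffMap (σ : Qbar →+* Qbar)) _ _)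

theorem coe_galField (σ : Qbar ≃ₐ[ℚ] Qbar) (x : C.field) :
    ((C.galField σ x : C.field) : LaurentSeries Qbar) =
      coeffMap (σ : Qbar →+* Qbar) (x : LaurentSeries Qbar) := rfl

/-- The semilinear automorphism of the field of the cover. -/
def galSemi (σ : Qbar ≃ₐ[ℚ] Qbar) : SemilinearAut Qbar C.field :=
  ⟨(C.galField σ, σ.toRingEquiv), fun a => Subtype.ext (by
    show coeffMap (σ : Qbar →+* Qbar) (algebraMap Qbar (LaurentSeries Qbar) a) =
      algebraMap Qbar (LaurentSeries Qbar) (σ a)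
    rw [algebraMap_laurentSeries_eq_single, coeffMap_single, ← algebraMap_laurentSeries_eq_single]
    rfl)⟩

theorem dvd_ord_galField (σ : Qbar ≃ₐ[ℚ] Qbar) {m : ℤ} {f : C.field}
    (h : ∀ P : Place Qbar C.field, m ∣ P.ord f) (P : Place Qbar C.field) :
    m ∣ P.ord (C.galField σ f) := by
  have e := SemilinearAut.ord_smul (C.galSemi σ) ((C.galSemi σ)⁻¹ • P) f
  rw [smul_inv_smul] at e
  exact e.symm ▸ h _

end CoverFns

/-! ### Multipliers -/

theorem isTw_of_modH (b : ↥(modH M₀)) :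
    IsTw (1 : gammaH M₀ →* ℂ) (b : ℍ → ℂ) :=
  ⟨b.2.1, fun γ τ => by rw [MonoidHom.one_apply, one_mul]; exact b.2.2.1 γ γ.2 τ,
    fun g => (b.2.2.2 g).2.2⟩

omit [NeZero M₀] in
theorem chiH_zero : chiH (0 : Additive (gammaH M₀) →+ ZMod n) = 1 :=
  MonoidHom.ext fun γ => by simp [chiH_apply]

theorem hasMult_const {c : ℂ} (hc : c ≠ 0) :
    HasMult n (HahnSeries.single 0 c) (0 : goodHom M₀ (ZMod n)) := by
  obtain ⟨r, hr⟩ := IsAlgClosed.exists_pow_nat_eq c (Nat.pos_of_ne_zero (NeZero.ne n))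
  have hr0 : r ≠ 0 := fun h => hc (by rw [← hr, h, zero_pow (NeZero.ne n)])
  refine ⟨(algebraMap ℂ ↥(modH M₀) r : ℍ → ℂ), 1, (algebraMap ℂ ↥(modH M₀) r) ^ n, ?_, ?_,
    one_ne_zero, rfl, ?_⟩
  · rw [ZeroMemClass.coe_zero, chiH_zero]; exact isTw_of_modH _
  · exact fun h => hr0 (congrFun h UpperHalfPlane.I)
  · rw [one_pow, map_one, mul_one, ← map_pow, hr]
    exact (X0Analytic.qSer_algebraMap (h := 1) c).symm

namespace CoverFns

variable (C : CoverFns M₀)

theorem hasMult_pow {g : C.field} (hg : g ≠ 0) :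
    HasMult n (coeffMap jEmb ((g : LaurentSeries Qbar) ^ n)) (0 : goodHom M₀ (ZMod n)) := by
  obtain ⟨x, y, hx, hy, hy0, he⟩ := C.exists_algH_div g
  refine ⟨(C.fn ⟨x, hx⟩ : ℍ → ℂ), C.fn ⟨y, hy⟩, C.fn ⟨x, hx⟩ ^ n, ?_, ?_, ?_, rfl, ?_⟩
  · rw [ZeroMemClass.coe_zero, chiH_zero]; exact isTw_of_modH _
  · intro h
    have h' : C.fn ⟨x, hx⟩ = 0 := Subtype.ext h
    rw [map_eq_zero_iff _ C.fn_injective] at h'
    have hx0 : x = 0 := congrArg Subtype.val h'
    rw [hx0, mul_eq_zero] at he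
    exact he.elim (fun h0 => hg (Subtype.ext h0)) hy0
  · rw [Ne, map_eq_zero_iff _ C.fn_injective]
    exact fun h => hy0 (congrArg Subtype.val h)
  · rw [map_pow, map_pow, map_pow, C.serH_fn, C.serH_fn, ← mul_pow, ← map_mul, he]

variable (R : Roots C n)

/-- A function with the given multiplier. -/
def root (φ : goodHom M₀ (ZMod n)) : C.field := (R.surj φ).choose

theorem hasMult_root (φ : goodHom M₀ (ZMod n)) :
    HasMult n (coeffMap jEmb (C.root R φ : LaurentSeries Qbar)) φ := (R.surj φ).choose_spec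

theorem root_ne_zero (φ : goodHom M₀ (ZMod n)) : C.root R φ ≠ 0 := fun h =>
  (C.hasMult_root R φ).ne_zero (by rw [h]; simp)

theorem exists_mult_galField (σ : Qbar ≃ₐ[ℚ] Qbar) (φ : goodHom M₀ (ZMod n)) :
    ∃ ψ : goodHom M₀ (ZMod n),
      HasMult n (coeffMap jEmb ((C.galField σ (C.root R φ) : C.field) : LaurentSeries Qbar)) ψ :=
  R.exists_mult _ ((map_ne_zero_iff _ (C.galField σ).injective).mpr (C.root_ne_zero R φ))
    (C.dvd_ord_galField σ (R.dvd_ord _ _ (C.hasMult_root R φ)))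

/-- The Galois action on multipliers. -/
def galMult (σ : Qbar ≃ₐ[ℚ] Qbar) (φ : goodHom M₀ (ZMod n)) : goodHom M₀ (ZMod n) :=
  (C.exists_mult_galField R σ φ).choose

theorem mult_neg_of_field {f : C.field} {φ : goodHom M₀ (ZMod n)}
    (h : HasMult n (coeffMap jEmb (f : LaurentSeries Qbar)) φ) :
    HasMult n (coeffMap jEmb ((f⁻¹ : C.field) : LaurentSeries Qbar)) (-φ) := by
  have hf : f ≠ 0 := fun h0 => h.ne_zero (by rw [h0]; simp)
  have hp : ∀ k : ℕ,
      HasMult n (coeffMap jEmb ((f ^ k : C.field) : LaurentSeries Qbar)) (k • φ) := by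
    intro k
    induction k with
    | zero =>
      rw [pow_zero, zero_nsmul, OneMemClass.coe_one, map_one]
      exact hasMult_const one_ne_zero
    | succ k ih =>
      rw [pow_succ, succ_nsmul, MulMemClass.coe_mul, map_mul]
      exact ih.mul h
  have hn : 1 ≤ n := Nat.one_le_iff_ne_zero.mpr (NeZero.ne n)
  have h1 := (hp (n - 1)).mul (C.hasMult_pow (n := n) (g := f⁻¹) (inv_ne_zero hf))
  rw [← map_mul, ← SubmonoidClass.coe_pow, ← MulMemClass.coe_mul, inv_pow,
    ← div_eq_mul_inv] at h1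
  have e1 : f ^ (n - 1) / f ^ n = f⁻¹ := by
    rw [div_eq_iff (pow_ne_zero _ hf)]
    conv_rhs => rw [show n = n - 1 + 1 by omega, pow_succ, mul_comm, mul_assoc,
      mul_inv_cancel₀ hf, mul_one]
  have e2 : (n - 1) • φ + 0 = -φ := by
    have h0 : n • φ = 0 := Subtype.ext (AddMonoidHom.ext fun γ => by
      simp [nsmul_eq_mul])
    rw [add_zero, eq_neg_iff_add_eq_zero, ← succ_nsmul, show n - 1 + 1 = n by omega, h0]
  rwa [e1, e2] at h1

include R in
theorem galMult_eq (σ : Qbar ≃ₐ[ℚ] Qbar) {f : C.field} {φ : goodHom M₀ (ZMod n)}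
    (h : HasMult n (coeffMap jEmb (f : LaurentSeries Qbar)) φ) :
    HasMult n (coeffMap jEmb ((C.galField σ f : C.field) : LaurentSeries Qbar))
      (C.galMult R σ φ) := by
  have hq := h.mul (C.mult_neg_of_field (C.hasMult_root R φ))
  rw [add_neg_cancel, ← map_mul, ← MulMemClass.coe_mul] at hq
  obtain ⟨g, hg⟩ := R.trivial _ hq
  have hf : f ≠ 0 := fun h0 => h.ne_zero (by rw [h0]; simp)
  have hg0 : g ≠ 0 := fun h0 => by
    rw [h0, zero_pow (NeZero.ne n)] at hg
    exact mul_ne_zero hf (inv_ne_zero (C.root_ne_zero R φ)) hg.symm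
  have e : f = g ^ n * C.root R φ := by
    rw [hg, inv_mul_cancel_right₀ (C.root_ne_zero R φ)]
  rw [e, map_mul, map_pow, MulMemClass.coe_mul, map_mul, SubmonoidClass.coe_pow]
  have := (C.hasMult_pow (n := n) (g := C.galField σ g)
    ((map_ne_zero_iff _ (C.galField σ).injective).mpr hg0)).mul
      (C.exists_mult_galField R σ φ).choose_spec
  rwa [zero_add] at this

theorem galMult_add (σ : Qbar ≃ₐ[ℚ] Qbar) (φ ψ : goodHom M₀ (ZMod n)) :
    C.galMult R σ (φ + ψ) = C.galMult R σ φ + C.galMult R σ ψ := by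
  have h := (C.hasMult_root R φ).mul (C.hasMult_root R ψ)
  rw [← map_mul, ← MulMemClass.coe_mul] at h
  refine R.unique _ _ _ (C.galMult_eq R σ h) ?_
  rw [map_mul, MulMemClass.coe_mul, map_mul]
  exact (C.galMult_eq R σ (C.hasMult_root R φ)).mul (C.galMult_eq R σ (C.hasMult_root R ψ))

theorem galMult_one (φ : goodHom M₀ (ZMod n)) : C.galMult R 1 φ = φ := by
  refine R.unique _ _ _ (C.galMult_eq R 1 (C.hasMult_root R φ)) ?_
  have e : C.galField 1 (C.root R φ) = C.root R φ :=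
    Subtype.ext (by rw [coe_galField]; ext k; simp)
  rw [e]
  exact C.hasMult_root R φ

theorem galMult_mul (σ τ : Qbar ≃ₐ[ℚ] Qbar) (φ : goodHom M₀ (ZMod n)) :
    C.galMult R (σ * τ) φ = C.galMult R σ (C.galMult R τ φ) := by
  refine R.unique _ _ _ (C.galMult_eq R (σ * τ) (C.hasMult_root R φ)) ?_
  have e : C.galField (σ * τ) (C.root R φ) = C.galField σ (C.galField τ (C.root R φ)) :=
    Subtype.ext (by simp only [coe_galField]; ext k; simp)
  rw [e]
  exact C.galMult_eq R σ (C.galMult_eq R τ (C.hasMult_root R φ))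

end CoverFns

/-! ### Diamond and Hecke -/

variable {A : Type*} [AddCommGroup A]

/-- Conjugation by an element of `Γ₀(M₀²)`. -/
def conjH {g : SL(2, ℤ)} (hg : g ∈ Gamma0 (lev M₀)) : gammaH M₀ →* gammaH M₀ where
  toFun γ := ⟨g * γ * g⁻¹, conj_mem_gammaH hg γ.2⟩
  map_one' := Subtype.ext (by simp)
  map_mul' γ δ := Subtype.ext (by simp only [Subgroup.coe_mul]; group)

/-- The diamond operator on homomorphisms. -/
def deckHom (d : (ZMod M₀)ˣ) (φ : goodHom M₀ A) : goodHom M₀ A :=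
  ⟨(φ : Additive (gammaH M₀) →+ A).comp (conjH (gammaD_mem d)).toAdditive, fun γ hγ =>
    φ.2 (conjH (gammaD_mem d) γ) (by
      show ((gammaD d * γ * (gammaD d)⁻¹ : SL(2, ℤ)) : Matrix (Fin 2) (Fin 2) ℤ).trace ^ 2 = 4
      rw [Matrix.SpecialLinearGroup.coe_mul, Matrix.trace_mul_comm,
        ← Matrix.SpecialLinearGroup.coe_mul, inv_mul_cancel_left]
      exact hγ)⟩

variable {p : ℕ} [Fact p.Prime]

/-- The element of `Γ₀(M₀²)` under an element of the group of the cover. -/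
def toG0 : gammaH M₀ →* Gamma0 (lev M₀) := Subgroup.inclusion (gammaH_le M₀)

/-- The transfer element, in the group of the cover. -/
def deltaG (x : Idx (lev M₀) p) (γ : gammaH M₀) : gammaH M₀ :=
  ⟨deltaH x (toG0 γ), deltaH_mem_gammaH x (γ := toG0 γ) γ.2⟩

theorem deltaG_mul (x : Idx (lev M₀) p) (γ δ : gammaH M₀) :
    deltaG x (γ * δ) = deltaG x γ * deltaG (permOf (toG0 γ) x) δ := by
  have h := (HeckeJ0.permOf_mul (ℓ := p) (toG0 γ) (toG0 δ) x).1
  refine Subtype.ext (Matrix.SpecialLinearGroup.mapGL_injective (R := ℤ) (S := ℝ) ?_)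
  refine mul_right_cancel (b := beta (permOf (toG0 (γ * δ)) x)) ?_
  show mapGL ℝ (deltaH x (toG0 (γ * δ))) * _ =
    mapGL ℝ (deltaH x (toG0 γ) * deltaH (permOf (toG0 γ) x) (toG0 δ)) * _
  rw [← beta_mul x (toG0 (γ * δ)), map_mul toG0, Subgroup.coe_mul, map_mul, ← mul_assoc, beta_mul,
    mul_assoc, beta_mul, h, map_mul, mul_assoc]

/-- The transfer, as a homomorphism. -/
def heckeHomRaw (φ : Additive (gammaH M₀) →+ A) : Additive (gammaH M₀) →+ A :=
  AddMonoidHom.mk'
    (fun γ => ∑ x : Idx (lev M₀) p, φ (Additive.ofMul (deltaG x (Additive.toMul γ))))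
    fun γ δ => by
      simp only [toMul_add, deltaG_mul, ofMul_mul, map_add, Finset.sum_add_distrib]
      congr 1
      exact Equiv.sum_comp (permOf (ℓ := p) (toG0 (Additive.toMul γ)))
        fun x => φ (Additive.ofMul (deltaG x (Additive.toMul δ)))

theorem heckeHomRaw_apply (φ : Additive (gammaH M₀) →+ A) (γ : gammaH M₀) :
    heckeHomRaw (p := p) φ (Additive.ofMul γ) =
      ∑ x : Idx (lev M₀) p, φ (Additive.ofMul (deltaG x γ)) := rfl

theorem deltaG_pow (x : Idx (lev M₀) p) (γ : gammaH M₀) (φ : Additive (gammaH M₀) →+ A) (k : ℕ) :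
    φ (Additive.ofMul (deltaG x (γ ^ k))) =
      ∑ i ∈ Finset.range k, φ (Additive.ofMul (deltaG ((permOf (toG0 γ) ^ i) x) γ)) := by
  induction k with
  | zero =>
    have h1 : deltaG x (1 : gammaH M₀) = 1 := by
      have h := deltaG_mul x (1 : gammaH M₀) 1
      have hperm : permOf (toG0 (1 : gammaH M₀)) x = x :=
        (HeckeJ0.perm_gOf_unique (g := 1) (by simp)).1
      rw [mul_one, hperm] at h
      exact left_eq_mul.mp h
    rw [pow_zero, h1, ofMul_one, map_zero, Finset.sum_range_zero]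
  | succ k ih =>
    rw [pow_succ, deltaG_mul, ofMul_mul, map_add, ih, Finset.sum_range_succ]
    have hperm : ∀ (m : ℕ) (y : Idx (lev M₀) p),
        permOf (toG0 (γ ^ m)) y = (permOf (toG0 γ) ^ m) y := by
      intro m
      induction m with
      | zero => intro y; exact (HeckeJ0.perm_gOf_unique (g := 1) (by simp)).1
      | succ m ihm =>
        intro y
        rw [pow_succ, map_mul, (HeckeJ0.permOf_mul _ _ _).1, ihm, pow_succ',
          Equiv.Perm.mul_apply]
    rw [hperm]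

theorem heckeHomRaw_mem {φ : Additive (gammaH M₀) →+ A} (hφ : φ ∈ goodHom M₀ A) :
    heckeHomRaw (p := p) φ ∈ goodHom M₀ A := by
  classical
  intro γ hγ
  rw [heckeHomRaw_apply]
  set s := permOf (ℓ := p) (toG0 γ) with hs
  let r : Setoid (Idx (lev M₀) p) := Equiv.Perm.SameCycle.setoid s
  refine Finset.sum_cancels_of_partition_cancels r fun x _ => ?_
  set k := Function.minimalPeriod s x with hk
  have hk0 : 0 < k := Function.IsPeriodicPt.minimalPeriod_pos (orderOf_pos s) (by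
    show (s^[orderOf s]) x = x
    rw [Equiv.Perm.iterate_eq_pow, pow_orderOf_eq_one]; rfl)
  have hset : (Finset.univ.filter fun y => y ≈ x) =
      (Finset.range k).image fun i => (s ^ i) x := by
    ext y
    simp only [Finset.mem_filter, Finset.mem_univ, true_and, Finset.mem_image, Finset.mem_range]
    constructor
    · intro h
      obtain ⟨i, hi⟩ := (Equiv.Perm.SameCycle.symm (h : s.SameCycle y x)).exists_nat_pow_eq
      refine ⟨i % k, Nat.mod_lt _ hk0, ?_⟩
      rw [← hi, ← Equiv.Perm.iterate_eq_pow, ← Equiv.Perm.iterate_eq_pow, hk]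
      exact Function.iterate_mod_minimalPeriod_eq
    · rintro ⟨i, -, rfl⟩
      exact Equiv.Perm.SameCycle.symm ⟨(i : ℤ), by rw [zpow_natCast]⟩
  rw [hset, Finset.sum_image fun i hi j hj hij => ?_, ← deltaG_pow]
  · refine hφ _ ?_
    have hfix : permOf (toG0 (γ ^ k)) x = x := by
      have hperm : ∀ (m : ℕ), permOf (toG0 (γ ^ m)) x = (s ^ m) x := by
        intro m
        induction m with
        | zero => exact (HeckeJ0.perm_gOf_unique (g := 1) (by simp)).1
        | succ m ihm =>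
          rw [pow_succ, map_mul, (HeckeJ0.permOf_mul _ _ _).1, ihm, pow_succ',
            Equiv.Perm.mul_apply]
      rw [hperm, ← Equiv.Perm.iterate_eq_pow, hk]
      exact Function.iterate_minimalPeriod
    have h := beta_mul x (toG0 (γ ^ k))
    rw [hfix] at h
    have htr := congrArg (fun u : GL (Fin 2) ℝ => (u : Matrix (Fin 2) (Fin 2) ℝ).trace)
      (eq_mul_inv_of_mul_eq h.symm)
    simp only [Units.val_mul, Matrix.trace_units_conj] at htr
    simp only [Matrix.trace_fin_two, HeckeJ0.val_mapGL_apply] at htr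
    have h4 := HeckeJ0.trace_pow_sq_eq_four hγ k
    show ((deltaH x (toG0 (γ ^ k)) : SL(2, ℤ)) : Matrix (Fin 2) (Fin 2) ℤ).trace ^ 2 = 4
    rw [← SubgroupClass.coe_pow] at h4
    rw [Matrix.trace_fin_two] at h4 ⊢
    have htr' : (deltaH x (toG0 (γ ^ k)) 0 0 : ℤ) + deltaH x (toG0 (γ ^ k)) 1 1 =
        ((γ ^ k : gammaH M₀) : SL(2, ℤ)) 0 0 + ((γ ^ k : gammaH M₀) : SL(2, ℤ)) 1 1 := by
      exact_mod_cast htr
    rw [htr']
    exact h4
  · exact Function.iterate_injOn_Iio_minimalPeriod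
      (by simpa using Finset.mem_range.mp hi) (by simpa using Finset.mem_range.mp hj)
      (by simpa [← Equiv.Perm.iterate_eq_pow] using hij)

variable (p) in
/-- The Hecke operator on homomorphisms. -/
def heckeHom (φ : goodHom M₀ A) : goodHom M₀ A :=
  ⟨heckeHomRaw (p := p) φ, heckeHomRaw_mem φ.2⟩

theorem isTw_comp {ξ : gammaH M₀ →* ℂ} {G : ℍ → ℂ} (hG : IsTw ξ G) (d : (ZMod M₀)ˣ) :
    IsTw (ξ.comp (conjH (gammaD_mem d))) (fun τ => G (gammaD d • τ)) := by
  refine ⟨hG.1.comp (mdifferentiable_smul (X0Analytic.det_pos_SL _)), fun γ τ => ?_, fun g => by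
    simpa only [mul_smul] using hG.2.2 (gammaD d * g)⟩
  have h := hG.2.1 (conjH (gammaD_mem d) γ) (gammaD d • τ)
  rw [show ((conjH (gammaD_mem d) γ : gammaH M₀) : SL(2, ℤ)) = gammaD d * γ * (gammaD d)⁻¹ from rfl,
    mul_smul, inv_smul_smul, mul_smul] at h
  exact h

theorem isTw_normFun {φ : Additive (gammaH M₀) →+ ZMod n} {G : ℍ → ℂ} (hG : IsTw (chiH φ) G) :
    IsTw (chiH (heckeHomRaw (p := p) φ)) (normFun (M₀ := M₀) (p := p) G) := by
  classical
  refine ⟨mdiff_normFun hG.1, fun γ τ => ?_, fun g => ?_⟩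
  · have hsum : ∀ (s : Finset (Idx (lev M₀) p)) (f : Idx (lev M₀) p → ZMod n),
        ZMod.stdAddChar (∑ x ∈ s, f x) = ∏ x ∈ s, (ZMod.stdAddChar (f x) : ℂ) := fun s f => by
      induction s using Finset.induction_on with
      | empty => simp [AddChar.map_zero_eq_one]
      | insert i s hi ih =>
        rw [Finset.sum_insert hi, Finset.prod_insert hi, AddChar.map_add_eq_mul, ih]
    rw [chiH_apply, heckeHomRaw_apply, hsum]
    show ∏ x, G (beta x • (γ : SL(2, ℤ)) • τ) = _ * ∏ x, G (beta x • τ)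
    rw [← Equiv.prod_comp (permOf (ℓ := p) (toG0 γ)) fun x => G (beta x • τ),
      ← Finset.prod_mul_distrib]
    refine Finset.prod_congr rfl fun x _ => ?_
    rw [show beta x • (γ : SL(2, ℤ)) • τ = (beta x * mapGL ℝ (toG0 γ : SL(2, ℤ))) • τ from
      (mul_smul _ _ _).symm, beta_mul, mul_smul]
    exact hG.2.1 (deltaG x γ) _
  · refine exists_bounded_prod _ _ fun x => ?_
    obtain ⟨u, b, d, hx⟩ := HeckeModule.exists_isTri x
    let B : Matrix (Fin 2) (Fin 2) ℤ :=
      (gammaD (aU x) : Matrix (Fin 2) (Fin 2) ℤ) * !![(u : ℤ), (b : ℤ); 0, (d : ℤ)] *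
        (g : Matrix (Fin 2) (Fin 2) ℤ)
    obtain ⟨h, r, L, hr, hL, he⟩ := exists_affine_decomp B (beta x * mapGL ℝ g)
      (HeckeJ0.det_pos_mul (det_pos_beta x) (HeckeJ0.det_pos_mapGL g)) (by
        unfold HeckeJ0.IsTri at hx
        rw [beta, Units.val_mul, Units.val_mul, hx]
        ext i j
        simp only [B, Matrix.mul_apply, Fin.sum_univ_two, Matrix.map_apply,
          HeckeJ0.val_mapGL_apply]
        fin_cases i <;> fin_cases j <;> simp)
    obtain ⟨m, hb⟩ := hG.2.2 h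
    obtain ⟨m', hb'⟩ := isBounded_comp_affine hb hr hL
    refine ⟨m', ?_⟩
    rw [show (fun τ : ℍ => G (beta x • g • τ)) = (fun τ : ℍ => G (h • τ)) ∘ L
      from funext fun τ => by
      show _ = G (h • L τ)
      rw [← he τ, mul_smul]
      rfl]
    exact hb'

namespace CoverFns

variable (C : CoverFns M₀)

theorem fn_eq {x y : ↥C.algH} {φ : goodHom M₀ (ZMod n)} (hy : y ≠ 0)
    (h : HasMult n (coeffMap jEmb ((x : LaurentSeries Qbar) / y)) φ) :
    ∃ (G : ℍ → ℂ) (b a : ↥(modH M₀)), IsTw (chiH (φ : Additive (gammaH M₀) →+ ZMod n)) G ∧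
      G ≠ 0 ∧ b ≠ 0 ∧ (a : ℍ → ℂ) = G ^ n ∧ C.fn x * b ^ n = C.fn y * a := by
  obtain ⟨G, b, a, hG, hG0, hb, ha, hf⟩ := h
  refine ⟨G, b, a, hG, hG0, hb, ha, serH_injective ?_⟩
  have hy' : coeffMap jEmb (y : LaurentSeries Qbar) ≠ 0 :=
    (map_ne_zero_iff _ (X0Analytic.coeffMap_injective jEmb.injective)).mpr
      fun h0 => hy (Subtype.ext h0)
  rw [map_mul, map_mul, C.serH_fn, C.serH_fn, ← hf, map_div₀]
  field_simp

theorem hasMult_of_fn {z w : LaurentSeries Qbar} {X Y : ↥(modH M₀)} (hY : Y ≠ 0)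
    (hz : coeffMap jEmb z = serH M₀ X) (hw : coeffMap jEmb w = serH M₀ Y)
    {ψ : goodHom M₀ (ZMod n)} {G : ℍ → ℂ} {b a : ↥(modH M₀)}
    (hG : IsTw (chiH (ψ : Additive (gammaH M₀) →+ ZMod n)) G) (hG0 : G ≠ 0) (hb : b ≠ 0)
    (ha : (a : ℍ → ℂ) = G ^ n) (he : X * b ^ n = Y * a) :
    HasMult n (coeffMap jEmb (z / w)) ψ := by
  refine ⟨G, b, a, hG, hG0, hb, ha, ?_⟩
  have hY' : serH M₀ Y ≠ 0 := (map_ne_zero_iff _ serH_injective).mpr hY
  rw [map_div₀, hz, hw, div_mul_eq_mul_div, ← map_mul, he, map_mul, mul_div_cancel_left₀ _ hY']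

/-- Composition with a deck transformation has the multiplier moved by the diamond operator. -/
theorem hasMult_deck (d : (ZMod M₀)ˣ) {x y : ↥C.algH} {φ : goodHom M₀ (ZMod n)} (hy : y ≠ 0)
    (h : HasMult n (coeffMap jEmb ((x : LaurentSeries Qbar) / y)) φ) :
    HasMult n (coeffMap jEmb ((C.deckAlg d x : LaurentSeries Qbar) / (C.deckAlg d y : ↥C.algH)))
      (deckHom d φ) := by
  obtain ⟨G, b, a, hG, hG0, hb, ha, he⟩ := C.fn_eq hy h
  have hinj : ∀ c : ↥(modH M₀), c ≠ 0 → deckFn d c ≠ 0 := fun c hc h0 => hc (Subtype.ext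
    (funext fun τ => by
      have := congrFun (congrArg Subtype.val h0) ((gammaD d)⁻¹ • τ)
      change (c : ℍ → ℂ) (gammaD d • (gammaD d)⁻¹ • τ) = 0 at this
      rw [smul_inv_smul] at this
      exact this))
  refine hasMult_of_fn (X := deckFn d (C.fn x)) (G := fun τ => G (gammaD d • τ)) (b := deckFn d b)
    (a := deckFn d a)
    (hinj _ ((map_ne_zero_iff _ C.fn_injective).mpr hy)) ?_ ?_ (isTw_comp hG d) ?_ (hinj _ hb)
    ?_ ?_
  · rw [← C.serH_fn, C.fn_deckAlg]
  · rw [← C.serH_fn, C.fn_deckAlg]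
  · intro h0
    refine hG0 (funext fun τ => ?_)
    have := congrFun h0 ((gammaD d)⁻¹ • τ)
    simpa using this
  · funext τ
    show (a : ℍ → ℂ) (gammaD d • τ) = _
    rw [ha]
    rfl
  · rw [← map_pow, ← map_mul, he, map_mul]

/-- The norm of a function has the multiplier moved by the Hecke operator. -/
theorem hasMult_hecke (hp : ¬ p ∣ M₀) {x y : ↥C.algH} {φ : goodHom M₀ (ZMod n)} (hy : y ≠ 0)
    (h : HasMult n (coeffMap jEmb ((x : LaurentSeries Qbar) / y)) φ) :
    HasMult n (coeffMap jEmb (C.normSer hp x / C.normSer hp y)) (heckeHom p φ) := by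
  obtain ⟨G, b, a, hG, hG0, hb, ha, he⟩ := C.fn_eq hy h
  refine hasMult_of_fn (G := normFun (M₀ := M₀) (p := p) G) (b := normH M₀ p b)
    (a := normH M₀ p a) (normH_ne_zero ((map_ne_zero_iff _ C.fn_injective).mpr hy))
    (C.coeffMap_normSer hp x) (C.coeffMap_normSer hp y) (isTw_normFun hG) ?_ (normH_ne_zero hb)
    ?_ ?_
  · intro h0
    have ha0 : a ≠ 0 := fun h1 => by
      obtain ⟨τ, hτ⟩ := Function.ne_iff.mp hG0
      have h2 := congrFun ha τ
      rw [h1] at h2
      exact hτ (pow_eq_zero_iff (NeZero.ne n) |>.mp (by simpa using h2.symm))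
    refine normH_ne_zero (p := p) ha0 (Subtype.ext (funext fun τ => ?_))
    show ∏ i, (a : ℍ → ℂ) (beta i • τ) = 0
    rw [ha]
    simp only [Pi.pow_apply, Finset.prod_pow]
    rw [show (∏ i, G (beta i • τ)) = 0 from congrFun h0 τ, zero_pow (NeZero.ne n)]
  · funext τ
    show ∏ i, (a : ℍ → ℂ) (beta i • τ) = _
    rw [ha]
    simp only [Pi.pow_apply, Finset.prod_pow]
    rfl
  · rw [← map_pow, ← map_mul, he, map_mul]

end CoverFns

end Fermat.Agent.Row48.Cover

end
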