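import Fermat.Agent.Row48.Cover.Series
import Fermat.Agent.HeckeJ0.Act
import Fermat.Agent.HeckeModule.Operators

/-!
# The Hecke norm of a function on the cover

For `p ∤ M₀` the product of the translates by the representatives of the double coset of
`diag(1, p)` in the group of the cover, and its series in `q ^ (1/p)`.
-/

set_option autoImplicit false

noncomputable section

open CongruenceSubgroup UpperHalfPlane ModularCurve Matrix.SpecialLinearGroup
open scoped MatrixGroups Manifold OnePoint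

namespace Fermat.Agent.Row48.Cover

open X0Analytic (perMero qSer qp rot IsPer)
open J0Torsion (jEmb)
open HeckeJ0 (Idx rep IsTri permOf gOf)

variable {M₀ : ℕ} [NeZero M₀] {p : ℕ} [Fact p.Prime]

instance : NeZero p := ⟨(Fact.out : p.Prime).ne_zero⟩

/-- The unit attached to a representative: `p` for the one fixing `∞`, `1` for the others. -/
def aU (x : Idx (lev M₀) p) : (ZMod M₀)ˣ :=
  ZMod.unitsMap (dvd_mul_right M₀ M₀) (HeckeModule.aUnit x)

/-- The representatives of the double coset in the group of the cover. -/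
def beta (x : Idx (lev M₀) p) : GL (Fin 2) ℝ := mapGL ℝ (gammaD (aU x)) * rep x

theorem det_pos_beta (x : Idx (lev M₀) p) : 0 < (beta x).det.val :=
  HeckeJ0.det_pos_mul (HeckeJ0.det_pos_mapGL _) (HeckeJ0.det_pos_rep x)

/-- The transfer element. -/
def deltaH (x : Idx (lev M₀) p) (γ : Gamma0 (lev M₀)) : SL(2, ℤ) :=
  gammaD (aU x) * (gOf x γ : SL(2, ℤ)) * (gammaD (aU (permOf γ x)))⁻¹

theorem beta_mul (x : Idx (lev M₀) p) (γ : Gamma0 (lev M₀)) :
    beta x * mapGL ℝ (γ : SL(2, ℤ)) = mapGL ℝ (deltaH x γ) * beta (permOf γ x) := by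
  rw [beta, beta, deltaH, mul_assoc, HeckeJ0.rep_mul, map_mul, map_mul, map_inv]
  group

theorem deltaH_mem (x : Idx (lev M₀) p) (γ : Gamma0 (lev M₀)) :
    deltaH x γ ∈ Gamma0 (lev M₀) :=
  mul_mem (mul_mem (gammaD_mem _) (gOf x γ).2) (inv_mem (gammaD_mem _))

theorem deltaH_diag (x : Idx (lev M₀) p) (γ : Gamma0 (lev M₀)) :
    ((deltaH x γ 1 1 : ℤ) : ZMod M₀) = (((γ : SL(2, ℤ)) 1 1 : ℤ) : ZMod M₀) := by
  obtain ⟨a, b, d, hx⟩ := HeckeModule.exists_isTri x
  obtain ⟨a', b', d', hy⟩ := HeckeModule.exists_isTri (permOf γ x)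
  have key : HeckeModule.aUnit x * HeckeModule.dUnit (lev M₀) (gOf x γ) =
      HeckeModule.dUnit (lev M₀) γ * HeckeModule.aUnit (permOf γ x) := by
    refine Units.ext ?_
    rw [Units.val_mul, Units.val_mul, HeckeModule.coe_aUnit x hx, HeckeModule.coe_aUnit _ hy]
    exact HeckeModule.isTri_compat hx hy (HeckeJ0.rep_mul x γ)
  have key' := congrArg (fun u => ((ZMod.unitsMap (dvd_mul_right M₀ M₀) u : (ZMod M₀)ˣ) : ZMod M₀))
    key
  simp only [map_mul, Units.val_mul] at key'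
  have hd : ∀ δ : Gamma0 (lev M₀),
      ((ZMod.unitsMap (dvd_mul_right M₀ M₀) (HeckeModule.dUnit (lev M₀) δ) : (ZMod M₀)ˣ) :
        ZMod M₀) =
        (((δ : SL(2, ℤ)) 1 1 : ℤ) : ZMod M₀) := fun δ => by
    rw [ZMod.unitsMap_def, Units.coe_map, MonoidHom.coe_coe, HeckeModule.coe_dUnit, map_intCast]
  rw [hd, hd] at key'
  have hg := diag_inv (gammaD_mem (aU (permOf γ x)))
  rw [gammaD_diag] at hg
  rw [deltaH, diag_mul (mul_mem (gammaD_mem _) (gOf x γ).2), diag_mul (gammaD_mem _), gammaD_diag]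
  unfold aU at hg ⊢
  linear_combination (((gammaD (ZMod.unitsMap (dvd_mul_right M₀ M₀)
    (HeckeModule.aUnit (permOf γ x))))⁻¹ : SL(2, ℤ)) 1 1 : ZMod M₀) * key' +
    (((γ : SL(2, ℤ)) 1 1 : ℤ) : ZMod M₀) * hg

theorem deltaH_mem_gammaH (x : Idx (lev M₀) p) {γ : Gamma0 (lev M₀)}
    (hγ : (γ : SL(2, ℤ)) ∈ gammaH M₀) : deltaH x γ ∈ gammaH M₀ :=
  ⟨deltaH_mem x γ, by rw [deltaH_diag]; exact hγ.2⟩

/-- A translate by an integral matrix of positive determinant is a translate by `SL₂(ℤ)` after an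
affine map. -/
theorem exists_affine_decomp (B : Matrix (Fin 2) (Fin 2) ℤ) (β : GL (Fin 2) ℝ)
    (hβ : 0 < β.det.val) (hB : (β : Matrix (Fin 2) (Fin 2) ℝ) = B.map (Int.cast : ℤ → ℝ)) :
    ∃ (h : SL(2, ℤ)) (r : ℝ) (L : ℍ → ℍ), 0 < r ∧ (∀ τ, (L τ).im = r * τ.im) ∧
      ∀ τ, β • τ = h • L τ := by
  set A := B 0 0
  set C' := B 1 0
  have hdet : B.det ≠ 0 := fun h0 => hβ.ne' (by
    rw [Matrix.GeneralLinearGroup.val_det_apply, hB]
    exact (Int.cast_det (R := ℝ) B).symm.trans (by rw [h0, Int.cast_zero]))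
  have ht : Int.gcd A C' ≠ 0 := by
    intro h0
    obtain ⟨hA, hC⟩ := Int.gcd_eq_zero_iff.mp h0
    exact hdet (by rw [Matrix.det_fin_two]; simp only [A, C'] at hA hC; rw [hA, hC]; ring)
  obtain ⟨g₀, A', C'', -, hcop, hA, hC⟩ := Int.exists_gcd_one' (Nat.pos_of_ne_zero ht)
  obtain ⟨u, v, huv⟩ := Int.isCoprime_iff_gcd_eq_one.mpr hcop
  let h' : SL(2, ℤ) := ⟨!![u, v; -C'', A'], by rw [Matrix.det_fin_two_of]; linear_combination huv⟩
  set T : GL (Fin 2) ℝ := mapGL ℝ h' * β with hT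
  have hTpos : 0 < T.det.val := HeckeJ0.det_pos_mul (HeckeJ0.det_pos_mapGL _) hβ
  have h10 : (T : Matrix (Fin 2) (Fin 2) ℝ) 1 0 = 0 := by
    rw [hT, Units.val_mul, hB, Matrix.mul_apply, Fin.sum_univ_two]
    simp only [HeckeJ0.val_mapGL_apply, Matrix.map_apply]
    simp [h']
    have : -(C'' : ℤ) * A + A' * C' = 0 := by rw [hA, hC]; ring
    have := congrArg (Int.cast : ℤ → ℝ) this
    push_cast at this
    linarith
  set a := (T : Matrix (Fin 2) (Fin 2) ℝ) 0 0
  set d := (T : Matrix (Fin 2) (Fin 2) ℝ) 1 1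
  have had : 0 < a * d := by
    have := hTpos
    rw [Matrix.GeneralLinearGroup.val_det_apply, Matrix.det_fin_two, h10, mul_zero,
      sub_zero] at this
    exact this
  refine ⟨h'⁻¹, a / d, fun τ => T • τ, ?_, fun τ => ?_, fun τ => ?_⟩
  · rcases pos_and_pos_or_neg_and_neg_of_mul_pos had with ⟨h1, h2⟩ | ⟨h1, h2⟩
    · exact div_pos h1 h2
    · exact div_pos_of_neg_of_neg h1 h2
  · have hd : d ≠ 0 := right_ne_zero_of_mul had.ne'
    have e := congrArg Complex.im (coe_smul_of_det_pos hTpos τ)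
    simp only [UpperHalfPlane.num, UpperHalfPlane.denom, h10, Complex.ofReal_zero, zero_mul,
      zero_add] at e
    show ((T • τ : ℍ) : ℂ).im = _
    rw [e, Complex.div_ofReal_im]
    simp
    ring
  · show β • τ = h'⁻¹ • (T • τ)
    rw [hT, mul_smul]
    exact (inv_smul_smul h' _).symm

theorem isBounded_comp_affine {N : ℕ} [NeZero N] {f : ℍ → ℂ} {m : ℕ}
    (hf : IsBoundedAtImInfty (f * qp N ^ m)) {L : ℍ → ℍ} {r : ℝ} (hr : 0 < r)
    (hL : ∀ τ, (L τ).im = r * τ.im) :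
    ∃ m', IsBoundedAtImInfty ((f ∘ L) * qp N ^ m') := by
  obtain ⟨k, hk⟩ := exists_nat_ge (r * m)
  rw [isBoundedAtImInfty_iff] at hf
  obtain ⟨C, A, hA⟩ := hf
  refine ⟨k, isBoundedAtImInfty_iff.mpr ⟨max C 0, max (A / r) 0, fun τ hτ => ?_⟩⟩
  have hA' : A ≤ (L τ).im := by
    rw [hL]
    have := (div_le_iff₀ hr).mp ((le_max_left (A / r) 0).trans hτ)
    linarith
  have hb := hA (L τ) hA'
  simp only [Pi.mul_apply, Pi.pow_apply, norm_mul, norm_pow, Function.comp_apply] at hb ⊢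
  refine le_trans ?_ (hb.trans (le_max_left C 0))
  refine mul_le_mul_of_nonneg_left ?_ (norm_nonneg _)
  simp only [qp, Function.Periodic.norm_qParam, ← Real.exp_nat_mul]
  refine Real.exp_le_exp.mpr ?_
  show _ * (-2 * Real.pi * (τ : ℂ).im / (N : ℝ)) ≤ _ * (-2 * Real.pi * ((L τ : ℍ) : ℂ).im / (N : ℝ))
  rw [UpperHalfPlane.coe_im, UpperHalfPlane.coe_im, hL]
  have h1 : 0 ≤ 2 * Real.pi * τ.im / (N : ℝ) := by positivity
  have e1 : (k : ℝ) * (-2 * Real.pi * τ.im / (N : ℝ)) = -(k * (2 * Real.pi * τ.im / N)) := by ring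
  have e2 : (m : ℝ) * (-2 * Real.pi * (r * τ.im) / (N : ℝ)) =
      -(r * m * (2 * Real.pi * τ.im / N)) := by ring
  linarith [mul_le_mul_of_nonneg_right hk h1]

/-- Translates of a function on the cover by the representatives, composed with `g`, are bounded
after multiplying by a power of `q`. -/
theorem exists_bounded_translate (a : ↥(modH M₀)) (x : Idx (lev M₀) p) (g : SL(2, ℤ)) :
    ∃ m, IsBoundedAtImInfty
      ((fun τ : ℍ => (a : ℍ → ℂ) (beta x • g • τ)) * qp (lev M₀) ^ m) := by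
  obtain ⟨u, b, d, hx⟩ := HeckeModule.exists_isTri x
  let B : Matrix (Fin 2) (Fin 2) ℤ :=
    (gammaD (aU x) : Matrix (Fin 2) (Fin 2) ℤ) * !![(u : ℤ), (b : ℤ); 0, (d : ℤ)] *
      (g : Matrix (Fin 2) (Fin 2) ℤ)
  obtain ⟨h, r, L, hr, hL, he⟩ := exists_affine_decomp B (beta x * mapGL ℝ g)
    (HeckeJ0.det_pos_mul (det_pos_beta x) (HeckeJ0.det_pos_mapGL g)) (by
      unfold IsTri at hx
      rw [beta, Units.val_mul, Units.val_mul, hx]
      ext i j
      simp only [B, Matrix.mul_apply, Fin.sum_univ_two, Matrix.map_apply, HeckeJ0.val_mapGL_apply]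
      fin_cases i <;> fin_cases j <;> simp)
  obtain ⟨hm, -, m, hb⟩ := a.2.2.2 h
  obtain ⟨m', hb'⟩ := isBounded_comp_affine hb hr hL
  refine ⟨m', ?_⟩
  have e : (fun τ : ℍ => (a : ℍ → ℂ) (beta x • g • τ)) =
      (fun τ : ℍ => (a : ℍ → ℂ) (h • τ)) ∘ L := funext fun τ => by
    show _ = (a : ℍ → ℂ) (h • L τ)
    rw [← he τ, mul_smul]
    rfl
  rw [e]
  exact hb'

theorem exists_bounded_prod {ι : Type*} (s : Finset ι) (f : ι → ℍ → ℂ) {N : ℕ} [NeZero N]
    (hf : ∀ i, ∃ m, IsBoundedAtImInfty (f i * qp N ^ m)) :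
    ∃ m, IsBoundedAtImInfty ((fun τ => ∏ i ∈ s, f i τ) * qp N ^ m) := by
  classical
  induction s using Finset.induction_on with
  | empty =>
    refine ⟨0, ?_⟩
    simp only [Finset.prod_empty, pow_zero, mul_one]
    exact Filter.const_boundedAtFilter _ (1 : ℂ)
  | insert i s hi ih =>
    obtain ⟨m, hm⟩ := ih
    obtain ⟨k, hk⟩ := hf i
    refine ⟨k + m, ?_⟩
    rw [show (fun τ => ∏ j ∈ insert i s, f j τ) * qp N ^ (k + m) =
      (f i * qp N ^ k) * ((fun τ => ∏ j ∈ s, f j τ) * qp N ^ m) from by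
        funext τ; simp only [Pi.mul_apply, Pi.pow_apply, Finset.prod_insert hi, pow_add]; ring]
    exact Filter.BoundedAtFilter.mul hk hm

/-- The product of the translates, as a function. -/
def normFun (f : ℍ → ℂ) : ℍ → ℂ := fun τ => ∏ x : Idx (lev M₀) p, f (beta x • τ)

theorem mdiff_normFun {f : ℍ → ℂ} (hf : MDiff f) : MDiff (normFun (M₀ := M₀) (p := p) f) := by
  have h : normFun (M₀ := M₀) (p := p) f =
      ∏ x : Idx (lev M₀) p, fun τ => f (beta x • τ) := by
    funext τ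
    rw [Finset.prod_apply]
    rfl
  rw [h]
  exact X0Analytic.mem_holFun.mp (prod_mem fun x _ =>
    X0Analytic.mem_holFun.mpr (hf.comp (mdifferentiable_smul (det_pos_beta x))))

variable (M₀ p) in
/-- The norm of a function on the cover. -/
def normH : ↥(modH M₀) →* ↥(modH M₀) where
  toFun a := ⟨normFun (a : ℍ → ℂ), mdiff_normFun a.2.1, fun γ hγ τ => by
      let γ' : Gamma0 (lev M₀) := ⟨γ, hγ.1⟩
      refine Fintype.prod_equiv (permOf (ℓ := p) γ') _ _ fun x => ?_
      show (a : ℍ → ℂ) (beta x • γ • τ) = (a : ℍ → ℂ) (beta (permOf γ' x) • τ)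
      rw [show beta x • γ • τ = (beta x * mapGL ℝ (γ' : SL(2, ℤ))) • τ from (mul_smul _ _ _).symm,
        beta_mul, mul_smul]
      exact a.2.2.1 _ (deltaH_mem_gammaH x (γ := γ') hγ) _,
    fun g => by
      refine ⟨(mdiff_normFun a.2.1).comp (mdifferentiable_smul (X0Analytic.det_pos_SL g)), ?_,
        exists_bounded_prod _ _ fun x => exists_bounded_translate a x g⟩
      refine isPer_comp_gammaH (fun γ hγ τ => ?_) g
      let γ' : Gamma0 (lev M₀) := ⟨γ, hγ.1⟩
      refine Fintype.prod_equiv (permOf (ℓ := p) γ') _ _ fun x => ?_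
      show (a : ℍ → ℂ) (beta x • γ • τ) = (a : ℍ → ℂ) (beta (permOf γ' x) • τ)
      rw [show beta x • γ • τ = (beta x * mapGL ℝ (γ' : SL(2, ℤ))) • τ from (mul_smul _ _ _).symm,
        beta_mul, mul_smul]
      exact a.2.2.1 _ (deltaH_mem_gammaH x (γ := γ') hγ) _⟩
  map_one' := Subtype.ext (funext fun τ => Finset.prod_const_one)
  map_mul' a b := Subtype.ext (funext fun τ => Finset.prod_mul_distrib)

theorem normH_ne_zero {a : ↥(modH M₀)} (ha : a ≠ 0) : normH M₀ p a ≠ 0 := by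
  intro h
  have h' : ∏ x : Idx (lev M₀) p, (fun τ => (a : ℍ → ℂ) (beta x • τ)) = 0 := by
    funext τ
    rw [Finset.prod_apply]
    exact congrFun (congrArg Subtype.val h) τ
  have hne : ∀ x : Idx (lev M₀) p,
      (⟨fun τ => (a : ℍ → ℂ) (beta x • τ), X0Analytic.mem_holFun.mpr
        (a.2.1.comp (mdifferentiable_smul (det_pos_beta x)))⟩ : X0Analytic.Hol) ≠ 0 := by
    intro x hx
    refine ha (Subtype.ext (funext fun τ => ?_))
    have := congrFun (congrArg Subtype.val hx) ((beta x)⁻¹ • τ)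
    simpa [smul_smul] using this
  refine (Finset.prod_ne_zero_iff (s := (Finset.univ : Finset (Idx (lev M₀) p)))).mpr
    (fun x _ => hne x) (Subtype.ext ?_)
  rw [SubmonoidClass.coe_finsetProd]
  exact h'

section Series

variable (hp : ¬ p ∣ M₀)
include hp

omit [NeZero M₀] in
theorem not_dvd_lev : ¬ p ∣ lev M₀ := fun h =>
  hp ((Fact.out : p.Prime).dvd_mul.mp h |>.elim id id)

/-- The indices as a point of the projective line. -/
def idxEquiv : Idx (lev M₀) p ≃ OnePoint (ZMod p) where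
  toFun x := x.1
  invFun x := ⟨x, fun h => absurd h (not_dvd_lev hp)⟩
  left_inv _ := rfl
  right_inv _ := rfl

/-- `exp (2πi j / p)`. -/
def rootP (p : ℕ) (j : ℕ) : ℂ := Complex.exp (2 * Real.pi * Complex.I * j / p)

omit [Fact p.Prime] hp in
theorem rootP_ne_zero (j : ℕ) : rootP p j ≠ 0 := Complex.exp_ne_zero _

omit hp in
omit [NeZero M₀] in
theorem aU_coe (x : Idx (lev M₀) p) (j : ZMod p) (hx : x.1 = (j : OnePoint (ZMod p))) :
    aU x = 1 := by
  rw [aU, HeckeModule.aUnit, dif_neg (by rw [hx]; exact OnePoint.coe_ne_infty j), map_one]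

omit [NeZero M₀] in
theorem aU_infty (x : Idx (lev M₀) p) (hx : x.1 = ∞) :
    aU x = ZMod.unitOfCoprime p ((Nat.Prime.coprime_iff_not_dvd Fact.out).mpr hp) := by
  refine Units.ext ?_
  rw [aU, HeckeModule.aUnit, dif_pos hx, ZMod.unitsMap_def, Units.coe_map, MonoidHom.coe_coe,
    ZMod.coe_unitOfCoprime, map_natCast, ZMod.coe_unitOfCoprime]

theorem qExpand_serH_normH (a : ↥(modH M₀)) :
    qExpand ℂ p (serH M₀ (normH M₀ p a)) =
      (∏ j : ZMod p, rot (rootP p j.val) (rootP_ne_zero _) (serH M₀ a)) *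
        qExpand ℂ (p * p) (serH M₀ (deckFn
          (ZMod.unitOfCoprime p ((Nat.Prime.coprime_iff_not_dvd Fact.out).mpr hp)) a)) := by
  classical
  set dp := ZMod.unitOfCoprime p ((Nat.Prime.coprime_iff_not_dvd Fact.out).mpr hp) with hdp
  have hp0 : p ≠ 0 := (Fact.out : p.Prime).ne_zero
  obtain ⟨hL, hLs⟩ := X0Analytic.qSer_subst (h := 1) (h' := p) (M := p) (toPerH M₀ (normH M₀ p a))
    id mdifferentiable_id 1 one_ne_zero fun τ => by
      rw [one_mul]; exact X0Analytic.qp_one_eq_pow p τ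
  have hfin : ∀ j : ZMod p, ∃ F : ↥(perMero p),
      (F : ℍ → ℂ) = (fun τ => (a : ℍ → ℂ) (ModularForm.heckeMatrix p j.val • τ)) ∧
      qSer p F = rot (rootP p j.val) (rootP_ne_zero _) (serH M₀ a) := fun j => by
    obtain ⟨hg, hs⟩ := X0Analytic.qSer_subst (h := 1) (h' := p) (M := 1) (toPerH M₀ a)
      (fun τ => ModularForm.heckeMatrix p j.val • τ)
      (mdifferentiable_smul (ModularForm.det_heckeMatrix_pos p j.val)) (rootP p j.val)
      (rootP_ne_zero _) fun τ => by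
        rw [pow_one]
        simp only [qp, Function.Periodic.qParam, rootP, ← Complex.exp_add,
          ModularForm.coe_heckeMatrix_smul hp0]
        congr 1
        push_cast
        field_simp
        ring
    refine ⟨_, rfl, hs.trans ?_⟩
    rw [qExpand_one_apply]
    rfl
  obtain ⟨hD, hDs⟩ := X0Analytic.qSer_subst (h := 1) (h' := p) (M := p * p)
    (toPerH M₀ (deckFn dp a)) (fun τ => ModularForm.heckeDiagMatrix p • τ)
    (mdifferentiable_smul (ModularForm.det_heckeDiagMatrix_pos p)) 1 one_ne_zero fun τ => by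
      simp only [qp, Function.Periodic.qParam, one_mul, ← Complex.exp_nat_mul,
        ModularForm.coe_heckeDiagMatrix_smul hp0]
      congr 1
      push_cast
      field_simp
  choose F hF hFs using hfin
  have key : (⟨_, hL⟩ : ↥(perMero p)) = (∏ j : ZMod p, F j) * ⟨_, hD⟩ := by
    refine Subtype.ext (funext fun τ => ?_)
    rw [MulMemClass.coe_mul, SubmonoidClass.coe_finsetProd, Pi.mul_apply, Finset.prod_apply]
    show ∏ x : Idx (lev M₀) p, (a : ℍ → ℂ) (beta x • τ) = _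
    rw [← Equiv.prod_comp (idxEquiv hp).symm]
    refine (Fintype.prod_option _).trans ((mul_comm _ _).trans (congrArg₂ (· * ·)
      (Finset.prod_congr rfl fun j _ => ?_) ?_))
    · rw [hF j]
      show (a : ℍ → ℂ) (beta ((idxEquiv hp).symm (j : OnePoint (ZMod p))) • τ) = _
      have h1 : gammaD (1 : (ZMod M₀)ˣ) ∈ gammaH M₀ :=
        ⟨gammaD_mem 1, Or.inl (by rw [gammaD_diag]; rfl)⟩
      rw [beta, mul_smul, aU_coe _ j rfl]
      exact a.2.2.1 _ h1 _
    · show (a : ℍ → ℂ) (beta ((idxEquiv hp).symm ∞) • τ) = _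
      rw [beta, mul_smul, aU_infty hp _ rfl]
      rfl
  have h := congrArg (qSer p) key
  rw [map_mul, map_prod, hLs, hDs] at h
  simp only [hFs] at h
  simpa [serH_apply, X0Analytic.rot] using h

end Series

end Fermat.Agent.Row48.Cover

end
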