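import Fermat.Agent.Row48.Cover.RootsGerms
import Fermat.Agent.Row48.Cover.Genus
import Fermat.Agent.FunctionFieldRR.PushPull

/-!
# The places of a model are analytic; `n ∣ ord` from a multiplier; the cover is étale

Every place of a model is seen by the Taylor series at a point or the `q`-series at a cusp. As
`X₀(M₀²)` has no elliptic points and parabolic elements lie in the group of the cover, it has a
uniformiser in the function field of `X₀(M₀²)`.
-/

set_option autoImplicit false

noncomputable section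

open CongruenceSubgroup UpperHalfPlane ModularCurve IntermediateField AlgebraicCurve Polynomial
open scoped MatrixGroups

namespace Fermat.Agent.Row48.Cover

open X0Analytic (modFun FLevel algGen algToField toModFun Below below_iff below_zero SeesPlace
  ConstCompat homSubring homPlace FibreData embPoint embCusp cosetPerm jEl)
open Gamma0Count (CosetSpace)
open Fermat.Agent.FunctionFieldRR

local notation "Qbar" => AlgebraicClosure ℚ

variable {M₀ : ℕ} [NeZero M₀] {L : Type} [Field L] [Algebra ℚ L] {φ : L →+* ℂ}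
  {F : IntermediateField L (LaurentSeries L)}

/-- A germ on quotients of functions. -/
def fracGerm (ψ : ↥(modH M₀) →+* LaurentSeries ℂ) (hψ : Function.Injective ψ) :
    FractionRing ↥(modH M₀) →+* LaurentSeries ℂ :=
  IsFractionRing.lift (A := ↥(modH M₀)) (g := ψ) hψ

theorem fracGerm_algebraMap (ψ : ↥(modH M₀) →+* LaurentSeries ℂ) (hψ : Function.Injective ψ)
    (a : ↥(modH M₀)) : fracGerm ψ hψ (algebraMap _ (FractionRing ↥(modH M₀)) a) = ψ a :=
  IsFractionRing.lift_algebraMap _ a

namespace IsModel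

variable (hF : IsModel (M₀ := M₀) φ F)

/-- A germ on a model. -/
def germF (ψ : ↥(modH M₀) →+* LaurentSeries ℂ) (hψ : Function.Injective ψ) :
    F →+* LaurentSeries ℂ :=
  (fracGerm ψ hψ).comp hF.toFrac

theorem germF_constCompat {ψ : ↥(modH M₀) →+* LaurentSeries ℂ} (hψ : Function.Injective ψ)
    (hc : ∀ c : ℂ, ψ (algebraMap ℂ _ c) = HahnSeries.single 0 c) :
    ConstCompat φ (hF.germF ψ hψ) := fun c => by
  have h : hF.toFrac (algebraMap L F c) =
      algebraMap ↥(modH M₀) _ (algebraMap ℂ ↥(modH M₀) (φ c)) := by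
    refine (serFrac M₀).injective ?_
    rw [serFrac_toFrac, serFrac_algebraMap]
    show coeffMap φ (algebraMap L (LaurentSeries L) c) = _
    rw [algebraMap_laurentSeries_eq_single, coeffMap_single]
    exact (X0Analytic.qSer_algebraMap (h := 1) (φ c)).symm
  rw [germF, RingHom.comp_apply, h, fracGerm_algebraMap, hc]

/-- On the base a germ agrees with the germ of `X₀(M₀²)`. -/
theorem germF_base {ψ : ↥(modH M₀) →+* LaurentSeries ℂ} (hψ : Function.Injective ψ)
    {ι : ↥(FLevel L (lev M₀)) →+* LaurentSeries ℂ}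
    (hι : ∀ a : ↥(algGen L (lev M₀)), ι (algToField L (lev M₀) a) =
      ψ ⟨(toModFun φ a : ℍ → ℂ), modFun_le_modH (toModFun φ a).2⟩)
    (x : ↥(FLevel L (lev M₀))) :
    hF.germF ψ hψ (IntermediateField.inclusion hF.base_le x) = ι x := by
  suffices h : (hF.germF ψ hψ).comp (IntermediateField.inclusion hF.base_le).toRingHom = ι from
    RingHom.congr_fun h x
  refine IsFractionRing.ringHom_ext (A := ↥(algGen L (lev M₀))) fun a => ?_
  show hF.germF ψ hψ (IntermediateField.inclusion hF.base_le (algToField L (lev M₀) a)) =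
    ι (algToField L (lev M₀) a)
  have h : hF.toFrac (IntermediateField.inclusion hF.base_le (algToField L (lev M₀) a)) =
      algebraMap _ _ (⟨(toModFun φ a : ℍ → ℂ), modFun_le_modH (toModFun φ a).2⟩ : ↥(modH M₀)) := by
    refine (serFrac M₀).injective ?_
    rw [serFrac_toFrac, serFrac_algebraMap]
    exact (X0Analytic.ser_toModFun φ a).symm
  rw [germF, RingHom.comp_apply, h, fracGerm_algebraMap, hι]

theorem germF_deckF (ψ ψ' : ↥(modH M₀) →+* LaurentSeries ℂ) (hψ : Function.Injective ψ)
    (hψ' : Function.Injective ψ') (d : (ZMod M₀)ˣ) (h : ∀ a, ψ (deckFn d a) = ψ' a) (x : F) :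
    hF.germF ψ hψ (hF.deckF d x) = hF.germF ψ' hψ' x := by
  rw [germF, germF, RingHom.comp_apply, RingHom.comp_apply, toFrac_deckF]
  have h1 : (fracGerm ψ hψ).comp (deckFrac d) = fracGerm ψ' hψ' :=
    IsFractionRing.ringHom_ext (A := ↥(modH M₀)) fun a => by
      rw [RingHom.comp_apply, deckFrac_algebraMap, fracGerm_algebraMap, fracGerm_algebraMap, h]
  exact RingHom.congr_fun h1 _

/-- What is known about a place: it is seen by a germ with denominator, and the base has a
uniformiser. -/
def PlaceOK (P : Place L F) : Prop :=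
  ∃ (ψ : ↥(modH M₀) →+* LaurentSeries ℂ) (hψ : Function.Injective ψ) (m per k : ℕ),
    0 < m ∧ GermOK ψ m per ∧ SeesPlace (hF.germF ψ hψ) P k ∧ (per : ℤ) * k = m ∧
      ∃ t : F, (t : LaurentSeries L) ∈ FLevel L (lev M₀) ∧ P.ord t = 1

variable [IsAlgClosed L] [IsFunctionField L F]

include hF in
/-- The places over a place seen by `ι` are seen by the conjugates of its germ. -/
theorem placeOK_of_fibre {P : Place L F} {v : Place L ↥(FLevel L (lev M₀))}
    (hv : ∀ c : ↥(FLevel L (lev M₀)), c ∈ v.toValuationSubring →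
      IntermediateField.inclusion hF.base_le c ∈ P.toValuationSubring)
    {ι : ↥(FLevel L (lev M₀)) →+* LaurentSeries ℂ} {m per : ℕ} (hm : 0 < m)
    (hmem : ∀ c, Below 0 (ι c) ↔ c ∈ v.toValuationSubring)
    (hord : ∀ c, (ι c).order * per = m * v.ord c)
    (ψ : (ZMod M₀)ˣ → ↥(modH M₀) →+* LaurentSeries ℂ) (hψ : ∀ e, Function.Injective (ψ e))
    (hdeck : ∀ e a, ψ 1 (deckFn e a) = ψ e a)
    (hc : ∀ e (c : ℂ), ψ e (algebraMap ℂ _ c) = HahnSeries.single 0 c)
    (hι : ∀ e (a : ↥(algGen L (lev M₀))), ι (algToField L (lev M₀) a) =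
      ψ e ⟨(toModFun φ a : ℍ → ℂ), modFun_le_modH (toModFun φ a).2⟩)
    (hok : ∀ e, GermOK (ψ e) m per) : hF.PlaceOK P := by
  classical
  have := X0Analytic.isFunctionField (N := lev M₀) φ
  set incl := (IntermediateField.inclusion hF.base_le).toRingHom with hincl
  obtain ⟨t, ht0, ht⟩ := exists_ord_eq_one v
  have htι : (ι t).order * per = m := by rw [hord, ht, mul_one]
  have htpos : 0 < (ι t).order := by
    have hm' : (0 : ℤ) < m := by exact_mod_cast hm
    by_contra hle
    nlinarith [(Int.natCast_nonneg per : (0 : ℤ) ≤ per)]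
  set g : (ZMod M₀)ˣ → F →+* LaurentSeries ℂ := fun e => hF.germF (ψ e) (hψ e) with hg
  have hgt : ∀ e, 0 < (g e (incl t)).order := fun e => by
    show 0 < (hF.germF (ψ e) (hψ e) (IntermediateField.inclusion hF.base_le t)).order
    rw [hF.germF_base (hψ e) (hι e)]
    exact htpos
  set Q : (ZMod M₀)ˣ → Place L F := fun e =>
    homPlace (g e) (hF.germF_constCompat (hψ e) (hc e)) (hgt e) with hQ
  -- regular at all the conjugates implies regular at `P`
  have hreg : ∀ f : F, (∀ e, Below 0 (g e f)) → f ∈ P.toValuationSubring := by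
    intro f hf
    have hmap : (hF.orbitPoly f).map (g 1) = ∏ e, (Polynomial.X - Polynomial.C (g e f)) := by
      rw [orbitPoly, Polynomial.map_prod]
      refine Finset.prod_congr rfl fun e _ => ?_
      rw [Polynomial.map_sub, Polynomial.map_X, Polynomial.map_C]
      exact congrArg (fun z => Polynomial.X - Polynomial.C z)
        (hF.germF_deckF (ψ 1) (ψ e) (hψ 1) (hψ e) e (hdeck e) f)
    have hlifts : (hF.orbitPoly f).map (g 1) ∈
        Polynomial.lifts (homSubring (RingHom.id (LaurentSeries ℂ))).subtype := by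
      rw [hmap]
      refine prod_mem fun e _ => ?_
      rw [show Polynomial.X - Polynomial.C (g e f) = Polynomial.X + Polynomial.C (-g e f) by
        rw [map_neg]; ring]
      exact add_mem (Polynomial.X_mem_lifts _) (Polynomial.C'_mem_lifts
        (show -g e f ∈ Set.range (homSubring (RingHom.id (LaurentSeries ℂ))).subtype from
          ⟨-⟨g e f, hf e⟩, rfl⟩))
    have hcoef : ∀ i, (hF.orbitPoly f).coeff i ∈ P.toValuationSubring := by
      intro i
      have hinv := hF.mem_base_of_invariant (x := (hF.orbitPoly f).coeff i) fun d => by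
        conv_rhs => rw [← hF.orbitPoly_invariant f d]
        rw [Polynomial.coeff_map]; rfl
      refine (show incl ⟨_, hinv⟩ = (hF.orbitPoly f).coeff i from rfl) ▸ hv _ ((hmem _).mp ?_)
      rw [← hF.germF_base (hψ 1) (hι 1)]
      obtain ⟨z, hz⟩ := (Polynomial.lifts_iff_coeff_lifts _).mp hlifts i
      rw [Polynomial.coeff_map] at hz
      show Below 0 (g 1 ((hF.orbitPoly f).coeff i))
      rw [← hz]
      exact z.2
    by_contra hfP
    have hf0 : f ≠ 0 := fun h => hfP (h ▸ zero_mem _)
    have hint : IsIntegral P.toValuationSubring f := by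
      have hmon : (hF.orbitPoly f).Monic :=
        Polynomial.monic_prod_of_monic _ _ fun e _ => Polynomial.monic_X_sub_C _
      have hl : hF.orbitPoly f ∈ Polynomial.lifts (algebraMap P.toValuationSubring F) := by
        rw [Polynomial.lifts_iff_coeff_lifts]
        exact fun i => ⟨⟨_, hcoef i⟩, rfl⟩
      obtain ⟨R, hR, -, hRmon⟩ := Polynomial.lifts_and_natDegree_eq_and_monic hl hmon
      refine ⟨R, hRmon, ?_⟩
      rw [← Polynomial.eval_map, hR, orbitPoly, Polynomial.eval_prod]
      refine Finset.prod_eq_zero (Finset.mem_univ (1 : (ZMod M₀)ˣ)) ?_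
      simp [deckF_one]
    obtain ⟨y, hy⟩ := IsIntegrallyClosed.isIntegral_iff.mp hint
    exact hfP (hy ▸ y.2)
  -- hence `P` is one of the places
  obtain ⟨e, he⟩ : ∃ e, Q e = P := by
    by_contra hne
    push Not at hne
    obtain ⟨f, hf0, hf⟩ := exists_ord_eq (insert P (Finset.univ.image Q))
      fun w => if w = P then (-1 : ℤ) else 0
    have h1 := hf P (Finset.mem_insert_self _ _)
    rw [if_pos rfl] at h1
    have h2 : f ∈ P.toValuationSubring := hreg f fun e => by
      refine (X0Analytic.mem_homPlace (hF.germF_constCompat (hψ e) (hc e)) (hgt e)).mp ?_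
      show f ∈ (Q e).toValuationSubring
      rw [← ord_nonneg_iff]
      rw [hf (Q e) (Finset.mem_insert_of_mem (Finset.mem_image_of_mem _ (Finset.mem_univ e))),
        if_neg (hne e)]
    have h3 := ord_nonneg_of_mem P h2
    omega
  obtain ⟨k, hk⟩ := X0Analytic.exists_seesPlace (hF.germF_constCompat (hψ e) (hc e)) (hgt e)
  rw [show homPlace (g e) (hF.germF_constCompat (hψ e) (hc e)) (hgt e) = P from he] at hk
  -- the denominator
  have hdvd : ∀ f : F, f ≠ 0 → (m : ℤ) ∣ (per : ℤ) * (g e f).order := by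
    intro f hf
    obtain ⟨a, b, hb, hab⟩ := hF.rep' f
    have hfrac : hF.toFrac f * algebraMap _ _ b = algebraMap _ _ a := by
      refine (serFrac M₀).injective ?_
      rw [map_mul, serFrac_toFrac, serFrac_algebraMap, serFrac_algebraMap, hab]
    have h1 := congrArg (fracGerm (ψ e) (hψ e)) hfrac
    rw [map_mul, fracGerm_algebraMap, fracGerm_algebraMap] at h1
    change g e f * ψ e b = ψ e a at h1
    have hb' : ψ e b ≠ 0 := (map_ne_zero_iff _ (hψ e)).mpr hb
    have ha : a ≠ 0 := fun h => by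
      rw [h, map_zero] at h1
      exact mul_ne_zero ((_root_.map_ne_zero _).mpr hf) hb' h1
    have h2 := congrArg HahnSeries.order h1
    rw [HahnSeries.order_mul ((_root_.map_ne_zero _).mpr hf) hb'] at h2
    have := Int.dvd_sub ((hok e).1 a ha) ((hok e).1 b hb)
    rwa [← mul_sub, ← h2, add_sub_cancel_right] at this
  have hkt : (k : ℤ) * P.ord (incl t) * per = m := by
    rw [← hk.2]
    show (hF.germF (ψ e) (hψ e) (IntermediateField.inclusion hF.base_le t)).order * per = m
    rw [hF.germF_base (hψ e) (hι e), htι]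
  obtain ⟨u, hu0, hu⟩ := exists_ord_eq_one P
  obtain ⟨l, hl⟩ := hdvd u hu0
  rw [hk.2, hu, mul_one] at hl
  have hm' : (0 : ℤ) < m := by exact_mod_cast hm
  have hone : l * P.ord (incl t) = 1 := by
    have : (m : ℤ) * (l * P.ord (incl t)) = m * 1 := by
      rw [mul_one, ← mul_assoc, ← hl]
      linear_combination hkt
    exact mul_left_cancel₀ hm'.ne' this
  have hlpos : 0 ≤ l := by
    have : (0 : ℤ) ≤ m * l := hl ▸ mul_nonneg (Int.natCast_nonneg _) (Int.natCast_nonneg _)
    nlinarith
  have hl1 : l = 1 := Int.eq_one_of_mul_eq_one_right hlpos hone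
  rw [hl1, one_mul] at hone
  rw [hl1, mul_one] at hl
  exact ⟨ψ e, hψ e, m, per, k, hm, hok e, hk, hl, incl t, t.2, hone⟩

include hF in
/-- **Every place of a model is analytic.** -/
theorem placeOK (h : LevelOK M₀) (P : Place L F) : hF.PlaceOK P := by
  classical
  let : Algebra ↥(FLevel L (lev M₀)) F :=
    (IntermediateField.inclusion hF.base_le).toRingHom.toAlgebra
  have : IsScalarTower L ↥(FLevel L (lev M₀)) F := IsScalarTower.of_algebraMap_eq fun a => rfl
  have : IsScalarTower ↥(FLevel L (lev M₀)) F (LaurentSeries L) :=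
    IsScalarTower.of_algebraMap_eq fun a => rfl
  have : Algebra.IsIntegral ↥(FLevel L (lev M₀)) F := ⟨fun x =>
    (isIntegral_algHom_iff (IsScalarTower.toAlgHom ↥(FLevel L (lev M₀)) F (LaurentSeries L))
      Subtype.val_injective).mp (hF.isIntegral_base x)⟩
  have := X0Analytic.isFunctionField (N := lev M₀) φ
  set v := P.restrict ↥(FLevel L (lev M₀)) with hvdef
  have hv : ∀ c : ↥(FLevel L (lev M₀)), c ∈ v.toValuationSubring →
      IntermediateField.inclusion hF.base_le c ∈ P.toValuationSubring := fun c hc => by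
    rw [← ord_nonneg_iff] at hc ⊢
    show 0 ≤ P.ord (algebraMap ↥(FLevel L (lev M₀)) F c)
    rw [P.ord_restrict (F := ↥(FLevel L (lev M₀)))]
    exact mul_nonneg (Int.natCast_nonneg _) hc
  have hdeck1 : ∀ (g : SL(2, ℤ)) (e : (ZMod M₀)ˣ) (a : ↥(modH M₀)),
      convH (g * (gammaD (1 : (ZMod M₀)ˣ))⁻¹) (deckFn e a) = convH (g * (gammaD e)⁻¹) a := by
    intro g e a
    rw [← convH_deckFn, ← convH_deckFn, deckFn_one]
  have hconv : ∀ (g : SL(2, ℤ)) (e : (ZMod M₀)ˣ) (b : ↥(algGen L (lev M₀))),
      X0Analytic.conj (g : CosetSpace (lev M₀)) (toModFun φ b) =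
        convH (g * (gammaD e)⁻¹) ⟨(toModFun φ b : ℍ → ℂ), modFun_le_modH (toModFun φ b).2⟩ := by
    intro g e b
    refine Subtype.ext (funext fun z => ?_)
    rw [← coset_mul_gammaD g e, X0Analytic.conj_mk_apply, convH_apply]
  -- a point
  have hpoint : ∀ (τ : ℍ) (y : ↥(FLevel L (lev M₀))) (m : ℕ) (σ : Equiv.Perm (CosetSpace (lev M₀)))
      (pl : CosetSpace (lev M₀) → Place L ↥(FLevel L (lev M₀))), 0 < m →
      FibreData (embPoint φ τ) y m σ pl → (∀ s, Function.minimalPeriod σ s = m) →
      0 < v.ord y → hF.PlaceOK P := by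
    intro τ y m σ pl hm hpl hper hy
    obtain ⟨s, hs⟩ := hpl.2.2.2.2 v hy
    obtain ⟨g, rfl⟩ := QuotientGroup.mk_surjective s
    refine hF.placeOK_of_fibre (m := m) (per := m) hv (ι := embPoint φ τ g) hm
      (fun c => by rw [← hs]; exact hpl.1 _ c)
      (fun c => by
        rw [← hs]
        have := hpl.2.2.1 g c
        rwa [hper] at this)
      (fun e => germPt τ (g * (gammaD e)⁻¹)) (fun e => germPt_injective _ _) (fun e a => ?_)
      (fun e c => germPt_algebraMap _ _ c) (fun e b => ?_) fun e => germOK_point _ _ _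
    · exact congrArg (fun z => X0Analytic.psL (X0Analytic.tayHom τ
        (X0Analytic.perToHol (lev M₀) z))) (hdeck1 g e a)
    · rw [X0Analytic.embPoint_algToField, hconv g e b]
      rfl
  rcases lt_or_ge (v.ord (jEl L (lev M₀))) 0 with hj | hj
  · obtain ⟨pl, hpl⟩ := X0Analytic.exists_places_infty (N := lev M₀) φ
    obtain ⟨s, hs⟩ := hpl.2.2.2.2 v (by rw [v.ord_inv]; omega)
    obtain ⟨g, rfl⟩ := QuotientGroup.mk_surjective s
    refine hF.placeOK_of_fibre (m := lev M₀)
      (per := Function.minimalPeriod (cosetPerm ModularGroup.T) (g : CosetSpace (lev M₀))) hv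
      (ι := embCusp φ g) (Nat.pos_of_ne_zero (NeZero.ne _))
      (fun c => by rw [← hs]; exact hpl.1 _ c) (fun c => by rw [← hs]; exact hpl.2.2.1 g c)
      (fun e => germCusp (g * (gammaD e)⁻¹)) (fun e => germCusp_injective _) (fun e a => ?_)
      (fun e c => germCusp_algebraMap _ c) (fun e b => ?_) fun e => germOK_cusp ?_
    · exact congrArg (X0Analytic.qSer (lev M₀)) (hdeck1 g e a)
    · rw [X0Analytic.embCusp_algToField, hconv g e b]
      rfl
    · rw [coset_mul_gammaD, ← X0Analytic.cosetPerm_iterate]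
      exact Function.iterate_minimalPeriod
  obtain ⟨c, hc⟩ := exists_residue v ((ord_nonneg_iff v _).mp hj)
  have hne : jEl L (lev M₀) - algebraMap L ↥(FLevel L (lev M₀)) c ≠ 0 := fun h0 =>
    X0Analytic.transcendental_jEl φ (sub_eq_zero.mp h0 ▸ isAlgebraic_algebraMap c)
  have hpos : 0 < v.ord (jEl L (lev M₀) - algebraMap L ↥(FLevel L (lev M₀)) c) := by
    have := hc.resolve_left hne
    omega
  by_cases h0 : c = 0
  · subst h0
    obtain ⟨pl, hpl⟩ := X0Analytic.exists_places_zero (N := lev M₀) φ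
    exact hpoint _ _ 3 _ pl (by norm_num) hpl (fun s => period_eq_of_ne Nat.prime_three
      X0Analytic.ST_pow_three (ST_smul_ne h s)) hpos
  by_cases h1 : c = 1728
  · subst h1
    obtain ⟨pl, hpl⟩ := X0Analytic.exists_places_1728 (N := lev M₀) φ
    exact hpoint _ _ 2 _ pl (by norm_num) hpl (fun s => period_eq_of_ne Nat.prime_two
      X0Analytic.S_pow_two (S_smul_ne h s)) hpos
  obtain ⟨τ, hτ⟩ := X0Analytic.exists_jFun_eq (φ c)
  obtain ⟨pl, hpl⟩ := X0Analytic.exists_places_generic (N := lev M₀) φ hτ h0 h1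
  exact hpoint _ _ 1 _ pl one_pos hpl (fun s => by
    rw [Function.minimalPeriod_eq_one_iff_isFixedPt]
    show ((1 : SL(2, ℤ)) • s) = s
    rw [one_smul]) hpos

end IsModel

/-- **A good multiplier forces all orders on a model to be divisible by `n`.** -/
theorem dvd_ord_of_hasMult [IsAlgClosed L] (hF : IsModel (M₀ := M₀) φ F) [IsFunctionField L F]
    (h : LevelOK M₀) {n : ℕ} [NeZero n] (f : F) (ψ : goodHom M₀ (ZMod n))
    (hm : HasMult n (coeffMap φ (f : LaurentSeries L)) ψ) (P : Place L F) : (n : ℤ) ∣ P.ord f := by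
  obtain ⟨θ, hθ, m, per, k, hm0, hok, hk, hpk, -⟩ := hF.placeOK h P
  obtain ⟨G, b, a, hG, hG0, hb, ha, hab⟩ := hm
  have hb' : θ b ≠ 0 := (map_ne_zero_iff _ hθ).mpr hb
  have ha0 : a ≠ 0 := fun h0 => hG0 (funext fun z => by
    have h1 := congrFun ha z
    rw [h0] at h1
    exact eq_zero_of_pow_eq_zero h1.symm)
  have hfrac : hF.toFrac f * algebraMap _ _ (b ^ n) = algebraMap _ _ a := by
    refine (serFrac M₀).injective ?_
    rw [map_mul, IsModel.serFrac_toFrac, serFrac_algebraMap, serFrac_algebraMap, hab]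
  obtain ⟨X, hX, hXd⟩ := hok.2 n ψ G hG a ha ha0
  have h1 := congrArg (fracGerm θ hθ) hfrac
  rw [map_mul, fracGerm_algebraMap, fracGerm_algebraMap, map_pow, hX] at h1
  change hF.germF θ hθ f * θ b ^ n = X ^ n at h1
  have hf0 : hF.germF θ hθ f ≠ 0 := fun h0 => by
    rw [h0, zero_mul] at h1
    have : θ a = 0 := by rw [hX, ← h1]
    exact (map_ne_zero_iff _ hθ).mpr ha0 this
  have h2 := congrArg HahnSeries.order h1
  rw [HahnSeries.order_mul hf0 (pow_ne_zero n hb'), HahnSeries.order_pow, HahnSeries.order_pow,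
    hk.2, nsmul_eq_mul, nsmul_eq_mul] at h2
  obtain ⟨x, hx⟩ := hXd
  obtain ⟨y, hy⟩ := hok.1 b hb
  refine ⟨x - y, mul_left_cancel₀ (Int.natCast_ne_zero.mpr hm0.ne') ?_⟩
  linear_combination (per : ℤ) * h2 + (n : ℤ) * hx - (n : ℤ) * hy - P.ord f * hpk

/-- **The cover is étale over `X₀(M₀²)` in characteristic zero.** -/
theorem CoverFns.etale (C : CoverFns M₀) (h : LevelOK M₀) : C.Etale := fun w => by
  have := C.isFunctionField_field
  obtain ⟨-, -, -, -, -, -, -, -, -, t, ht, hw⟩ := C.isModel_field.placeOK h w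
  exact ⟨t, ht, hw⟩

end Fermat.Agent.Row48.Cover

end
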