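import Fermat.Agent.J0Torsion.LocalRoot
import Fermat.Agent.MWJ0.Aut
import Fermat.Agent.FunctionFieldRR.Genus
import Fermat.Prelude.Def_ModularCurve_ModularUnit

/-!
# Classes of roots are algebraic

In a field of series over `ℂ` stable under the automorphisms fixing `ℚ̄`, a function with orders
divisible by `n` is, up to `n`-th powers, a series over `ℚ̄`, provided there are finitely many
classes: in each class there is a unique normalised element of largest order at `q = 0` with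
bounded poles above `j = ∞`.
-/

set_option autoImplicit false

noncomputable section

open AlgebraicCurve ModularCurve
open Fermat.Agent.J0Torsion (IsOrderFun)

namespace Fermat.Agent.Row48.Cover.RootsBest

section Place

variable {K F : Type*} [Field K] [Field F] [Algebra K F] {ν : F → ℤ}

/-- A nontrivial order function is a positive multiple of the order at a place. -/
theorem exists_place_mul [IsAlgClosed K] [FunctionFieldRR.IsFunctionField K F]
    (hν : IsOrderFun K ν) {s : F} (hs : s ≠ 0) (hs0 : ν s ≠ 0) :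
    ∃ (P : Place K F) (k : ℤ), 0 < k ∧ ∀ f : F, f ≠ 0 → ν f = k * P.ord f := by
  have htop : hν.ring ≠ ⊤ := fun htop => by
    have h1 := (hν.mem_ring hs).mp (htop ▸ ValuationSubring.mem_top s)
    have h2 := (hν.mem_ring (inv_ne_zero hs)).mp (htop ▸ ValuationSubring.mem_top s⁻¹)
    rw [hν.map_inv hs] at h2
    omega
  set P : Place K F := FunctionFieldRR.placeOfValuationSubring hν.ring
    (fun a => by
      rcases eq_or_ne a 0 with rfl | ha
      · exact Or.inl (_root_.map_zero _)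
      · exact Or.inr (hν.map_const a ha).ge) htop with hP
  obtain ⟨t, ht0, ht⟩ := FunctionFieldRR.exists_ord_eq_one P
  have hnn : ∀ f : F, f ≠ 0 → 0 ≤ P.ord f → 0 ≤ ν f := fun f hf h =>
    (hν.mem_ring hf).mp ((FunctionFieldRR.ord_nonneg_iff P f).mp h)
  have key : ∀ f : F, f ≠ 0 → ν f = ν t * P.ord f := by
    intro f hf
    have htj : t ^ P.ord f ≠ 0 := zpow_ne_zero _ ht0
    set e := f / t ^ P.ord f with he
    have he0 : e ≠ 0 := div_ne_zero hf htj
    have hPe : P.ord e = 0 := by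
      rw [he, FunctionFieldRR.ord_div P hf htj, P.ord_zpow, ht]; ring
    have h1 := hnn e he0 hPe.ge
    have h2 := hnn e⁻¹ (inv_ne_zero he0) (by rw [P.ord_inv, hPe]; simp)
    rw [hν.map_inv he0] at h2
    have hfe : f = e * t ^ P.ord f := by rw [he, div_mul_cancel₀ _ htj]
    conv_lhs => rw [hfe]
    rw [hν.map_mul _ _ he0 htj, hν.map_zpow ht0, mul_comm (ν t)]
    omega
  refine ⟨P, ν t, lt_of_le_of_ne (hnn t ht0 (by rw [ht]; exact zero_le_one)) fun h => hs0 ?_, key⟩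
  rw [key s hs, ← h, zero_mul]

end Place

variable {F : IntermediateField ℂ (LaurentSeries ℂ)}

/-- Order at `q = 0`. -/
def ordQ (f : F) : ℤ := (f : LaurentSeries ℂ).order

lemma coe_algebraMap (e : ℂ) :
    ((algebraMap ℂ F e : F) : LaurentSeries ℂ) = HahnSeries.single 0 e :=
  ModularCurve.algebraMap_laurentSeries_eq_single ℂ e

lemma ordQ_mul {f g : F} (hf : f ≠ 0) (hg : g ≠ 0) : ordQ (f * g) = ordQ f + ordQ g := by
  rw [ordQ, MulMemClass.coe_mul]
  exact HahnSeries.order_mul (fun h => hf (Subtype.ext h)) (fun h => hg (Subtype.ext h))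

lemma ordQ_pow (g : F) (k : ℕ) : ordQ (g ^ k) = k * ordQ g := by
  rw [ordQ, SubmonoidClass.coe_pow, HahnSeries.order_pow, nsmul_eq_mul]
  rfl

lemma ordQ_const {e : ℂ} (he : e ≠ 0) : ordQ (algebraMap ℂ F e) = 0 := by
  rw [ordQ, coe_algebraMap, HahnSeries.order_single he]

lemma isOrderFun_ordQ : IsOrderFun ℂ (ordQ (F := F)) where
  map_mul _ _ hx hy := ordQ_mul hx hy
  map_const _ hc := ordQ_const hc
  nonneg_add x y _ _ hxy h1 h2 := by
    have hne : (x : LaurentSeries ℂ) + (y : LaurentSeries ℂ) ≠ 0 := fun h => hxy (Subtype.ext h)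
    exact (le_min h1 h2).trans (HahnSeries.min_order_le_order_add hne)

lemma leadingCoeff_powK (x : LaurentSeries ℂ) (k : ℕ) :
    (x ^ k).leadingCoeff = x.leadingCoeff ^ k := by
  induction k with
  | zero => rw [pow_zero, pow_zero, HahnSeries.leadingCoeff_one]
  | succ k ih => rw [pow_succ, pow_succ, HahnSeries.leadingCoeff_mul, ih]

variable [FunctionFieldRR.IsFunctionField ℂ F]

/-- Normalised functions with orders divisible by `n` and bounded poles only where `jE` has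
poles. -/
def Cand (jE : F) (n B : ℕ) (f : F) : Prop :=
  f ≠ 0 ∧ (∀ P : Place ℂ F, (n : ℤ) ∣ P.ord f) ∧
    (∀ P : Place ℂ F, (0 ≤ P.ord jE → 0 ≤ P.ord f) ∧ -(B : ℤ) ≤ P.ord f) ∧
    (f : LaurentSeries ℂ).leadingCoeff = 1

/-- Same class modulo `n`-th powers. -/
def Rel (n : ℕ) (f f' : F) : Prop := ∃ g : F, g ≠ 0 ∧ f' = g ^ n * f

omit [FunctionFieldRR.IsFunctionField ℂ F] in
lemma Rel.trans {n : ℕ} {f f' f'' : F} (h : Rel n f f') (h' : Rel n f' f'') : Rel n f f'' := by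
  obtain ⟨g, hg, rfl⟩ := h
  obtain ⟨g', hg', rfl⟩ := h'
  exact ⟨g' * g, mul_ne_zero hg' hg, by rw [mul_pow, mul_assoc]⟩

/-- The normalised element of largest order at `q = 0` in its class. -/
def Best (jE : F) (n B : ℕ) (f : F) : Prop :=
  Cand jE n B f ∧ ∀ f' : F, Cand jE n B f' → Rel n f f' → ordQ f' ≤ ordQ f

variable {jE : F} {n : ℕ}

lemma exists_ordQ_le (B : ℕ) : ∃ C : ℤ, ∀ f : F, Cand jE n B f → ordQ f ≤ C := by
  classical
  by_cases htriv : ∀ s : F, s ≠ 0 → ordQ s = 0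
  · exact ⟨0, fun f hf => (htriv f hf.1).le⟩
  push Not at htriv
  obtain ⟨s, hs, hs0⟩ := htriv
  obtain ⟨P, k, hk, hord⟩ := exists_place_mul isOrderFun_ordQ hs hs0
  set S := (FunctionFieldRR.finite_ord_neg (K := ℂ) jE).toFinset
  refine ⟨k * (B * S.card), fun f hf => ?_⟩
  set D := FunctionFieldRR.divisorOf (K := ℂ) f with hD
  have hdeg : D.sum (fun _ m => m) = 0 := by
    rw [← FunctionFieldRR.degree_eq_sum]; exact FunctionFieldRR.degree_divisorOf f
  set T := insert P (D.support ∪ S)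
  rw [Finsupp.sum_of_support_subset D (s := T)
    (fun w hw => Finset.mem_insert_of_mem (Finset.mem_union_left _ hw)) _ fun _ _ => rfl,
    ← Finset.add_sum_erase T _ (Finset.mem_insert_self P _)] at hdeg
  have hlb : ∀ w ∈ T.erase P, (if w ∈ S then -(B : ℤ) else 0) ≤ D w := fun w _ => by
    rw [hD, FunctionFieldRR.divisorOf_apply]
    split_ifs with hw
    · exact (hf.2.2.1 w).2
    · refine (hf.2.2.1 w).1 (not_lt.mp fun hlt => hw ?_)
      rwa [Set.Finite.mem_toFinset]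
  have hsum := Finset.sum_le_sum hlb
  rw [← Finset.sum_filter, Finset.sum_const, nsmul_eq_mul] at hsum
  have hcard : ((T.erase P).filter fun w => w ∈ S).card ≤ S.card :=
    Finset.card_le_card fun w hw => (Finset.mem_filter.mp hw).2
  have hB : (((T.erase P).filter fun w => w ∈ S).card : ℤ) * B ≤ S.card * B :=
    mul_le_mul_of_nonneg_right (Int.ofNat_le.mpr hcard) (Int.natCast_nonneg B)
  rw [hD, FunctionFieldRR.divisorOf_apply] at hdeg
  rw [hord f hf.1]
  refine mul_le_mul_of_nonneg_left ?_ hk.le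
  rw [mul_comm (B : ℤ)]
  linarith

lemma exists_best {B : ℕ} {f : F} (hf : Cand jE n B f) :
    ∃ f', Best jE n B f' ∧ Rel n f f' := by
  obtain ⟨C, hC⟩ := exists_ordQ_le (jE := jE) (n := n) B
  have hrefl : Rel n f f := ⟨1, one_ne_zero, by rw [one_pow, one_mul]⟩
  obtain ⟨k, ⟨f', hf', hrel, hk⟩, hmax⟩ :=
    Int.exists_greatest_of_bdd (P := fun k => ∃ f', Cand jE n B f' ∧ Rel n f f' ∧ ordQ f' = k)
      ⟨C, fun z ⟨f', hf', _, hz⟩ => hz ▸ hC f' hf'⟩ ⟨_, f, hf, hrefl, rfl⟩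
  exact ⟨f', ⟨hf', fun f'' hf'' hrel' => hk ▸ hmax _ ⟨f'', hf'', hrel.trans hrel', rfl⟩⟩, hrel⟩

omit [FunctionFieldRR.IsFunctionField ℂ ↥F] in
lemma eq_of_best {B : ℕ} (hn : n ≠ 0) {f₁ f₂ : F} (h₁ : Best jE n B f₁)
    (h₂ : Best jE n B f₂) (hrel : Rel n f₂ f₁) : f₁ = f₂ := by
  obtain ⟨g, hg, hfg⟩ := hrel
  have hF₂ : f₂ ≠ 0 := h₂.1.1
  have hback : Rel n f₁ f₂ := ⟨g⁻¹, inv_ne_zero hg, by
    rw [hfg, ← mul_assoc, ← mul_pow, inv_mul_cancel₀ hg, one_pow, one_mul]⟩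
  have hordeq : ordQ f₁ = ordQ f₂ :=
    le_antisymm (h₂.2 f₁ h₁.1 ⟨g, hg, hfg⟩) (h₁.2 f₂ h₂.1 hback)
  have hordg : ordQ g = 0 := by
    rw [hfg, ordQ_mul (pow_ne_zero n hg) hF₂, ordQ_pow] at hordeq
    have : (n : ℤ) * ordQ g = 0 := by linarith
    exact (mul_eq_zero.mp this).resolve_left (Int.natCast_ne_zero.mpr hn)
  set c := (g : LaurentSeries ℂ).leadingCoeff with hcdef
  have hc : c ^ n = 1 := by
    have h := congrArg (fun z : F => (z : LaurentSeries ℂ).leadingCoeff) hfg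
    simp only [MulMemClass.coe_mul, SubmonoidClass.coe_pow, HahnSeries.leadingCoeff_mul,
      leadingCoeff_powK, h₁.1.2.2.2, h₂.1.2.2.2, mul_one] at h
    exact h.symm
  have hc0 : c ≠ 0 := fun h0 => by rw [h0, zero_pow hn] at hc; exact zero_ne_one hc
  set g' : F := algebraMap ℂ _ c⁻¹ * g with hg'def
  have hg'n : g' ^ n = g ^ n := by
    rw [hg'def, mul_pow, ← map_pow, inv_pow, hc, inv_one, map_one, one_mul]
  have hg'0 : g' ≠ 0 := fun h0 => hg (pow_eq_zero_iff hn |>.mp (by rw [← hg'n, h0, zero_pow hn]))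
  rw [← hg'n] at hfg
  by_cases h1 : g' = 1
  · rw [hfg, h1, one_pow, one_mul]
  exfalso
  set h := g' - 1 with hhdef
  have hh0 : h ≠ 0 := sub_ne_zero.mpr h1
  set d := (h : LaurentSeries ℂ).leadingCoeff with hddef
  have hd0 : d ≠ 0 := HahnSeries.leadingCoeff_ne_zero.mpr fun h0 => hh0 (Subtype.ext h0)
  set G : F := (algebraMap ℂ _ d⁻¹ * h) ^ n * f₂ with hGdef
  have hdh : algebraMap ℂ F d⁻¹ * h ≠ 0 :=
    mul_ne_zero ((map_ne_zero _).mpr (inv_ne_zero hd0)) hh0
  have hg'ord : ordQ g' = 0 := by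
    rw [hg'def, ordQ_mul ((map_ne_zero _).mpr (inv_ne_zero hc0)) hg,
      ordQ_const (inv_ne_zero hc0), hordg, add_zero]
  have hg'lead : (g' : LaurentSeries ℂ).leadingCoeff = 1 := by
    rw [hg'def, MulMemClass.coe_mul, HahnSeries.leadingCoeff_mul, coe_algebraMap,
      HahnSeries.leadingCoeff_of_single, ← hcdef, inv_mul_cancel₀ hc0]
  have hhpos : 0 < ordQ h := by
    have hne : (h : LaurentSeries ℂ) ≠ 0 := fun h0 => hh0 (Subtype.ext h0)
    by_contra hle
    push Not at hle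
    refine mt HahnSeries.coeff_order_eq_zero.mp hne ?_
    have hcoeh : (h : LaurentSeries ℂ) = (g' : LaurentSeries ℂ) - 1 := by
      rw [hhdef, AddSubgroupClass.coe_sub, OneMemClass.coe_one]
    rw [show (h : LaurentSeries ℂ).order = ordQ h from rfl, hcoeh, HahnSeries.coeff_sub,
      HahnSeries.coeff_one]
    rcases hle.lt_or_eq with hlt | heq
    · rw [HahnSeries.coeff_eq_zero_of_lt_order (show _ < ordQ g' by rw [hg'ord]; exact hlt),
        if_neg hlt.ne, sub_zero]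
    · rw [heq, if_pos rfl, ← hg'ord, ← hg'lead, HahnSeries.leadingCoeff_eq]
      exact sub_self _
  have hGord : ∀ w : Place ℂ F, w.ord G = n * w.ord h + w.ord f₂ := fun w => by
    rw [hGdef, w.ord_mul (pow_ne_zero n hdh) hF₂, FunctionFieldRR.ord_pow,
      w.ord_mul ((map_ne_zero _).mpr (inv_ne_zero hd0)) hh0, FunctionFieldRR.ord_algebraMap,
      zero_add]
  have hge : ∀ w : Place ℂ F, min (w.ord f₁) (w.ord f₂) ≤ w.ord G := fun w => by
    have hhw : min (w.ord g') 0 ≤ w.ord h := by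
      rw [hhdef, sub_eq_add_neg]
      refine FunctionFieldRR.le_ord_add (P := w) (by rwa [← sub_eq_add_neg]) (min_le_left _ _) ?_
      rw [FunctionFieldRR.ord_neg, w.ord_one]
      exact min_le_right _ _
    rw [hGord, hfg, w.ord_mul (pow_ne_zero n hg'0) hF₂, FunctionFieldRR.ord_pow]
    have hn' : (0 : ℤ) ≤ n := Int.natCast_nonneg n
    rcases min_le_iff.mp hhw with hh | hh
    · exact min_le_of_left_le (by nlinarith)
    · exact min_le_of_right_le (by nlinarith)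
  have hGcand : Cand jE n B G := by
    refine ⟨mul_ne_zero (pow_ne_zero n hdh) hF₂, fun w => ?_, fun w => ⟨fun hj => ?_, ?_⟩, ?_⟩
    · rw [hGord]
      exact (dvd_mul_right _ _).add (h₂.1.2.1 w)
    · exact (le_min ((h₁.1.2.2.1 w).1 hj) ((h₂.1.2.2.1 w).1 hj)).trans (hge w)
    · exact (le_min (h₁.1.2.2.1 w).2 (h₂.1.2.2.1 w).2).trans (hge w)
    · rw [hGdef, MulMemClass.coe_mul, SubmonoidClass.coe_pow, MulMemClass.coe_mul,
        HahnSeries.leadingCoeff_mul, leadingCoeff_powK, HahnSeries.leadingCoeff_mul, coe_algebraMap,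
        HahnSeries.leadingCoeff_of_single, ← hddef, inv_mul_cancel₀ hd0, one_pow, one_mul,
        h₂.1.2.2.2]
  have hle := h₂.2 G hGcand ⟨_, hdh, hGdef⟩
  rw [hGdef, ordQ_mul (pow_ne_zero n hdh) hF₂, ordQ_pow,
    ordQ_mul ((map_ne_zero _).mpr (inv_ne_zero hd0)) hh0, ordQ_const (inv_ne_zero hd0),
    zero_add] at hle
  have : 0 < (n : ℤ) * ordQ h := mul_pos (Int.natCast_pos.mpr (Nat.pos_of_ne_zero hn)) hhpos
  linarith

omit [FunctionFieldRR.IsFunctionField ℂ ↥F] in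
lemma finite_best (hn : n ≠ 0) {Φ : Type*} [Finite Φ] (cls : F → Φ → Prop)
    (hex : ∀ f : F, f ≠ 0 → (∀ P : Place ℂ F, (n : ℤ) ∣ P.ord f) → ∃ c, cls f c)
    (hrel : ∀ f f' c, cls f c → cls f' c → ∃ g : F, g ≠ 0 ∧ f' = g ^ n * f) (B : ℕ) :
    {f : F | Best jE n B f}.Finite := by
  have hex' : ∀ f : {f : F | Best jE n B f}, ∃ c, cls f.1 c := fun f => hex _ f.2.1.1 f.2.1.2.1
  choose c hc using hex'
  refine Set.finite_coe_iff.mp (Finite.of_injective c fun f₁ f₂ h => Subtype.ext ?_)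
  exact eq_of_best hn f₁.2 f₂.2 (hrel _ _ _ (hc f₂) (h ▸ hc f₁))

/-- An automorphism of `ℂ` on the series of `F`. -/
def coeffAut (σ : ℂ ≃+* ℂ) (h : ∀ x ∈ F, coeffMap (σ : ℂ →+* ℂ) x ∈ F)
    (h' : ∀ x ∈ F, coeffMap (σ.symm : ℂ →+* ℂ) x ∈ F) : F ≃+* F where
  toFun x := ⟨coeffMap (σ : ℂ →+* ℂ) x, h _ x.2⟩
  invFun x := ⟨coeffMap (σ.symm : ℂ →+* ℂ) x, h' _ x.2⟩
  left_inv x := Subtype.ext (HahnSeries.ext (funext fun k => by
    simp [ModularCurve.coeffMap_coeff]))
  right_inv x := Subtype.ext (HahnSeries.ext (funext fun k => by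
    simp [ModularCurve.coeffMap_coeff]))
  map_mul' x y := Subtype.ext (by simp)
  map_add' x y := Subtype.ext (by simp)

omit [FunctionFieldRR.IsFunctionField ℂ F] in
lemma order_coeffAut (τ : ℂ →+* ℂ) (x : LaurentSeries ℂ) : (coeffMap τ x).order = x.order := by
  rcases eq_or_ne x 0 with rfl | hx
  · simp
  have hc : (coeffMap τ x).coeff x.order ≠ 0 := by
    rw [ModularCurve.coeffMap_coeff]
    exact (map_ne_zero τ).mpr (mt HahnSeries.coeff_order_eq_zero.mp hx)
  refine le_antisymm (HahnSeries.order_le_of_coeff_ne_zero hc) ?_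
  refine HahnSeries.order_le_of_coeff_ne_zero fun h0 => ?_
  have hne : coeffMap τ x ≠ 0 := fun h => hc (by rw [h, HahnSeries.coeff_zero])
  refine mt HahnSeries.coeff_order_eq_zero.mp hne ?_
  rw [ModularCurve.coeffMap_coeff, h0, map_zero]

omit [FunctionFieldRR.IsFunctionField ℂ F] in
lemma ordQ_coeffAut {σ : ℂ ≃+* ℂ} {h h'} (f : F) : ordQ (coeffAut σ h h' f) = ordQ f :=
  order_coeffAut _ _

lemma exists_place_coeffAut {σ : ℂ ≃+* ℂ} {h h'} (P : Place ℂ F) :
    ∃ v : Place ℂ F, ∀ f : F, f ≠ 0 → P.ord (coeffAut σ h h' f) = v.ord f := by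
  set e := coeffAut (F := F) σ h h'
  have hconst : ∀ c : ℂ, e (algebraMap ℂ F c) = algebraMap ℂ F (σ c) := fun c =>
    Subtype.ext (by
      show coeffMap (σ : ℂ →+* ℂ) ((algebraMap ℂ F c : F) : LaurentSeries ℂ) = _
      rw [coe_algebraMap, coe_algebraMap]
      ext k
      rw [ModularCurve.coeffMap_coeff]
      rcases eq_or_ne k 0 with rfl | hk
      · simp
      · simp [HahnSeries.coeff_single_of_ne hk])
  have hne : ∀ f : F, f ≠ 0 → e f ≠ 0 := fun f hf => (map_ne_zero_iff _ e.injective).mpr hf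
  have hν : IsOrderFun ℂ (fun f => P.ord (e f)) := by
    refine ⟨fun x y hx hy => ?_, fun x y hx hy hxy h1 h2 => ?_, fun c hc => ?_⟩
    · show P.ord (e (x * y)) = _
      rw [map_mul, P.ord_mul (hne x hx) (hne y hy)]
    · show 0 ≤ P.ord (e (x + y))
      rw [map_add]
      exact FunctionFieldRR.le_ord_add (by rw [← map_add]; exact hne _ hxy) h1 h2
    · show P.ord (e (algebraMap ℂ F c)) = 0
      rw [hconst, FunctionFieldRR.ord_algebraMap]
  obtain ⟨t, ht0, ht⟩ := FunctionFieldRR.exists_ord_eq_one P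
  have hs : (e.symm t) ≠ 0 := (map_ne_zero_iff _ e.symm.injective).mpr ht0
  obtain ⟨v, k, hk, hv⟩ := exists_place_mul hν hs (by
    show P.ord (e (e.symm t)) ≠ 0
    rw [e.apply_symm_apply, ht]; exact one_ne_zero)
  refine ⟨v, fun f hf => ?_⟩
  have h1 : (1 : ℤ) = k * v.ord (e.symm t) := by
    rw [← hv _ hs]
    show 1 = P.ord (e (e.symm t))
    rw [e.apply_symm_apply, ht]
  have hk1 : k = 1 := Int.eq_one_of_mul_eq_one_right hk.le h1.symm
  rw [hv f hf, hk1, one_mul]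

lemma cand_coeffAut {σ : ℂ ≃+* ℂ} {h h'} (hj : jE ≠ 0) (hfix : coeffAut σ h h' jE = jE) {B : ℕ}
    {f : F} (hf : Cand jE n B f) : Cand jE n B (coeffAut σ h h' f) := by
  refine ⟨(map_ne_zero_iff _ (coeffAut σ h h').injective).mpr hf.1, fun P => ?_, fun P => ?_, ?_⟩
  · obtain ⟨v, hv⟩ := exists_place_coeffAut (σ := σ) (h := h) (h' := h') P
    rw [hv f hf.1]; exact hf.2.1 v
  · obtain ⟨v, hv⟩ := exists_place_coeffAut (σ := σ) (h := h) (h' := h') P
    refine ⟨fun hP => ?_, by rw [hv f hf.1]; exact (hf.2.2.1 v).2⟩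
    rw [← hfix, hv jE hj] at hP
    rw [hv f hf.1]; exact (hf.2.2.1 v).1 hP
  · have h1 := hf.2.2.2
    rw [HahnSeries.leadingCoeff_eq] at h1 ⊢
    show (coeffMap (σ : ℂ →+* ℂ) (f : LaurentSeries ℂ)).coeff
      (coeffMap (σ : ℂ →+* ℂ) (f : LaurentSeries ℂ)).order = 1
    rw [order_coeffAut, ModularCurve.coeffMap_coeff, h1, map_one]

variable (φ : AlgebraicClosure ℚ →+* ℂ)
  (hjfix : ∀ σ : ℂ ≃+* ℂ, (∀ a, σ (φ a) = φ a) →
    coeffMap (σ : ℂ →+* ℂ) (jE : LaurentSeries ℂ) = jE)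
  (hF : ∀ σ : ℂ ≃+* ℂ, (∀ a, σ (φ a) = φ a) → ∀ x ∈ F, coeffMap (σ : ℂ →+* ℂ) x ∈ F)

omit [FunctionFieldRR.IsFunctionField ℂ F] in
lemma symm_fix {σ : ℂ ≃+* ℂ} (hσ : ∀ a, σ (φ a) = φ a) (a : AlgebraicClosure ℚ) :
    σ.symm (φ a) = φ a := σ.injective (by rw [σ.apply_symm_apply, hσ])

include hjfix hF in
lemma best_coeffAut (hj : jE ≠ 0) {σ : ℂ ≃+* ℂ} (hσ : ∀ a, σ (φ a) = φ a) {B : ℕ} {f : F}
    (hf : Best jE n B f) :
    Best jE n B (coeffAut σ (hF σ hσ) (hF σ.symm (symm_fix φ hσ)) f) := by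
  have h' := hF σ.symm (symm_fix φ hσ)
  set e := coeffAut σ (hF σ hσ) h'
  set e' := coeffAut σ.symm h' (by simpa using hF σ hσ)
  have hinv : ∀ x, e' (e x) = x := fun x => e.symm_apply_apply x
  refine ⟨cand_coeffAut hj (Subtype.ext (hjfix σ hσ)) hf.1, fun f' hf' hrel => ?_⟩
  obtain ⟨g, hg, rfl⟩ := hrel
  rw [ordQ_coeffAut, ← ordQ_coeffAut (σ := σ.symm) (h := h') (h' := by simpa using hF σ hσ)]
  refine hf.2 _ (cand_coeffAut hj (Subtype.ext (hjfix σ.symm (symm_fix φ hσ))) hf') ⟨e' g,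
    (map_ne_zero_iff _ e'.injective).mpr hg, ?_⟩
  show e' (g ^ n * e f) = _
  rw [map_mul, map_pow, hinv]

include hjfix hF in
/-- Up to an `n`-th power, a function with orders divisible by `n` is a series over `ℚ̄`. -/
theorem exists_rational_class (hjt : Transcendental ℂ jE) (hn : n ≠ 0) {Φ : Type*} [Finite Φ]
    (cls : F → Φ → Prop)
    (hex : ∀ f : F, f ≠ 0 → (∀ P : Place ℂ F, (n : ℤ) ∣ P.ord f) → ∃ c, cls f c)
    (hrel : ∀ f f' c, cls f c → cls f' c → ∃ g : F, g ≠ 0 ∧ f' = g ^ n * f)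
    (x : F) (hx0 : x ≠ 0) (hdvd : ∀ P : Place ℂ F, (n : ℤ) ∣ P.ord x) :
    ∃ g : F, g ≠ 0 ∧ ∃ z : LaurentSeries (AlgebraicClosure ℚ),
      coeffMap φ z = ((g ^ n * x : F) : LaurentSeries ℂ) := by
  classical
  have hj : jE ≠ 0 := fun h => hjt (h ▸ isAlgebraic_zero)
  -- remove the poles away from the poles of `jE`
  set S := ((FunctionFieldRR.finite_ord_neg (K := ℂ) x).toFinset.filter
    fun P => 0 ≤ P.ord jE)
  have hres : ∀ P : Place ℂ F, 0 ≤ P.ord jE →
      ∃ c : ℂ, FunctionFieldRR.VanishesTo P 1 (jE - algebraMap ℂ _ c) := fun P hP =>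
    FunctionFieldRR.exists_residue P ((FunctionFieldRR.ord_nonneg_iff P _).mp hP)
  choose! c hc using hres
  have hne : ∀ e : ℂ, jE - algebraMap ℂ F e ≠ 0 := fun e h0 =>
    hjt (sub_eq_zero.mp h0 ▸ isAlgebraic_algebraMap e)
  set g : F := ∏ P ∈ S, (jE - algebraMap ℂ _ (c P)) ^ (P.ord x).natAbs with hgdef
  have hg0 : g ≠ 0 := Finset.prod_ne_zero_iff.mpr fun P _ => pow_ne_zero _ (hne _)
  have hgnonneg : ∀ w : Place ℂ F, 0 ≤ w.ord jE →
      0 ≤ w.ord g ∧ (w ∈ S → ((w.ord x).natAbs : ℤ) ≤ w.ord g) := by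
    intro w hw
    have hterm : ∀ P, ∀ e : ℂ, 0 ≤ w.ord ((jE - algebraMap ℂ _ e) ^ P) := fun P e => by
      rw [FunctionFieldRR.ord_pow]
      refine mul_nonneg (Int.natCast_nonneg P) ?_
      refine (FunctionFieldRR.ord_nonneg_iff w _).mpr (sub_mem
        ((FunctionFieldRR.ord_nonneg_iff w _).mp hw) (w.algebraMap_mem' e))
    have hprod : ∀ T : Finset (Place ℂ F),
        w.ord (∏ P ∈ T, (jE - algebraMap ℂ _ (c P)) ^ (P.ord x).natAbs)
          = ∑ P ∈ T, w.ord ((jE - algebraMap ℂ _ (c P)) ^ (P.ord x).natAbs) := by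
      intro T
      induction T using Finset.induction_on with
      | empty => simp
      | insert P T hP ih =>
        rw [Finset.prod_insert hP, Finset.sum_insert hP, w.ord_mul (pow_ne_zero _ (hne _))
          (Finset.prod_ne_zero_iff.mpr fun P _ => pow_ne_zero _ (hne _)), ih]
    refine ⟨by rw [hgdef, hprod]; exact Finset.sum_nonneg fun P _ => hterm _ _, fun hwS => ?_⟩
    rw [hgdef, hprod]
    refine le_trans ?_ (Finset.single_le_sum (fun P _ => hterm _ _) hwS)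
    rw [FunctionFieldRR.ord_pow]
    exact le_mul_of_one_le_right (Int.natCast_nonneg _) ((hc w hw).resolve_left (hne _))
  set y₀ : F := x * g ^ n with hy₀
  have hy₀0 : y₀ ≠ 0 := mul_ne_zero hx0 (pow_ne_zero n hg0)
  set a := (y₀ : LaurentSeries ℂ).leadingCoeff with hadef
  have ha : a ≠ 0 := HahnSeries.leadingCoeff_ne_zero.mpr fun h0 => hy₀0 (Subtype.ext h0)
  set y₁ : F := algebraMap ℂ _ a⁻¹ * y₀ with hy₁
  have hy₁ord : ∀ w : Place ℂ F, w.ord y₁ = w.ord x + n * w.ord g := fun w => by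
    rw [hy₁, w.ord_mul ((map_ne_zero _).mpr (inv_ne_zero ha)) hy₀0,
      FunctionFieldRR.ord_algebraMap, zero_add, hy₀, w.ord_mul hx0 (pow_ne_zero n hg0),
      FunctionFieldRR.ord_pow]
  set Sn := (FunctionFieldRR.finite_ord_neg (K := ℂ) y₁).toFinset
  set B := ∑ P ∈ Sn, (P.ord y₁).natAbs with hB
  have hn1 : (1 : ℤ) ≤ n := Int.natCast_pos.mpr (Nat.pos_of_ne_zero hn)
  have hcand : Cand jE n B y₁ := by
    refine ⟨mul_ne_zero ((map_ne_zero _).mpr (inv_ne_zero ha)) hy₀0,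
      fun w => by rw [hy₁ord]; exact (hdvd w).add (dvd_mul_right _ _),
      fun w => ⟨fun hw => ?_, ?_⟩, ?_⟩
    · rw [hy₁ord]
      obtain ⟨h1, h2⟩ := hgnonneg w hw
      by_cases hwS : w ∈ S
      · have := h2 hwS
        have h3 : -((w.ord x).natAbs : ℤ) ≤ w.ord x := by omega
        nlinarith
      · have : 0 ≤ w.ord x := by
          by_contra hlt
          exact hwS (Finset.mem_filter.mpr
            ⟨(Set.Finite.mem_toFinset _).mpr (not_le.mp hlt), hw⟩)
        nlinarith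
    · by_cases hlt : w.ord y₁ < 0
      · have hle : (w.ord y₁).natAbs ≤ B :=
          Finset.single_le_sum (f := fun P : Place ℂ F => (P.ord y₁).natAbs)
            (fun _ _ => Nat.zero_le _) ((Set.Finite.mem_toFinset _).mpr hlt)
        omega
      · omega
    · rw [hy₁, MulMemClass.coe_mul, HahnSeries.leadingCoeff_mul, coe_algebraMap,
        HahnSeries.leadingCoeff_of_single, ← hadef, inv_mul_cancel₀ ha]
  obtain ⟨f, hf, g', hg'0, rfl⟩ := exists_best hcand
  -- coefficients of the best element are algebraic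
  let : Algebra (AlgebraicClosure ℚ) ℂ := φ.toAlgebra
  have hcoef : ∀ k : ℤ, ((g' ^ n * y₁ : F) : LaurentSeries ℂ).coeff k ∈ Set.range φ := fun k => by
    have halg : IsAlgebraic (AlgebraicClosure ℚ)
        (((g' ^ n * y₁ : F) : LaurentSeries ℂ).coeff k) := by
      refine MWJ0.isAlgebraic_of_finite_orbit
        (((finite_best (jE := jE) hn cls hex hrel B).image
          fun u : F => (u : LaurentSeries ℂ).coeff k).subset ?_)
      rintro _ ⟨σ, rfl⟩
      exact ⟨_, best_coeffAut φ hjfix hF hj (σ := σ.toRingEquiv) (fun a => σ.commutes a) hf,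
        ModularCurve.coeffMap_coeff _ _ _⟩
    obtain ⟨b, hb⟩ := IsAlgClosed.algebraMap_bijective_of_isIntegral
      (k := AlgebraicClosure ℚ) (K := algebraicClosure (AlgebraicClosure ℚ) ℂ) |>.2
        ⟨_, (mem_algebraicClosure_iff.mpr halg)⟩
    exact ⟨b, congrArg Subtype.val hb⟩
  choose z hz using hcoef
  obtain ⟨r, hr⟩ := IsAlgClosed.exists_pow_nat_eq a⁻¹ (Nat.pos_of_ne_zero hn)
  have hr0 : r ≠ 0 := fun h => inv_ne_zero ha (by rw [← hr, h, zero_pow hn])
  refine ⟨g' * algebraMap ℂ F r * g,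
    mul_ne_zero (mul_ne_zero hg'0 ((map_ne_zero _).mpr hr0)) hg0,
    ⟨z, ((g' ^ n * y₁ : F) : LaurentSeries ℂ).isPWO_support.mono fun k hk h0 => hk (by
      have h := hz k
      rw [h0] at h
      exact (map_eq_zero φ).mp h)⟩, ?_⟩
  have e : (g' * algebraMap ℂ F r * g) ^ n * x = g' ^ n * y₁ := by
    rw [hy₁, hy₀, mul_pow, mul_pow, ← map_pow, hr]; ring
  rw [e]
  exact HahnSeries.ext (funext hz)

end Fermat.Agent.Row48.Cover.RootsBest

end
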