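import Fermat.Agent.Row48.Cover.MultOps
import Fermat.Agent.J0Torsion.LocalRoot
import Fermat.Agent.J0Torsion.SL2Fix

/-!
# Multipliers of functions all of whose orders are divisible by `n`

On `ℍ` and at every cusp the order of such a function is `n` times the order of a quotient of
functions of the cover, so it has a holomorphic `n`-th root there; the multiplier of the root kills
the parabolic elements. The coefficient field is arbitrary.
-/

set_option autoImplicit false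

noncomputable section

open CongruenceSubgroup UpperHalfPlane ModularCurve AlgebraicCurve Filter Topology
open scoped MatrixGroups Manifold

namespace Fermat.Agent.Row48.Cover

open X0Analytic (perMero qSer qp)
open J0Torsion (ordH ordH_mul ordH_pow transRot transRot_ne_zero transRot_zpow_order
  eq_one_of_translation exists_conj_T_zpow exists_const_of_pow_eq exists_holomorphic_pow_eq)

variable {M₀ : ℕ} [NeZero M₀]

theorem modH_coe_ne {a : ↥(modH M₀)} (ha : a ≠ 0) : (a : ℍ → ℂ) ≠ 0 := fun h => ha (Subtype.ext h)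

theorem serH_ne {a : ↥(modH M₀)} (ha : a ≠ 0) : serH M₀ a ≠ 0 :=
  (map_ne_zero_iff _ serH_injective).mpr ha

theorem modH_mul_ne {a b : ↥(modH M₀)} (ha : a ≠ 0) (hb : b ≠ 0) : a * b ≠ 0 := fun h =>
  mul_ne_zero (serH_ne ha) (serH_ne hb) (by rw [← map_mul, h, map_zero])

theorem modH_pow_ne {a : ↥(modH M₀)} (ha : a ≠ 0) (k : ℕ) : a ^ k ≠ 0 := fun h =>
  pow_ne_zero k (serH_ne ha) (by rw [← map_pow, h, map_zero])

/-- A function seen from the cusp `g ∞`. -/
def atCusp (g : SL(2, ℤ)) : ↥(modH M₀) →ₐ[ℂ] ↥(perMero (lev M₀)) where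
  toFun a := ⟨fun τ => (a : ℍ → ℂ) (g • τ), a.2.2.2 g⟩
  map_one' := rfl
  map_mul' _ _ := rfl
  map_zero' := rfl
  map_add' _ _ := rfl
  commutes' _ := rfl

theorem atCusp_ne (g : SL(2, ℤ)) {a : ↥(modH M₀)} (ha : a ≠ 0) : atCusp g a ≠ 0 := fun h => by
  refine ha (Subtype.ext (funext fun τ => ?_))
  have h' : (a : ℍ → ℂ) (g • g⁻¹ • τ) = 0 := congrFun (congrArg Subtype.val h) (g⁻¹ • τ)
  rw [smul_inv_smul] at h'
  exact h'

theorem qSer_atCusp_ne (g : SL(2, ℤ)) {a : ↥(modH M₀)} (ha : a ≠ 0) :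
    qSer (lev M₀) (atCusp g a) ≠ 0 :=
  (map_ne_zero_iff _ X0Analytic.qSer_injective).mpr (atCusp_ne g ha)

/-- The order at the cusp `g ∞`, in `q ^ (1 / M₀²)`. -/
def ordCusp (g : SL(2, ℤ)) (a : ↥(modH M₀)) : ℤ := (qSer (lev M₀) (atCusp g a)).order

theorem ordCusp_mul (g : SL(2, ℤ)) {a b : ↥(modH M₀)} (ha : a ≠ 0) (hb : b ≠ 0) :
    ordCusp g (a * b) = ordCusp g a + ordCusp g b := by
  rw [ordCusp, map_mul, map_mul, HahnSeries.order_mul (qSer_atCusp_ne g ha) (qSer_atCusp_ne g hb)]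
  rfl

theorem ordCusp_pow (g : SL(2, ℤ)) (a : ↥(modH M₀)) (k : ℕ) :
    ordCusp g (a ^ k) = k * ordCusp g a := by
  rw [ordCusp, map_pow, map_pow, HahnSeries.order_pow, nsmul_eq_mul]
  rfl

theorem ordCusp_add_le {a b : ↥(modH M₀)} (hab : a + b ≠ 0) (g : SL(2, ℤ)) :
    min (ordCusp g a) (ordCusp g b) ≤ ordCusp g (a + b) := by
  have hne := qSer_atCusp_ne g hab
  rw [map_add, map_add] at hne
  rw [ordCusp, ordCusp, ordCusp, map_add, map_add]
  exact HahnSeries.min_order_le_order_add hne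

theorem ordH_add_le {a b : ↥(modH M₀)} (ha : a ≠ 0) (hb : b ≠ 0) (hab : a + b ≠ 0) (τ : ℍ) :
    min (ordH a τ : ℤ) (ordH b τ) ≤ ordH (a + b : ↥(modH M₀)) τ := by
  have h1 := J0Torsion.analyticOrderAt_ne_top_of_ne_zero a.2.1 (modH_coe_ne ha) τ
  have h2 := J0Torsion.analyticOrderAt_ne_top_of_ne_zero b.2.1 (modH_coe_ne hb) τ
  have h3 := J0Torsion.analyticOrderAt_ne_top_of_ne_zero (a + b).2.1 (modH_coe_ne hab) τ
  have h : min (analyticOrderAt (↑ₕ(a : ℍ → ℂ)) (τ : ℂ)) (analyticOrderAt (↑ₕ(b : ℍ → ℂ)) (τ : ℂ))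
      ≤ analyticOrderAt (↑ₕ((a + b : ↥(modH M₀)) : ℍ → ℂ)) (τ : ℂ) := le_analyticOrderAt_add
  rw [← Nat.cast_analyticOrderNatAt h1, ← Nat.cast_analyticOrderNatAt h2,
    ← Nat.cast_analyticOrderNatAt h3] at h
  have h' : min (ordH a τ) (ordH b τ) ≤ ordH (a + b : ↥(modH M₀)) τ := by
    unfold J0Torsion.ordH
    rcases min_le_iff.mp h with h | h <;> rw [ENat.natCast_le_natCast] at h <;>
      [exact (min_le_left _ _).trans h; exact (min_le_right _ _).trans h]
  exact_mod_cast h'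

section Rep

variable {L : Type} [Field L] (φ : L →+* ℂ) {F : IntermediateField L (LaurentSeries L)}

/-- `a / b` represents `x`. -/
def Reps (x : ↥F) (a b : ↥(modH M₀)) : Prop :=
  coeffMap φ (x : LaurentSeries L) * serH M₀ b = serH M₀ a

variable (hrep : ∀ x : ↥F, ∃ a b : ↥(modH M₀), b ≠ 0 ∧ Reps φ x a b)

/-- The order of an element of the field through a representative. -/
def repOrd (o : ↥(modH M₀) → ℤ) (x : ↥F) : ℤ :=
  o (hrep x).choose - o (hrep x).choose_spec.choose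

variable {φ}

theorem Reps.num_ne {x : ↥F} {a b : ↥(modH M₀)} (h : Reps φ x a b) (hx : x ≠ 0) (hb : b ≠ 0) :
    a ≠ 0 := fun ha => by
  refine mul_ne_zero ((map_ne_zero_iff _ (X0Analytic.coeffMap_injective φ.injective)).mpr
    fun h0 => hx (Subtype.ext h0)) (serH_ne hb) ?_
  rw [h, ha, map_zero]

theorem Reps.mul {x y : ↥F} {a b a' b' : ↥(modH M₀)} (h : Reps φ x a b) (h' : Reps φ y a' b') :
    Reps φ (x * y) (a * a') (b * b') := by
  unfold Reps at *
  rw [MulMemClass.coe_mul, map_mul, map_mul, map_mul, ← h, ← h']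
  ring

theorem Reps.add {x y : ↥F} {a b a' b' : ↥(modH M₀)} (h : Reps φ x a b) (h' : Reps φ y a' b') :
    Reps φ (x + y) (a * b' + a' * b) (b * b') := by
  unfold Reps at *
  rw [AddMemClass.coe_add, map_add, map_mul, map_add, map_mul, map_mul, ← h, ← h']
  ring

variable {o : ↥(modH M₀) → ℤ}

theorem repOrd_eq (hmul : ∀ a b, a ≠ 0 → b ≠ 0 → o (a * b) = o a + o b) {x : ↥F} (hx : x ≠ 0)
    {a b : ↥(modH M₀)} (hb : b ≠ 0) (h : Reps φ x a b) : repOrd φ hrep o x = o a - o b := by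
  have key : ∀ a' b' : ↥(modH M₀), b' ≠ 0 → Reps φ x a' b' → o a' - o b' = o a - o b := by
    intro a' b' hb' h'
    have hcross : a' * b = a * b' := serH_injective (by
      unfold Reps at h h'
      rw [map_mul, map_mul, ← h, ← h']; ring)
    have := congrArg o hcross
    rw [hmul _ _ (h'.num_ne hx hb') hb, hmul _ _ (h.num_ne hx hb) hb'] at this
    omega
  obtain ⟨hb', h'⟩ := (hrep x).choose_spec.choose_spec
  exact key _ _ hb' h'

theorem isOrderFun_repOrd (hmul : ∀ a b, a ≠ 0 → b ≠ 0 → o (a * b) = o a + o b)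
    (hadd : ∀ a b, a ≠ 0 → b ≠ 0 → a + b ≠ 0 → min (o a) (o b) ≤ o (a + b))
    (hconst : ∀ c : ℂ, c ≠ 0 → o (algebraMap ℂ _ c) = 0) :
    J0Torsion.IsOrderFun L (repOrd φ hrep o) where
  map_mul x y hx hy := by
    obtain ⟨a, b, hb, h⟩ := hrep x
    obtain ⟨a', b', hb', h'⟩ := hrep y
    rw [repOrd_eq hrep hmul (mul_ne_zero hx hy) (modH_mul_ne hb hb') (h.mul h'),
      repOrd_eq hrep hmul hx hb h, repOrd_eq hrep hmul hy hb' h',
      hmul _ _ (h.num_ne hx hb) (h'.num_ne hy hb'), hmul _ _ hb hb']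
    ring
  nonneg_add x y hx hy hxy h0x h0y := by
    obtain ⟨a, b, hb, h⟩ := hrep x
    obtain ⟨a', b', hb', h'⟩ := hrep y
    have hA := h.num_ne hx hb
    have hA' := h'.num_ne hy hb'
    have hS := (h.add h').num_ne hxy (modH_mul_ne hb hb')
    have key := hadd _ _ (modH_mul_ne hA hb') (modH_mul_ne hA' hb) hS
    rw [repOrd_eq hrep hmul hxy (modH_mul_ne hb hb') (h.add h'), hmul _ _ hb hb']
    rw [hmul _ _ hA hb', hmul _ _ hA' hb] at key
    rw [repOrd_eq hrep hmul hx hb h] at h0x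
    rw [repOrd_eq hrep hmul hy hb' h'] at h0y
    omega
  map_const c hc := by
    rw [repOrd_eq hrep hmul (by simpa using hc) one_ne_zero (a := algebraMap ℂ _ (φ c)) (by
      unfold Reps
      rw [IntermediateField.coe_algebraMap_apply, algebraMap_laurentSeries_eq_single, map_one,
        mul_one, coeffMap_single]
      exact (X0Analytic.qSer_algebraMap (h := 1) (φ c)).symm), hconst _ ((map_ne_zero φ).mpr hc)]
    have h1 := hmul 1 1 one_ne_zero one_ne_zero
    rw [mul_one] at h1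
    omega

end Rep

/-- An element of `ℤ / n` with given value of the standard character. -/
theorem exists_stdAddChar_eq {n : ℕ} [NeZero n] {z : ℂ} (hz : z ^ n = 1) :
    ∃ k : ZMod n, ZMod.stdAddChar k = z := by
  obtain ⟨j, -, hj⟩ := (Complex.isPrimitiveRoot_exp n (NeZero.ne n)).eq_pow_of_pow_eq_one hz
  refine ⟨((j : ℤ) : ZMod n), ?_⟩
  rw [ZMod.stdAddChar_coe, ← hj, ← Complex.exp_nat_mul]
  congr 1
  push_cast
  ring

/-- **The multiplier of a root of a quotient with locally divisible orders.** -/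
theorem exists_mult_of_locDiv {n : ℕ} [NeZero n] {a b : ↥(modH M₀)} (ha : a ≠ 0) (hb : b ≠ 0)
    (hH : ∀ τ : ℍ, ∃ u v : ↥(modH M₀), u ≠ 0 ∧ v ≠ 0 ∧
      ordH a τ + n * ordH v τ = ordH b τ + n * ordH u τ)
    (hC : ∀ g : SL(2, ℤ), ∃ u v : ↥(modH M₀), u ≠ 0 ∧ v ≠ 0 ∧
      ordCusp g a + n * ordCusp g v = ordCusp g b + n * ordCusp g u)
    {f : LaurentSeries ℂ} (hf : f * serH M₀ b = serH M₀ a) :
    ∃ ψ : goodHom M₀ (ZMod n), HasMult n f ψ := by
  classical
  have hn : n ≠ 0 := NeZero.ne n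
  set P : ↥(modH M₀) := a * b ^ (n - 1) with hP
  have hb' := modH_pow_ne hb (n - 1)
  have hP0 : P ≠ 0 := modH_mul_ne ha hb'
  have hsucc : n = (n - 1) + 1 := (Nat.succ_pred_eq_of_ne_zero hn).symm
  have hordP : ∀ τ : ℍ, ordH P τ = ordH a τ + (n - 1) * ordH b τ := fun τ => by
    rw [show (P : ℍ → ℂ) = (a : ℍ → ℂ) * ((b ^ (n - 1) : ↥(modH M₀)) : ℍ → ℂ) from rfl,
      ordH_mul a.2.1 (b ^ (n - 1)).2.1 (modH_coe_ne ha) (modH_coe_ne hb') τ,
      SubmonoidClass.coe_pow, ordH_pow b.2.1]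
  have hdvd : ∀ z ∈ upperHalfPlaneSet, n ∣ analyticOrderNatAt (↑ₕ(P : ℍ → ℂ)) z := by
    intro z hz
    lift z to ℍ using hz with τ
    obtain ⟨u, v, hu, hv, he⟩ := hH τ
    show n ∣ ordH P τ
    rw [hordP]
    refine (Nat.dvd_add_left (dvd_mul_right n (ordH v τ))).mp ⟨ordH b τ + ordH u τ, ?_⟩
    calc ordH a τ + (n - 1) * ordH b τ + n * ordH v τ
        = ((n - 1) + 1) * ordH b τ + n * ordH u τ := by rw [Nat.add_mul, one_mul]; omega
      _ = n * (ordH b τ + ordH u τ) := by rw [← hsucc, mul_add]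
  obtain ⟨τ₀, hτ₀⟩ := Function.ne_iff.mp (modH_coe_ne hP0)
  obtain ⟨g, hgd, hgp⟩ := exists_holomorphic_pow_eq
    (UpperHalfPlane.mdifferentiable_iff.mp P.2.1) (z₁ := (τ₀ : ℂ)) τ₀.im_pos
    (by show (P : ℍ → ℂ) (ofComplex (τ₀ : ℂ)) ≠ 0; rw [ofComplex_apply]; exact hτ₀) hn hdvd
  set G : ℍ → ℂ := fun τ => g τ with hGdef
  have hGp : ∀ τ, G τ ^ n = (P : ℍ → ℂ) τ := fun τ => by
    rw [hGdef]
    exact (hgp τ τ.im_pos).trans (by simp [ofComplex_apply])
  have hGd : MDiff G := UpperHalfPlane.mdifferentiable_iff.mpr (hgd.congr fun z hz => by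
    simp only [Function.comp_apply, hGdef, ofComplex_apply_of_im_pos hz])
  have hG0 : G ≠ 0 := fun h => hτ₀ (by
    rw [Pi.zero_apply, ← hGp, h, Pi.zero_apply, zero_pow hn])
  have hex : ∀ γ : gammaH M₀, ∃ k : ZMod n, ∀ z,
      G ((γ : SL(2, ℤ)) • z) = ZMod.stdAddChar k * G z := fun γ => by
    obtain ⟨c, hcn, hc⟩ := exists_const_of_pow_eq
      (hGd.comp (mdifferentiable_smul (X0Analytic.det_pos_SL (γ : SL(2, ℤ))))) hGd hn hG0
      (fun τ => by
        show G ((γ : SL(2, ℤ)) • τ) ^ n = G τ ^ n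
        rw [hGp, hGp]; exact P.2.2.1 γ γ.2 τ)
    obtain ⟨k, hk⟩ := exists_stdAddChar_eq (n := n) hcn
    exact ⟨k, fun z => by rw [hk]; exact congrFun hc z⟩
  choose k hk using hex
  obtain ⟨τ₁, hτ₁⟩ := Function.ne_iff.mp hG0
  rw [Pi.zero_apply] at hτ₁
  have huniq : ∀ {j j' : ZMod n}, ZMod.stdAddChar j * G τ₁ = ZMod.stdAddChar j' * G τ₁ → j = j' :=
    fun {j j'} h => ZMod.injective_stdAddChar (mul_right_cancel₀ hτ₁ h)
  let ψ₀ : Additive (gammaH M₀) →+ ZMod n :=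
    { toFun := fun γ => k γ.toMul
      map_zero' := huniq (by
        rw [← hk, AddChar.map_zero_eq_one, one_mul, toMul_zero, Subgroup.coe_one, one_smul])
      map_add' := fun γ δ => huniq (by
        rw [← hk, AddChar.map_add_eq_mul, toMul_add, Subgroup.coe_mul, mul_smul, hk, hk,
          mul_assoc]) }
  have hmem : ψ₀ ∈ goodHom M₀ (ZMod n) := by
    intro γ hγ
    show k γ = 0
    refine huniq ?_
    rw [← hk, AddChar.map_zero_eq_one, one_mul]
    obtain ⟨s, t, hst⟩ := exists_conj_T_zpow _ hγ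
    have hact : ∀ z : ℍ, (γ : SL(2, ℤ)) • z = (s * ModularGroup.T ^ t * s⁻¹) • z := fun z => by
      rcases hst with h | h <;> rw [h]
      rw [ModularGroup.SL_neg_smul]
    have htr : ∀ (F : ℍ → ℂ) (z : ℂ), (∀ x : ℍ, F ((γ : SL(2, ℤ)) • x) = z * F x) →
        ∀ τ : ℍ, F (s • (ModularGroup.T ^ t • τ)) = z * F (s • τ) := fun F z hF τ => by
      rw [← hF (s • τ), hact, mul_smul, mul_smul, inv_smul_smul]
    have hmod : ∀ u : ↥(modH M₀), u ≠ 0 → transRot (lev M₀) t ^ ordCusp s u = 1 := fun u hu =>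
      transRot_zpow_order (atCusp_ne s hu) (fun τ => by
        show (u : ℍ → ℂ) (s • (ModularGroup.T ^ t • τ)) = (u : ℍ → ℂ) (s • τ)
        simpa using htr u 1 (fun z => by rw [one_mul]; exact u.2.2.1 γ γ.2 z) τ)
    obtain ⟨u, v, hu, hv, he⟩ := hC s
    have h1 : ZMod.stdAddChar (k γ) = (1 : ℂ) := by
      refine eq_one_of_translation (N := lev M₀) hn
        (H := fun τ => G (s • τ)) (hGd.comp (mdifferentiable_smul (X0Analytic.det_pos_SL s)))
        (atCusp_ne s hP0) (fun τ => hGp _) (htr G _ (hk γ))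
        (K := ordCusp s b + ordCusp s u - ordCusp s v) ?_ ?_
      · show ordCusp s P = _
        rw [hP, ordCusp_mul s ha hb', ordCusp_pow s b, Nat.cast_sub (Nat.pos_of_ne_zero hn)]
        push_cast
        linear_combination he
      · rw [zpow_sub₀ (transRot_ne_zero _ t), zpow_add₀ (transRot_ne_zero _ t), hmod b hb,
          hmod u hu, hmod v hv]
        norm_num
    rw [hk, h1, one_mul]
  have hTw : IsTw (chiH ψ₀) G := ⟨hGd, fun γ τ => hk γ τ, fun s => by
    obtain ⟨m, hm⟩ := (P.2.2.2 s).2.2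
    refine ⟨m, J0Torsion.bounded_of_pow_bounded hn ?_⟩
    rw [show ((fun τ : ℍ => G (s • τ)) * qp (lev M₀) ^ m) ^ n
        = ((fun τ : ℍ => (P : ℍ → ℂ) (s • τ)) * qp (lev M₀) ^ m) *
          qp (lev M₀) ^ (m * (n - 1)) from by
      funext τ
      simp only [Pi.mul_apply, Pi.pow_apply, mul_pow, hGp, mul_assoc, ← pow_add, ← pow_mul]
      congr 2
      conv_lhs => rw [hsucc]
      rw [mul_add, mul_one, add_comm]]
    exact Filter.BoundedAtFilter.mul hm (X0Analytic.qp_pow_isBounded _ _)⟩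
  refine ⟨⟨ψ₀, hmem⟩, G, b, P, hTw, hG0, hb, (funext fun τ => (hGp τ).symm), ?_⟩
  have hbn : b ^ n = b * b ^ (n - 1) := by conv_lhs => rw [hsucc, pow_succ']
  rw [hP, hbn, map_mul, map_mul, ← mul_assoc, hf]

/-- **Multipliers from divisibility of all orders.** -/
theorem exists_mult_of_dvd {L : Type} [Field L] [IsAlgClosed L] (φ : L →+* ℂ)
    (F : IntermediateField L (LaurentSeries L)) [FunctionFieldRR.IsFunctionField L F]
    (hrep : ∀ x : F, ∃ a b : ↥(modH M₀), b ≠ 0 ∧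
      coeffMap φ (x : LaurentSeries L) * serH M₀ b = serH M₀ a)
    {n : ℕ} [NeZero n] (f : F) (hf : f ≠ 0) (hdvd : ∀ P : Place L F, (n : ℤ) ∣ P.ord f) :
    ∃ ψ : goodHom M₀ (ZMod n), HasMult n (coeffMap φ (f : LaurentSeries L)) ψ := by
  obtain ⟨a, b, hb, h⟩ := hrep f
  have hR : ∀ x : F, ∃ a b : ↥(modH M₀), b ≠ 0 ∧ Reps φ x a b := hrep
  refine exists_mult_of_locDiv (Reps.num_ne (φ := φ) (x := f) h hf hb) hb (fun τ => ?_)
    (fun g => ?_) h
  · let o : ↥(modH M₀) → ℤ := fun u => ordH u τ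
    have hmul : ∀ u v, u ≠ 0 → v ≠ 0 → o (u * v) = o u + o v := fun u v hu hv => by
      simp only [o]
      rw [MulMemClass.coe_mul, ordH_mul u.2.1 v.2.1 (modH_coe_ne hu) (modH_coe_ne hv)]
      push_cast; rfl
    have hν := isOrderFun_repOrd hR hmul
      (fun u v hu hv huv => ordH_add_le hu hv huv τ) (fun c hc => by
        simp only [o, J0Torsion.ordH, analyticOrderNatAt]
        rw [(J0Torsion.analyticAt_of_mdiff (algebraMap ℂ ↥(modH M₀) c).2.1
          τ).analyticOrderAt_eq_zero.mpr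
          (by show c ≠ 0; exact hc)]
        simp)
    obtain ⟨y, hy, hye⟩ := hν.exists_eq_mul hf hdvd
    obtain ⟨c, d, hd, hyd⟩ := hR y
    refine ⟨c, d, hyd.num_ne hy hd, hd, ?_⟩
    rw [repOrd_eq hR hmul hf hb h, repOrd_eq hR hmul hy hd hyd, mul_sub] at hye
    simp only [o] at hye
    omega
  · have hmul : ∀ u v : ↥(modH M₀), u ≠ 0 → v ≠ 0 → ordCusp g (u * v) = ordCusp g u + ordCusp g v :=
      fun u v hu hv => ordCusp_mul g hu hv
    have hν := isOrderFun_repOrd hR hmul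
      (fun u v _ _ huv => ordCusp_add_le huv g) (fun c hc => by
        rw [ordCusp, AlgHom.commutes, X0Analytic.qSer_algebraMap, HahnSeries.order_single hc])
    obtain ⟨y, hy, hye⟩ := hν.exists_eq_mul hf hdvd
    obtain ⟨c, d, hd, hyd⟩ := hR y
    refine ⟨c, d, hyd.num_ne hy hd, hd, ?_⟩
    rw [repOrd_eq hR hmul hf hb h, repOrd_eq hR hmul hy hd hyd, mul_sub] at hye
    omega

/-- The field `exists_mult` of `Roots`. -/
theorem CoverFns.exists_mult (C : CoverFns M₀)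
    [FunctionFieldRR.IsFunctionField (AlgebraicClosure ℚ) C.field] {n : ℕ} [NeZero n]
    (f : C.field) (hf : f ≠ 0)
    (hdvd : ∀ P : Place (AlgebraicClosure ℚ) C.field, (n : ℤ) ∣ P.ord f) :
    ∃ ψ : goodHom M₀ (ZMod n),
      HasMult n (coeffMap J0Torsion.jEmb (f : LaurentSeries (AlgebraicClosure ℚ))) ψ := by
  refine exists_mult_of_dvd J0Torsion.jEmb C.field (fun x => ?_) f hf hdvd
  obtain ⟨u, v, hu, hv, hv0, he⟩ := C.exists_algH_div x
  refine ⟨C.fn ⟨u, hu⟩, C.fn ⟨v, hv⟩, ?_, ?_⟩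
  · rw [Ne, map_eq_zero_iff _ C.fn_injective]
    exact fun h => hv0 (congrArg Subtype.val h)
  · rw [C.serH_fn, C.serH_fn, ← map_mul, he]

end Fermat.Agent.Row48.Cover

end
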