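import Fermat.Agent.Row48.Cover.RootsBase
import Fermat.Agent.Row48.Cover.RootsBest
import Fermat.Agent.Row48.Cover.RootsEisenstein
import Fermat.Agent.Row48.Cover.RootsMult
import Fermat.Agent.Row48.Cover.HomExt

/-!
# Every multiplier occurs over `ℚ̄`

The weight zero Eisenstein root has a class among the finitely many classes over `ℂ`; the
normalised representative of the class has coefficients in `ℚ̄`.
-/

set_option autoImplicit false

noncomputable section

open CongruenceSubgroup UpperHalfPlane ModularCurve AlgebraicCurve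
open scoped MatrixGroups

namespace Fermat.Agent.Row48.Cover

open X0Analytic (FLevel jEl)
open J0Torsion (jEmb)

local notation "Qbar" => AlgebraicClosure ℚ

variable {M₀ : ℕ} [NeZero M₀] {n : ℕ} [NeZero n]

theorem IsTw.pow_nat {ξ : gammaH M₀ →* ℂ} {G : ℍ → ℂ} (h : IsTw ξ G) :
    ∀ k : ℕ, IsTw (ξ ^ k) (G ^ k)
  | 0 => by
    rw [pow_zero, pow_zero]
    exact isTw_of_modH (1 : ↥(modH M₀))
  | k + 1 => by
    rw [pow_succ, pow_succ]
    exact (IsTw.pow_nat h k).mul h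

theorem hasMult_inv {f : LaurentSeries ℂ} {φ : goodHom M₀ (ZMod n)} (h : HasMult n f φ) :
    HasMult n f⁻¹ (-φ) := by
  have hf := h.ne_zero
  obtain ⟨G, b, a, hG, hG0, hb, ha, he⟩ := h
  obtain ⟨k, hk⟩ := Nat.exists_eq_succ_of_ne_zero (NeZero.ne n)
  have hchi : chiH ((-φ : goodHom M₀ (ZMod n)) : Additive (gammaH M₀) →+ ZMod n) =
      (1 : gammaH M₀ →* ℂ) * chiH (φ : Additive (gammaH M₀) →+ ZMod n) ^ k := by
    refine MonoidHom.ext fun γ => ?_
    rw [one_mul, MonoidHom.pow_apply, chiH_apply, chiH_apply, ← AddChar.map_nsmul_eq_pow]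
    congr 1
    rw [AddSubgroup.coe_neg, AddMonoidHom.neg_apply, nsmul_eq_mul]
    have h0 : ((k + 1 : ℕ) : ZMod n) = 0 := by rw [← Nat.succ_eq_add_one, ← hk, ZMod.natCast_self]
    push_cast at h0
    linear_combination -((φ : Additive (gammaH M₀) →+ ZMod n) (Additive.ofMul γ)) * h0
  have ha0 : a ≠ 0 := fun h0 => by
    obtain ⟨τ, hτ⟩ := Function.ne_iff.mp hG0
    have h2 := congrFun ha τ
    rw [h0] at h2
    exact hτ (pow_eq_zero_iff (NeZero.ne n) |>.mp (by simpa using h2.symm))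
  refine ⟨(b : ℍ → ℂ) * G ^ k, a, b ^ n * a ^ k, hchi ▸ (isTw_of_modH b).mul (hG.pow_nat k), ?_,
    ha0, ?_, ?_⟩
  · intro h0
    refine (modH_mul_ne (modH_pow_ne hb n) (modH_pow_ne ha0 k)) (Subtype.ext ?_)
    rw [MulMemClass.coe_mul, SubmonoidClass.coe_pow, SubmonoidClass.coe_pow, ha, ← pow_mul,
      mul_comm n k, pow_mul, ← mul_pow, h0, zero_pow (NeZero.ne n)]
    rfl
  · rw [MulMemClass.coe_mul, SubmonoidClass.coe_pow, SubmonoidClass.coe_pow, ha, mul_pow,
      ← pow_mul, ← pow_mul, mul_comm n k]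
  · rw [map_mul, map_pow, map_pow, map_pow,
      show serH M₀ a ^ n = serH M₀ a ^ k * serH M₀ a by rw [← pow_succ]; exact congrArg _ hk]
    conv_lhs => rw [← he, map_pow]
    field_simp
    rw [← map_pow, he]

theorem hasMult_pow_model {F : IntermediateField ℂ (LaurentSeries ℂ)}
    (hF : IsModel (M₀ := M₀) (RingHom.id ℂ) F) {g : F} (hg : g ≠ 0) :
    HasMult n ((g : LaurentSeries ℂ) ^ n) (0 : goodHom M₀ (ZMod n)) := by
  obtain ⟨a, b, hb, he⟩ := hF.rep' g
  rw [coeffMap_id] at he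
  have ha : a ≠ 0 := fun h0 => by
    rw [h0, map_zero, mul_eq_zero] at he
    exact he.elim (fun h => hg (Subtype.ext h)) (serH_ne hb)
  refine ⟨a, b, a ^ n, ?_, modH_coe_ne ha, hb, by rw [SubmonoidClass.coe_pow], ?_⟩
  · rw [ZeroMemClass.coe_zero, chiH_zero]; exact isTw_of_modH a
  · rw [map_pow, map_pow, ← mul_pow, he]

namespace CoverFns

variable (C : CoverFns M₀)

theorem coeffMap_fix_fieldC {σ : ℂ ≃+* ℂ} (hσ : ∀ a, σ (jEmb a) = jEmb a) {x : LaurentSeries ℂ}
    (hx : x ∈ C.fieldC) : coeffMap (σ : ℂ →+* ℂ) x ∈ C.fieldC := by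
  induction hx using IntermediateField.adjoin_induction with
  | mem y hy =>
    obtain ⟨w, hw, rfl⟩ := hy
    rw [coeffMap_coeffMap, show (σ : ℂ →+* ℂ).comp jEmb = jEmb from RingHom.ext hσ]
    exact IntermediateField.subset_adjoin _ _ ⟨w, hw, rfl⟩
  | algebraMap c =>
    rw [algebraMap_laurentSeries_eq_single, coeffMap_single, ← algebraMap_laurentSeries_eq_single]
    exact IntermediateField.algebraMap_mem _ _
  | add y z _ _ hy hz => rw [map_add]; exact add_mem hy hz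
  | inv y _ hy => rw [map_inv₀]; exact inv_mem hy
  | mul y z _ _ hy hz => rw [map_mul]; exact mul_mem hy hz

/-- Every multiplier is that of a function with coefficients in `ℚ̄`. -/
theorem surj_of (hmem : ∀ a : ↥(modH M₀), serH M₀ a ∈ C.fieldC)
    (hdesc : ∀ z : LaurentSeries Qbar, coeffMap jEmb z ∈ C.fieldC → z ∈ C.field)
    (htriv : ∀ f : LaurentSeries ℂ, f ∈ C.fieldC →
      HasMult n f (0 : goodHom M₀ (ZMod n)) → ∃ g ∈ C.fieldC, g ^ n = f)
    (hdvd : ∀ (f : C.fieldC) (ψ : goodHom M₀ (ZMod n)), HasMult n (f : LaurentSeries ℂ) ψ →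
      ∀ P : Place ℂ C.fieldC, (n : ℤ) ∣ P.ord f)
    (φ : goodHom M₀ (ZMod n)) :
    ∃ f : C.field, HasMult n (coeffMap jEmb (f : LaurentSeries Qbar)) φ := by
  classical
  have := C.isFunctionField_fieldC
  have hM := C.isModel_fieldC
  obtain ⟨a, ha, hm⟩ := exists_hasMult_serH φ
  set x : C.fieldC := ⟨serH M₀ a, hmem a⟩ with hxdef
  have hx0 : x ≠ 0 := fun h => serH_ne ha (congrArg Subtype.val h)
  have hnn : n ≠ 0 := NeZero.ne n
  set jE : C.fieldC := ⟨(jEl ℂ (lev M₀) : LaurentSeries ℂ), hM.base_le (jEl ℂ (lev M₀)).2⟩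
  have hjt : Transcendental ℂ jE := by
    intro halg
    refine X0Analytic.transcendental_jEl (N := lev M₀) (RingHom.id ℂ) ?_
    have h1 : IsAlgebraic ℂ (C.fieldC.val jE) := halg.algHom C.fieldC.val
    exact (isAlgebraic_algHom_iff (FLevel ℂ (lev M₀)).val Subtype.val_injective).mp h1
  have hjfix : ∀ σ : ℂ ≃+* ℂ, (∀ a, σ (jEmb a) = jEmb a) →
      coeffMap (σ : ℂ →+* ℂ) (jE : LaurentSeries ℂ) = jE := fun σ _ => by
    show coeffMap (σ : ℂ →+* ℂ) (X0Analytic.algToField ℂ (lev M₀) (X0Analytic.jAlg ℂ (lev M₀)) :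
      LaurentSeries ℂ) = _
    rw [X0Analytic.coe_algToField]
    show coeffMap (σ : ℂ →+* ℂ) (X0Analytic.jL ℂ 1) = X0Analytic.jL ℂ 1
    rw [X0Analytic.jL_one]
    exact coeffMap_coeffEmb ((AlgEquiv.ofRingEquiv (f := σ)
      (fun r => by simp) : ℂ ≃ₐ[ℚ] ℂ)) _
  obtain ⟨g, hg, z, hz⟩ := RootsBest.exists_rational_class (F := C.fieldC) (jE := jE) jEmb hjfix
    (fun σ hσ x hx => C.coeffMap_fix_fieldC hσ hx) hjt hnn
    (fun (f : C.fieldC) (ψ : goodHom M₀ (ZMod n)) => HasMult n (f : LaurentSeries ℂ) ψ)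
    (fun f hf hf' => by
      obtain ⟨ψ, hψ⟩ := exists_mult_of_dvd (M₀ := M₀) (RingHom.id ℂ) C.fieldC
        (fun y => hM.rep' y) f hf hf'
      rw [coeffMap_id] at hψ
      exact ⟨ψ, hψ⟩)
    (fun f f' ψ h h' => by
      have hq := h'.mul (hasMult_inv h)
      rw [add_neg_cancel] at hq
      obtain ⟨g, hgm, hgn⟩ := htriv _ (mul_mem f'.2 (inv_mem f.2)) hq
      refine ⟨⟨g, hgm⟩, fun h0 => ?_, Subtype.ext ?_⟩
      · rw [show g = 0 from congrArg Subtype.val h0, zero_pow hnn] at hgn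
        exact mul_ne_zero h'.ne_zero (inv_ne_zero h.ne_zero) hgn.symm
      · rw [MulMemClass.coe_mul, SubmonoidClass.coe_pow, hgn,
          inv_mul_cancel_right₀ h.ne_zero])
    x hx0 (hdvd x φ hm)
  have hmem' : z ∈ C.field := hdesc z (by rw [hz]; exact (g ^ n * x).2)
  refine ⟨⟨z, hmem'⟩, ?_⟩
  rw [hz, MulMemClass.coe_mul, SubmonoidClass.coe_pow]
  have h := (hasMult_pow_model (n := n) hM hg).mul hm
  rwa [zero_add] at h

end CoverFns

end Fermat.Agent.Row48.Cover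

end
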