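import Fermat.Agent.Row48.Cover.RootsField
import Fermat.Agent.Row48.Cover.RootsPlaces
import Fermat.Agent.Row48.Cover.RootsSurj
import Fermat.Agent.Row48.Cover.Inputs

/-!
# The roots with multipliers on the cover, and the representations of eigenclasses
-/

set_option autoImplicit false

noncomputable section

open CongruenceSubgroup UpperHalfPlane ModularCurve AlgebraicCurve
open scoped MatrixGroups

namespace Fermat.Agent.Row48.Cover

open J0Torsion (jEmb)

local notation "Qbar" => AlgebraicClosure ℚ

variable {M₀ : ℕ} [NeZero M₀]

/-- **The analytic theory of the cover.** -/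
theorem roots (C : CoverFns M₀) (h : LevelOK M₀) (n : ℕ) [NeZero n] : Roots C n := by
  have := C.isFunctionField_field
  have := C.isFunctionField_fieldC
  refine
    { exists_mult := fun f hf hdvd => C.exists_mult f hf hdvd
      dvd_ord := fun f φ hm => dvd_ord_of_hasMult C.isModel_field h f φ hm
      unique := hasMult_unique
      surj := fun φ =>
        C.surj_of (fun a => C.serH_mem_fieldC a) (fun z hz => C.mem_field_of_coeffMap hz)
        (fun f _ hm => C.trivial_fieldC hm) (fun f ψ hm => ?_) φ
      trivial := fun f hf => C.trivial f hf
      mem_field := fun z a b hb he => C.mem_field z a b hb he }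
  refine dvd_ord_of_hasMult C.isModel_fieldC h f ψ ?_
  rwa [coeffMap_id]

/-- `EigenClassHasRep`, unconditionally. -/
theorem eigenClassHasRep : EigenClassHasRep :=
  eigenClassHasRep_of_roots (fun _ _ C _ h n _ => roots C h n) (fun _ _ C _ h => C.etale h)

end Fermat.Agent.Row48.Cover

end
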