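import Fermat.Agent.Row48.Cover.DegreeBar
import Fermat.Agent.J0Torsion.DvdOrd
import Fermat.Agent.Row48.Cover.MultOps

/-!
# Models of the function field of the cover over an algebraically closed subfield of `ℂ`

`IsModel φ F`: the series in `F` are quotients of functions in `modH M₀`, `F` contains the
function field of `X₀(M₀²)` and is stable under the deck transformations. Both `C.field` and
`C.fieldC` are models. The deck-invariant part of a model is the field of `X₀(M₀²)`.
-/

set_option autoImplicit false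

noncomputable section

open CongruenceSubgroup UpperHalfPlane ModularCurve IntermediateField Polynomial
open scoped MatrixGroups

namespace Fermat.Agent.Row48.Cover

open X0Analytic (perMero qSer modFun FLevel jL jEl)
open J0Torsion (jEmb)

local notation "Qbar" => AlgebraicClosure ℚ

variable {M₀ : ℕ} [NeZero M₀]

instance : IsDomain ↥(modH M₀) := (serH_injective (M₀ := M₀)).isDomain (serH M₀)

/-- The series of a quotient of functions. -/
def serFrac (M₀ : ℕ) [NeZero M₀] : FractionRing ↥(modH M₀) →+* LaurentSeries ℂ :=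
  IsFractionRing.lift (A := ↥(modH M₀)) (g := serH M₀) serH_injective

theorem serFrac_algebraMap (a : ↥(modH M₀)) :
    serFrac M₀ (algebraMap _ (FractionRing ↥(modH M₀)) a) = serH M₀ a :=
  IsFractionRing.lift_algebraMap _ a

theorem deckFn_injective (d : (ZMod M₀)ˣ) : Function.Injective (deckFn (M₀ := M₀) d) :=
  fun a b h => by
    have h1 := congrArg (deckFn d⁻¹) h
    rwa [deckFn_comp, deckFn_comp, mul_inv_cancel, deckFn_one, deckFn_one] at h1

/-- The diamond operator on quotients of functions. -/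
def deckFrac (d : (ZMod M₀)ˣ) : FractionRing ↥(modH M₀) →+* FractionRing ↥(modH M₀) :=
  IsFractionRing.lift (A := ↥(modH M₀))
    (g := (algebraMap _ (FractionRing ↥(modH M₀))).comp (deckFn (M₀ := M₀) d).toRingHom)
    ((IsFractionRing.injective _ _).comp (deckFn_injective d))

theorem deckFrac_algebraMap (d : (ZMod M₀)ˣ) (a : ↥(modH M₀)) :
    deckFrac d (algebraMap _ (FractionRing ↥(modH M₀)) a) = algebraMap _ _ (deckFn d a) :=
  IsFractionRing.lift_algebraMap _ a

theorem deckFrac_comp (d e : (ZMod M₀)ˣ) (x : FractionRing ↥(modH M₀)) :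
    deckFrac d (deckFrac e x) = deckFrac (e * d) x := by
  have h : (deckFrac d).comp (deckFrac e) = deckFrac (e * d) :=
    IsFractionRing.ringHom_ext (A := ↥(modH M₀)) fun a => by
      rw [RingHom.comp_apply, deckFrac_algebraMap, deckFrac_algebraMap, deckFrac_algebraMap,
        deckFn_comp]
  exact RingHom.congr_fun h x

theorem deckFrac_one (x : FractionRing ↥(modH M₀)) : deckFrac (1 : (ZMod M₀)ˣ) x = x := by
  have h : deckFrac (1 : (ZMod M₀)ˣ) = RingHom.id _ :=
    IsFractionRing.ringHom_ext (A := ↥(modH M₀)) fun a => by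
      rw [deckFrac_algebraMap, deckFn_one, RingHom.id_apply]
  exact RingHom.congr_fun h x

/-- A quotient of functions invariant under the deck group has series in the field of
`X₀(M₀²)`. -/
theorem serFrac_mem_of_invariant {x : FractionRing ↥(modH M₀)}
    (h : ∀ d : (ZMod M₀)ˣ, deckFrac d x = x) : serFrac M₀ x ∈ FLevel ℂ (lev M₀) := by
  classical
  obtain ⟨a, b, hb, rfl⟩ := IsFractionRing.div_surjective (A := ↥(modH M₀)) x
  have hb0 : b ≠ 0 := nonZeroDivisors.ne_zero hb
  set P : ↥(modH M₀) := ∏ e : (ZMod M₀)ˣ, deckFn e b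
  set Q : ↥(modH M₀) := a * ∏ e ∈ Finset.univ.erase (1 : (ZMod M₀)ˣ), deckFn e b
  have hP : P = b * ∏ e ∈ Finset.univ.erase (1 : (ZMod M₀)ˣ), deckFn e b := by
    show ∏ e : (ZMod M₀)ˣ, deckFn e b = _
    rw [← Finset.mul_prod_erase Finset.univ _ (Finset.mem_univ (1 : (ZMod M₀)ˣ)), deckFn_one]
  have hP0 : P ≠ 0 :=
    Finset.prod_ne_zero_iff.mpr fun e _ => (map_ne_zero_iff _ (deckFn_injective e)).mpr hb0
  set y := algebraMap ↥(modH M₀) (FractionRing ↥(modH M₀)) a /
    algebraMap ↥(modH M₀) (FractionRing ↥(modH M₀)) b with hy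
  have hyb : y * algebraMap _ _ b = algebraMap _ _ a :=
    div_mul_cancel₀ _ ((map_ne_zero_iff _ (IsFractionRing.injective _ _)).mpr hb0)
  have hyP : y * algebraMap _ _ P = algebraMap _ _ Q := by
    rw [hP, map_mul, ← mul_assoc, hyb, map_mul]
  have hPinv : ∀ d, deckFn d P = P := fun d => by
    rw [map_prod]
    exact Fintype.prod_equiv (Equiv.mulRight d) _ _ fun e => by
      rw [deckFn_comp, Equiv.coe_mulRight]
  have hQinv : ∀ d, deckFn d Q = Q := fun d => by
    have h1 := congrArg (deckFrac d) hyP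
    rw [map_mul, h, deckFrac_algebraMap, hPinv, deckFrac_algebraMap, hyP] at h1
    exact (IsFractionRing.injective _ _ h1).symm
  have hmod : ∀ c : ↥(modH M₀), (∀ d, deckFn d c = c) → serH M₀ c ∈ FLevel ℂ (lev M₀) := by
    intro c hc
    have hinv : ∀ γ ∈ Gamma0 (lev M₀), ∀ τ : ℍ, (c : ℍ → ℂ) (γ • τ) = (c : ℍ → ℂ) τ := by
      intro γ hγ τ
      obtain ⟨d, hd⟩ : ∃ d : (ZMod M₀)ˣ, ((γ 1 1 : ℤ) : ZMod M₀) = d := by
        have h1 := diag_inv hγ
        exact ⟨⟨_, _, by rw [mul_comm]; exact h1, h1⟩, rfl⟩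
      have h2 : compH hγ c = c := by rw [deckFn_eq hγ hd, hc]
      exact congrFun (congrArg Subtype.val h2) τ
    exact J0Torsion.ser_mem_FLevel (⟨(c : ℍ → ℂ), c.2.1, hinv, c.2.2.2⟩ : ↥(modFun (lev M₀)))
  have hs := congrArg (serFrac M₀) hyP
  rw [map_mul, serFrac_algebraMap, serFrac_algebraMap] at hs
  rw [eq_div_iff ((map_ne_zero_iff _ serH_injective).mpr hP0) |>.mpr hs]
  exact div_mem (hmod Q hQinv) (hmod P hPinv)

variable {L : Type} [Field L] [Algebra ℚ L]

/-- A model of the function field of the cover over `L`. -/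
structure IsModel (φ : L →+* ℂ) (F : IntermediateField L (LaurentSeries L)) : Prop where
  rep : ∀ x : F, ∃ z : FractionRing ↥(modH M₀), serFrac M₀ z = coeffMap φ (x : LaurentSeries L)
  base_le : FLevel L (lev M₀) ≤ F
  deck : ∀ (d : (ZMod M₀)ˣ) (x : F) (z : FractionRing ↥(modH M₀)),
    serFrac M₀ z = coeffMap φ (x : LaurentSeries L) →
      ∃ y : F, serFrac M₀ (deckFrac d z) = coeffMap φ (y : LaurentSeries L)

namespace IsModel

variable {φ : L →+* ℂ} {F : IntermediateField L (LaurentSeries L)} (hF : IsModel (M₀ := M₀) φ F)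

include hF in
theorem rep' (x : F) : ∃ a b : ↥(modH M₀), b ≠ 0 ∧
    coeffMap φ (x : LaurentSeries L) * serH M₀ b = serH M₀ a := by
  obtain ⟨z, hz⟩ := hF.rep x
  obtain ⟨a, b, hb, rfl⟩ := IsFractionRing.div_surjective (A := ↥(modH M₀)) z
  refine ⟨a, b, nonZeroDivisors.ne_zero hb, ?_⟩
  rw [← hz, map_div₀, serFrac_algebraMap, serFrac_algebraMap, div_mul_cancel₀]
  exact (map_ne_zero_iff _ serH_injective).mpr (nonZeroDivisors.ne_zero hb)

/-- The quotient of functions of an element. -/
def toFrac : F →+* FractionRing ↥(modH M₀) where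
  toFun x := (hF.rep x).choose
  map_one' := (serFrac M₀).injective (by rw [(hF.rep 1).choose_spec]; simp)
  map_mul' x y := (serFrac M₀).injective (by
    rw [(hF.rep (x * y)).choose_spec, map_mul, (hF.rep x).choose_spec, (hF.rep y).choose_spec,
      MulMemClass.coe_mul, map_mul])
  map_zero' := (serFrac M₀).injective (by rw [(hF.rep 0).choose_spec]; simp)
  map_add' x y := (serFrac M₀).injective (by
    rw [(hF.rep (x + y)).choose_spec, map_add, (hF.rep x).choose_spec, (hF.rep y).choose_spec,
      AddMemClass.coe_add, map_add])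

theorem serFrac_toFrac (x : F) :
    serFrac M₀ (hF.toFrac x) = coeffMap φ (x : LaurentSeries L) :=
  (hF.rep x).choose_spec

/-- The diamond operator on a model. -/
def deckFun (d : (ZMod M₀)ˣ) (x : F) : F :=
  (hF.deck d x _ (hF.serFrac_toFrac x)).choose

theorem toFrac_deckFun (d : (ZMod M₀)ˣ) (x : F) :
    hF.toFrac (hF.deckFun d x) = deckFrac d (hF.toFrac x) :=
  (serFrac M₀).injective (by
    rw [serFrac_toFrac]; exact (hF.deck d x _ (hF.serFrac_toFrac x)).choose_spec.symm)

/-- The deck transformation of a model. -/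
def deckF (d : (ZMod M₀)ˣ) : F ≃+* F where
  toFun := hF.deckFun d
  invFun := hF.deckFun d⁻¹
  left_inv x := hF.toFrac.injective (by
    rw [toFrac_deckFun, toFrac_deckFun, deckFrac_comp, mul_inv_cancel, deckFrac_one])
  right_inv x := hF.toFrac.injective (by
    rw [toFrac_deckFun, toFrac_deckFun, deckFrac_comp, inv_mul_cancel, deckFrac_one])
  map_mul' x y := hF.toFrac.injective (by simp only [map_mul, toFrac_deckFun])
  map_add' x y := hF.toFrac.injective (by simp only [map_add, toFrac_deckFun])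

theorem toFrac_deckF (d : (ZMod M₀)ˣ) (x : F) :
    hF.toFrac (hF.deckF d x) = deckFrac d (hF.toFrac x) := hF.toFrac_deckFun d x

theorem deckF_comp (d e : (ZMod M₀)ˣ) (x : F) :
    hF.deckF d (hF.deckF e x) = hF.deckF (e * d) x :=
  hF.toFrac.injective (by simp only [toFrac_deckF, deckFrac_comp])

theorem deckF_one (x : F) : hF.deckF (1 : (ZMod M₀)ˣ) x = x :=
  hF.toFrac.injective (by rw [toFrac_deckF, deckFrac_one])

include hF in
/-- The invariant elements form the field of `X₀(M₀²)`. -/
theorem mem_base_of_invariant {x : F} (h : ∀ d : (ZMod M₀)ˣ, hF.deckF d x = x) :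
    (x : LaurentSeries L) ∈ FLevel L (lev M₀) := by
  refine J0Torsion.mem_FLevel_of_coeffMap_mem φ ?_
  rw [← hF.serFrac_toFrac x]
  exact serFrac_mem_of_invariant fun d => by rw [← toFrac_deckF, h]

/-- The orbit polynomial. -/
def orbitPoly (x : F) : Polynomial F :=
  ∏ e : (ZMod M₀)ˣ, (Polynomial.X - Polynomial.C (hF.deckF e x))

theorem orbitPoly_invariant (x : F) (d : (ZMod M₀)ˣ) :
    (hF.orbitPoly x).map (hF.deckF d).toRingHom = hF.orbitPoly x := by
  rw [orbitPoly, Polynomial.map_prod]
  refine Fintype.prod_equiv (Equiv.mulRight d) _ _ fun e => ?_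
  simp [deckF_comp]

include hF in
/-- Every element is integral over the field of `X₀(M₀²)`. -/
theorem isIntegral_base (x : F) :
    IsIntegral ↥(FLevel L (lev M₀)) (x : LaurentSeries L) := by
  classical
  have hlift : (hF.orbitPoly x).map (F.val).toRingHom ∈
      Polynomial.lifts (algebraMap ↥(FLevel L (lev M₀)) (LaurentSeries L)) := by
    rw [Polynomial.lifts_iff_coeff_lifts]
    intro i
    rw [Polynomial.coeff_map]
    exact ⟨⟨_, hF.mem_base_of_invariant (x := (hF.orbitPoly x).coeff i) fun d => by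
      conv_rhs => rw [← hF.orbitPoly_invariant x d]
      rw [Polynomial.coeff_map]; rfl⟩, rfl⟩
  obtain ⟨P, hP, hdeg, hmon⟩ := Polynomial.lifts_and_natDegree_eq_and_monic hlift
    ((Polynomial.monic_prod_of_monic _ _ fun e _ => Polynomial.monic_X_sub_C _).map _)
  refine ⟨P, hmon, ?_⟩
  rw [← Polynomial.eval_map, hP, orbitPoly, Polynomial.map_prod, Polynomial.eval_prod]
  refine Finset.prod_eq_zero (Finset.mem_univ (1 : (ZMod M₀)ˣ)) ?_
  simp [deckF_one]

end IsModel

/-! ### The two models -/

namespace CoverFns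

variable (C : CoverFns M₀)

theorem isModel_adjoin (ψ : Qbar →+* L) (φ : L →+* ℂ) (hc : φ.comp ψ = jEmb) :
    IsModel (M₀ := M₀) φ (IntermediateField.adjoin L (coeffMap ψ '' C.gens)) := by
  set F := IntermediateField.adjoin L (coeffMap ψ '' C.gens) with hFdef
  have hgen : ∀ x ∈ C.gens, ∀ d : (ZMod M₀)ˣ,
      ∃ (z : FractionRing ↥(modH M₀)) (y : LaurentSeries Qbar),
      y ∈ C.gens ∧ serFrac M₀ z = coeffMap φ (coeffMap ψ x) ∧
        serFrac M₀ (deckFrac d z) = coeffMap φ (coeffMap ψ y) := by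
    intro x hx d
    simp only [coeffMap_coeffMap, hc]
    rcases hx with hx | ⟨⟨u, v⟩, rfl⟩
    · obtain ⟨a, ha, hinv⟩ := divisorExpansions_invariant hx
      refine ⟨algebraMap _ _ a, x, Or.inl hx, ?_, ?_⟩
      · rw [serFrac_algebraMap, ha]
      · rw [deckFrac_algebraMap, hinv, serFrac_algebraMap, ha]
    · refine ⟨algebraMap _ _ (C.fnGen u v), C.ser (d * u) (d * v), Or.inr ⟨(d * u, d * v), rfl⟩,
        ?_, ?_⟩
      · rw [serFrac_algebraMap, C.serH_fnGen]
      · rw [deckFrac_algebraMap, deckFn_fnGen, serFrac_algebraMap, C.serH_fnGen]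
  have key : ∀ (d : (ZMod M₀)ˣ) (x : LaurentSeries L), x ∈ F →
      ∃ z : FractionRing ↥(modH M₀), serFrac M₀ z = coeffMap φ x ∧
        ∃ y ∈ F, serFrac M₀ (deckFrac d z) = coeffMap φ y := by
    intro d x hx
    induction hx using IntermediateField.adjoin_induction with
    | mem y hy =>
      obtain ⟨w, hw, rfl⟩ := hy
      obtain ⟨z, y', hy', h1, h2⟩ := hgen w hw d
      exact ⟨z, h1, _, IntermediateField.subset_adjoin _ _ ⟨y', hy', rfl⟩, h2⟩
    | algebraMap c =>
      have h : serH M₀ (algebraMap ℂ _ (φ c)) =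
          coeffMap φ (algebraMap L (LaurentSeries L) c) := by
        rw [algebraMap_laurentSeries_eq_single, coeffMap_single]
        exact X0Analytic.qSer_algebraMap (h := 1) (φ c)
      refine ⟨algebraMap ↥(modH M₀) _ (algebraMap ℂ _ (φ c)), by rw [serFrac_algebraMap, h], _,
        IntermediateField.algebraMap_mem F c, ?_⟩
      rw [deckFrac_algebraMap, AlgHom.commutes, serFrac_algebraMap, h]
    | add y z _ _ ihy ihz =>
      obtain ⟨a, ha, a', ha', hda⟩ := ihy
      obtain ⟨b, hb, b', hb', hdb⟩ := ihz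
      exact ⟨a + b, by rw [map_add, ha, hb, map_add], a' + b', add_mem ha' hb',
        by rw [map_add, map_add, hda, hdb, map_add]⟩
    | inv y _ ihy =>
      obtain ⟨a, ha, a', ha', hda⟩ := ihy
      exact ⟨a⁻¹, by rw [map_inv₀, ha, map_inv₀], a'⁻¹, inv_mem ha',
        by rw [map_inv₀, map_inv₀, hda, map_inv₀]⟩
    | mul y z _ _ ihy ihz =>
      obtain ⟨a, ha, a', ha', hda⟩ := ihy
      obtain ⟨b, hb, b', hb', hdb⟩ := ihz
      exact ⟨a * b, by rw [map_mul, ha, hb, map_mul], a' * b', mul_mem ha' hb',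
        by rw [map_mul, map_mul, hda, hdb, map_mul]⟩
  refine ⟨fun x => ?_, ?_, fun d x z hz => ?_⟩
  · obtain ⟨z, hz, -⟩ := key 1 x x.2
    exact ⟨z, hz⟩
  · rw [X0Analytic.FLevel_eq_adjoin, IntermediateField.adjoin_le_iff]
    rintro _ ⟨d, hd0, hd, rfl⟩
    refine IntermediateField.subset_adjoin _ _ ⟨qExpand Qbar d (jqModC Qbar),
      Or.inl ⟨d, hd0, hd, rfl⟩, ?_⟩
    simp only [jL, coeffEmb, ← jqModC_rat, coeffMap_qExpand, coeffMap_jqModC]
  · obtain ⟨z', hz', y, hy, hd⟩ := key d x x.2
    rw [(serFrac M₀).injective (hz.trans hz'.symm)]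
    exact ⟨⟨y, hy⟩, hd⟩

theorem coeffMap_id_image : coeffMap (RingHom.id Qbar) '' C.gens = C.gens := by
  have h : ∀ x : LaurentSeries Qbar, coeffMap (RingHom.id Qbar) x = x := coeffMap_id
  simp [h]

/-- The field of the cover over `ℚ̄` is a model. -/
theorem isModel_field : IsModel (M₀ := M₀) jEmb C.field := by
  have h := C.isModel_adjoin (RingHom.id Qbar) jEmb (RingHom.comp_id _)
  rwa [C.coeffMap_id_image] at h

/-- The field of the cover over `ℂ` is a model. -/
theorem isModel_fieldC : IsModel (M₀ := M₀) (RingHom.id ℂ) C.fieldC :=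
  C.isModel_adjoin jEmb (RingHom.id ℂ) (RingHom.id_comp _)

/-- A model generated by the generators is a function field of one variable. -/
theorem isFunctionField_adjoin [IsAlgClosed L] (ψ : Qbar →+* L) (φ : L →+* ℂ)
    (hc : φ.comp ψ = jEmb) :
    FunctionFieldRR.IsFunctionField L
      ↥(IntermediateField.adjoin L (coeffMap ψ '' C.gens)) := by
  have hF := C.isModel_adjoin ψ φ hc
  set F := IntermediateField.adjoin L (coeffMap ψ '' C.gens) with hFdef
  set j : F := ⟨(jEl L (lev M₀) : LaurentSeries L), hF.base_le (jEl L (lev M₀)).2⟩ with hj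
  have htr : Transcendental L j := by
    have h := X0Analytic.transcendental_jEl (N := lev M₀) φ
    intro halg
    refine h ?_
    have h1 : IsAlgebraic L (F.val j) := halg.algHom F.val
    exact (isAlgebraic_algHom_iff (FLevel L (lev M₀)).val Subtype.val_injective).mp h1
  have hle : L⟮(j : LaurentSeries L)⟯ ≤ F :=
    IntermediateField.adjoin_simple_le_iff.mpr j.2
  have hint : ∀ x ∈ coeffMap ψ '' C.gens, IsIntegral L⟮(j : LaurentSeries L)⟯ x := by
    intro x hx
    have h1 := hF.isIntegral_base ⟨x, IntermediateField.subset_adjoin _ _ hx⟩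
    have := X0Analytic.finiteDimensional_jField (N := lev M₀) φ
    have hjl : L⟮(j : LaurentSeries L)⟯ ≤ FLevel L (lev M₀) :=
      IntermediateField.adjoin_simple_le_iff.mpr (jEl L (lev M₀)).2
    let _ : Algebra L⟮(j : LaurentSeries L)⟯ ↥(FLevel L (lev M₀)) :=
      (IntermediateField.inclusion hjl).toRingHom.toAlgebra
    have : IsScalarTower L⟮(j : LaurentSeries L)⟯ ↥(FLevel L (lev M₀)) (LaurentSeries L) :=
      IsScalarTower.of_algebraMap_eq fun _ => rfl
    have : Algebra.IsIntegral L⟮(j : LaurentSeries L)⟯ ↥(FLevel L (lev M₀)) := by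
      have hfd : FiniteDimensional L⟮jEl L (lev M₀)⟯ ↥(FLevel L (lev M₀)) :=
        X0Analytic.finiteDimensional_jField (N := lev M₀) φ
      refine ⟨fun y => ?_⟩
      obtain ⟨P, hP, hev⟩ := IsIntegral.of_finite L⟮jEl L (lev M₀)⟯ y
      have hmap : ∀ z : L⟮jEl L (lev M₀)⟯,
          ((z : ↥(FLevel L (lev M₀))) : LaurentSeries L) ∈ L⟮(j : LaurentSeries L)⟯ := fun z => by
        have h2 : (L⟮jEl L (lev M₀)⟯).map (FLevel L (lev M₀)).val = L⟮(j : LaurentSeries L)⟯ := by
          rw [IntermediateField.adjoin_map, Set.image_singleton]; rfl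
        exact h2 ▸ ⟨z, z.2, rfl⟩
      let e : L⟮jEl L (lev M₀)⟯ →+* L⟮(j : LaurentSeries L)⟯ :=
        (((FLevel L (lev M₀)).val.comp (L⟮jEl L (lev M₀)⟯).val).codRestrict
          (L⟮(j : LaurentSeries L)⟯).toSubalgebra hmap).toRingHom
      refine ⟨P.map e, hP.map e, ?_⟩
      rw [Polynomial.eval₂_map]
      refine Eq.trans ?_ hev
      congr 1
    exact isIntegral_trans (R := L⟮(j : LaurentSeries L)⟯) (A := ↥(FLevel L (lev M₀))) _ h1
  have hfin : FiniteDimensional L⟮(j : LaurentSeries L)⟯ (IntermediateField.extendScalars hle) :=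
    finite_extendScalars_of_integral _ _ (C.finite_gens.image _) F rfl hle hint
  have hmapj : (L⟮j⟯).map F.val = L⟮(j : LaurentSeries L)⟯ := by
    rw [IntermediateField.adjoin_map, Set.image_singleton]; rfl
  have : FiniteDimensional L⟮j⟯ F := by
    let e : L⟮(j : LaurentSeries L)⟯ ≃+* L⟮j⟯ :=
      (((L⟮j⟯).equivMap F.val).toRingEquiv.trans
        (IntermediateField.equivOfEq hmapj).toRingEquiv).symm
    let r : ↥(IntermediateField.extendScalars hle) ≃+* F :=
      { toFun := fun x => ⟨(x : LaurentSeries L), x.2⟩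
        invFun := fun x => ⟨(x : LaurentSeries L), x.2⟩
        left_inv := fun _ => rfl
        right_inv := fun _ => rfl
        map_mul' := fun _ _ => rfl
        map_add' := fun _ _ => rfl }
    refine Module.Finite.of_equiv_equiv e r (RingHom.ext fun z => Subtype.ext ?_)
    obtain ⟨y, rfl⟩ := e.symm.surjective z
    simp only [RingHom.comp_apply, RingEquiv.coe_toRingHom, RingEquiv.apply_symm_apply]
    rfl
  exact FunctionFieldRR.IsFunctionField.of_finiteDimensional j htr

/-- The field of the cover over `ℚ̄` is a function field of one variable. -/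
theorem isFunctionField_field : FunctionFieldRR.IsFunctionField Qbar ↥C.field := by
  have h := C.isFunctionField_adjoin (RingHom.id Qbar) jEmb (RingHom.comp_id _)
  rwa [C.coeffMap_id_image] at h

/-- The field of the cover over `ℂ` is a function field of one variable. -/
theorem isFunctionField_fieldC : FunctionFieldRR.IsFunctionField ℂ ↥C.fieldC :=
  C.isFunctionField_adjoin jEmb (RingHom.id ℂ) (RingHom.id_comp _)

end CoverFns

end Fermat.Agent.Row48.Cover

end
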