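import Mathlib.Algebra.Module.Submodule.Union
import Fermat.Agent.Row48.Cover.MultOps
import Fermat.Agent.Row48.Cover.DegreeBar
import Fermat.Agent.J0Torsion.Main

/-!
# The functions of the cover are in its function field; multipliers are unique and trivial ones
come from powers

A function in `modH M₀` is interpolated over the deck group at a separating combination of the
generators, with coefficients of level `Γ₀(M₀²)`; coefficients descend from `ℂ` to `ℚ̄` by linear
functionals and, for roots, by finiteness of the orbit under `Aut(ℂ/ℚ̄)`.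
-/

set_option autoImplicit false

noncomputable section

open CongruenceSubgroup UpperHalfPlane ModularCurve Polynomial
open scoped MatrixGroups Manifold

namespace Fermat.Agent.Row48.Cover

open X0Analytic (perMero qSer modFun FLevel)
open J0Torsion (jEmb mapCoeff)

local notation "Qbar" => AlgebraicClosure ℚ

variable {M₀ : ℕ} [NeZero M₀]

theorem deckFn_eq_of_mk {d e : (ZMod M₀)ˣ}
    (h : (QuotientGroup.mk d : DeckQuot M₀) = QuotientGroup.mk e) (a : ↥(modH M₀)) :
    deckFn d a = deckFn e a := by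
  obtain ⟨c, hc, rfl⟩ : ∃ c ∈ pmSub M₀, e = c * d :=
    ⟨d⁻¹ * e, QuotientGroup.eq.mp h, by rw [mul_comm, mul_inv_cancel_left]⟩
  rw [← deckFn_comp]
  rcases mem_pmSub.mp hc with rfl | rfl
  · rw [deckFn_one]
  · rw [deckFn_neg_one]

/-- A deck invariant function has its series in the field of `X₀(M₀²)` over `ℂ`. -/
theorem serH_mem_FLevel {a : ↥(modH M₀)} (h : ∀ d, deckFn d a = a) :
    serH M₀ a ∈ FLevel ℂ (lev M₀) := by
  have hinv : ∀ γ ∈ Gamma0 (lev M₀), ∀ τ : ℍ, (a : ℍ → ℂ) (γ • τ) = (a : ℍ → ℂ) τ := by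
    intro γ hγ τ
    obtain ⟨d, hd⟩ : ∃ d : (ZMod M₀)ˣ, ((γ 1 1 : ℤ) : ZMod M₀) = d := by
      have h1 := diag_inv hγ
      exact ⟨⟨_, _, by rw [mul_comm]; exact h1, h1⟩, rfl⟩
    have h2 : compH hγ a = a := by rw [deckFn_eq hγ hd, h]
    exact congrFun (congrArg Subtype.val h2) τ
  exact J0Torsion.ser_mem_FLevel (⟨(a : ℍ → ℂ), a.2.1, hinv, a.2.2.2⟩ : ↥(modFun (lev M₀)))

/-- A combination of functions whose deck conjugates are pairwise distinct. -/
theorem CoverFns.exists_separating (C : CoverFns M₀) :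
    ∃ c : (ZMod M₀)ˣ × (ZMod M₀)ˣ → ℂ, Function.Injective fun q : DeckQuot M₀ =>
      deckFn q.out (∑ x, c x • C.fnGen x.1 x.2) := by
  classical
  let L : (ZMod M₀)ˣ → ((ZMod M₀)ˣ × (ZMod M₀)ˣ → ℂ) →ₗ[ℂ] ↥(modH M₀) := fun d =>
    { toFun := fun c => ∑ x, c x • (C.fnGen (d * x.1) (d * x.2) - C.fnGen x.1 x.2)
      map_add' := fun c c' => by simp [add_smul, Finset.sum_add_distrib]
      map_smul' := fun r c => by simp [Finset.smul_sum, smul_smul] }
  have hker : ∀ q : {q : DeckQuot M₀ // q ≠ 1}, LinearMap.ker (L q.1.out) ≠ ⊤ := by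
    rintro ⟨q, hq⟩ htop
    have hall : ∀ u v, C.F (q.out * u) (q.out * v) = C.F u v := fun u v => by
      have h : L q.out (Pi.single (u, v) 1) = 0 :=
        LinearMap.mem_ker.mp (htop ▸ Submodule.mem_top)
      simp only [L, LinearMap.coe_mk, AddHom.coe_mk] at h
      rw [Finset.sum_eq_single (u, v) (fun x _ hx => by rw [Pi.single_eq_of_ne hx, zero_smul])
        (by simp), Pi.single_eq_same, one_smul, sub_eq_zero] at h
      exact congrArg Subtype.val h
    refine hq ?_
    rw [← QuotientGroup.out_eq' q, QuotientGroup.eq_one_iff]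
    exact mem_pmSub.mpr (C.separatesℂ _ hall)
  obtain ⟨c, hc⟩ := Submodule.exists_forall_notMem_of_forall_ne_top _ hker
  refine ⟨c, fun q r h => ?_⟩
  by_contra hne
  have hne' : (QuotientGroup.mk (q.out * r.out⁻¹) : DeckQuot M₀) ≠ 1 := by
    rw [QuotientGroup.mk_mul, QuotientGroup.mk_inv, QuotientGroup.out_eq', QuotientGroup.out_eq',
      ← div_eq_mul_inv, Ne, div_eq_one]
    exact hne
  refine hc ⟨_, hne'⟩ (LinearMap.mem_ker.mpr ?_)
  have h2 := congrArg (deckFn r.out⁻¹) h
  simp only at h2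
  rw [deckFn_comp, deckFn_comp, mul_inv_cancel, deckFn_one,
    ← deckFn_eq_of_mk (QuotientGroup.out_eq' _)] at h2
  simp only [map_sum, map_smul, CoverFns.deckFn_fnGen] at h2
  simp only [L, LinearMap.coe_mk, AddHom.coe_mk, smul_sub, Finset.sum_sub_distrib, sub_eq_zero]
  exact h2

namespace CoverFns

variable (C : CoverFns M₀)

theorem FLevel_le_fieldC : FLevel ℂ (lev M₀) ≤ C.fieldC := by
  rw [X0Analytic.FLevel_eq_adjoin, IntermediateField.adjoin_le_iff]
  rintro x ⟨d, hd0, hd, rfl⟩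
  refine IntermediateField.subset_adjoin _ _
    ⟨qExpand Qbar d (jqModC Qbar), Or.inl ⟨d, hd0, hd, rfl⟩, ?_⟩
  rw [X0Analytic.jL, coeffEmb, coeffMap_qExpand, coeffMap_qExpand, ← jqModC_rat, coeffMap_jqModC,
    coeffMap_jqModC]

theorem serH_fnGen_mem (u v : (ZMod M₀)ˣ) : serH M₀ (C.fnGen u v) ∈ C.fieldC := by
  rw [C.serH_fnGen]
  exact IntermediateField.subset_adjoin _ _ ⟨_, Or.inr ⟨(u, v), rfl⟩, rfl⟩

/-- **The series of a function on the cover is in the field of the cover over `ℂ`.** -/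
theorem serH_mem_fieldC (a : ↥(modH M₀)) : serH M₀ a ∈ C.fieldC := by
  classical
  obtain ⟨c, hc⟩ := C.exists_separating
  set θ : ↥(modH M₀) := ∑ x, c x • C.fnGen x.1 x.2 with hθ
  have hθmem : serH M₀ θ ∈ C.fieldC := by
    rw [hθ, map_sum]
    refine sum_mem fun x _ => ?_
    rw [Algebra.smul_def, map_mul]
    refine mul_mem ?_ (C.serH_fnGen_mem x.1 x.2)
    rw [show serH M₀ (algebraMap ℂ ↥(modH M₀) (c x)) = algebraMap ℂ (LaurentSeries ℂ) (c x) by
      rw [algebraMap_laurentSeries_eq_single]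
      exact X0Analytic.qSer_algebraMap (h := 1) (c x)]
    exact IntermediateField.algebraMap_mem _ _
  let P : ↥(modH M₀) → (↥(modH M₀))[X] := fun G => ∑ q : DeckQuot M₀,
    Polynomial.C (deckFn q.out G) *
      ∏ r ∈ Finset.univ.erase q, (Polynomial.X - Polynomial.C (deckFn r.out θ))
  have hP : ∀ (G : ↥(modH M₀)) (e : (ZMod M₀)ˣ), (P G).map (deckFn e).toRingHom = P G := by
    intro G e
    simp only [P, Polynomial.map_sum, Polynomial.map_mul, Polynomial.map_prod, Polynomial.map_sub,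
      Polynomial.map_X, Polynomial.map_C, AlgHom.toRingHom_eq_coe, RingHom.coe_coe, deckFn_comp]
    have hd : ∀ (q : DeckQuot M₀) (b : ↥(modH M₀)),
        deckFn (q.out * e) b = deckFn (q * QuotientGroup.mk e).out b := fun q b =>
      deckFn_eq_of_mk (by rw [QuotientGroup.mk_mul, QuotientGroup.out_eq', QuotientGroup.out_eq']) b
    simp only [hd]
    refine Fintype.sum_equiv (Equiv.mulRight (QuotientGroup.mk e)) _ _ fun q => ?_
    congr 1
    refine Finset.prod_equiv (Equiv.mulRight (QuotientGroup.mk e)) (fun r => ?_) fun r _ => rfl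
    simp only [Finset.mem_erase, Finset.mem_univ, and_true, Equiv.coe_mulRight]
    exact (Equiv.mulRight (QuotientGroup.mk e : DeckQuot M₀)).injective.ne_iff.symm
  have hmem : ∀ G, serH M₀ ((P G).eval θ) ∈ C.fieldC := fun G => by
    rw [Polynomial.eval_eq_sum_range, map_sum]
    refine sum_mem fun i _ => ?_
    rw [map_mul, map_pow]
    refine mul_mem (C.FLevel_le_fieldC (serH_mem_FLevel fun d => ?_)) (pow_mem hθmem i)
    have h := congrArg (fun Q : (↥(modH M₀))[X] => Q.coeff i) (hP G d)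
    rwa [Polynomial.coeff_map] at h
  set x₁ : DeckQuot M₀ := QuotientGroup.mk (1 : (ZMod M₀)ˣ)
  have h1 : ∀ b : ↥(modH M₀), deckFn x₁.out b = b := fun b => by
    rw [deckFn_eq_of_mk (e := 1) (QuotientGroup.out_eq' _), deckFn_one]
  have heval : ∀ G, (P G).eval θ =
      G * ∏ r ∈ Finset.univ.erase x₁, (θ - deckFn r.out θ) := by
    intro G
    simp only [P, Polynomial.eval_finsetSum, Polynomial.eval_mul, Polynomial.eval_C,
      Polynomial.eval_prod, Polynomial.eval_sub, Polynomial.eval_X]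
    rw [Finset.sum_eq_single x₁, h1]
    · intro q _ hq
      rw [Finset.prod_eq_zero (Finset.mem_erase.mpr ⟨hq.symm, Finset.mem_univ x₁⟩)
        (by rw [h1, sub_self]), mul_zero]
    · simp
  set D := ∏ r ∈ Finset.univ.erase x₁, (θ - deckFn r.out θ) with hD
  have hD0 : serH M₀ D ≠ 0 := by
    rw [hD, map_prod]
    refine Finset.prod_ne_zero_iff.mpr fun r hr h0 => Finset.ne_of_mem_erase hr (hc ?_)
    show deckFn r.out θ = deckFn x₁.out θ
    rw [map_eq_zero_iff _ serH_injective, sub_eq_zero] at h0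
    rw [h1, ← h0]
  have hDm := hmem 1
  have hGm := hmem a
  rw [heval, one_mul] at hDm
  rw [heval, map_mul] at hGm
  rw [← mul_div_cancel_right₀ (serH M₀ a) hD0]
  exact div_mem hGm hDm

theorem mapCoeff_adjoin_mem (π : ℂ →+ Qbar) (hπ : ∀ a c, π (jEmb a * c) = a * π c)
    {x : LaurentSeries ℂ} (hx : x ∈ Algebra.adjoin ℂ (coeffMap jEmb '' C.gens)) :
    mapCoeff π x ∈ C.algH := by
  rw [← Subalgebra.mem_toSubmodule, Algebra.adjoin_eq_span] at hx
  induction hx using Submodule.span_induction generalizing π with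
  | zero => rw [map_zero]; exact zero_mem _
  | add u v _ _ hu hv => rw [map_add]; exact add_mem (hu π hπ) (hv π hπ)
  | smul c u _ hu =>
    rw [Algebra.smul_def]
    have h : mapCoeff π (algebraMap ℂ (LaurentSeries ℂ) c * u)
        = mapCoeff (π.comp (AddMonoidHom.mulLeft c)) u := by
      ext k
      rw [algebraMap_laurentSeries_eq_single, J0Torsion.mapCoeff_coeff, J0Torsion.mapCoeff_coeff,
        HahnSeries.coeff_single_zero_mul]
      rfl
    rw [h]
    refine hu _ fun a z => ?_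
    show π (c * (jEmb a * z)) = a * π (c * z)
    rw [mul_left_comm, hπ]
  | mem u hu =>
    obtain ⟨v, hv, rfl⟩ : ∃ v ∈ C.algH, coeffMap jEmb v = u := by
      induction hu using Submonoid.closure_induction with
      | one => exact ⟨1, one_mem _, map_one _⟩
      | mul a b _ _ ha hb =>
        obtain ⟨a, ha, rfl⟩ := ha
        obtain ⟨b, hb, rfl⟩ := hb
        exact ⟨a * b, mul_mem ha hb, map_mul _ _ _⟩
      | mem y hy =>
        obtain ⟨w, hw, rfl⟩ := hy
        exact ⟨w, Algebra.subset_adjoin hw, rfl⟩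
    have h := J0Torsion.mapCoeff_coeffMap_mul jEmb π hπ v 1
    rw [mul_one] at h
    rw [h]
    refine mul_mem hv ?_
    have h1 : mapCoeff π 1 = algebraMap Qbar (LaurentSeries Qbar) (π 1) := by
      ext k
      rw [algebraMap_laurentSeries_eq_single, J0Torsion.mapCoeff_coeff, HahnSeries.coeff_one,
        HahnSeries.coeff_single, apply_ite π, map_zero]
    rw [h1]
    exact Subalgebra.algebraMap_mem _ _

/-- **Coefficient descent** into the field of the cover. -/
theorem mem_field_of_coeffMap {z : LaurentSeries Qbar} (hz : coeffMap jEmb z ∈ C.fieldC) :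
    z ∈ C.field := by
  obtain ⟨a, ha, b, hb, hab⟩ := IntermediateField.mem_adjoin_iff_div.mp hz
  rcases eq_or_ne b 0 with rfl | hb0
  · rw [div_zero] at hab
    rw [(map_eq_zero_iff _ (X0Analytic.coeffMap_injective jEmb.injective)).mp hab]
    exact zero_mem _
  obtain ⟨k, hk⟩ : ∃ k, b.coeff k ≠ 0 := ⟨_, mt HahnSeries.coeff_order_eq_zero.mp hb0⟩
  obtain ⟨π, hπ, hπk⟩ := J0Torsion.exists_functional jEmb hk
  have h : z * mapCoeff π b = mapCoeff π a := by
    rw [← J0Torsion.mapCoeff_coeffMap_mul jEmb π hπ, hab, div_mul_cancel₀ _ hb0]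
  have hne : mapCoeff π b ≠ 0 := fun h0 => hπk (by
    simpa using congrArg (fun w : LaurentSeries Qbar => w.coeff k) h0)
  rw [eq_div_iff hne |>.mpr h]
  exact div_mem (C.algH_le (C.mapCoeff_adjoin_mem π hπ ha))
    (C.algH_le (C.mapCoeff_adjoin_mem π hπ hb))

/-- **A quotient of functions on the cover with `ℚ̄` series is in the field of the cover.** -/
theorem mem_field (z : LaurentSeries Qbar) (a b : ↥(modH M₀)) (hb : b ≠ 0)
    (h : coeffMap jEmb z * serH M₀ b = serH M₀ a) : z ∈ C.field := by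
  refine C.mem_field_of_coeffMap ?_
  rw [eq_div_iff ((map_ne_zero_iff _ serH_injective).mpr hb) |>.mpr h]
  exact div_mem (C.serH_mem_fieldC a) (C.serH_mem_fieldC b)

end CoverFns

/-! ### Multipliers -/

variable {n : ℕ} [NeZero n]

/-- **The multiplier of a function is unique.** -/
theorem hasMult_unique (f : LaurentSeries ℂ) (φ ψ : goodHom M₀ (ZMod n))
    (h : HasMult n f φ) (h' : HasMult n f ψ) : φ = ψ := by
  obtain ⟨G, b, a, hG, hG0, hb, ha, hf⟩ := h
  obtain ⟨G', b', a', hG', hG0', hb', ha', hf'⟩ := h'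
  have hb0 : (b : ℍ → ℂ) ≠ 0 := fun e => hb (Subtype.ext e)
  have hb0' : (b' : ℍ → ℂ) ≠ 0 := fun e => hb' (Subtype.ext e)
  have he : a * b' ^ n = a' * b ^ n := serH_injective (by
    rw [map_mul, map_mul, ← hf, ← hf']; ring)
  obtain ⟨c, -, hcG⟩ := J0Torsion.exists_const_of_pow_eq (hG.1.mul b'.2.1) (hG'.1.mul b.2.1)
    (NeZero.ne n) (J0Torsion.hol_mul_ne_zero hG'.1 b.2.1 hG0' hb0) fun τ => by
      have := congrFun (congrArg Subtype.val he) τ
      simp only [MulMemClass.coe_mul, SubmonoidClass.coe_pow, ha, ha', Pi.mul_apply,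
        Pi.pow_apply] at this
      simp only [Pi.mul_apply, mul_pow]
      exact this
  obtain ⟨τ₀, hτ₀⟩ := Function.ne_iff.mp (J0Torsion.hol_mul_ne_zero hG.1 b'.2.1 hG0 hb0')
  refine Subtype.ext (AddMonoidHom.ext fun x => ?_)
  obtain ⟨γ, rfl⟩ := Additive.ofMul.surjective x
  refine ZMod.injective_stdAddChar ?_
  rw [← chiH_apply, ← chiH_apply]
  have e0 := congrFun hcG τ₀
  have e1 := congrFun hcG ((γ : SL(2, ℤ)) • τ₀)
  simp only [Pi.mul_apply, Pi.smul_apply, smul_eq_mul, hG.2.1, hG'.2.1, b.2.2.1 γ γ.2,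
    b'.2.2.1 γ γ.2] at e0 e1
  refine mul_right_cancel₀ hτ₀ ?_
  rw [Pi.mul_apply]
  linear_combination e1 - chiH (ψ : Additive (gammaH M₀) →+ ZMod n) γ * e0

namespace CoverFns

variable (C : CoverFns M₀)

/-- A function with trivial multiplier is a power in the field of the cover over `ℂ`. -/
theorem trivial_fieldC {f : LaurentSeries ℂ} (h : HasMult n f (0 : goodHom M₀ (ZMod n))) :
    ∃ g ∈ C.fieldC, g ^ n = f := by
  obtain ⟨G, b, a, hG, -, hb, ha, hf⟩ := h
  rw [ZeroMemClass.coe_zero, chiH_zero] at hG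
  have hinv : ∀ γ ∈ gammaH M₀, ∀ τ : ℍ, G (γ • τ) = G τ := fun γ hγ τ => by
    rw [hG.2.1 ⟨γ, hγ⟩ τ, MonoidHom.one_apply, one_mul]
  let G₀ : ↥(modH M₀) := ⟨G, hG.1, hinv, fun g =>
    ⟨hG.1.comp (mdifferentiable_smul (X0Analytic.det_pos_SL g)), isPer_comp_gammaH hinv g,
      hG.2.2 g⟩⟩
  have haG : a = G₀ ^ n := Subtype.ext ha
  have hb' : serH M₀ b ≠ 0 := (map_ne_zero_iff _ serH_injective).mpr hb
  refine ⟨serH M₀ G₀ / serH M₀ b, div_mem (C.serH_mem_fieldC _) (C.serH_mem_fieldC _), ?_⟩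
  rw [div_pow, div_eq_iff (pow_ne_zero n hb'), ← map_pow, ← map_pow, hf, haG]

/-- **A function with trivial multiplier is a power in the field of the cover.** -/
theorem trivial (f : C.field)
    (h : HasMult n (coeffMap jEmb (f : LaurentSeries Qbar)) (0 : goodHom M₀ (ZMod n))) :
    ∃ g : C.field, g ^ n = f := by
  obtain ⟨g, hgmem, hg⟩ := C.trivial_fieldC h
  let _ : Algebra Qbar ℂ := jEmb.toAlgebra
  set p : Polynomial (LaurentSeries ℂ) := Polynomial.X ^ n - Polynomial.C (g ^ n)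
  have hroots : {y : LaurentSeries ℂ | y ^ n = g ^ n}.Finite :=
    (Polynomial.finite_setOfPred_isRoot (p := p)
      (Polynomial.X_pow_sub_C_ne_zero (Nat.pos_of_ne_zero (NeZero.ne n)) _)).subset fun y hy => by
        simp only [Set.mem_ofPred_eq] at hy
        simp [p, hy]
  have hcoef : ∀ k : ℤ, g.coeff k ∈ Set.range jEmb := fun k => by
    have halg : IsAlgebraic Qbar (g.coeff k) := by
      refine MWJ0.isAlgebraic_of_finite_orbit ((hroots.image fun y => y.coeff k).subset ?_)
      rintro _ ⟨σ, rfl⟩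
      refine ⟨coeffMap (σ : ℂ →+* ℂ) g, ?_, rfl⟩
      show _ ^ n = _
      rw [← map_pow, hg, coeffMap_coeffMap]
      exact coeffMap_congr (RingHom.ext fun a => σ.commutes a) _
    obtain ⟨a, ha⟩ := minpoly.mem_range_of_degree_eq_one Qbar _
      (IsAlgClosed.degree_eq_one_of_irreducible Qbar (minpoly.irreducible halg.isIntegral))
    exact ⟨a, ha⟩
  choose c hc using hcoef
  let z : LaurentSeries Qbar := ⟨c, g.isPWO_support.mono fun k hk h0 => hk (by
    have h := hc k
    rw [h0] at h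
    exact (map_eq_zero jEmb).mp h)⟩
  have hz : coeffMap jEmb z = g := HahnSeries.ext (funext hc)
  refine ⟨⟨z, C.mem_field_of_coeffMap (hz.symm ▸ hgmem)⟩, Subtype.ext ?_⟩
  refine X0Analytic.coeffMap_injective jEmb.injective ?_
  rw [SubmonoidClass.coe_pow, map_pow, hz, hg]

end CoverFns

end Fermat.Agent.Row48.Cover

end
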