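import Fermat.Agent.Row48.Cover.RootsBase
import Fermat.Agent.Row48.Cover.EtaleGroup

/-!
# Germs of functions on the cover at points and cusps
-/

set_option autoImplicit false

noncomputable section

open CongruenceSubgroup UpperHalfPlane ModularCurve
open scoped MatrixGroups Manifold

namespace Fermat.Agent.Row48.Cover

open X0Analytic (perMero Hol qSer perToHol psL tayHom rot qp)
open Gamma0Count (CosetSpace)

variable {M₀ : ℕ} [NeZero M₀]

/-- The conjugate of a function on the cover by `g⁻¹`. -/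
def convH (g : SL(2, ℤ)) : ↥(modH M₀) →ₐ[ℂ] ↥(perMero (lev M₀)) where
  toFun a := ⟨fun τ => (a : ℍ → ℂ) (g⁻¹ • τ), a.2.2.2 g⁻¹⟩
  map_one' := rfl
  map_mul' _ _ := rfl
  map_zero' := rfl
  map_add' _ _ := rfl
  commutes' _ := rfl

theorem convH_apply (g : SL(2, ℤ)) (a : ↥(modH M₀)) (τ : ℍ) :
    (convH g a : ℍ → ℂ) τ = (a : ℍ → ℂ) (g⁻¹ • τ) := rfl

theorem convH_injective (g : SL(2, ℤ)) : Function.Injective (convH (M₀ := M₀) g) := fun a b h =>
  Subtype.ext (funext fun τ => by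
    have := congrFun (congrArg Subtype.val h) (g • τ)
    simpa [convH_apply] using this)

theorem convH_deckFn (g : SL(2, ℤ)) (d : (ZMod M₀)ˣ) (a : ↥(modH M₀)) :
    convH g (deckFn d a) = convH (g * (gammaD d)⁻¹) a := Subtype.ext (funext fun τ => by
  show (a : ℍ → ℂ) (gammaD d • g⁻¹ • τ) = (a : ℍ → ℂ) ((g * (gammaD d)⁻¹)⁻¹ • τ)
  rw [mul_inv_rev, inv_inv, mul_smul])

theorem coset_mul_gammaD (g : SL(2, ℤ)) (d : (ZMod M₀)ˣ) :
    ((g * (gammaD d)⁻¹ : SL(2, ℤ)) : CosetSpace (lev M₀)) = g := by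
  rw [QuotientGroup.eq]
  simpa using gammaD_mem d

/-- Taylor series at `τ` of the conjugate. -/
def germPt (τ : ℍ) (g : SL(2, ℤ)) : ↥(modH M₀) →+* LaurentSeries ℂ :=
  psL.comp ((tayHom τ).comp ((perToHol (lev M₀)).toRingHom.comp (convH g).toRingHom))

theorem germPt_injective (τ : ℍ) (g : SL(2, ℤ)) : Function.Injective (germPt (M₀ := M₀) τ g) :=
  X0Analytic.psL_injective.comp ((X0Analytic.tayHom_injective τ).comp
    (X0Analytic.perToHol_injective.comp (convH_injective g)))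

/-- The `q`-series at the cusp of the conjugate. -/
def germCusp (g : SL(2, ℤ)) : ↥(modH M₀) →+* LaurentSeries ℂ :=
  (qSer (lev M₀)).comp (convH g).toRingHom

theorem germCusp_injective (g : SL(2, ℤ)) : Function.Injective (germCusp (M₀ := M₀) g) :=
  X0Analytic.qSer_injective.comp (convH_injective g)

theorem germPt_algebraMap (τ : ℍ) (g : SL(2, ℤ)) (c : ℂ) :
    germPt (M₀ := M₀) τ g (algebraMap ℂ _ c) = HahnSeries.single 0 c := by
  show psL (tayHom τ (perToHol (lev M₀) (convH g (algebraMap ℂ _ c)))) = _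
  rw [AlgHom.commutes, AlgHom.commutes, X0Analytic.tayHom_algebraMap, HahnSeries.ofPowerSeries_C]
  rfl

theorem germCusp_algebraMap (g : SL(2, ℤ)) (c : ℂ) :
    germCusp (M₀ := M₀) g (algebraMap ℂ _ c) = HahnSeries.single 0 c := by
  show qSer (lev M₀) (convH g (algebraMap ℂ _ c)) = _
  rw [AlgHom.commutes, X0Analytic.qSer_algebraMap]

/-- `ψ` is a germ of denominator `m / per`, also for roots with a good multiplier. -/
def GermOK (ψ : ↥(modH M₀) →+* LaurentSeries ℂ) (m per : ℕ) : Prop :=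
  (∀ a : ↥(modH M₀), a ≠ 0 → (m : ℤ) ∣ (per : ℤ) * (ψ a).order) ∧
    ∀ (n : ℕ) [NeZero n] (φ : goodHom M₀ (ZMod n)) (G : ℍ → ℂ),
      IsTw (chiH (φ : Additive (gammaH M₀) →+ ZMod n)) G →
        ∀ b : ↥(modH M₀), (b : ℍ → ℂ) = G ^ n → b ≠ 0 →
          ∃ X : LaurentSeries ℂ, ψ b = X ^ n ∧ (m : ℤ) ∣ (per : ℤ) * X.order

theorem germOK_point (τ : ℍ) (g : SL(2, ℤ)) (m : ℕ) : GermOK (germPt (M₀ := M₀) τ g) m m := by
  refine ⟨fun a _ => dvd_mul_right _ _, fun n _ φ G hG b hb _ => ?_⟩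
  let G' : Hol :=
    ⟨fun z => G (g⁻¹ • z), hG.1.comp (mdifferentiable_smul (X0Analytic.det_pos_SL g⁻¹))⟩
  refine ⟨psL (tayHom τ G'), ?_, dvd_mul_right _ _⟩
  rw [← map_pow, ← map_pow]
  refine congrArg (fun z => psL (tayHom τ z)) (Subtype.ext (funext fun z => ?_))
  show (b : ℍ → ℂ) (g⁻¹ • z) = _
  rw [hb]
  rfl

omit [NeZero M₀] in
/-- An element of `Γ₀(M₀²)` of the shape `g⁻¹ Tᵏ g` is in the group of the cover. -/
theorem conj_T_mem_gammaH {g : SL(2, ℤ)} {k : ℤ}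
    (hfix : ModularGroup.T ^ k • (g : CosetSpace (lev M₀)) = g) :
    g⁻¹ * ModularGroup.T ^ k * g ∈ gammaH M₀ ∧
      ((g⁻¹ * ModularGroup.T ^ k * g : SL(2, ℤ)) : Matrix (Fin 2) (Fin 2) ℤ).trace ^ 2 = 4 := by
  have htr : ((g⁻¹ * ModularGroup.T ^ k * g : SL(2, ℤ)) : Matrix (Fin 2) (Fin 2) ℤ).trace ^ 2 =
      4 := by
    rw [trace_conj_inv, ModularGroup.coe_T_zpow, Matrix.trace_fin_two]
    norm_num
  exact ⟨mem_gammaH_of_trace (mem_Gamma0_of_fixed hfix) htr, htr⟩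

/-- A function invariant under the conjugate of `Tᵉ` has a series in `q^(1/e)`. -/
theorem dvd_mul_order_of_invariant {N : ℕ} [NeZero N] {e : ℕ} {F : ↥(perMero N)} (hF : F ≠ 0)
    (h : ∀ z : ℍ, (F : ℍ → ℂ) ((ModularGroup.T ^ e)⁻¹ • z) = (F : ℍ → ℂ) z) :
    (N : ℤ) ∣ (e : ℤ) * (qSer N F).order := by
  set ζ : ℂ := Complex.exp (-(2 * Real.pi * Complex.I) / N) with hζdef
  have hζ : IsPrimitiveRoot ζ N := by
    rw [hζdef, neg_div, Complex.exp_neg]
    exact (Complex.isPrimitiveRoot_exp N (NeZero.ne N)).inv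
  have hζ0 : ζ ≠ 0 := Complex.exp_ne_zero _
  refine J0Torsion.dvd_mul_order_of_rot hζ (pow_ne_zero e hζ0)
    ((map_ne_zero_iff _ X0Analytic.qSer_injective).mpr hF) ?_
  obtain ⟨hm, hs⟩ := X0Analytic.qSer_subst (h' := N) (M := 1) F
    (fun τ : ℍ => (ModularGroup.T ^ e)⁻¹ • τ) (mdifferentiable_smul (X0Analytic.det_pos_SL _))
    (ζ ^ e) (pow_ne_zero e hζ0) (fun τ => by
      have hT : (ModularGroup.T ^ e)⁻¹ • τ = ((-(e : ℤ) : ℤ) : ℝ) +ᵥ τ := by
        rw [← UpperHalfPlane.modular_T_zpow_smul, zpow_neg, zpow_natCast]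
      simp only [qp, Function.Periodic.qParam, pow_one, hT, UpperHalfPlane.coe_vadd, hζdef,
        ← Complex.exp_nat_mul, ← Complex.exp_add]
      congr 1
      push_cast
      field_simp)
  rw [ModularCurve.qExpand_one_apply] at hs
  rw [← hs]
  exact congrArg _ (Subtype.ext (funext h))

theorem germOK_cusp {g : SL(2, ℤ)} {e : ℕ}
    (hfix : ModularGroup.T ^ e • (g : CosetSpace (lev M₀)) = g) :
    GermOK (germCusp (M₀ := M₀) g) (lev M₀) e := by
  have hfix' : ModularGroup.T ^ (-(e : ℤ)) • (g : CosetSpace (lev M₀)) = g := by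
    rw [zpow_neg, zpow_natCast, inv_smul_eq_iff, hfix]
  obtain ⟨hmem, htr⟩ := conj_T_mem_gammaH hfix'
  have key : ∀ z : ℍ, g⁻¹ • (ModularGroup.T ^ e)⁻¹ • z =
      (g⁻¹ * ModularGroup.T ^ (-(e : ℤ)) * g) • g⁻¹ • z := fun z => by
    rw [mul_smul (g⁻¹ * _), smul_inv_smul, mul_smul, zpow_neg, zpow_natCast]
  refine ⟨fun a ha => dvd_mul_order_of_invariant ((map_ne_zero_iff _ (convH_injective g)).mpr ha)
    fun z => ?_, fun n _ φ G hG b hb hb0 => ?_⟩
  · show (a : ℍ → ℂ) (g⁻¹ • _) = (a : ℍ → ℂ) (g⁻¹ • z)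
    rw [key]
    exact a.2.2.1 _ hmem _
  have hone : ∀ {γ : SL(2, ℤ)} (hγ : γ ∈ gammaH M₀),
      (γ : Matrix (Fin 2) (Fin 2) ℤ).trace ^ 2 = 4 → ∀ z : ℍ, G (γ • z) = G z := by
    intro γ hγ ht z
    rw [hG.2.1 ⟨γ, hγ⟩ z, chiH_apply, φ.2 ⟨γ, hγ⟩ ht, AddChar.map_zero_eq_one, one_mul]
  have hmemP : (fun z : ℍ => G (g⁻¹ • z)) ∈ perMero (lev M₀) := by
    refine ⟨hG.1.comp (mdifferentiable_smul (X0Analytic.det_pos_SL g⁻¹)), fun z => ?_, hG.2.2 g⁻¹⟩
    have hper : ModularGroup.T ^ ((lev M₀ : ℕ) : ℤ) • (g : CosetSpace (lev M₀)) = g := by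
      rw [MulAction.Quotient.smul_coe, QuotientGroup.eq, smul_eq_mul]
      have h1 := inv_mem (EichlerShimura.T_pow_conj_mem (N := lev M₀) g⁻¹)
      simpa [mul_assoc] using h1
    obtain ⟨hm2, ht2⟩ := conj_T_mem_gammaH hper
    have h2 := hone hm2 ht2 (g⁻¹ • z)
    rw [mul_smul (g⁻¹ * _), smul_inv_smul, mul_smul,
      UpperHalfPlane.modular_T_zpow_smul] at h2
    simpa using h2
  have hpow : convH g b = (⟨_, hmemP⟩ : ↥(perMero (lev M₀))) ^ n := Subtype.ext (funext fun z => by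
    show (b : ℍ → ℂ) (g⁻¹ • z) = _
    rw [hb]
    rfl)
  have hne : (⟨_, hmemP⟩ : ↥(perMero (lev M₀))) ≠ 0 := fun h0 => by
    rw [h0, zero_pow (NeZero.ne n)] at hpow
    exact (map_ne_zero_iff _ (convH_injective g)).mpr hb0 hpow
  refine ⟨qSer (lev M₀) ⟨_, hmemP⟩, ?_, dvd_mul_order_of_invariant hne fun z => ?_⟩
  · show qSer (lev M₀) (convH g b) = _
    rw [hpow, map_pow]
  · show G (g⁻¹ • _) = G (g⁻¹ • z)
    rw [key]
    exact hone hmem htr _

end Fermat.Agent.Row48.Cover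

end
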